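import Mathlib
import Fermat.Agent.Lib.BadRed.Nodal.Setup
import Fermat.Prelude.Def_AlgebraicCurve_BaseChangeGalois

set_option autoImplicit false

/-!
# Cluster G (S36, bad reduction at `q² ∥ M`): the abstract GRAPH reduction package, interface

Generalisation of `Fermat.Agent.BadRed.NodalSetup` (cluster T: two components, `s` nodes between
them) to a finite family `κ` of components and a finite set `ι` of nodes, each node joining two
DIFFERENT components (`src i ≠ tgt i`).  Definitions only; nothing here mentions modular curves.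

`F / K` a function field, `S c : ValSetup K F k (Fk c)` (`c : κ`) constant reductions over the same
valuation ring `A` of `K`, with the lattice property; the node `i` is the point `s₁ i` of the
component `src i` glued to the point `s₂ i` of the component `tgt i`; `r` is the reduction of the
ORDINARY places (`r P = none` for the places in the annuli).

For `X₀(q² M₀)` at `q`: `κ = {∞, 0, +, -} ⊔ SS`, `Fk ∞ = Fk 0 = k(X₀(M₀))`, `Fk ± = k(Ig^±)`,
`Fk P = k(H_P)`, `ι = SS × {∞, 0, +, -}` (the graph `K_{4,s}`), `h¹ = 3 s - 3`.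
For `κ = Bool` this is `NodalSetup`.

Consumers (statements at the end): `GraphKeyStatement` (no prime-to-`q` torsion in the kernel of
reduction), `GraphToricBoundStatement` (`|W₀[n]| ≤ n ^ h¹`), `GraphSlopeStatement` (push at the
nodes), `GraphToricKeyStatement` (toric classes with trivial gluing data are trivial).
-/

noncomputable section

open AlgebraicCurve Fermat.Agent.RR Fermat.Agent.Deuring

namespace Fermat.Agent.BadRedG

open Fermat.Agent.BadRed

/-- The graph reduction package. -/
structure GraphSetup (K F k : Type*) [Field K] [Field F] [Algebra K F] [Field k]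
    (κ : Type*) (Fk : κ → Type*) [∀ c, Field (Fk c)] [∀ c, Algebra k (Fk c)] (ι : Type*) where
  /-- the constant reductions, one for every component -/
  S : ∀ c : κ, ValSetup K F k (Fk c)
  /-- all lie over the same valuation ring of `K` -/
  A_eq : ∀ c c' : κ, (S c).A = (S c').A
  /-- with the same residue map -/
  res_eq : ∀ (c c' : κ) (x : K) (h : x ∈ (S c).A) (h' : x ∈ (S c').A),
    (S c).res ⟨x, h⟩ = (S c').res ⟨x, h'⟩
  /-- lattice property of every reduction -/
  lat : ∀ c : κ, HasLattice (S c)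
  /-- the two components through a node -/
  src : ι → κ
  tgt : ι → κ
  /-- no component meets itself -/
  src_ne_tgt : ∀ i, src i ≠ tgt i
  /-- the node, seen on the first component -/
  s₁ : ∀ i : ι, Place k (Fk (src i))
  /-- the node, seen on the second component -/
  s₂ : ∀ i : ι, Place k (Fk (tgt i))
  /-- different nodes have different branch points -/
  s₁_inj : ∀ i j : ι, (⟨src i, s₁ i⟩ : Σ c, Place k (Fk c)) = ⟨src j, s₁ j⟩ → i = j
  s₂_inj : ∀ i j : ι, (⟨tgt i, s₂ i⟩ : Σ c, Place k (Fk c)) = ⟨tgt j, s₂ j⟩ → i = j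
  s₁_ne_s₂ : ∀ i j : ι, (⟨src i, s₁ i⟩ : Σ c, Place k (Fk c)) ≠ ⟨tgt j, s₂ j⟩
  /-- the graph is connected: a set of components which is closed under the nodes is empty or
  everything -/
  conn : ∀ T : Set κ, (∀ i, src i ∈ T ↔ tgt i ∈ T) → T = ∅ ∨ T = Set.univ
  /-- reduction of places: `some ⟨c, Q⟩` for the ordinary places, `none` for the places in the
  annuli -/
  r : Place K F → Option (Σ c, Place k (Fk c))
  /-- ordinary places do not reduce to nodes -/
  r_ne_node₁ : ∀ P i, r P ≠ some ⟨src i, s₁ i⟩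
  r_ne_node₂ : ∀ P i, r P ≠ some ⟨tgt i, s₂ i⟩
  /-- every smooth point of the special fibre lifts -/
  r_surj : ∀ (c : κ) (Q : Place k (Fk c)),
    (∀ i, (⟨c, Q⟩ : Σ c, Place k (Fk c)) ≠ ⟨src i, s₁ i⟩) →
    (∀ i, (⟨c, Q⟩ : Σ c, Place k (Fk c)) ≠ ⟨tgt i, s₂ i⟩) → ∃ P, r P = some ⟨c, Q⟩
  /-- `r_* (div f) = div (red_c f)` at the smooth points of the component `c`, `f` a unit of the
  valuation ring of `c` -/
  push : ∀ (c : κ) (f : F), f ∈ (S c).Ov → f⁻¹ ∈ (S c).Ov → f ≠ 0 →
    ∀ Q : Place k (Fk c),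
      (∀ i, (⟨c, Q⟩ : Σ c, Place k (Fk c)) ≠ ⟨src i, s₁ i⟩) →
      (∀ i, (⟨c, Q⟩ : Σ c, Place k (Fk c)) ≠ ⟨tgt i, s₂ i⟩) →
      Finsupp.mapDomain r (divOf (S c).hF f) (some ⟨c, Q⟩) = Q.ord ((S c).red f)
  /-- NODE CONDITION: a function which is integral for all the valuations and has no pole in the
  annuli reduces to functions which are regular at the nodes and take the same value on both
  branches -/
  node : ∀ f : F, (∀ c, f ∈ (S c).Ov) → (∀ P, r P = none → 0 ≤ P.ord f) → ∀ i,
    0 ≤ (s₁ i).ord ((S (src i)).red f) ∧ 0 ≤ (s₂ i).ord ((S (tgt i)).red f) ∧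
      ∃ a : k, ValAt (s₁ i) ((S (src i)).red f) a ∧ ValAt (s₂ i) ((S (tgt i)).red f) a

variable {K F k : Type*} [Field K] [Field F] [Algebra K F] [Field k]
  {κ : Type*} {Fk : κ → Type*} [∀ c, Field (Fk c)] [∀ c, Algebra k (Fk c)] {ι : Type*}

/-- The genus relation `g = Σ g_c + (#nodes - #components + 1)` of a connected nodal curve. -/
def GraphSetup.GenusRel [Fintype κ] [Fintype ι] (_N : GraphSetup K F k κ Fk ι) : Prop :=
  genusFF K F + Fintype.card κ = (∑ c, genusFF k (Fk c)) + Fintype.card ι + 1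

/-- the half of the genus relation which the modular instance has to supply (the other half
follows from the package). -/
def GraphSetup.GenusLe [Fintype κ] [Fintype ι] (_N : GraphSetup K F k κ Fk ι) : Prop :=
  genusFF K F + Fintype.card κ ≤ (∑ c, genusFF k (Fk c)) + Fintype.card ι + 1

variable (N : GraphSetup K F k κ Fk ι)

/-- a place is ordinary if it has a reduction. -/
def GraphSetup.IsOrd (P : Place K F) : Prop := ∃ Q, N.r P = some Q

/-- a divisor is ordinary if it is supported on ordinary places. -/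
def GraphSetup.IsOrdDiv (D : Divisor K F) : Prop := ∀ P, D P ≠ 0 → N.IsOrd P

/-- **Kernel-of-reduction divisors**: ordinary divisors with trivial reduction. -/
def GraphSetup.RedTrivial (D : Divisor K F) : Prop :=
  N.IsOrdDiv D ∧ ∀ Q, Finsupp.mapDomain N.r D (some Q) = 0

/-- the Kummer generator `g` of a class killed by `n` (`div g = n D`) is, up to a constant, an
`n`-th power in the residue field of the component `c`. -/
def GraphSetup.IsPowAt (n : ℕ) (c : κ) (g : F) : Prop :=
  ∃ a : K, a ≠ 0 ∧ ∃ h : Fk c, h ≠ 0 ∧ (N.S c).red (g / algebraMap K F a) = h ^ n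

/-- `W₀`-divisors for the exponent `n`: `n D = div g` and `g` is, up to a constant, an `n`-th
power in ALL residue fields. -/
def GraphSetup.IsW0Div (n : ℕ) (D : Divisor K F) : Prop :=
  ∃ g : F, g ≠ 0 ∧ (∀ P : Place K F, P.ord g = n * D P) ∧ ∀ c, N.IsPowAt n c g

/-- the set `W₀[n]` (the toric part of `J[n]`). -/
def GraphSetup.W0 (n : ℕ) : Set (Pic0 K F) :=
  {x | ∃ D : Divisor.degZero (K := K) (F := F), Pic0.mk D = x ∧ N.IsW0Div n (D : Divisor K F)}

/-- the reduction of the class `[D]`, `n D = div g`, on the component `c` vanishes. -/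
def GraphSetup.RedZeroAt (n : ℕ) (c : κ) (x : Pic0 K F) : Prop :=
  ∃ (D : Divisor.degZero (K := K) (F := F)) (g : F), Pic0.mk D = x ∧ g ≠ 0 ∧
    (∀ P : Place K F, P.ord g = n * (D : Divisor K F) P) ∧ N.IsPowAt n c g

/-! ### Automorphisms of the package (the inertia group) -/

/-- A semilinear automorphism `t` of `F / K` acting on the special fibre of the package:
`π` the permutation of the components, `e c : Fk c ≃ Fk (π c)` the induced `k`-isomorphisms of the
residue fields (inertia acts trivially on `k`). -/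
structure GraphSetup.Act (t : SemilinearAut K F) where
  π : Equiv.Perm κ
  e : ∀ c, Fk c ≃ₐ[k] Fk (π c)
  mem : ∀ (c : κ) (f : F), f ∈ (N.S c).Ov → t • f ∈ (N.S (π c)).Ov
  red : ∀ (c : κ) (f : F), f ∈ (N.S c).Ov → (N.S (π c)).red (t • f) = e c ((N.S c).red f)
  ord : ∀ P : Place K F, N.IsOrd P → N.IsOrd (t • P)

/-- `t` is trivial on the component `c`. -/
def GraphSetup.Act.FixesAt {N : GraphSetup K F k κ Fk ι} {t : SemilinearAut K F} (a : N.Act t)
    (c : κ) : Prop :=
  ∃ h : a.π c = c, ∀ y : Fk c, h ▸ a.e c y = y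

/-! ### The statements of the abstract package -/

/-- **GRAPH KEY LEMMA**: the kernel of reduction has no `m`-torsion, `m` a unit of `A`. -/
def GraphKeyStatement [Fintype κ] [Fintype ι] : Prop :=
  N.GenusRel → ∀ m : ℕ, (m : K) ≠ 0 → ∀ c₀ : κ, ((m : K))⁻¹ ∈ (N.S c₀).A →
    ∀ D : Divisor K F, Divisor.degree D = 0 → N.RedTrivial D →
      (m • D) ∈ Divisor.principal (K := K) (F := F) →
      D ∈ Divisor.principal (K := K) (F := F)

/-- **the toric bound**: `W₀[n]` is finite of cardinality at most `n ^ h¹`,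
`h¹ = #nodes - #components + 1`. -/
def GraphToricBoundStatement [Fintype κ] [Fintype ι] : Prop :=
  N.GenusRel → ∀ n : ℕ, (n : K) ≠ 0 → ∀ c₀ : κ, ((n : K))⁻¹ ∈ (N.S c₀).A →
    (N.W0 n).Finite ∧ (N.W0 n).ncard ≤ n ^ (Fintype.card ι + 1 - Fintype.card κ)

/-- **SLOPES** (push at the nodes): for a function with ORDINARY divisor, normalised separately on
the two branches of a node, the orders of the two reductions at the node are opposite. -/
def GraphSlopeStatement [Fintype κ] [Fintype ι] : Prop :=
  N.GenusRel → ∀ (i : ι) (g : F), g ≠ 0 → N.IsOrdDiv (divOf (N.S (N.src i)).hF g) →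
    ∀ a₁ a₂ : K, a₁ ≠ 0 → a₂ ≠ 0 →
      (N.S (N.src i)).red (g / algebraMap K F a₁) ≠ 0 →
      (N.S (N.tgt i)).red (g / algebraMap K F a₂) ≠ 0 →
      (N.s₁ i).ord ((N.S (N.src i)).red (g / algebraMap K F a₁)) +
        (N.s₂ i).ord ((N.S (N.tgt i)).red (g / algebraMap K F a₂)) = 0

/-- **GRAPH TORIC KEY**: a toric class whose Kummer generator reduces to `1` on every component
(trivial gluing data) is trivial: if `n ∣ div g` and all the reductions of `g` are `1`, then `g`
is a constant times an `n`-th power. -/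
def GraphToricKeyStatement [Fintype κ] [Fintype ι] : Prop :=
  N.GenusRel → ∀ n : ℕ, (n : K) ≠ 0 → ∀ c₀ : κ, ((n : K))⁻¹ ∈ (N.S c₀).A →
    ∀ g : F, g ≠ 0 → (∀ P : Place K F, (n : ℤ) ∣ P.ord g) →
      (∀ c, g ∈ (N.S c).Ov ∧ (N.S c).red g = 1) →
        ∃ (u : F) (a : K), a ≠ 0 ∧ g = algebraMap K F a * u ^ n

end Fermat.Agent.BadRedG
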