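import Mathlib
import Fermat.Agent.Lib.BadRed.Graph.Setup
import Fermat.Agent.Lib.BadRed.Nodal.RRNodal

set_option autoImplicit false

/-!
# Cluster G, abstract graph package: the CORE data, the graph Riemann-Roch space and the SEED

Generalisation of `Fermat.Agent.BadRed.NodalCore` / `NodalSeed` (cluster T, WP N4) to a family
`κ` of components.  Definitions only.

* `GraphCore` : the reductions `S c`, the nodes, `arch` (rank one), `indep` (the valuation rings
  are pairwise incomparable);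
* `GraphCore.IsInt D f` : `f ∈ 𝔏(D) = L(D) ∩ ⋂_c O_c`;  `GraphCore.redAll f = (red_c f)_c`;
* `GraphCore.V D` : the `k`-span of the `redAll f`, `f ∈ 𝔏(D)`;
* `graphRR` : tuples `(a_c) ∈ ∏ L(R_c)` taking the same value on both branches of every node;
* `GraphSeed` : what the modular instance has to provide;
* `GraphSeedStatement` : **SEED ⟹ GraphSetup** (port of `Nodal/Deuring2/*`, steps S1-S9).
-/

noncomputable section

open AlgebraicCurve Fermat.Agent.RR Fermat.Agent.Deuring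

namespace Fermat.Agent.BadRedG

open Fermat.Agent.BadRed

/-- The core data of the graph package. -/
structure GraphCore (K F k : Type*) [Field K] [Field F] [Algebra K F] [Field k]
    (κ : Type*) (Fk : κ → Type*) [∀ c, Field (Fk c)] [∀ c, Algebra k (Fk c)] (ι : Type*) where
  S : ∀ c : κ, ValSetup K F k (Fk c)
  A_eq : ∀ c c' : κ, (S c).A = (S c').A
  res_eq : ∀ (c c' : κ) (x : K) (h : x ∈ (S c).A) (h' : x ∈ (S c').A),
    (S c).res ⟨x, h⟩ = (S c').res ⟨x, h'⟩
  lat : ∀ c : κ, HasLattice (S c)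
  /-- the valuation rings are pairwise incomparable -/
  indep : ∀ c c' : κ, c ≠ c' → ¬ (S c).Ov ≤ (S c').Ov
  src : ι → κ
  tgt : ι → κ
  src_ne_tgt : ∀ i, src i ≠ tgt i
  s₁ : ∀ i : ι, Place k (Fk (src i))
  s₂ : ∀ i : ι, Place k (Fk (tgt i))
  s₁_inj : ∀ i j : ι, (⟨src i, s₁ i⟩ : Σ c, Place k (Fk c)) = ⟨src j, s₁ j⟩ → i = j
  s₂_inj : ∀ i j : ι, (⟨tgt i, s₂ i⟩ : Σ c, Place k (Fk c)) = ⟨tgt j, s₂ j⟩ → i = j
  s₁_ne_s₂ : ∀ i j : ι, (⟨src i, s₁ i⟩ : Σ c, Place k (Fk c)) ≠ ⟨tgt j, s₂ j⟩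
  /-- the graph is connected: a set of components which is closed under the nodes is empty or
  everything -/
  conn : ∀ T : Set κ, (∀ i, src i ∈ T ↔ tgt i ∈ T) → T = ∅ ∨ T = Set.univ
  /-- the valuation of `K` is of rank one -/
  arch : ∀ (c₀ : κ) (x : K), x ∈ (S c₀).A → x⁻¹ ∉ (S c₀).A → ∀ d : K, ∃ j : ℕ, x ^ j * d ∈ (S c₀).A

variable {K F k : Type*} [Field K] [Field F] [Algebra K F] [Field k]
  {κ : Type*} {Fk : κ → Type*} [∀ c, Field (Fk c)] [∀ c, Algebra k (Fk c)] {ι : Type*}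

/-- `𝔏(D) = L(D) ∩ ⋂_c O_c`. -/
def GraphCore.IsInt (C : GraphCore K F k κ Fk ι) (D : Divisor K F) (f : F) : Prop :=
  f ∈ riemannRochSpace D ∧ ∀ c, f ∈ (C.S c).Ov

/-- the tuple of the reductions of an element. -/
def GraphCore.redAll (C : GraphCore K F k κ Fk ι) (f : F) : ∀ c, Fk c :=
  fun c => (C.S c).red f

/-- `V(D)`: the `k`-span of the tuples `(red_c f)_c`, `f ∈ L(D) ∩ ⋂_c O_c`. -/
def GraphCore.V (C : GraphCore K F k κ Fk ι) (D : Divisor K F) : Submodule k (∀ c, Fk c) :=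
  Submodule.span k {y | ∃ f, C.IsInt D f ∧ C.redAll f = y}

/-- The graph Riemann-Roch space: tuples `(a_c) ∈ ∏ L(R_c)` taking the same value on both
branches of every node. -/
def graphRR (src tgt : ι → κ) (s₁ : ∀ i : ι, Place k (Fk (src i)))
    (s₂ : ∀ i : ι, Place k (Fk (tgt i))) (R : ∀ c, Divisor k (Fk c)) :
    Submodule k (∀ c, Fk c) where
  carrier := {y | (∀ c, y c ∈ riemannRochSpace (R c)) ∧
    ∀ i, ∃ a : k, ValAt (s₁ i) (y (src i)) a ∧ ValAt (s₂ i) (y (tgt i)) a}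
  add_mem' := by
    rintro x y ⟨hx1, hx3⟩ ⟨hy1, hy3⟩
    refine ⟨fun c => Submodule.add_mem _ (hx1 c) (hy1 c), fun i => ?_⟩
    obtain ⟨c, hc1, hc2⟩ := hx3 i
    obtain ⟨d, hd1, hd2⟩ := hy3 i
    exact ⟨c + d, hc1.add hd1, hc2.add hd2⟩
  zero_mem' := ⟨fun c => Submodule.zero_mem _, fun i => ⟨0, valAt_zero _, valAt_zero _⟩⟩
  smul_mem' := by
    rintro a x ⟨hx1, hx3⟩
    refine ⟨fun c => Submodule.smul_mem _ a (hx1 c), fun i => ?_⟩
    obtain ⟨c, hc1, hc2⟩ := hx3 i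
    exact ⟨a * c, hc1.smul a, hc2.smul a⟩

/-- **The SEED**: what the modular instance has to provide.  `D₀ ≥ 0` on the generic fibre,
`R c ≥ 0` of positive degree on every component, away from the nodes, `Σ deg R_c = deg D₀`,
every function of `L(m D₀) ∩ ⋂ O_c` reduces to a tuple of `graphRR (m R)`, and
`g + #κ ≤ Σ g_c + #ι + 1`. -/
structure GraphSeed (K F k : Type*) [Field K] [Field F] [Algebra K F] [Field k]
    (κ : Type*) (Fk : κ → Type*) [∀ c, Field (Fk c)] [∀ c, Algebra k (Fk c)] (ι : Type*)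
    [Fintype κ] [Fintype ι] extends GraphCore K F k κ Fk ι where
  D₀ : Divisor K F
  R : ∀ c, Divisor k (Fk c)
  D₀_nonneg : 0 ≤ D₀
  R_nonneg : ∀ c, 0 ≤ R c
  R_pos : ∀ c, 0 < Divisor.degree (R c)
  R_node₁ : ∀ i, R (src i) (s₁ i) = 0
  R_node₂ : ∀ i, R (tgt i) (s₂ i) = 0
  deg_eq : (∑ c, Divisor.degree (R c)) = Divisor.degree D₀
  seed : ∀ (m : ℕ) (f : F), f ∈ riemannRochSpace (m • D₀) → (∀ c, f ∈ (S c).Ov) →
    (fun c => (S c).red f) ∈ graphRR src tgt s₁ s₂ (fun c => m • R c)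
  /-- the nontrivial half of the genus relation -/
  genus_le : genusFF K F + Fintype.card κ ≤ (∑ c, genusFF k (Fk c)) + Fintype.card ι + 1

/-- **SEED ⟹ GraphSetup** (port of cluster T's WP N4, `Nodal/Deuring2`): a seed has a reduction
map of places making it a `GraphSetup` with the genus relation; `canon`: the reduction map is
invariant under every semilinear automorphism which preserves the valuation rings, is trivial on
the residue fields and fixes `D₀`. -/
def GraphSeedStatement [Fintype κ] [Fintype ι] (G : GraphSeed K F k κ Fk ι) : Prop :=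
  ∃ N : GraphSetup K F k κ Fk ι, N.S = G.S ∧ N.src = G.src ∧ N.tgt = G.tgt ∧
    HEq N.s₁ G.s₁ ∧ HEq N.s₂ G.s₂ ∧ N.GenusRel ∧
    ∀ t : SemilinearAut K F, (∀ c (f : F), f ∈ (G.S c).Ov → t • f ∈ (G.S c).Ov) →
      (∀ c (f : F), f ∈ (G.S c).Ov → (G.S c).red (t • f) = (G.S c).red f) →
      t • G.D₀ = G.D₀ → ∀ P : Place K F, N.r (t • P) = N.r P

end Fermat.Agent.BadRedG
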