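import Mathlib
import Fermat.Agent.Lib.BadRed.Nodal.NSGreedy

set_option autoImplicit false
set_option linter.style.haveILetI false
set_option linter.unusedSectionVars false

/-!
# Cluster G (S36), G-KEY part NS: non-special points on a connected graph of curves

`κ` a finite set of components (function fields `Fk c / k`), `ι` a finite set of nodes, the node
`i` glues the point `b₁ i` to the point `b₂ i` (points of `Σ c, Place k (Fk c)`), on DIFFERENT
components; the graph is connected.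

`exists_graph_nonspecial_list` / `exists_graph_nonspecial_fin`: there are
`g = Σ g_c + #ι + 1 - #κ` smooth points `Rb i` of the special fibre, chosen ONE BY ONE (each new
point avoids `avoid (points already chosen)`), such that every tuple of functions `(a_c)`, regular
outside the `Rb i`, with at most simple poles, taking the same value on both branches of every
node, is a constant tuple.

Proof.  Grow a set `S` of components from one component along the graph (`conn`).  The first
component `c₀` gets `g_{c₀}` non-special points.  A new component `c`, joined to `S` by the nodes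
`B ≠ ∅`, gets `g_c + #B - 1` points `T` with `ℓ(T - B) = 0` (`exists_greedy_list`): the tuple is
a constant `x` on `S`, so `a_c - x` vanishes on `B`, and lies in `L(T - B) = 0`.

Pure function-field statement (no reduction package); the `src / tgt / s₁ / s₂` form at the end is
the form of the fields of `GraphSetup` / `GraphCore`.
-/

noncomputable section

open AlgebraicCurve

namespace Fermat.Agent.BadRedG

open Fermat.Agent.RR Fermat.Agent.BadRed

/-- one component: if `ℓ(T - B) = 0`, a function with at most simple poles in `T`, regular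
elsewhere, taking the value `x` at all the points of `B`, is the constant `x`. -/
theorem eq_algebraMap_of_valAt {k F : Type*} [Field k] [Field F] [Algebra k F]
    (h : IsRRField k F) {B T : Finset (Place k F)}
    (hell : ell (-sumPlaces B + sumPlaces T) = 0) (hBT : ∀ Q ∈ B, Q ∉ T)
    (a : F) (x : k)
    (ha1 : ∀ Q, Q ∉ T → 0 ≤ Q.ord a) (ha2 : ∀ Q ∈ T, -1 ≤ Q.ord a)
    (hval : ∀ Q ∈ B, ValAt Q a x) : a = algebraMap k F x := by
  classical
  have hbot : riemannRochSpace (-sumPlaces B + sumPlaces T) = ⊥ := by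
    haveI := finite_riemannRochSpace h (-sumPlaces B + sumPlaces T)
    exact Submodule.finrank_eq_zero.mp hell
  by_contra hne
  have hf0 : a - algebraMap k F x ≠ 0 := sub_ne_zero.mpr hne
  have hmem : a - algebraMap k F x ∈ riemannRochSpace (-sumPlaces B + sumPlaces T) := by
    rw [mem_riemannRochSpace_iff]
    intro Q
    right
    rw [Finsupp.add_apply, Finsupp.neg_apply, neg_add, neg_neg]
    have hbound : ∀ m : ℤ, m ≤ 0 → m ≤ Q.ord a → m ≤ Q.ord (a - algebraMap k F x) := by
      intro m hm0 hma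
      rcases eq_or_ne a 0 with rfl | ha
      · rw [zero_sub, nodal_ord_neg, Fermat.Agent.S24Res.ord_algebraMap]
        exact hm0
      rcases eq_or_ne x 0 with rfl | hc0
      · rw [map_zero, sub_zero]
        exact hma
      have hcne : -algebraMap k F x ≠ 0 :=
        neg_ne_zero.mpr ((map_ne_zero (algebraMap k F)).mpr hc0)
      have hadd := Fermat.Agent.S24Res.ord_add_ge Q ha hcne (by rwa [← sub_eq_add_neg])
      rw [nodal_ord_neg, Fermat.Agent.S24Res.ord_algebraMap, ← sub_eq_add_neg] at hadd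
      exact le_trans (le_min hma hm0) hadd
    by_cases hQN : Q ∈ B
    · rw [sumPlaces_apply_of_mem hQN, sumPlaces_apply_of_not_mem (hBT Q hQN)]
      rcases hval Q hQN with h | h
      · exact absurd h hne
      · omega
    · rw [sumPlaces_apply_of_not_mem hQN]
      by_cases hQT : Q ∈ T
      · rw [sumPlaces_apply_of_mem hQT]
        have := hbound (-1) (by omega) (ha2 Q hQT)
        omega
      · rw [sumPlaces_apply_of_not_mem hQT]
        have := hbound 0 le_rfl (ha1 Q hQT)
        omega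
  rw [hbot, Submodule.mem_bot] at hmem
  exact hf0 hmem

/-! ### Generic: from a greedy list to a family indexed by `Fin g` -/

open Classical in
/-- a greedy chain (reverse chronological order) of length `g` without repetition, as a family
`Rb : Fin g → β` in chronological order. -/
theorem exists_fin_of_greedyChain {β : Type*} (avoid : Finset β → Finset β) (l : List β)
    (hnd : l.Nodup) (hchain : GreedyChain avoid l) (g : ℕ) (hlg : l.length = g) :
    ∃ Rb : Fin g → β, Function.Injective Rb ∧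
      (∀ i, Rb i ∉ avoid ((Finset.univ.filter (fun j => j < i)).image Rb)) ∧
      (∀ i, Rb i ∈ l) ∧ ∀ x ∈ l, ∃ i, Rb i = x := by
  have hidx : ∀ i : Fin g, g - 1 - (i : ℕ) < l.length := fun i => by
    have := i.2
    omega
  set Rb : Fin g → β := fun i => l[g - 1 - (i : ℕ)]'(hidx i) with hRb
  have hRb_mem : ∀ i, Rb i ∈ l := fun i => List.getElem_mem _
  have hmem_Rb : ∀ x ∈ l, ∃ i, Rb i = x := by
    intro x hx
    obtain ⟨q, hq, rfl⟩ := List.getElem_of_mem hx
    refine ⟨⟨g - 1 - q, by omega⟩, ?_⟩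
    show l[g - 1 - (g - 1 - q)]'_ = l[q]
    congr 1
    omega
  refine ⟨Rb, ?_, ?_, hRb_mem, hmem_Rb⟩
  · intro i j hij
    have h1 := (List.Nodup.getElem_inj_iff hnd).mp hij
    have hi := i.2
    have hj := j.2
    apply Fin.ext
    omega
  · intro i
    have h1 := hchain.getElem_notMem (g - 1 - (i : ℕ)) (hidx i)
    have h2 : (Finset.univ.filter (fun j => j < i)).image Rb =
        (l.drop (g - 1 - (i : ℕ) + 1)).toFinset := by
      ext x
      rw [Finset.mem_image, List.mem_toFinset]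
      constructor
      · rintro ⟨j, hj, rfl⟩
        rw [Finset.mem_filter] at hj
        have hji : (j : ℕ) < (i : ℕ) := hj.2
        have hi := i.2
        rw [List.mem_iff_getElem]
        refine ⟨(i : ℕ) - 1 - (j : ℕ), ?_, ?_⟩
        · rw [List.length_drop]
          omega
        · rw [List.getElem_drop]
          show l[_] = l[_]
          congr 1
          omega
      · intro hx
        rw [List.mem_iff_getElem] at hx
        obtain ⟨q, hq, rfl⟩ := hx
        rw [List.length_drop] at hq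
        have hi := i.2
        refine ⟨⟨(i : ℕ) - 1 - q, by omega⟩, ?_, ?_⟩
        · rw [Finset.mem_filter]
          refine ⟨Finset.mem_univ _, ?_⟩
          show (i : ℕ) - 1 - q < (i : ℕ)
          omega
        · rw [List.getElem_drop]
          show l[_] = l[_]
          congr 1
          show g - 1 - ((i : ℕ) - 1 - q) = g - 1 - (i : ℕ) + 1 + q
          omega
    rw [h2]
    convert h1

/-! ### The invariant of the construction -/

variable {k : Type*} [Field k] {κ : Type*} {Fk : κ → Type*} [∀ c, Field (Fk c)]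
  [∀ c, Algebra k (Fk c)] {ι : Type*}

open Classical in
/-- the number of nodes joining two components of `S`. -/
def graphInnerCard [Fintype ι] (b₁ b₂ : ι → Σ c, Place k (Fk c)) (S : Finset κ) : ℕ :=
  (Finset.univ.filter (fun i => (b₁ i).1 ∈ S ∧ (b₂ i).1 ∈ S)).card

open Classical in
/-- the invariant: `l` is a greedy list of non-special points for the sub-graph on `S`. -/
def GraphNSGood [Fintype ι] (b₁ b₂ : ι → Σ c, Place k (Fk c))
    (avoid : Finset (Σ c, Place k (Fk c)) → Finset (Σ c, Place k (Fk c)))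
    (S : Finset κ) (l : List (Σ c, Place k (Fk c))) : Prop :=
  (∀ p ∈ l, p.1 ∈ S) ∧
  l.length + S.card = (∑ c ∈ S, genusFF k (Fk c)) + graphInnerCard b₁ b₂ S + 1 ∧
  l.Nodup ∧ GreedyChain avoid l ∧ (∀ i, b₁ i ∉ l) ∧ (∀ i, b₂ i ∉ l) ∧
  ∀ a : ∀ c, Fk c,
    (∀ c ∈ S, ∀ Q : Place k (Fk c), (⟨c, Q⟩ : Σ c, Place k (Fk c)) ∉ l → 0 ≤ Q.ord (a c)) →
    (∀ c ∈ S, ∀ Q : Place k (Fk c), -1 ≤ Q.ord (a c)) →
    (∀ i, (b₁ i).1 ∈ S → (b₂ i).1 ∈ S →
      ∃ x : k, ValAt (b₁ i).2 (a (b₁ i).1) x ∧ ValAt (b₂ i).2 (a (b₂ i).1) x) →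
    ∃ x : k, ∀ c ∈ S, a c = algebraMap k (Fk c) x

/-- the branch points. -/
def graphBranches [Fintype ι] [DecidableEq (Σ c, Place k (Fk c))]
    (b₁ b₂ : ι → Σ c, Place k (Fk c)) : Finset (Σ c, Place k (Fk c)) :=
  Finset.univ.image b₁ ∪ Finset.univ.image b₂

theorem mem_graphBranches [Fintype ι] [DecidableEq (Σ c, Place k (Fk c))]
    (b₁ b₂ : ι → Σ c, Place k (Fk c)) (p : Σ c, Place k (Fk c)) :
    p ∈ graphBranches b₁ b₂ ↔ (∃ i, b₁ i = p) ∨ ∃ i, b₂ i = p := by
  unfold graphBranches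
  rw [Finset.mem_union, Finset.mem_image, Finset.mem_image]
  simp

/-- the base case: one component. -/
theorem exists_graphNSGood_singleton [Fintype ι] [IsAlgClosed k]
    (hRR : ∀ c, IsRRField k (Fk c))
    (b₁ b₂ : ι → Σ c, Place k (Fk c)) (hne : ∀ i, (b₁ i).1 ≠ (b₂ i).1)
    (avoid : Finset (Σ c, Place k (Fk c)) → Finset (Σ c, Place k (Fk c))) (c₀ : κ) :
    ∃ l, GraphNSGood b₁ b₂ avoid {c₀} l := by
  classical
  haveI : Infinite k := IsAlgClosed.instInfinite
  haveI : Infinite (Place k (Fk c₀)) := infinite_place (hRR c₀)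
  have hinj : Function.Injective (@Sigma.mk κ (fun c => Place k (Fk c)) c₀) :=
    sigma_mk_injective
  obtain ⟨l₀, hlen, hnd, hZ, hchain, hell⟩ := exists_greedy_list (hRR c₀)
    (@Sigma.mk κ (fun c => Place k (Fk c)) c₀) hinj
    avoid [] ((graphBranches b₁ b₂).preimage _ hinj.injOn) 0 (genusFF k (Fk c₀)) (by
      rw [map_zero, ell_zero (hRR c₀)]
      push_cast
      omega)
  rw [zero_add, ell_zero (hRR c₀)] at hell
  have hmem : ∀ Q : Place k (Fk c₀),
      (⟨c₀, Q⟩ : Σ c, Place k (Fk c)) ∈ l₀.map (Sigma.mk c₀) ↔ Q ∈ l₀ := fun Q =>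
    List.mem_map_of_injective hinj
  have hbr : ∀ p ∈ l₀.map (Sigma.mk c₀), p ∉ graphBranches b₁ b₂ := by
    intro p hp
    obtain ⟨Q, hQ, rfl⟩ := List.mem_map.mp hp
    have := hZ Q hQ
    rwa [Finset.mem_preimage] at this
  refine ⟨l₀.map (Sigma.mk c₀), ?_, ?_, hnd.map hinj, hchain, ?_, ?_, ?_⟩
  · intro p hp
    obtain ⟨Q, -, rfl⟩ := List.mem_map.mp hp
    exact Finset.mem_singleton_self c₀
  · have h0 : graphInnerCard b₁ b₂ ({c₀} : Finset κ) = 0 := by
      unfold graphInnerCard
      rw [Finset.card_eq_zero, Finset.filter_eq_empty_iff]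
      rintro i - ⟨h1, h2⟩
      rw [Finset.mem_singleton] at h1 h2
      exact hne i (h1.trans h2.symm)
    rw [h0, List.length_map, hlen, Finset.card_singleton, Finset.sum_singleton]
  · intro i hi
    exact hbr _ hi ((mem_graphBranches b₁ b₂ _).mpr (Or.inl ⟨i, rfl⟩))
  · intro i hi
    exact hbr _ hi ((mem_graphBranches b₁ b₂ _).mpr (Or.inr ⟨i, rfl⟩))
  · intro a ha1 ha2 _
    obtain ⟨x, hx⟩ := eq_algebraMap_of_mem_of_ell_eq_one (hRR c₀) (sumPlaces_nonneg l₀.toFinset)
      hell (f := a c₀) (mem_riemannRochSpace_sumPlaces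
        (fun Q hQ => ha1 c₀ (Finset.mem_singleton_self c₀) Q (by
          rw [hmem]
          rwa [List.mem_toFinset] at hQ))
        (fun Q _ => ha2 c₀ (Finset.mem_singleton_self c₀) Q))
    refine ⟨x, fun c hc => ?_⟩
    rw [Finset.mem_singleton] at hc
    subst hc
    exact hx

open Classical in
/-- the step: a new component `c`, joined to `S` by at least one node. -/
theorem exists_graphNSGood_insert [Fintype ι] [IsAlgClosed k]
    (hRR : ∀ c, IsRRField k (Fk c))
    (b₁ b₂ : ι → Σ c, Place k (Fk c)) (hne : ∀ i, (b₁ i).1 ≠ (b₂ i).1)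
    (hb₁ : Function.Injective b₁) (hb₂ : Function.Injective b₂) (hb₁₂ : ∀ i j, b₁ i ≠ b₂ j)
    (avoid : Finset (Σ c, Place k (Fk c)) → Finset (Σ c, Place k (Fk c)))
    (S : Finset κ) (l : List (Σ c, Place k (Fk c))) (hgood : GraphNSGood b₁ b₂ avoid S l)
    (c : κ) (hc : c ∉ S)
    (hadj : ∃ i, ((b₁ i).1 = c ∧ (b₂ i).1 ∈ S) ∨ ((b₂ i).1 = c ∧ (b₁ i).1 ∈ S)) :
    ∃ l', GraphNSGood b₁ b₂ avoid (insert c S) l' := by
  classical
  obtain ⟨hlS, hcount, hnd, hchain, hn₁, hn₂, hconst⟩ := hgood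
  haveI : Infinite k := IsAlgClosed.instInfinite
  haveI : Infinite (Place k (Fk c)) := infinite_place (hRR c)
  have hinj : Function.Injective (@Sigma.mk κ (fun c => Place k (Fk c)) c) :=
    sigma_mk_injective
  set E₁ : Finset ι := Finset.univ.filter (fun i => (b₁ i).1 = c ∧ (b₂ i).1 ∈ S) with hE₁
  set E₂ : Finset ι := Finset.univ.filter (fun i => (b₂ i).1 = c ∧ (b₁ i).1 ∈ S) with hE₂
  set Bs : Finset (Σ c, Place k (Fk c)) := E₁.image b₁ ∪ E₂.image b₂ with hBs
  set B : Finset (Place k (Fk c)) := Bs.preimage _ hinj.injOn with hB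
  have hBscard : Bs.card = E₁.card + E₂.card := by
    rw [hBs, Finset.card_union_of_disjoint, Finset.card_image_of_injective _ hb₁,
      Finset.card_image_of_injective _ hb₂]
    rw [Finset.disjoint_left]
    intro p hp1 hp2
    obtain ⟨i, -, rfl⟩ := Finset.mem_image.mp hp1
    obtain ⟨j, -, h⟩ := Finset.mem_image.mp hp2
    exact hb₁₂ i j h.symm
  have hBsfst : ∀ p ∈ Bs, p.1 = c := by
    intro p hp
    rcases Finset.mem_union.mp hp with hp | hp
    · obtain ⟨i, hi, rfl⟩ := Finset.mem_image.mp hp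
      exact (Finset.mem_filter.mp hi).2.1
    · obtain ⟨i, hi, rfl⟩ := Finset.mem_image.mp hp
      exact (Finset.mem_filter.mp hi).2.1
  have hBsbr : ∀ p ∈ Bs, p ∈ graphBranches b₁ b₂ := by
    intro p hp
    rw [mem_graphBranches]
    rcases Finset.mem_union.mp hp with hp | hp
    · obtain ⟨i, -, hi⟩ := Finset.mem_image.mp hp
      exact Or.inl ⟨i, hi⟩
    · obtain ⟨i, -, hi⟩ := Finset.mem_image.mp hp
      exact Or.inr ⟨i, hi⟩
  have hBcard : B.card = E₁.card + E₂.card := by
    rw [← hBscard, hB, Finset.card_preimage]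
    congr 1
    rw [Finset.filter_eq_self]
    intro p hp
    have h1 := hBsfst p hp
    rcases p with ⟨c', Q⟩
    simp only at h1
    subst h1
    exact ⟨Q, rfl⟩
  have hBpos : 0 < B.card := by
    rw [hBcard]
    obtain ⟨i, hi | hi⟩ := hadj
    · have h1 : i ∈ E₁ := Finset.mem_filter.mpr ⟨Finset.mem_univ _, hi⟩
      have := Finset.card_pos.mpr ⟨i, h1⟩
      omega
    · have h1 : i ∈ E₂ := Finset.mem_filter.mpr ⟨Finset.mem_univ _, hi⟩
      have := Finset.card_pos.mpr ⟨i, h1⟩
      omega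
  have hinner : graphInnerCard b₁ b₂ (insert c S) =
      graphInnerCard b₁ b₂ S + E₁.card + E₂.card := by
    unfold graphInnerCard
    have hdisj1 : Disjoint (Finset.univ.filter (fun i => (b₁ i).1 ∈ S ∧ (b₂ i).1 ∈ S)) E₁ := by
      rw [Finset.disjoint_left]
      intro i h1 h2
      have h1' := (Finset.mem_filter.mp h1).2
      have h2' := (Finset.mem_filter.mp h2).2
      exact hc (h2'.1 ▸ h1'.1)
    have hdisj2 : Disjoint (Finset.univ.filter (fun i => (b₁ i).1 ∈ S ∧ (b₂ i).1 ∈ S) ∪ E₁)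
        E₂ := by
      rw [Finset.disjoint_left]
      intro i h1 h2
      have h2' := (Finset.mem_filter.mp h2).2
      rcases Finset.mem_union.mp h1 with h1 | h1
      · have h1' := (Finset.mem_filter.mp h1).2
        exact hc (h2'.1 ▸ h1'.2)
      · have h1' := (Finset.mem_filter.mp h1).2
        exact hne i (h1'.1.trans h2'.1.symm)
    have heq : Finset.univ.filter
        (fun i => (b₁ i).1 ∈ insert c S ∧ (b₂ i).1 ∈ insert c S) =
        (Finset.univ.filter (fun i => (b₁ i).1 ∈ S ∧ (b₂ i).1 ∈ S) ∪ E₁) ∪ E₂ := by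
      ext i
      simp only [Finset.mem_filter, Finset.mem_univ, true_and, Finset.mem_union,
        Finset.mem_insert, hE₁, hE₂]
      constructor
      · rintro ⟨h1 | h1, h2 | h2⟩
        · exact absurd (h1.trans h2.symm) (hne i)
        · exact Or.inl (Or.inr ⟨h1, h2⟩)
        · exact Or.inr ⟨h2, h1⟩
        · exact Or.inl (Or.inl ⟨h1, h2⟩)
      · rintro ((⟨h1, h2⟩ | ⟨h1, h2⟩) | ⟨h1, h2⟩)
        · exact ⟨Or.inr h1, Or.inr h2⟩
        · exact ⟨Or.inl h1, Or.inr h2⟩
        · exact ⟨Or.inr h2, Or.inl h1⟩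
    rw [heq, Finset.card_union_of_disjoint hdisj2, Finset.card_union_of_disjoint hdisj1]
  have hdeg0 : Divisor.degree (-sumPlaces B) = -(B.card : ℤ) := by
    rw [map_neg, degree_sumPlaces (hRR c)]
  have hell0 : ell (-sumPlaces B) = 0 :=
    ell_eq_zero_of_degree_neg (hRR c) (by rw [hdeg0]; omega)
  obtain ⟨lc, hlen_c, hnd_c, hZ_c, hchain_c, hell_c⟩ := exists_greedy_list (hRR c)
    (@Sigma.mk κ (fun c => Place k (Fk c)) c) hinj avoid l
    ((graphBranches b₁ b₂).preimage _ hinj.injOn) (-sumPlaces B)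
    (genusFF k (Fk c) + B.card - 1) (by
      rw [hdeg0, hell0]
      have : ((genusFF k (Fk c) + B.card - 1 : ℕ) : ℤ) =
          (genusFF k (Fk c) : ℤ) + (B.card : ℤ) - 1 := by
        rw [Nat.cast_sub (by omega)]
        push_cast
        ring
      rw [this]
      push_cast
      omega)
  rw [hell0] at hell_c
  have hmem_map : ∀ Q : Place k (Fk c),
      (⟨c, Q⟩ : Σ c, Place k (Fk c)) ∈ lc.map (Sigma.mk c) ↔ Q ∈ lc := fun Q =>
    List.mem_map_of_injective hinj
  have hfst_map : ∀ p ∈ lc.map (@Sigma.mk κ (fun c => Place k (Fk c)) c), p.1 = c := by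
    intro p hp
    obtain ⟨Q, -, rfl⟩ := List.mem_map.mp hp
    rfl
  have hbr_map : ∀ p ∈ lc.map (@Sigma.mk κ (fun c => Place k (Fk c)) c),
      p ∉ graphBranches b₁ b₂ := by
    intro p hp
    obtain ⟨Q, hQ, rfl⟩ := List.mem_map.mp hp
    have := hZ_c Q hQ
    rwa [Finset.mem_preimage] at this
  refine ⟨lc.map (Sigma.mk c) ++ l, ?_, ?_, ?_, hchain_c.append hchain, ?_, ?_, ?_⟩
  · intro p hp
    rcases List.mem_append.mp hp with hp | hp
    · rw [hfst_map p hp]
      exact Finset.mem_insert_self c S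
    · exact Finset.mem_insert_of_mem (hlS p hp)
  · rw [List.length_append, List.length_map, hlen_c, Finset.card_insert_of_notMem hc,
      Finset.sum_insert hc, hinner, hBcard]
    rw [hBcard] at hBpos
    omega
  · refine List.Nodup.append (hnd_c.map hinj) hnd ?_
    intro p hp1 hp2
    exact hc (hfst_map p hp1 ▸ hlS p hp2)
  · intro i hi
    rcases List.mem_append.mp hi with hi | hi
    · exact hbr_map _ hi ((mem_graphBranches b₁ b₂ _).mpr (Or.inl ⟨i, rfl⟩))
    · exact hn₁ i hi
  · intro i hi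
    rcases List.mem_append.mp hi with hi | hi
    · exact hbr_map _ hi ((mem_graphBranches b₁ b₂ _).mpr (Or.inr ⟨i, rfl⟩))
    · exact hn₂ i hi
  · intro a ha1 ha2 hnode
    obtain ⟨x, hx⟩ := hconst a
      (fun c' hc' Q hQ => ha1 c' (Finset.mem_insert_of_mem hc') Q (by
        intro hmem
        rcases List.mem_append.mp hmem with h | h
        · have h1 : c' = c := hfst_map _ h
          exact hc (h1 ▸ hc')
        · exact hQ h))
      (fun c' hc' Q => ha2 c' (Finset.mem_insert_of_mem hc') Q)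
      (fun i h1 h2 => hnode i (Finset.mem_insert_of_mem h1) (Finset.mem_insert_of_mem h2))
    have key : ∀ (p : Σ c, Place k (Fk c)) (Q : Place k (Fk c)), p = ⟨c, Q⟩ →
        ValAt p.2 (a p.1) x → ValAt Q (a c) x := by
      rintro _ Q rfl h
      exact h
    have hnew : a c = algebraMap k (Fk c) x := by
      refine eq_algebraMap_of_valAt (hRR c) (B := B) (T := lc.toFinset) hell_c ?_ (a c) x
        ?_ ?_ ?_
      · intro Q hQB hQT
        rw [List.mem_toFinset] at hQT
        have h1 := hZ_c Q hQT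
        rw [Finset.mem_preimage] at h1
        rw [hB, Finset.mem_preimage] at hQB
        exact h1 (hBsbr _ hQB)
      · intro Q hQ
        apply ha1 c (Finset.mem_insert_self _ _) Q
        intro hmem
        rcases List.mem_append.mp hmem with h | h
        · exact hQ (List.mem_toFinset.mpr ((hmem_map Q).mp h))
        · exact hc (hlS _ h)
      · intro Q _
        exact ha2 c (Finset.mem_insert_self _ _) Q
      · intro Q hQB
        rw [hB, Finset.mem_preimage] at hQB
        rcases Finset.mem_union.mp hQB with h | h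
        · obtain ⟨i, hi, hie⟩ := Finset.mem_image.mp h
          have hi' := (Finset.mem_filter.mp hi).2
          obtain ⟨y, hy1, hy2⟩ := hnode i (hi'.1 ▸ Finset.mem_insert_self _ _)
            (Finset.mem_insert_of_mem hi'.2)
          rw [hx _ hi'.2, valAt_algebraMap_iff] at hy2
          subst hy2
          exact key _ Q hie hy1
        · obtain ⟨i, hi, hie⟩ := Finset.mem_image.mp h
          have hi' := (Finset.mem_filter.mp hi).2
          obtain ⟨y, hy1, hy2⟩ := hnode i (Finset.mem_insert_of_mem hi'.2)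
            (hi'.1 ▸ Finset.mem_insert_self _ _)
          rw [hx _ hi'.2, valAt_algebraMap_iff] at hy1
          subst hy1
          exact key _ Q hie hy2
    refine ⟨x, fun c' hc' => ?_⟩
    rcases Finset.mem_insert.mp hc' with h | hc'
    · rw [h]
      exact hnew
    · exact hx c' hc'

/-- all the components. -/
theorem exists_graphNSGood_univ [Fintype κ] [Nonempty κ] [Fintype ι] [IsAlgClosed k]
    (hRR : ∀ c, IsRRField k (Fk c))
    (b₁ b₂ : ι → Σ c, Place k (Fk c)) (hne : ∀ i, (b₁ i).1 ≠ (b₂ i).1)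
    (hb₁ : Function.Injective b₁) (hb₂ : Function.Injective b₂) (hb₁₂ : ∀ i j, b₁ i ≠ b₂ j)
    (conn : ∀ T : Set κ, (∀ i, (b₁ i).1 ∈ T ↔ (b₂ i).1 ∈ T) → T = ∅ ∨ T = Set.univ)
    (avoid : Finset (Σ c, Place k (Fk c)) → Finset (Σ c, Place k (Fk c))) :
    ∃ l, GraphNSGood b₁ b₂ avoid Finset.univ l := by
  classical
  have key : ∀ n : ℕ, ∀ S : Finset κ, S.Nonempty → Fintype.card κ - S.card = n →
      (∃ l, GraphNSGood b₁ b₂ avoid S l) → ∃ l, GraphNSGood b₁ b₂ avoid Finset.univ l := by
    intro n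
    induction n with
    | zero =>
      intro S _ hS hP
      have hSu : S = Finset.univ := by
        apply Finset.eq_univ_of_card
        have := Finset.card_le_univ S
        omega
      rwa [hSu] at hP
    | succ n ih =>
      rintro S hSne hS ⟨l, hl⟩
      have hSuniv : (S : Set κ) ≠ Set.univ := by
        intro h
        have hSu : S = Finset.univ := Finset.coe_eq_univ.mp h
        rw [hSu, Finset.card_univ] at hS
        omega
      have hSempty : (S : Set κ) ≠ ∅ := by
        intro h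
        exact hSne.ne_empty (Finset.coe_eq_empty.mp h)
      have hex : ∃ i, ¬ ((b₁ i).1 ∈ (S : Set κ) ↔ (b₂ i).1 ∈ (S : Set κ)) := by
        by_contra hcon
        push Not at hcon
        rcases conn (S : Set κ) hcon with h | h
        · exact hSempty h
        · exact hSuniv h
      obtain ⟨i, hi⟩ := hex
      rw [Finset.mem_coe, Finset.mem_coe] at hi
      by_cases h1 : (b₁ i).1 ∈ S
      · have h2 : (b₂ i).1 ∉ S := fun h2 => hi ⟨fun _ => h2, fun _ => h1⟩
        obtain ⟨l', hl'⟩ := exists_graphNSGood_insert hRR b₁ b₂ hne hb₁ hb₂ hb₁₂ avoid S l hl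
          (b₂ i).1 h2 ⟨i, Or.inr ⟨rfl, h1⟩⟩
        exact ih (insert (b₂ i).1 S) (Finset.insert_nonempty _ _)
          (by rw [Finset.card_insert_of_notMem h2]; omega) ⟨l', hl'⟩
      · have h2 : (b₂ i).1 ∈ S := by
          by_contra h2
          exact hi ⟨fun h => absurd h h1, fun h => absurd h h2⟩
        obtain ⟨l', hl'⟩ := exists_graphNSGood_insert hRR b₁ b₂ hne hb₁ hb₂ hb₁₂ avoid S l hl
          (b₁ i).1 h1 ⟨i, Or.inl ⟨rfl, h2⟩⟩
        exact ih (insert (b₁ i).1 S) (Finset.insert_nonempty _ _)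
          (by rw [Finset.card_insert_of_notMem h1]; omega) ⟨l', hl'⟩
  obtain ⟨c₀⟩ := ‹Nonempty κ›
  exact key _ {c₀} (Finset.singleton_nonempty c₀) rfl
    (exists_graphNSGood_singleton hRR b₁ b₂ hne avoid c₀)

/-- **graph non-special points, greedy list form** (branches as points of
`Σ c, Place k (Fk c)`): the list is in reverse chronological order. -/
theorem exists_graph_nonspecial_list [Fintype κ] [Nonempty κ] [Fintype ι] [IsAlgClosed k]
    (hRR : ∀ c, IsRRField k (Fk c))
    (b₁ b₂ : ι → Σ c, Place k (Fk c)) (hne : ∀ i, (b₁ i).1 ≠ (b₂ i).1)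
    (hb₁ : Function.Injective b₁) (hb₂ : Function.Injective b₂) (hb₁₂ : ∀ i j, b₁ i ≠ b₂ j)
    (conn : ∀ T : Set κ, (∀ i, (b₁ i).1 ∈ T ↔ (b₂ i).1 ∈ T) → T = ∅ ∨ T = Set.univ)
    (avoid : Finset (Σ c, Place k (Fk c)) → Finset (Σ c, Place k (Fk c))) :
    ∃ l : List (Σ c, Place k (Fk c)),
      l.length + Fintype.card κ = (∑ c, genusFF k (Fk c)) + Fintype.card ι + 1 ∧ l.Nodup ∧
      GreedyChain avoid l ∧ (∀ i, b₁ i ∉ l) ∧ (∀ i, b₂ i ∉ l) ∧
      ∀ a : ∀ c, Fk c,
        (∀ c (Q : Place k (Fk c)), (⟨c, Q⟩ : Σ c, Place k (Fk c)) ∉ l → 0 ≤ Q.ord (a c)) →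
        (∀ c (Q : Place k (Fk c)), -1 ≤ Q.ord (a c)) →
        (∀ i, ∃ x : k, ValAt (b₁ i).2 (a (b₁ i).1) x ∧ ValAt (b₂ i).2 (a (b₂ i).1) x) →
        ∃ x : k, ∀ c, a c = algebraMap k (Fk c) x := by
  classical
  obtain ⟨l, -, hcount, hnd, hchain, hn₁, hn₂, hconst⟩ :=
    exists_graphNSGood_univ hRR b₁ b₂ hne hb₁ hb₂ hb₁₂ conn avoid
  refine ⟨l, ?_, hnd, hchain, hn₁, hn₂, ?_⟩
  · have h0 : graphInnerCard b₁ b₂ (Finset.univ : Finset κ) = Fintype.card ι := by
      unfold graphInnerCard
      rw [← Finset.card_univ]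
      congr 1
      rw [Finset.filter_eq_self]
      intro i _
      exact ⟨Finset.mem_univ _, Finset.mem_univ _⟩
    rw [h0, Finset.card_univ] at hcount
    exact hcount
  · intro a ha1 ha2 hnode
    obtain ⟨x, hx⟩ := hconst a (fun c _ Q hQ => ha1 c Q hQ) (fun c _ Q => ha2 c Q)
      (fun i _ _ => hnode i)
    exact ⟨x, fun c => hx c (Finset.mem_univ c)⟩

open Classical in
/-- **graph non-special points, greedy form, indexed chronologically**, in the form of the
fields of `GraphSetup` / `GraphCore`: `Rb i` avoids `avoid {Rb j | j < i}`. -/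
theorem exists_graph_nonspecial_fin [Fintype κ] [Nonempty κ] [Fintype ι] [IsAlgClosed k]
    (hRR : ∀ c, IsRRField k (Fk c))
    (src tgt : ι → κ) (src_ne_tgt : ∀ i, src i ≠ tgt i)
    (s₁ : ∀ i, Place k (Fk (src i))) (s₂ : ∀ i, Place k (Fk (tgt i)))
    (s₁_inj : ∀ i j, (⟨src i, s₁ i⟩ : Σ c, Place k (Fk c)) = ⟨src j, s₁ j⟩ → i = j)
    (s₂_inj : ∀ i j, (⟨tgt i, s₂ i⟩ : Σ c, Place k (Fk c)) = ⟨tgt j, s₂ j⟩ → i = j)
    (s₁_ne_s₂ : ∀ i j, (⟨src i, s₁ i⟩ : Σ c, Place k (Fk c)) ≠ ⟨tgt j, s₂ j⟩)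
    (conn : ∀ T : Set κ, (∀ i, src i ∈ T ↔ tgt i ∈ T) → T = ∅ ∨ T = Set.univ)
    (avoid : Finset (Σ c, Place k (Fk c)) → Finset (Σ c, Place k (Fk c)))
    (g : ℕ) (hg : g + Fintype.card κ = (∑ c, genusFF k (Fk c)) + Fintype.card ι + 1) :
    ∃ Rb : Fin g → Σ c, Place k (Fk c),
      Function.Injective Rb ∧
      (∀ i, Rb i ∉ avoid ((Finset.univ.filter (fun j => j < i)).image Rb)) ∧
      (∀ i j, Rb i ≠ ⟨src j, s₁ j⟩) ∧ (∀ i j, Rb i ≠ ⟨tgt j, s₂ j⟩) ∧
      ∀ a : ∀ c, Fk c,
        (∀ c (Q : Place k (Fk c)), (∀ i, Rb i ≠ ⟨c, Q⟩) → 0 ≤ Q.ord (a c)) →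
        (∀ c (Q : Place k (Fk c)), -1 ≤ Q.ord (a c)) →
        (∀ i, ∃ x : k, ValAt (s₁ i) (a (src i)) x ∧ ValAt (s₂ i) (a (tgt i)) x) →
        ∃ x : k, ∀ c, a c = algebraMap k (Fk c) x := by
  classical
  obtain ⟨l, hlen, hnd, hchain, hn₁, hn₂, hns⟩ := exists_graph_nonspecial_list hRR
    (fun i => (⟨src i, s₁ i⟩ : Σ c, Place k (Fk c)))
    (fun i => (⟨tgt i, s₂ i⟩ : Σ c, Place k (Fk c))) src_ne_tgt
    (fun i j h => s₁_inj i j h) (fun i j h => s₂_inj i j h) s₁_ne_s₂ conn avoid
  obtain ⟨Rb, hinj, hav, hmem, -⟩ := exists_fin_of_greedyChain avoid l hnd hchain g (by omega)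
  refine ⟨Rb, hinj, ?_, fun i j h => hn₁ j (h ▸ hmem i), fun i j h => hn₂ j (h ▸ hmem i), ?_⟩
  · intro i
    convert hav i
  · intro a ha1 ha2 hnode
    refine hns a ?_ ha2 hnode
    intro c Q hQ
    apply ha1 c Q
    intro i hi
    exact hQ (hi ▸ hmem i)

end Fermat.Agent.BadRedG
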