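import Mathlib
import Fermat.Agent.S18.NSBuild
import Fermat.Agent.Lib.BadRed.Graph.NSDef
import Fermat.Agent.Lib.BadRed.Graph.Lift
import Fermat.Agent.Lib.BadRed.Graph.NSAbs
import Fermat.Agent.Lib.BadRed.Nodal.Interp1

set_option autoImplicit false
set_option linter.style.haveILetI false
set_option linter.unusedSectionVars false

/-!
# Cluster G (S36), G-KEY: construction of `GraphNS` from the lifting property (LIFT) (helper7)

Port of `Nodal/NSBuildLift.lean` (cluster T) to a finite family of components.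

Input: a graph reduction package `N`, divisors `D₀` on the generic fibre and `R c` of positive
degree on every component, away from the nodes, and

* (LIFT) `N.HasLift D₀ R`: for `m ≥ m₀` every tuple of `graphRR (m R)` is the tuple of the
  reductions of a function of `L(m D₀) ∩ ⋂ O_c` (graph Deuring construction, step S1);
* non-special points `Rb` on the special fibre, away from `N.liftAvoid D₀ R` and from the nodes
  (`exists_graph_nonspecial_fin`, helper40, from the genus relation).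

Output: `Nonempty (GraphNS N g)`.
-/

noncomputable section

open AlgebraicCurve Fermat.Agent.RR Fermat.Agent.Deuring

namespace Fermat.Agent.BadRedG

open Fermat.Agent.BadRed

variable {K F k : Type*} [Field K] [Field F] [Algebra K F] [Field k]
  {κ : Type*} {Fk : κ → Type*} [∀ c, Field (Fk c)] [∀ c, Algebra k (Fk c)] {ι : Type*}

variable (N : GraphSetup K F k κ Fk ι)

/-- a unit of the valuation ring of `c` has a zero in the residue disc of a smooth point of the
component `c` where its reduction vanishes. -/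
theorem GraphSetup.exists_zero_of_tupOrd_pos {f : F} (X : Σ c, Place k (Fk c))
    (h : (N.S X.1).red f ≠ 0) (hX : N.IsSmooth X) (hQ : 0 < tupOrd X (N.redAll f)) :
    ∃ R : Place K F, N.r R = some X ∧ 0 < R.ord f := by
  obtain ⟨c, Q⟩ := X
  have hpush := N.push c f ((N.S c).mem_of_red_ne_zero h) ((N.S c).inv_mem_of_red_ne_zero h)
    ((N.S c).ne_zero_of_red_ne_zero h) Q hX.1 hX.2
  obtain ⟨R, hR, hpos⟩ := Fermat.Agent.S18Key.exists_of_mapDomain_pos N.r _ _
    (by rw [hpush]; exact hQ)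
  rw [divOf_apply] at hpos
  exact ⟨R, hR, hpos⟩

theorem sigmaMk_inj (c : κ) :
    Function.Injective (fun Q : Place k (Fk c) => (⟨c, Q⟩ : Σ c, Place k (Fk c))) :=
  fun _ _ h => eq_of_heq (Sigma.mk.inj_iff.mp h).2

/-- the fibre over `c` of a finite set of points of the special fibre. -/
def sigmaFibre (T : Finset (Σ c, Place k (Fk c))) (c : κ) : Finset (Place k (Fk c)) :=
  T.preimage (fun Q : Place k (Fk c) => (⟨c, Q⟩ : Σ c, Place k (Fk c))) (sigmaMk_inj c).injOn

theorem mem_sigmaFibre {T : Finset (Σ c, Place k (Fk c))} {c : κ} {Q : Place k (Fk c)} :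
    Q ∈ sigmaFibre T c ↔ (⟨c, Q⟩ : Σ c, Place k (Fk c)) ∈ T := by
  unfold sigmaFibre
  rw [Finset.mem_preimage]

theorem card_sigmaFibre_le (T : Finset (Σ c, Place k (Fk c))) (c : κ) :
    (sigmaFibre T c).card ≤ T.card := by
  classical
  have h : (sigmaFibre T c).image
      (fun Q : Place k (Fk c) => (⟨c, Q⟩ : Σ c, Place k (Fk c))) ⊆ T := by
    intro X hX
    obtain ⟨Q, hQ, rfl⟩ := Finset.mem_image.mp hX
    exact mem_sigmaFibre.mp hQ
  calc (sigmaFibre T c).card = ((sigmaFibre T c).image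
          (fun Q : Place k (Fk c) => (⟨c, Q⟩ : Σ c, Place k (Fk c)))).card :=
        (Finset.card_image_of_injective _ (sigmaMk_inj c)).symm
    _ ≤ T.card := Finset.card_le_card h

open Classical in
/-- the branches of the nodes, as a finite set of points of the special fibre. -/
def GraphSetup.branches [Fintype ι] : Finset (Σ c, Place k (Fk c)) :=
  (Finset.univ.image fun i => (⟨N.src i, N.s₁ i⟩ : Σ c, Place k (Fk c))) ∪
    (Finset.univ.image fun i => (⟨N.tgt i, N.s₂ i⟩ : Σ c, Place k (Fk c)))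

theorem GraphSetup.mem_branches [Fintype ι] {X : Σ c, Place k (Fk c)} :
    X ∈ N.branches ↔ (∃ i, X = ⟨N.src i, N.s₁ i⟩) ∨ (∃ i, X = ⟨N.tgt i, N.s₂ i⟩) := by
  classical
  unfold GraphSetup.branches
  rw [Finset.mem_union, Finset.mem_image, Finset.mem_image]
  constructor
  · rintro (⟨i, -, h⟩ | ⟨i, -, h⟩)
    · exact Or.inl ⟨i, h.symm⟩
    · exact Or.inr ⟨i, h.symm⟩
  · rintro (⟨i, h⟩ | ⟨i, h⟩)
    · exact Or.inl ⟨i, Finset.mem_univ _, h.symm⟩
    · exact Or.inr ⟨i, Finset.mem_univ _, h.symm⟩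

theorem GraphSetup.notMem_branches_iff [Fintype ι] {X : Σ c, Place k (Fk c)} :
    X ∉ N.branches ↔ N.IsSmooth X := by
  rw [N.mem_branches, not_or, not_exists, not_exists]
  rfl

theorem GraphSetup.card_branches_le [Fintype ι] : N.branches.card ≤ 2 * Fintype.card ι := by
  classical
  unfold GraphSetup.branches
  refine (Finset.card_union_le _ _).trans ?_
  have h1 := Finset.card_image_le (s := (Finset.univ : Finset ι))
    (f := fun i => (⟨N.src i, N.s₁ i⟩ : Σ c, Place k (Fk c)))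
  have h2 := Finset.card_image_le (s := (Finset.univ : Finset ι))
    (f := fun i => (⟨N.tgt i, N.s₂ i⟩ : Σ c, Place k (Fk c)))
  rw [Finset.card_univ] at h1 h2
  omega

/-- the interpolated nodal tuple at `Rb i`: all the functions vanish at the branches of the
nodes, the tuple has a simple zero at `Rb i` and order `0` at the other `Rb j`. -/
theorem GraphSetup.exists_tuple_at [Infinite k] [Fintype ι] {g : ℕ}
    (Rb : Fin g → Σ c, Place k (Fk c)) (hinj : Function.Injective Rb)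
    (R : ∀ c, Divisor k (Fk c))
    (hn₁ : ∀ i, R (N.src i) (N.s₁ i) = 0) (hn₂ : ∀ i, R (N.tgt i) (N.s₂ i) = 0)
    (hRb : ∀ i, R (Rb i).1 (Rb i).2 = 0)
    (hsm : ∀ i, N.IsSmooth (Rb i))
    (hdeg : ∀ c, 2 * (genusFF k (Fk c) : ℤ) + 2 * Fintype.card ι < Divisor.degree (R c))
    (i : Fin g) :
    ∃ y : ∀ c, Fk c, (∀ c, y c ≠ 0) ∧ y ∈ graphRR N.src N.tgt N.s₁ N.s₂ R ∧
      tupOrd (Rb i) y = 1 ∧ ∀ j, j ≠ i → tupOrd (Rb j) y = 0 := by
  classical
  set Z : ∀ c, Finset (Place k (Fk c)) := fun c => sigmaFibre N.branches c with hZ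
  set U : ∀ c, Finset (Place k (Fk c)) :=
    fun c => sigmaFibre ((Finset.univ.erase i).image Rb) c with hU
  have hcard : ∀ c, ((Z c).card : ℤ) ≤ 2 * Fintype.card ι := fun c => by
    exact_mod_cast (card_sigmaFibre_le _ c).trans N.card_branches_le
  have hmemU : ∀ c P, P ∈ U c ↔ ∃ j, j ≠ i ∧ Rb j = ⟨c, P⟩ := fun c P => by
    rw [hU, mem_sigmaFibre, Finset.mem_image]
    constructor
    · rintro ⟨j, hj, h⟩
      exact ⟨j, (Finset.mem_erase.mp hj).1, h⟩
    · rintro ⟨j, hj, h⟩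
      exact ⟨j, Finset.mem_erase.mpr ⟨hj, Finset.mem_univ _⟩, h⟩
  have hZR : ∀ c, ∀ P ∈ Z c, R c P = 0 := fun c P hP => by
    rcases N.mem_branches.mp (mem_sigmaFibre.mp hP) with ⟨j, hj⟩ | ⟨j, hj⟩
    · exact (congrArg (fun X : Σ c, Place k (Fk c) => R X.1 X.2) hj).trans (hn₁ j)
    · exact (congrArg (fun X : Σ c, Place k (Fk c) => R X.1 X.2) hj).trans (hn₂ j)
  have hUR : ∀ c, ∀ P ∈ U c, R c P = 0 ∧ P ∉ Z c := fun c P hP => by
    obtain ⟨j, -, hj⟩ := (hmemU c P).mp hP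
    refine ⟨?_, fun hZ' => ?_⟩
    · exact (congrArg (fun X : Σ c, Place k (Fk c) => R X.1 X.2) hj).symm.trans (hRb j)
    · have := N.notMem_branches_iff.mpr (hsm j)
      rw [hj] at this
      exact this (mem_sigmaFibre.mp hZ')
  -- the unit functions on all the components
  have hunit : ∀ c, ∃ b ∈ riemannRochSpace (R c), b ≠ 0 ∧ (∀ P ∈ Z c, 0 < P.ord b) ∧
      ∀ P ∈ U c, P.ord b = 0 := fun c =>
    Interp1.exists_unit_fn (N.S c).hFk (R c) (Z c) (U c) (hZR c) (hUR c) (by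
      have := hcard c
      have := hdeg c
      omega)
  choose b hbR hb0 hbZ hbU using hunit
  -- the parameter on the component of `Rb i`
  rcases hRi : Rb i with ⟨c₀, Q⟩
  obtain ⟨a, haR, ha0, haZ, haQ, haU⟩ := Interp1.exists_param (N.S c₀).hFk (R c₀) (Z c₀) (U c₀) Q
    (hZR c₀)
    (fun P hP => ⟨(hUR c₀ P hP).1, (hUR c₀ P hP).2, fun hPQ => by
      obtain ⟨j, hji, hj⟩ := (hmemU c₀ P).mp hP
      rw [hPQ, ← hRi] at hj
      exact hji (hinj hj)⟩)
    ⟨(congrArg (fun X : Σ c, Place k (Fk c) => R X.1 X.2) hRi).symm.trans (hRb i), fun hZ' => by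
      have := N.notMem_branches_iff.mpr (hsm i)
      rw [hRi] at this
      exact this (mem_sigmaFibre.mp hZ')⟩
    (by
      have := hcard c₀
      have := hdeg c₀
      omega)
  -- the tuple
  set y : ∀ c, Fk c := Function.update b c₀ a with hy
  have hyc₀ : y c₀ = a := Function.update_self _ _ _
  have hyc : ∀ c, c ≠ c₀ → y c = b c := fun c hc => Function.update_of_ne hc _ _
  have hyR : ∀ c, y c ∈ riemannRochSpace (R c) := by
    intro c
    by_cases hc : c = c₀
    · subst hc; rw [hyc₀]; exact haR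
    · rw [hyc c hc]; exact hbR c
  have hy0 : ∀ c, y c ≠ 0 := by
    intro c
    by_cases hc : c = c₀
    · subst hc; rw [hyc₀]; exact ha0
    · rw [hyc c hc]; exact hb0 c
  have hyZ : ∀ c, ∀ P ∈ Z c, 0 < P.ord (y c) := by
    intro c
    by_cases hc : c = c₀
    · subst hc; rw [hyc₀]; exact haZ
    · rw [hyc c hc]; exact hbZ c
  have hyU : ∀ c, ∀ P ∈ U c, P.ord (y c) = 0 := by
    intro c
    by_cases hc : c = c₀
    · subst hc; rw [hyc₀]; exact haU
    · rw [hyc c hc]; exact hbU c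
  refine ⟨y, hy0, ⟨hyR, fun j => ⟨0, ?_, ?_⟩⟩, ?_, ?_⟩
  · exact (valAt_zero_right_iff _ _).mpr (Or.inr (hyZ _ _
      (mem_sigmaFibre.mpr (N.mem_branches.mpr (Or.inl ⟨j, rfl⟩)))))
  · exact (valAt_zero_right_iff _ _).mpr (Or.inr (hyZ _ _
      (mem_sigmaFibre.mpr (N.mem_branches.mpr (Or.inr ⟨j, rfl⟩)))))
  · show Q.ord (y c₀) = 1
    rw [hyc₀]; exact haQ
  · intro j hj
    rcases hRj : Rb j with ⟨c, P⟩
    show P.ord (y c) = 0
    exact hyU c P ((hmemU c P).mpr ⟨j, hj, hRj⟩)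

open Classical in
/-- the points of the special fibre to avoid: the supports of the `R c` and the reductions of
the points of the support of `D₀`. -/
def GraphSetup.liftAvoid [Fintype κ] (D₀ : Divisor K F) (R : ∀ c, Divisor k (Fk c)) :
    Finset (Σ c, Place k (Fk c)) :=
  (Finset.univ.biUnion fun c => (R c).support.image (Sigma.mk c)) ∪
    (D₀.support.image N.r).eraseNone

theorem GraphSetup.notMem_liftAvoid [Fintype κ] {D₀ : Divisor K F} {R : ∀ c, Divisor k (Fk c)}
    {X : Σ c, Place k (Fk c)} (h : X ∉ N.liftAvoid D₀ R) :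
    R X.1 X.2 = 0 ∧ ∀ P, N.r P = some X → D₀ P = 0 := by
  classical
  unfold GraphSetup.liftAvoid at h
  rw [Finset.mem_union, not_or] at h
  obtain ⟨h1, h3⟩ := h
  refine ⟨?_, fun P hP => ?_⟩
  · by_contra hne
    apply h1
    rw [Finset.mem_biUnion]
    exact ⟨X.1, Finset.mem_univ _, Finset.mem_image.mpr ⟨X.2, Finsupp.mem_support_iff.mpr hne, rfl⟩⟩
  · by_contra hne
    apply h3
    rw [Finset.mem_eraseNone]
    exact Finset.mem_image.mpr ⟨P, Finsupp.mem_support_iff.mpr hne, hP⟩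

/-- **construction of `GraphNS` from (LIFT) and non-special points.** -/
theorem GraphSetup.nonempty_graphNS_of_lift_of_pts [Infinite k] [Fintype κ] [Nonempty κ]
    [Fintype ι] (D₀ : Divisor K F) (R : ∀ c, Divisor k (Fk c))
    (hR : ∀ c, 0 < Divisor.degree (R c))
    (hn₁ : ∀ i, R (N.src i) (N.s₁ i) = 0) (hn₂ : ∀ i, R (N.tgt i) (N.s₂ i) = 0)
    (hlift : N.HasLift D₀ R) {g : ℕ}
    (Rb : Fin g → Σ c, Place k (Fk c)) (hinj : Function.Injective Rb)
    (havoid : ∀ i, Rb i ∉ N.liftAvoid D₀ R)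
    (hnode₁ : ∀ i j, Rb i ≠ ⟨N.src j, N.s₁ j⟩) (hnode₂ : ∀ i j, Rb i ≠ ⟨N.tgt j, N.s₂ j⟩)
    (hns : ∀ a : ∀ c, Fk c,
      (∀ c (Q : Place k (Fk c)), (∀ i, Rb i ≠ ⟨c, Q⟩) → 0 ≤ Q.ord (a c)) →
      (∀ c (Q : Place k (Fk c)), -1 ≤ Q.ord (a c)) →
      (∀ i, ∃ x : k, ValAt (N.s₁ i) (a (N.src i)) x ∧ ValAt (N.s₂ i) (a (N.tgt i)) x) →
      ∃ x : k, ∀ c, a c = algebraMap k (Fk c) x) :
    Nonempty (GraphNS N g) := by
  classical
  have hav := fun i => N.notMem_liftAvoid (havoid i)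
  have hsm : ∀ i, N.IsSmooth (Rb i) := fun i => ⟨hnode₁ i, hnode₂ i⟩
  obtain ⟨m₀, hm₀⟩ := hlift
  -- the multiple
  set m : ℕ := max m₀ (2 * (∑ c, genusFF k (Fk c)) + 2 * Fintype.card ι + 1) with hm
  have hm1 : m₀ ≤ m := le_max_left _ _
  have hm2 : 2 * (∑ c, genusFF k (Fk c)) + 2 * Fintype.card ι + 1 ≤ m := le_max_right _ _
  have hgc : ∀ c, genusFF k (Fk c) ≤ ∑ c, genusFF k (Fk c) := fun c =>
    Finset.single_le_sum (f := fun c => genusFF k (Fk c)) (fun _ _ => Nat.zero_le _)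
      (Finset.mem_univ c)
  have hdeg : ∀ c, 2 * (genusFF k (Fk c) : ℤ) + 2 * Fintype.card ι <
      Divisor.degree (m • R c) := by
    intro c
    rw [map_nsmul, nsmul_eq_mul]
    have h3 : (m : ℤ) ≤ m * Divisor.degree (R c) := by
      have := Int.natCast_nonneg m
      have := hR c
      nlinarith
    have h4 : (2 * (genusFF k (Fk c)) + 2 * Fintype.card ι + 1 : ℤ) ≤ m := by
      have := hgc c
      have : 2 * (genusFF k (Fk c)) + 2 * Fintype.card ι + 1 ≤ m := by omega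
      exact_mod_cast this
    omega
  -- the parameters
  have hpar : ∀ i, ∃ t : F, t ∈ riemannRochSpace (m • D₀) ∧ (∀ c, t ∈ (N.S c).Ov) ∧
      (∀ c, (N.S c).red t ≠ 0) ∧ tupOrd (Rb i) (N.redAll t) = 1 ∧
        ∀ j, j ≠ i → tupOrd (Rb j) (N.redAll t) = 0 := by
    intro i
    obtain ⟨y, hy0, hy, hself, hother⟩ := N.exists_tuple_at Rb hinj (fun c => m • R c)
      (fun j => by rw [Finsupp.smul_apply, hn₁ j, smul_zero])
      (fun j => by rw [Finsupp.smul_apply, hn₂ j, smul_zero])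
      (fun j => by rw [Finsupp.smul_apply, (hav j).1, smul_zero])
      hsm hdeg i
    obtain ⟨t, ht, htO, hred⟩ := hm₀ m hm1 y hy
    have hredAll : N.redAll t = y := funext hred
    refine ⟨t, ht, htO, fun c => by rw [hred c]; exact hy0 c, ?_, ?_⟩
    · rw [hredAll]; exact hself
    · intro j hj
      rw [hredAll]; exact hother j hj
  choose t ht htO hred hself hother using hpar
  -- the lifts
  have hlifts : ∀ i, ∃ R' : Place K F, N.r R' = some (Rb i) ∧ 0 < R'.ord (t i) := fun i =>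
    N.exists_zero_of_tupOrd_pos (Rb i) (hred i _) (hsm i) (by rw [hself i]; norm_num)
  choose R' hrR hRpos using hlifts
  -- the base point
  obtain ⟨c₁⟩ := (inferInstance : Nonempty κ)
  haveI : Infinite (Place k (Fk c₁)) := infinite_place (N.S c₁).hFk
  obtain ⟨Q₀, hQ₀⟩ := Infinite.exists_notMem_finset
    (sigmaFibre N.branches c₁ ∪ sigmaFibre (Finset.univ.image Rb) c₁)
  rw [Finset.mem_union, not_or, mem_sigmaFibre, mem_sigmaFibre] at hQ₀
  have hQ₀sm : N.IsSmooth ⟨c₁, Q₀⟩ := N.notMem_branches_iff.mp hQ₀.1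
  have hQ₀R : ∀ i, Rb i ≠ ⟨c₁, Q₀⟩ := fun i h =>
    hQ₀.2 (Finset.mem_image.mpr ⟨i, Finset.mem_univ _, h⟩)
  obtain ⟨P0, hP0⟩ := N.r_surj c₁ Q₀ hQ₀sm.1 hQ₀sm.2
  refine ⟨{
    Rb := Rb
    Rb_inj := hinj
    R := R'
    r_R := hrR
    t := t
    t_mem := htO
    t_red := hred
    ord_t_self := hself
    ord_t_other := fun i j hij => hother i j (Ne.symm hij)
    t_reg := fun i j P hP => by
      have h0 : t i ≠ 0 := (N.S c₁).ne_zero_of_red_ne_zero (hred i c₁)
      have h1 := ((mem_riemannRochSpace_iff.mp (ht i)) P).resolve_left h0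
      rw [Finsupp.smul_apply, (hav j).2 P hP, smul_zero, neg_zero] at h1
      exact h1
    t_R := hRpos
    nonspecial := fun y hnod h1 h3 => by
      refine hns y (fun c Q hQ => h1 ⟨c, Q⟩ hQ) ?_ (fun i => (hnod i).2.2)
      intro c Q
      by_cases hQ : ∃ i, Rb i = ⟨c, Q⟩
      · obtain ⟨i, hi⟩ := hQ
        have := h3 i
        rw [hi] at this
        exact this
      · push Not at hQ
        have := h1 ⟨c, Q⟩ hQ
        exact le_trans (by norm_num : (-1 : ℤ) ≤ 0) this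
    P0 := P0
    P0_ord := ⟨_, hP0⟩
    r_P0 := fun i h => hQ₀R i (by
      rw [hP0] at h
      exact (Option.some.inj h).symm) }⟩

/-- **construction of `GraphNS` from (LIFT) and the genus relation.** -/
theorem GraphSetup.nonempty_graphNS_of_lift [IsAlgClosed k] [Fintype κ] [Nonempty κ]
    [Fintype ι] (hg : N.GenusRel) (D₀ : Divisor K F) (R : ∀ c, Divisor k (Fk c))
    (hR : ∀ c, 0 < Divisor.degree (R c))
    (hn₁ : ∀ i, R (N.src i) (N.s₁ i) = 0) (hn₂ : ∀ i, R (N.tgt i) (N.s₂ i) = 0)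
    (hlift : N.HasLift D₀ R) : Nonempty (GraphNS N (genusFF K F)) := by
  classical
  haveI : Infinite k := IsAlgClosed.instInfinite
  obtain ⟨Rb, hinj, havoid, hnode₁, hnode₂, hns⟩ :=
    exists_graph_nonspecial_fin (fun c => (N.S c).hFk) N.src N.tgt N.src_ne_tgt N.s₁ N.s₂
      N.s₁_inj N.s₂_inj N.s₁_ne_s₂ N.conn (fun _ => N.liftAvoid D₀ R) (genusFF K F) hg
  exact N.nonempty_graphNS_of_lift_of_pts D₀ R hR hn₁ hn₂ hlift Rb hinj havoid hnode₁ hnode₂ hns

/-- **the graph KEY LEMMA from (LIFT)**, given Jacobi inversion (`GraphJacobiStatement`) and the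
main step (`GraphMainStatement`). -/
theorem GraphSetup.keyConcl_of_lift_of_steps [IsAlgClosed k] [Fintype κ] [Nonempty κ]
    [Fintype ι] (hg : N.GenusRel) (D₀ : Divisor K F) (R : ∀ c, Divisor k (Fk c))
    (hR : ∀ c, 0 < Divisor.degree (R c))
    (hn₁ : ∀ i, R (N.src i) (N.s₁ i) = 0) (hn₂ : ∀ i, R (N.tgt i) (N.s₂ i) = 0)
    (hlift : N.HasLift D₀ R)
    (hJ : ∀ NS : GraphNS N (genusFF K F), GraphJacobiStatement N _ NS)
    (hM : ∀ NS : GraphNS N (genusFF K F), GraphMainStatement N _ NS) : GraphKeyConcl N :=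
  graphKeyOfNS_of_steps N hJ hM (N.nonempty_graphNS_of_lift hg D₀ R hR hn₁ hn₂ hlift)

end Fermat.Agent.BadRedG
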