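import Mathlib
import Fermat.Agent.Lib.BadRed.Nodal.KeyCore
import Fermat.Agent.Lib.BadRed.Graph.NSDef

set_option autoImplicit false
set_option linter.unusedSectionVars false

/-!
# Cluster G (S36), G-KEY core: the sides of a graph setup, all-sided lemmas (helper7)

Port of `Nodal/KeyTwo.lean` (cluster T) to a family of components.  The one-sided calculus
(`Fermat.Agent.BadRed.NSide`, `Nodal/Side.lean`, `Nodal/KeyCore.lean`) is generic in the special
fibre and is used as it is, with `X = Σ c, Place k (Fk c)`, `emb Q = ⟨c, Q⟩`.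

* `GK.gside N c` : the `NSide` of the component `c`;
* `GK.exists_scaleAll` : max-norm scaling (`x / a ∈ ⋂ O_c`, a unit of one of them);
* `GK.red_const_of_regAll` : a function of `⋂ O_c`, regular off the discs of the `Rb j`, whose
  reductions have at most simple poles at the `Rb j`, has CONSTANT reductions `(a)_c`;
* `GK.kl_finalAll` : … and it cannot vanish at `P0` unless all the reductions vanish;
* `GK.kl_normaliseAll`, `GK.kl_exists_selfAll`, `GK.kl_ord_otherAll` : normalisation, local data.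
-/

noncomputable section

open AlgebraicCurve Fermat.Agent.RR Fermat.Agent.Deuring

namespace Fermat.Agent.BadRedG

open Fermat.Agent.BadRed

namespace GK

open Fermat.Agent.S18Key (ord_neg' ord_nonneg_add ord_nonneg_sub ord_nonneg_mul ord_const_nonneg
  ord_one_nonneg ord_add_ge_of_ge ord_add_eq_of_lt mapDomain_apply_eq_sum sum_le_mapDomain
  mapDomain_nonneg le_mapDomain add_le_mapDomain kl_ord_const_mul kl_ord_mul_const
  kl_ord_div_const kl_ord_sum_ge kl_ord_prod kl_ord_pow kl_ord_sub_ge_of_ge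
  kl_ne_zero_of_ord_ne_zero kl_const_eq_zero_of_ord_pos)

open Fermat.Agent.BadRed.NK

variable {K F k : Type*} [Field K] [Field F] [Algebra K F] [Field k]
  {κ : Type*} {Fk : κ → Type*} [∀ c, Field (Fk c)] [∀ c, Algebra k (Fk c)] {ι : Type*}

/-- the side of the component `c` of a graph setup. -/
def gside (N : GraphSetup K F k κ Fk ι) (c : κ) :
    NSide K F k (Fk c) (Σ c, Place k (Fk c)) where
  A := (N.S c).A
  Ov := (N.S c).Ov
  res := (N.S c).res
  ρ := (N.S c).ρ
  r := N.r
  emb := fun Q => ⟨c, Q⟩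
  sm := fun Q => N.IsSmooth ⟨c, Q⟩
  hF := (N.S c).hF
  mem_Ov_iff := (N.S c).mem_Ov_iff
  ρ_algebraMap := (N.S c).ρ_algebraMap
  ρ_eq_zero_iff := (N.S c).ρ_eq_zero_iff
  scale := (N.S c).scale
  push := fun f hf hfi hf0 Q hQ => by
    have := N.push c f hf hfi hf0 Q hQ.1 hQ.2
    rwa [ValSetup.red, dif_pos hf] at this

variable (N : GraphSetup K F k κ Fk ι)

theorem gside_red (c : κ) (f : F) : (gside N c).red f = (N.S c).red f := rfl

theorem gside_Ov (c : κ) : (gside N c).Ov = (N.S c).Ov := rfl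

theorem gside_A (c : κ) : (gside N c).A = (N.S c).A := rfl

theorem mem_A_iff (c c' : κ) (a : K) : a ∈ (N.S c).A ↔ a ∈ (N.S c').A := by rw [N.A_eq c c']

/-- units of all the valuation rings. -/
def IsUAll (x : F) : Prop := ∀ c, (gside N c).IsU x

theorem isSmooth_of_r {P : Place K F} {X : Σ c, Place k (Fk c)} (h : N.r P = some X) :
    N.IsSmooth X :=
  ⟨fun i hi => N.r_ne_node₁ P i (by rw [h, hi]), fun i hi => N.r_ne_node₂ P i (by rw [h, hi])⟩

/-- the order at `X` of the reduction of `f` (on the component of `X`). -/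
def gOrdRed (X : Σ c, Place k (Fk c)) (f : F) : ℤ := tupOrd X (N.redAll f)

theorem gOrdRed_mk (c : κ) (Q : Place k (Fk c)) (f : F) :
    gOrdRed N ⟨c, Q⟩ f = Q.ord ((N.S c).red f) := rfl

/-- the reductions of a function without poles on the disc of a smooth point `X` is regular at
`X`. -/
theorem gOrdRed_nonneg {f : F} (X : Σ c, Place k (Fk c)) (hX : N.IsSmooth X)
    (h : ∀ P, N.r P = some X → 0 ≤ P.ord f) : 0 ≤ gOrdRed N X f := by
  obtain ⟨c, Q⟩ := X
  show 0 ≤ Q.ord ((N.S c).red f)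
  by_cases h0 : (N.S c).red f = 0
  · rw [h0, Place.ord_zero]
  · have hU : (gside N c).IsU f :=
      isU_of_red_ne_zero (S := gside N c) (ValSetup.mem_of_red_ne_zero _ h0) h0
    exact push_nonneg (S := gside N c) hU Q hX h

/-- **max-norm scaling** on a finite set of components. -/
theorem exists_scaleFinset [DecidableEq κ] {x : F} (hx : x ≠ 0) (T : Finset κ)
    (hT : T.Nonempty) : ∃ a : K, a ≠ 0 ∧
    (∀ c ∈ T, x / algebraMap K F a ∈ (N.S c).Ov) ∧
      ∃ c ∈ T, (N.S c).red (x / algebraMap K F a) ≠ 0 := by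
  induction hT using Finset.Nonempty.cons_induction with
  | singleton c =>
    obtain ⟨a, ha, hU⟩ := exists_scale (S := gside N c) hx
    refine ⟨a, ha, fun c' hc' => ?_, c, Finset.mem_singleton_self c, hU.red_ne_zero⟩
    rw [Finset.mem_singleton.mp hc']
    exact hU.mem
  | cons c₁ T hc₁ hT ih =>
    obtain ⟨a₂, ha₂, hm₂, c₂, hc₂, hne₂⟩ := ih
    obtain ⟨a₁, ha₁, hU₁⟩ := exists_scale (S := gside N c₁) hx
    have ha₁F : algebraMap K F a₁ ≠ 0 := by simpa using ha₁
    have ha₂F : algebraMap K F a₂ ≠ 0 := by simpa using ha₂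
    rcases (N.S c₁).A.mem_or_inv_mem (a₁ / a₂) with h | h
    · -- `a₂` has the bigger norm
      refine ⟨a₂, ha₂, fun c hc => ?_, c₂, Finset.mem_cons.mpr (Or.inr hc₂), hne₂⟩
      rcases Finset.mem_cons.mp hc with rfl | hc
      · have e : x / algebraMap K F a₂ = x / algebraMap K F a₁ * algebraMap K F (a₁ / a₂) := by
          rw [map_div₀]; field_simp
        rw [e]
        exact mul_mem hU₁.mem (((N.S c).mem_Ov_iff _).mpr h)
      · exact hm₂ c hc
    · rw [inv_div] at h
      refine ⟨a₁, ha₁, fun c hc => ?_, c₁, Finset.mem_cons_self c₁ T, hU₁.red_ne_zero⟩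
      rcases Finset.mem_cons.mp hc with rfl | hc
      · exact hU₁.mem
      · have e : x / algebraMap K F a₁ = x / algebraMap K F a₂ * algebraMap K F (a₂ / a₁) := by
          rw [map_div₀]; field_simp
        rw [e]
        exact mul_mem (hm₂ c hc) (((N.S c).mem_Ov_iff _).mpr ((mem_A_iff N c₁ c _).mp h))

/-- **max-norm scaling**. -/
theorem exists_scaleAll [Finite κ] [Nonempty κ] {x : F} (hx : x ≠ 0) : ∃ a : K, a ≠ 0 ∧
    (∀ c, x / algebraMap K F a ∈ (N.S c).Ov) ∧ ∃ c, (N.S c).red (x / algebraMap K F a) ≠ 0 := by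
  classical
  haveI := Fintype.ofFinite κ
  obtain ⟨a, ha, hm, c, -, hc⟩ := exists_scaleFinset N hx Finset.univ Finset.univ_nonempty
  exact ⟨a, ha, fun c => hm c (Finset.mem_univ c), c, hc⟩

variable {N}

/-- a graph setup with a non-special package has a component. -/
theorem nonempty_of_ns {g : ℕ} (NS : GraphNS N g) : Nonempty κ := by
  obtain ⟨X, -⟩ := NS.P0_ord
  exact ⟨X.1⟩

/-- a function of `⋂ O_c`, regular off the discs of the `Rb j`, `j ∈ I`, whose reductions have
at most simple poles at the `Rb j`: the reductions are the same constant. -/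
theorem red_const_of_regAll {g : ℕ} (NS : GraphNS N g) (I : Finset (Fin g)) {W : F}
    (hW : ∀ c, W ∈ (N.S c).Ov)
    (hreg : ∀ v, (∀ j ∈ I, N.r v ≠ some (NS.Rb j)) → 0 ≤ v.ord W)
    (hpole : ∀ j ∈ I, -1 ≤ gOrdRed N (NS.Rb j) W) :
    ∃ a : k, ∀ c, (N.S c).red W = algebraMap k (Fk c) a := by
  classical
  have hnode : N.IsNodalFn (N.redAll W) :=
    N.node W hW (fun P hP => hreg P (fun j _ => by rw [hP]; simp))
  have hsm : ∀ X, N.IsSmooth X → (∀ j ∈ I, NS.Rb j ≠ X) → 0 ≤ gOrdRed N X W := fun X hX hne =>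
    gOrdRed_nonneg N X hX (fun P hP => hreg P (fun j hj h' => hne j hj (by
      rw [hP] at h'; exact (Option.some.inj h').symm)))
  refine NS.nonspecial (N.redAll W) hnode ?_ ?_
  · intro Q hQ
    by_cases hs : N.IsSmooth Q
    · exact hsm Q hs (fun j _ => hQ j)
    · unfold GraphSetup.IsSmooth at hs
      rw [not_and_or] at hs
      rcases hs with hs | hs
      · push Not at hs
        obtain ⟨i, rfl⟩ := hs
        exact (hnode i).1
      · push Not at hs
        obtain ⟨i, rfl⟩ := hs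
        exact (hnode i).2.1
  · intro i
    by_cases hi : i ∈ I
    · exact hpole i hi
    · have := hsm (NS.Rb i) (isSmooth_of_r N (NS.r_R i)) (fun j hj h' => hi (NS.Rb_inj h' ▸ hj))
      exact le_trans (by norm_num : (-1 : ℤ) ≤ 0) this

/-- final contradiction: a function of `⋂ O_c` with a nonzero reduction, regular off the discs
`I`, whose reductions have at most simple poles at the `Rb j`, `j ∈ I`, cannot vanish at `P0`. -/
theorem kl_finalAll {g : ℕ} (NS : GraphNS N g) (I : Finset (Fin g)) {W : F}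
    (hW : ∀ c, W ∈ (N.S c).Ov) (hne : ∃ c, (N.S c).red W ≠ 0)
    (hreg : ∀ v, (∀ j ∈ I, N.r v ≠ some (NS.Rb j)) → 0 ≤ v.ord W)
    (hpole : ∀ j ∈ I, -1 ≤ gOrdRed N (NS.Rb j) W)
    (hz : 0 < NS.P0.ord W) : False := by
  obtain ⟨a, ha⟩ := red_const_of_regAll NS I hW hreg hpole
  obtain ⟨X, hX⟩ := NS.P0_ord
  have hXsm := isSmooth_of_r N hX
  have hXne : ∀ j, NS.Rb j ≠ X := fun j h => NS.r_P0 j (by rw [hX, h])
  have hregX : ∀ P, N.r P = some X → 0 ≤ P.ord W := fun P hP =>
    hreg P (fun j _ h' => hXne j (by rw [hP] at h'; exact (Option.some.inj h').symm))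
  have ha0 : a = 0 := by
    by_contra hc
    obtain ⟨c, Q⟩ := X
    have hU : (gside N c).IsU W := isU_of_red_ne_zero (S := gside N c) (hW c) (by
      rw [gside_red, ha c]; simpa using hc)
    have := push_ge (S := gside N c) hU Q hXsm hregX NS.P0 hX
    rw [gside_red, ha c, Fermat.Agent.S24Res.ord_algebraMap] at this
    omega
  subst ha0
  obtain ⟨c, hc⟩ := hne
  exact hc (by rw [ha c, map_zero])

/-! ### normalisation -/

/-- normalisation: a function whose divisor is ordinary with trivial reduction is, up to a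
constant, a unit of all the valuation rings taking the value `1` at `P0`. -/
theorem kl_normaliseAll [Finite κ] {g : ℕ} (NS : GraphNS N g) (I : Finset (Fin g)) {u₀ : F}
    (hu₀ : u₀ ≠ 0)
    (hoff : ∀ v, (∀ j ∈ I, N.r v ≠ some (NS.Rb j)) → v.ord u₀ = 0)
    (hdisc : ∀ j ∈ I, ∀ hF : IsRRField K F,
      Finsupp.mapDomain N.r (divOf hF u₀) (some (NS.Rb j)) = 0) :
    ∃ a : K, a ≠ 0 ∧ IsUAll N (u₀ / algebraMap K F a) ∧
      (u₀ / algebraMap K F a = 1 ∨ 0 < NS.P0.ord (u₀ / algebraMap K F a - 1)) := by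
  haveI := nonempty_of_ns NS
  obtain ⟨a₁, ha₁, hm, hne⟩ := exists_scaleAll N hu₀
  have hord : ∀ P : Place K F, P.ord (u₀ / algebraMap K F a₁) = P.ord u₀ := fun P =>
    kl_ord_div_const P ha₁ u₀
  have hdiv : ∀ hF : IsRRField K F, divOf hF (u₀ / algebraMap K F a₁) = divOf hF u₀ := by
    intro hF
    ext P; rw [divOf_apply, divOf_apply, hord]
  -- the reductions are constant
  have hpole : ∀ j ∈ I, -1 ≤ gOrdRed N (NS.Rb j) (u₀ / algebraMap K F a₁) := by
    intro j hj
    have hsm := isSmooth_of_r N (NS.r_R j)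
    have hd := hdisc j hj
    have key : gOrdRed N (NS.Rb j) (u₀ / algebraMap K F a₁) = 0 := by
      revert hd hsm
      generalize NS.Rb j = X
      intro hsm hd
      obtain ⟨c, Q⟩ := X
      show Q.ord ((N.S c).red _) = 0
      by_cases h0 : (N.S c).red (u₀ / algebraMap K F a₁) = 0
      · rw [h0, Place.ord_zero]
      · have hU : (gside N c).IsU (u₀ / algebraMap K F a₁) :=
          isU_of_red_ne_zero (S := gside N c) (hm c) h0
        have h1 := push_eq (S := gside N c) hU Q hsm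
        have h2 := hd (gside N c).hF
        rw [← hdiv] at h2
        exact h1.symm.trans h2
    rw [key]; norm_num
  obtain ⟨ab, hab⟩ := red_const_of_regAll NS I hm
    (fun v hv => by rw [hord, hoff v hv]) hpole
  have hab0 : ab ≠ 0 := by
    rintro rfl
    obtain ⟨c, hc⟩ := hne
    exact hc (by rw [hab c, map_zero])
  have hU : ∀ c, (gside N c).IsU (u₀ / algebraMap K F a₁) := fun c =>
    isU_of_red_ne_zero (S := gside N c) (hm c) (by rw [gside_red, hab c]; simpa using hab0)
  -- the value at `P0`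
  obtain ⟨X, hX⟩ := NS.P0_ord
  have hXsm := isSmooth_of_r N hX
  have hXne : ∀ j, NS.Rb j ≠ X := fun j h => NS.r_P0 j (by rw [hX, h])
  have h0X : ∀ P, N.r P = some X → P.ord (u₀ / algebraMap K F a₁) = 0 := fun P hP => by
    rw [hord]
    exact hoff P (fun j _ h' => hXne j (by rw [hP] at h'; exact (Option.some.inj h').symm))
  obtain ⟨c₀, Q⟩ := X
  obtain ⟨a₀, ha₀0, ha₀A, ha₀i, hval⟩ :=
    kl_normalise₁ (gside N c₀) NS.P0 Q hXsm hX (hU c₀) h0X
  have e : u₀ / algebraMap K F (a₁ * a₀) = u₀ / algebraMap K F a₁ / algebraMap K F a₀ := by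
    rw [map_mul, div_div]
  refine ⟨a₁ * a₀, mul_ne_zero ha₁ ha₀0, ?_, ?_⟩
  · rw [e]
    intro c
    exact (hU c).div (isU_const (S := gside N c) ha₀0 ((mem_A_iff N c₀ c _).mp ha₀A)
      ((mem_A_iff N c₀ c _).mp ha₀i))
  · rw [e]; exact hval

/-! ### local data -/

theorem kl_t_isUAll {g : ℕ} (NS : GraphNS N g) (i : Fin g) : IsUAll N (NS.t i) :=
  fun c => isU_of_red_ne_zero (S := gside N c) (NS.t_mem i c) (NS.t_red i c)

/-- `t i - a` is a unit of all the valuation rings, for `a` in the maximal ideal of `A`. -/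
theorem kl_s_isUAll {g : ℕ} (NS : GraphNS N g) (i : Fin g) (c₀ : κ) {a : K}
    (haA : a ∈ (N.S c₀).A) (hai : a⁻¹ ∉ (N.S c₀).A) (c : κ) :
    (gside N c).IsU (NS.t i - algebraMap K F a) ∧
      (gside N c).red (NS.t i - algebraMap K F a) = (gside N c).red (NS.t i) := by
  have haA' : a ∈ (N.S c).A := (mem_A_iff N c₀ c _).mp haA
  have hai' : a⁻¹ ∉ (N.S c).A := fun h => hai ((mem_A_iff N c₀ c _).mpr h)
  have hO : algebraMap K F a ∈ (N.S c).Ov := ((N.S c).mem_Ov_iff a).mpr haA'
  have hr : (gside N c).red (NS.t i - algebraMap K F a) = (gside N c).red (NS.t i) := by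
    rw [red_sub (S := gside N c) (NS.t_mem i c) hO,
      kl_red_const_eq_zero (S := gside N c) haA' hai', sub_zero]
  exact ⟨isU_of_red_ne_zero (S := gside N c) (sub_mem (NS.t_mem i c) hO)
      (by rw [hr]; exact NS.t_red i c), hr⟩

/-- orders of `t i`, `t i - a` on the disc of `Rb j`, `j ≠ i`. -/
theorem kl_ord_otherAll {g : ℕ} (NS : GraphNS N g) (i j : Fin g) (hij : i ≠ j) (c₀ : κ) {a : K}
    (haA : a ∈ (N.S c₀).A) (hai : a⁻¹ ∉ (N.S c₀).A) (v : Place K F)
    (hv : N.r v = some (NS.Rb j)) :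
    v.ord (NS.t i) = 0 ∧ v.ord (NS.t i - algebraMap K F a) = 0 := by
  have hsm := isSmooth_of_r N hv
  have hord := NS.ord_t_other i j hij
  have hreg := NS.t_reg i j
  revert hv hsm hord hreg
  generalize NS.Rb j = X
  intro hv hsm hord hreg
  obtain ⟨c, Q⟩ := X
  exact kl_ord_other (S := gside N c) (NS.t_mem i c) Q hsm (NS.t_red i c) hord hreg
    ((mem_A_iff N c₀ c _).mp haA) (fun h => hai ((mem_A_iff N c₀ c _).mpr h)) v hv

/-- local data at an index `i`, for a point `Pi ≠ R i` of the residue disc of `Rb i`. -/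
theorem kl_exists_selfAll {g : ℕ} (NS : GraphNS N g) (i : Fin g) (c₀ : κ) (Pi : Place K F)
    (hr : N.r Pi = some (NS.Rb i)) (hne : Pi ≠ NS.R i) :
    ∃ a : K, a ≠ 0 ∧ a ∈ (N.S c₀).A ∧ a⁻¹ ∉ (N.S c₀).A ∧
      (∀ v, N.r v = some (NS.Rb i) → v.ord (NS.t i) = Finsupp.single (NS.R i) (1 : ℤ) v) ∧
      (∀ v, N.r v = some (NS.Rb i) →
        v.ord (NS.t i - algebraMap K F a) = Finsupp.single Pi (1 : ℤ) v) := by
  have hsm := isSmooth_of_r N hr
  have hord := NS.ord_t_self i
  have hreg := NS.t_reg i i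
  have hR := NS.r_R i
  revert hr hsm hord hreg hR
  generalize NS.Rb i = X
  intro hr hsm hord hreg hR
  obtain ⟨c, Q⟩ := X
  obtain ⟨a, ha⟩ := kl_exists_self (S := gside N c) (NS.t_mem i c) Q hsm hord hreg (NS.R i) hR
    (NS.t_R i) Pi hr hne
  exact ⟨a, ha.a_ne, (mem_A_iff N c c₀ _).mp ha.a_mem,
    fun h => ha.a_inv ((mem_A_iff N c c₀ _).mpr h), ha.ord_t_self, ha.ord_s_self⟩

end GK

end Fermat.Agent.BadRedG
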