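import Mathlib
import Fermat.Agent.Lib.BadRed.Graph.KeyTwo

set_option autoImplicit false
set_option linter.unusedSectionVars false

/-!
# Cluster G (S36), G-KEY core: the main step of the graph KEY LEMMA (helper7)

`graphMain : GraphMainStatement N g NS`: if `u₀` has divisor `m * ∑ (P i - R i)` with `P i` in the
residue disc of `Rb i` and `m` a unit of `A`, then `P i = R i` for all `i`.
Port of `Nodal/KeyMain.lean` (cluster T) to a finite family of components.
-/

noncomputable section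

open AlgebraicCurve Fermat.Agent.RR Fermat.Agent.Deuring

namespace Fermat.Agent.BadRedG

open Fermat.Agent.BadRed

namespace GK

open Fermat.Agent.S18Key (ord_neg' ord_nonneg_add ord_nonneg_sub ord_nonneg_mul ord_const_nonneg
  ord_one_nonneg ord_add_ge_of_ge ord_add_eq_of_lt mapDomain_apply_eq_sum sum_le_mapDomain
  mapDomain_nonneg le_mapDomain add_le_mapDomain kl_ord_const_mul kl_ord_mul_const
  kl_ord_div_const kl_ord_sum_ge kl_ord_prod kl_ord_pow kl_ord_sub_ge_of_ge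
  kl_ne_zero_of_ord_ne_zero kl_const_eq_zero_of_ord_pos)

open Fermat.Agent.BadRed.NK

variable {K F k : Type*} [Field K] [Field F] [Algebra K F] [Field k]
  {κ : Type*} {Fk : κ → Type*} [∀ c, Field (Fk c)] [∀ c, Algebra k (Fk c)] {ι : Type*}
  {N : GraphSetup K F k κ Fk ι} {g : ℕ}

/-- the choice of the scaling constant `τ`. -/
theorem exists_tauAll [Finite κ] [Nonempty κ] (N : GraphSetup K F k κ Fk ι) (c₀ : κ) (Xf : F)
    {a : K} (ha0 : a ≠ 0) :
    ∃ τ : K, τ ≠ 0 ∧ (∀ c, Xf / algebraMap K F τ ∈ (N.S c).Ov) ∧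
      a / τ ∈ (N.S c₀).A ∧ ((a / τ)⁻¹ ∈ (N.S c₀).A ∨
        ∃ c, (N.S c).red (Xf / algebraMap K F τ) ≠ 0) := by
  have haF0 : algebraMap K F a ≠ 0 := by simpa using ha0
  have h1 : a / a ∈ (N.S c₀).A := by rw [div_self ha0]; exact one_mem _
  have h1i : (a / a)⁻¹ ∈ (N.S c₀).A := by rw [div_self ha0, inv_one]; exact one_mem _
  by_cases hX0 : Xf = 0
  · refine ⟨a, ha0, fun c => ?_, h1, Or.inl h1i⟩
    rw [hX0, zero_div]; exact zero_mem _
  · obtain ⟨b, hb0, hb, hbne⟩ := exists_scaleAll N hX0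
    have hbF0 : algebraMap K F b ≠ 0 := by simpa using hb0
    rcases (N.S c₀).A.mem_or_inv_mem (a / b) with h | h
    · exact ⟨b, hb0, hb, h, Or.inr hbne⟩
    · rw [inv_div] at h
      have e : Xf / algebraMap K F a = Xf / algebraMap K F b * algebraMap K F (b / a) := by
        rw [map_div₀]; field_simp
      refine ⟨a, ha0, fun c => ?_, h1, Or.inl h1i⟩
      rw [e]
      exact mul_mem (hb c) (((N.S c).mem_Ov_iff _).mpr ((mem_A_iff N c₀ c _).mp h))

/-- the core contradiction. -/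
theorem kl_coreAll [Finite κ] (NS : GraphNS N g) (I : Finset (Fin g)) (istar : Fin g)
    (hstar : istar ∈ I) (c₀ : κ)
    {u : F} (huP0 : 0 < NS.P0.ord (u - 1))
    (hu_off : ∀ v, (∀ j ∈ I, N.r v ≠ some (NS.Rb j)) → v.ord u = 0)
    {a : K} (ha0 : a ≠ 0) (haA : a ∈ (N.S c₀).A) (hai : a⁻¹ ∉ (N.S c₀).A)
    {Y : F} (hY : ∀ c, Y ∈ (N.S c).Ov)
    (hY2 : ∀ j ∈ I, -1 ≤ gOrdRed N (NS.Rb j) Y)
    (hY3 : gOrdRed N (NS.Rb istar) Y = -1)
    (huV : ∀ j ∈ I, ∀ v, N.r v = some (NS.Rb j) →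
      v.ord (u * (1 + algebraMap K F a * Y)) = 0) :
    False := by
  haveI := nonempty_of_ns NS
  have haA' : ∀ c, a ∈ (N.S c).A := fun c => (mem_A_iff N c₀ c _).mp haA
  have hai' : ∀ c, a⁻¹ ∉ (N.S c).A := fun c h => hai ((mem_A_iff N c₀ c _).mpr h)
  have hXreg : ∀ j ∈ I, ∀ v, N.r v = some (NS.Rb j) →
      0 ≤ v.ord (u * (1 + algebraMap K F a * Y) - 1) := fun j hj v hv =>
    ord_nonneg_sub v (huV j hj v hv).ge (ord_one_nonneg v)
  obtain ⟨τ, hτ0, hX, hcA, hK3⟩ :=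
    exists_tauAll N c₀ (u * (1 + algebraMap K F a * Y) - 1) ha0
  have hcA' : ∀ c, a / τ ∈ (N.S c).A := fun c => (mem_A_iff N c₀ c _).mp hcA
  have hW : ∀ c, _ := fun c =>
    kl_W_red (S := gside N c) (haA' c) (hai' c) hτ0 (hY c) (hX c) (hcA' c)
  have hordW : ∀ v : Place K F, v.ord ((u - 1) / algebraMap K F τ) = v.ord (u - 1) := fun v =>
    kl_ord_div_const v hτ0 _
  refine kl_finalAll NS I (fun c => (hW c).1) ?_ ?_ ?_ (by rw [hordW]; exact huP0)
  · -- some reduction does not vanish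
    by_cases hci : (a / τ)⁻¹ ∈ (N.S c₀).A
    · have hsm := isSmooth_of_r N (NS.r_R istar)
      have hreg := hXreg istar hstar
      revert hsm hreg hY3
      generalize NS.Rb istar = X
      intro hY3 hsm hreg
      obtain ⟨c, Q⟩ := X
      exact ⟨c, kl_W_ne_zero (S := gside N c) (haA' c) (hai' c) hτ0 (hY c) (hX c) (hcA' c) Q hsm
        hreg hY3 ha0 ((mem_A_iff N c₀ c _).mp hci)⟩
    · rcases hK3 with h | ⟨c, h⟩
      · exact absurd h hci
      · refine ⟨c, ?_⟩
        have := kl_W_red_of_not_unit (S := gside N c) (haA' c) (hai' c) hτ0 (hY c) (hX c)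
          (hcA' c) (fun h' => hci ((mem_A_iff N c₀ c _).mpr h'))
        rw [gside_red] at this
        rw [this]; exact h
  · intro v hv
    rw [hordW]
    exact ord_nonneg_sub v (hu_off v hv).ge (ord_one_nonneg v)
  · intro j hj
    have hsm := isSmooth_of_r N (NS.r_R j)
    have hreg := hXreg j hj
    have hYj := hY2 j hj
    revert hsm hreg hYj
    generalize NS.Rb j = X
    intro hsm hreg hYj
    obtain ⟨c, Q⟩ := X
    exact kl_W_ord_ge (S := gside N c) (haA' c) (hai' c) hτ0 (hY c) (hX c) (hcA' c) Q hsm hreg hYj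

/-- **the main step**. -/
theorem kl_mainAll [Finite κ] (NS : GraphNS N g) (m : ℕ) (hm0 : (m : K) ≠ 0) (c₀ : κ)
    (hmA : ((m : K))⁻¹ ∈ (N.S c₀).A)
    (P : Fin g → Place K F) (hP : ∀ i, N.r (P i) = some (NS.Rb i))
    (u₀ : F) (hu₀ : u₀ ≠ 0)
    (hdiv : ∀ v : Place K F, v.ord u₀ =
      m * ∑ i, (Finsupp.single (P i) (1 : ℤ) v - Finsupp.single (NS.R i) (1 : ℤ) v)) :
    ∀ i, P i = NS.R i := by
  classical
  by_contra hcon
  obtain ⟨i₀, hi₀⟩ := not_forall.mp hcon
  set I : Finset (Fin g) := Finset.univ.filter fun i => P i ≠ NS.R i with hI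
  have hmemI : ∀ i, i ∈ I ↔ P i ≠ NS.R i := fun i => by simp [hI]
  have hIne : I.Nonempty := ⟨i₀, (hmemI i₀).mpr hi₀⟩
  -- the divisor of u₀
  have hterm : ∀ (v : Place K F) (i : Fin g), (i ∉ I ∨ N.r v ≠ some (NS.Rb i)) →
      Finsupp.single (P i) (1 : ℤ) v - Finsupp.single (NS.R i) (1 : ℤ) v = 0 := by
    intro v i h
    rcases h with h | h
    · have : P i = NS.R i := by
        by_contra h'
        exact h ((hmemI i).mpr h')
      rw [this, sub_self]
    · have h1 : v ≠ P i := fun e => h (by rw [e]; exact hP i)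
      have h2 : v ≠ NS.R i := fun e => h (by rw [e]; exact NS.r_R i)
      rw [Finsupp.single_eq_of_ne h1, Finsupp.single_eq_of_ne h2, sub_self]
  have hH1 : ∀ v, (∀ j ∈ I, N.r v ≠ some (NS.Rb j)) → v.ord u₀ = 0 := by
    intro v hv
    rw [hdiv, Finset.sum_eq_zero, mul_zero]
    intro i _
    apply hterm
    by_cases hi : i ∈ I
    · exact Or.inr (hv i hi)
    · exact Or.inl hi
  have hH2 : ∀ j ∈ I, ∀ v, N.r v = some (NS.Rb j) → v.ord u₀ =
      m * (Finsupp.single (P j) (1 : ℤ) v - Finsupp.single (NS.R j) (1 : ℤ) v) := by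
    intro j _ v hv
    rw [hdiv, Finset.sum_eq_single j]
    · intro i _ hij
      apply hterm
      right
      rw [hv]
      exact fun e => hij (NS.Rb_inj (Option.some.inj e)).symm
    · intro h
      exact absurd (Finset.mem_univ j) h
  -- the push-forward of the divisor of `u₀` vanishes
  have hdisc : ∀ j ∈ I, ∀ hF : IsRRField K F,
      Finsupp.mapDomain N.r (divOf hF u₀) (some (NS.Rb j)) = 0 := by
    intro j _ hF
    have hD : divOf hF u₀ =
        (m : ℤ) • ∑ i, (Finsupp.single (P i) (1 : ℤ) - Finsupp.single (NS.R i) (1 : ℤ)) := by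
      ext v
      rw [divOf_apply, hdiv, Finsupp.smul_apply, Finsupp.finsetSum_apply, smul_eq_mul]
      simp only [Finsupp.sub_apply]
    have h0 : ∀ i, Finsupp.mapDomain N.r
        (Finsupp.single (P i) (1 : ℤ) - Finsupp.single (NS.R i) (1 : ℤ)) = 0 := by
      intro i
      rw [sub_eq_add_neg, ← Finsupp.single_neg, Finsupp.mapDomain_add, Finsupp.mapDomain_single,
        Finsupp.mapDomain_single, hP i, NS.r_R i, Finsupp.single_neg, add_neg_cancel]
    rw [hD, Finsupp.mapDomain_smul, Finsupp.mapDomain_finsetSum]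
    simp [h0]
  -- normalise
  obtain ⟨c, hc0, hU, hval⟩ := kl_normaliseAll NS I hu₀ hH1 hdisc
  have hordu : ∀ v : Place K F, v.ord (u₀ / algebraMap K F c) = v.ord u₀ := fun v =>
    kl_ord_div_const v hc0 u₀
  have hmZ : (m : ℤ) ≠ 0 := by
    intro h
    apply hm0
    have : m = 0 := by exact_mod_cast h
    rw [this]
    simp
  have hu1 : u₀ / algebraMap K F c ≠ 1 := by
    intro h1
    have := hH2 i₀ ((hmemI i₀).mpr hi₀) (P i₀) (hP i₀)
    rw [← hordu, h1, Place.ord_one, Finsupp.single_eq_same, Finsupp.single_eq_of_ne hi₀,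
      sub_zero, mul_one] at this
    exact hmZ this.symm
  have huP0 : 0 < NS.P0.ord (u₀ / algebraMap K F c - 1) := hval.resolve_left hu1
  -- local data
  have hloc : ∀ i, ∃ a : K, i ∈ I → (a ≠ 0 ∧ a ∈ (N.S c₀).A ∧ a⁻¹ ∉ (N.S c₀).A ∧
      (∀ v, N.r v = some (NS.Rb i) → v.ord (NS.t i) = Finsupp.single (NS.R i) (1 : ℤ) v) ∧
      (∀ v, N.r v = some (NS.Rb i) →
        v.ord (NS.t i - algebraMap K F a) = Finsupp.single (P i) (1 : ℤ) v)) := by
    intro i
    by_cases hi : i ∈ I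
    · obtain ⟨a, ha⟩ := kl_exists_selfAll NS i c₀ (P i) (hP i) ((hmemI i).mp hi)
      exact ⟨a, fun _ => ha⟩
    · exact ⟨0, fun h => absurd h hi⟩
  choose aI hL using hloc
  -- choose `istar` with maximal valuation
  obtain ⟨istar, hstar, hmax⟩ :=
    Finset.exists_max_image I (fun i => (N.S c₀).A.valuation (aI i)) hIne
  have ha0 : aI istar ≠ 0 := (hL istar hstar).1
  have haA : aI istar ∈ (N.S c₀).A := (hL istar hstar).2.1
  have hai : (aI istar)⁻¹ ∉ (N.S c₀).A := (hL istar hstar).2.2.1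
  have haA' : ∀ c, aI istar ∈ (N.S c).A := fun c => (mem_A_iff N c₀ c _).mp haA
  have hai' : ∀ c, (aI istar)⁻¹ ∉ (N.S c).A := fun c h => hai ((mem_A_iff N c₀ c _).mpr h)
  have hmA' : ∀ c, ((m : K))⁻¹ ∈ (N.S c).A := fun c => (mem_A_iff N c₀ c _).mp hmA
  have haF0 : algebraMap K F (aI istar) ≠ 0 := by simpa using ha0
  have hcA : ∀ i ∈ I, aI i / aI istar ∈ (N.S c₀).A := by
    intro i hi
    rw [← ValuationSubring.valuation_le_one_iff, map_div₀]
    have hpos : 0 < (N.S c₀).A.valuation (aI istar) :=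
      zero_lt_iff.mpr ((Valuation.ne_zero_iff _).mpr ha0)
    exact (div_le_one₀ hpos).mpr (hmax i hi)
  have hcA' : ∀ c, ∀ i ∈ I, aI i / aI istar ∈ (N.S c).A := fun c i hi =>
    (mem_A_iff N c₀ c _).mp (hcA i hi)
  -- units
  have hsU := fun i (hi : i ∈ I) (c : κ) => kl_s_isUAll NS i c₀ (hL i hi).2.1 (hL i hi).2.2.1 c
  have hsU' : ∀ c, ∀ i ∈ I, (gside N c).IsU (NS.t i - algebraMap K F (aI i)) := fun c i hi =>
    (hsU i hi c).1
  have hc₀U : ∀ i ∈ I, (gside N c₀).IsU (NS.t i - algebraMap K F (aI i)) := hsU' c₀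
  have hs0 : ∀ i ∈ I, NS.t i - algebraMap K F (aI i) ≠ 0 := fun i hi => (hc₀U i hi).ne_zero
  -- expansions over `R = ⋂ O_c`
  set R : Subring F := ⨅ c, (N.S c).Ov.toSubring with hR
  have hmemR : ∀ x : F, x ∈ R ↔ ∀ c, x ∈ (N.S c).Ov := fun x => by
    rw [hR, Subring.mem_iInf]; rfl
  have haR : algebraMap K F (aI istar) ∈ R :=
    (hmemR _).mpr fun c => ((N.S c).mem_Ov_iff _).mpr (haA' c)
  have hσR : ∀ i ∈ I,
      algebraMap K F (aI i / aI istar) * (NS.t i - algebraMap K F (aI i))⁻¹ ∈ R := fun i hi =>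
    (hmemR _).mpr fun c => klσ_mem (S := gside N c) (hsU' c) (hcA' c) i hi
  have hq : ∀ i ∈ I, NS.t i * (NS.t i - algebraMap K F (aI i))⁻¹ =
      1 + algebraMap K F (aI istar) *
        (algebraMap K F (aI i / aI istar) * (NS.t i - algebraMap K F (aI i))⁻¹) := by
    intro i hi
    have := hs0 i hi
    rw [map_div₀]
    field_simp
    ring
  have hq0 : ∀ i ∈ I, NS.t i * (NS.t i - algebraMap K F (aI i))⁻¹ ≠ 0 := fun i hi =>
    mul_ne_zero (kl_t_isUAll NS i c₀).ne_zero (inv_ne_zero (hs0 i hi))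
  have hexp : KLExpR R (algebraMap K F (aI istar))
      ((∏ i ∈ I, NS.t i * (NS.t i - algebraMap K F (aI i))⁻¹) ^ m)
      ((m : F) * ∑ i ∈ I,
        algebraMap K F (aI i / aI istar) * (NS.t i - algebraMap K F (aI i))⁻¹) := by
    apply KLExpR.pow haR (sum_mem hσR)
    apply KLExpR.prod I _ _ haR hσR
    intro i hi
    rw [hq i hi]
    exact KLExpR.base _ _ _
  obtain ⟨y, hy, hVy⟩ := hexp
  have hy' : ∀ c, y ∈ (N.S c).Ov := (hmemR y).mp hy
  have hVY : (∏ i ∈ I, NS.t i * (NS.t i - algebraMap K F (aI i))⁻¹) ^ m =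
      1 + algebraMap K F (aI istar) * klY I NS.t aI (aI istar) m y := by
    rw [hVy]; unfold klY; ring
  have hYmem : ∀ c, klY I NS.t aI (aI istar) m y ∈ (N.S c).Ov := fun c =>
    klY_mem (S := gside N c) (hsU' c) (hcA' c) (haA' c) (hy' c)
  -- pole orders of `Y`
  have hY2 : ∀ j ∈ I, -1 ≤ gOrdRed N (NS.Rb j) (klY I NS.t aI (aI istar) m y) := by
    intro j _
    have hord : ∀ i, tupOrd (NS.Rb j) (N.redAll (NS.t i)) ≤ 1 := by
      intro i
      by_cases hij : i = j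
      · subst hij; rw [NS.ord_t_self]
      · rw [NS.ord_t_other i j hij]; norm_num
    revert hord
    unfold gOrdRed
    generalize NS.Rb j = X
    intro hord
    obtain ⟨c, Q⟩ := X
    exact ord_red_klY_ge (S := gside N c) Q (hsU' c) (fun i hi => (hsU i hi c).2) (hcA' c)
      (haA' c) (hai' c) (hy' c) (fun i _ => hord i)
  have hY3 : gOrdRed N (NS.Rb istar) (klY I NS.t aI (aI istar) m y) = -1 := by
    have h1 := NS.ord_t_self istar
    have h0 : ∀ i, i ≠ istar → tupOrd (NS.Rb istar) (N.redAll (NS.t i)) ≤ 0 := fun i hi => by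
      rw [NS.ord_t_other i istar hi]
    revert h1 h0
    unfold gOrdRed
    generalize NS.Rb istar = X
    intro h1 h0
    obtain ⟨c, Q⟩ := X
    exact ord_red_klY_eq (S := gside N c) Q (hsU' c) (fun i hi => (hsU i hi c).2) (hcA' c)
      (haA' c) (hai' c) (hy' c) hm0 (hmA' c) hstar rfl ha0 h1 (fun i _ hi => h0 i hi)
  -- orders of `u * V` on the discs
  have huV : ∀ j ∈ I, ∀ v, N.r v = some (NS.Rb j) →
      v.ord (u₀ / algebraMap K F c *
        (1 + algebraMap K F (aI istar) * klY I NS.t aI (aI istar) m y)) = 0 := by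
    intro j hj v hv
    rw [← hVY, v.ord_mul (hU c₀).ne_zero (pow_ne_zero _ (Finset.prod_ne_zero_iff.mpr hq0)), hordu,
      hH2 j hj v hv, kl_ord_pow, kl_ord_prod v I _ hq0, Finset.sum_eq_single_of_mem j hj]
    · rw [v.ord_mul (kl_t_isUAll NS j c₀).ne_zero (inv_ne_zero (hs0 j hj)), v.ord_inv,
        (hL j hj).2.2.2.1 v hv, (hL j hj).2.2.2.2 v hv]
      ring
    · intro i hi hij
      obtain ⟨h1, h2⟩ := kl_ord_otherAll NS i j hij c₀ (hL i hi).2.1 (hL i hi).2.2.1 v hv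
      rw [v.ord_mul (kl_t_isUAll NS i c₀).ne_zero (inv_ne_zero (hs0 i hi)), v.ord_inv, h1, h2]
      norm_num
  exact kl_coreAll NS I istar hstar c₀ huP0 (fun v hv => by rw [hordu]; exact hH1 v hv)
    ha0 haA hai hYmem hY2 hY3 huV

/-- **the main step of the graph KEY LEMMA.** -/
theorem graphMain [Finite κ] (N : GraphSetup K F k κ Fk ι) (g : ℕ) (NS : GraphNS N g) :
    GraphMainStatement N g NS :=
  fun m hm0 c₀ hmA P hP u₀ hu₀ hdiv => kl_mainAll NS m hm0 c₀ hmA P hP u₀ hu₀ hdiv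

end GK

end Fermat.Agent.BadRedG
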