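import Mathlib
import Fermat.Agent.S18.KeyGlue
import Fermat.Agent.S18.KeyJacobi
import Fermat.Agent.Lib.BadRed.Nodal.KeyJacobi
import Fermat.Agent.Lib.BadRed.Graph.KeyMain

set_option autoImplicit false
set_option linter.style.haveILetI false

/-!
# Cluster G (S36), G-KEY: graph Jacobi inversion, and the graph KEY LEMMA with `GraphNS` as a
hypothesis (helper40; port of `Nodal/KeyJacobi.lean`)

* `GJ.exists_jacobi_tuple` : **Jacobi inversion**, general form: an ordinary divisor `D` of
  degree `0` whose reduction (at the smooth points) is the divisor of a NODAL tuple `a`,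
  `a c ≠ 0` for all `c`, is linearly equivalent to `∑ P i - ∑ R i` with `P i` in the residue disc
  of `Rb i`.
* `GJ.graphJacobi : GraphJacobiStatement N g NS` : the case `a = 1` (`RedTrivial`).
* `GJ.graphKeyOfNS : GraphKeyOfNS N` : the graph KEY LEMMA (with the main step `GK.graphMain`).
* `GJ.graphKey_tuple` : the KEY LEMMA for divisors whose reduction is the divisor of a nodal
  tuple.

Proof of the inversion: Riemann's inequality gives `φ ≠ 0` in `L(D + ∑ R i)`; scale `φ` by the
max norm (`GK.exists_scaleAll`); `φ` has no pole in the annuli, so the tuple of its reductions is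
nodal (`N.node`); the tuple `a * red φ` is nodal with at most simple poles at the `Rb i`, hence a
constant tuple `(x)_c` (`NS.nonspecial`), `x ≠ 0`; so `φ` is a unit of all the valuation rings and
`E = D + ∑ R i + div φ ≥ 0` has a point `P i` in the disc of every `Rb i`; `deg E = g` gives
`E = ∑ P i`.
-/

noncomputable section

open AlgebraicCurve Fermat.Agent.RR Fermat.Agent.Deuring

namespace Fermat.Agent.BadRedG

open Fermat.Agent.BadRed

namespace GJ

open Fermat.Agent.S18Key (mapDomain_apply_eq_sum mapDomain_nonneg le_mapDomain kl_ord_div_const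
  sum_single_apply_self sum_single_apply_other riemann_of_isRRField ord_nonneg_mul)

open Fermat.Agent.BadRed.NK

variable {K F k : Type*} [Field K] [Field F] [Algebra K F] [Field k]
  {κ : Type*} {Fk : κ → Type*} [∀ c, Field (Fk c)] [∀ c, Algebra k (Fk c)] {ι : Type*}

variable {N : GraphSetup K F k κ Fk ι}

/-- nodal tuples are closed under multiplication. -/
theorem isNodalFn_mul {y y' : ∀ c, Fk c} (h : N.IsNodalFn y) (h' : N.IsNodalFn y') :
    N.IsNodalFn (fun c => y c * y' c) := by
  intro i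
  obtain ⟨h1, h2, c, hc1, hc2⟩ := h i
  obtain ⟨h1', h2', c', hc1', hc2'⟩ := h' i
  exact ⟨ord_nonneg_mul _ h1 h1', ord_nonneg_mul _ h2 h2', c * c', NJ.valAt_mul hc1 hc1' h1',
    NJ.valAt_mul hc2 hc2' h2'⟩

theorem isNodalFn_one : N.IsNodalFn (fun _ => 1) := fun i =>
  ⟨by simp, by simp, 1, Or.inl (map_one _).symm, Or.inl (map_one _).symm⟩

/-- a point of the special fibre is smooth or a branch of a node. -/
theorem isSmooth_or_branch (N : GraphSetup K F k κ Fk ι) (X : Σ c, Place k (Fk c)) :
    N.IsSmooth X ∨ (∃ i, X = ⟨N.src i, N.s₁ i⟩) ∨ ∃ i, X = ⟨N.tgt i, N.s₂ i⟩ := by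
  by_cases h1 : ∃ i, X = ⟨N.src i, N.s₁ i⟩
  · exact Or.inr (Or.inl h1)
  by_cases h2 : ∃ i, X = ⟨N.tgt i, N.s₂ i⟩
  · exact Or.inr (Or.inr h2)
  push Not at h1 h2
  exact Or.inl ⟨h1, h2⟩

/-- **Jacobi inversion**, general form: `D` ordinary of degree `0`, with reduction (at the smooth
points) the divisor of the nodal tuple `a`. -/
theorem exists_jacobi_tuple [Finite κ] {g : ℕ} (NS : GraphNS N g) (hg : genusFF K F = g)
    (D : Divisor K F) (hdeg : Divisor.degree D = 0) {a : ∀ c, Fk c} (ha : ∀ c, a c ≠ 0)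
    (hab : N.IsNodalFn a) (hordD : N.IsOrdDiv D)
    (hred : ∀ X, N.IsSmooth X → Finsupp.mapDomain N.r D (some X) = tupOrd X a) :
    ∃ (φ : F) (P : Fin g → Place K F), φ ≠ 0 ∧ (∀ i, N.r (P i) = some (NS.Rb i)) ∧
      ∀ v : Place K F, D v + v.ord φ =
        ∑ i, (Finsupp.single (P i) (1 : ℤ) v - Finsupp.single (NS.R i) (1 : ℤ) v) := by
  classical
  haveI : Nonempty κ := GK.nonempty_of_ns NS
  obtain ⟨c₀⟩ := ‹Nonempty κ›
  have hF : IsRRField K F := (N.S c₀).hF
  have hRinj : Function.Injective NS.R := fun i j hij =>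
    NS.Rb_inj (Option.some.inj (by rw [← NS.r_R i, ← NS.r_R j, hij]))
  set DR : Divisor K F := ∑ i, Finsupp.single (NS.R i) (1 : ℤ) with hDR
  have hdegR : Divisor.degree DR = g := by
    rw [hDR, map_sum]
    simp [Divisor.degree_single, hF.deg_one]
  obtain ⟨φ0, hφ0, hE0⟩ := riemann_of_isRRField hF g hg.le (D + DR)
    (by rw [map_add, hdeg, hdegR, zero_add])
  obtain ⟨c, hc, hm, hne⟩ := GK.exists_scaleAll N hφ0
  set φ : F := φ0 / algebraMap K F c with hφ
  have hφne : φ ≠ 0 := div_ne_zero hφ0 (by simpa using hc)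
  have hord : ∀ v : Place K F, v.ord φ = v.ord φ0 := fun v => kl_ord_div_const v hc φ0
  set E : Divisor K F := D + DR + divOf hF φ with hE
  have hEapp : ∀ v, E v = D v + DR v + v.ord φ := fun v => by
    rw [hE, Finsupp.add_apply, Finsupp.add_apply, divOf_apply]
  have hEnn : ∀ v, 0 ≤ E v := fun v => by
    rw [hEapp, hord]
    have := hE0 v
    rw [Finsupp.add_apply] at this
    exact this
  -- the divisor of the `Rb i`
  set DRb : (Σ c, Place k (Fk c)) →₀ ℤ := ∑ i, Finsupp.single (NS.Rb i) (1 : ℤ) with hDRb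
  have hDRb_self : ∀ i, DRb (NS.Rb i) = 1 := fun i => sum_single_apply_self NS.Rb NS.Rb_inj i
  have hDRb_other : ∀ X, (∀ i, X ≠ NS.Rb i) → DRb X = 0 := fun X hX =>
    sum_single_apply_other NS.Rb X hX
  have hDRb_nn : ∀ X, 0 ≤ DRb X := fun X => by
    rw [hDRb, Finsupp.finsetSum_apply]
    refine Finset.sum_nonneg fun i _ => ?_
    rw [Finsupp.single_apply]
    split_ifs <;> norm_num
  have hmapDR : ∀ X, Finsupp.mapDomain N.r DR (some X) = DRb X := by
    intro X
    rw [hDR, Finsupp.mapDomain_finsetSum, hDRb, Finsupp.finsetSum_apply, Finsupp.finsetSum_apply]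
    refine Finset.sum_congr rfl fun i _ => ?_
    rw [Finsupp.mapDomain_single, NS.r_R, Finsupp.single_apply, Finsupp.single_apply]
    simp only [Option.some.injEq]
  -- `φ` has no pole in the annuli
  have hDRnone : ∀ v, N.r v = none → DR v = 0 := fun v hv =>
    sum_single_apply_other NS.R v (fun i h => by
      rw [h, NS.r_R] at hv
      exact Option.some_ne_none _ hv)
  have hDnone : ∀ v, N.r v = none → D v = 0 := fun v hv => by
    by_contra h
    obtain ⟨Q, hQ⟩ := hordD v h
    rw [hv] at hQ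
    exact Option.some_ne_none _ hQ.symm
  have hreg : ∀ v, N.r v = none → 0 ≤ v.ord φ := fun v hv => by
    have := hEnn v
    rw [hEapp, hDnone v hv, hDRnone v hv] at this
    linarith
  have hnodeφ : N.IsNodalFn (N.redAll φ) := N.node φ hm hreg
  have hAB : N.IsNodalFn (fun c => a c * N.redAll φ c) := isNodalFn_mul hab hnodeφ
  -- push forward at the smooth points
  have hmapE : ∀ X : Σ c, Place k (Fk c), N.IsSmooth X → (N.S X.1).red φ ≠ 0 →
      Finsupp.mapDomain N.r E (some X) = DRb X + tupOrd X (fun c => a c * N.redAll φ c) := by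
    rintro ⟨c₁, Q⟩ hX hnz
    rw [hE, Finsupp.mapDomain_add, Finsupp.mapDomain_add, Finsupp.add_apply, Finsupp.add_apply,
      hmapDR, hred _ hX]
    have hnz' : (N.S c₁).red φ ≠ 0 := hnz
    have hU : (GK.gside N c₁).IsU φ := isU_of_red_ne_zero (S := GK.gside N c₁) (hm c₁) hnz'
    have hp : Finsupp.mapDomain N.r (divOf hF φ) (some ⟨c₁, Q⟩) = Q.ord ((N.S c₁).red φ) :=
      push_eq (S := GK.gside N c₁) hU Q hX
    rw [hp, tupOrd_mk, tupOrd_mk, GraphSetup.redAll_apply, Q.ord_mul (ha c₁) hnz']
    ring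
  have hpole : ∀ X : Σ c, Place k (Fk c), N.IsSmooth X →
      -DRb X ≤ tupOrd X (fun c => a c * N.redAll φ c) := by
    intro X hX
    by_cases hnz : (N.S X.1).red φ ≠ 0
    · have h1 := mapDomain_nonneg N.r E (some X) (fun P _ => hEnn P)
      rw [hmapE X hX hnz] at h1
      linarith
    · have h' : (N.S X.1).red φ = 0 := not_not.mp hnz
      have h0 : tupOrd X (fun c => a c * N.redAll φ c) = 0 := by
        show X.2.ord (a X.1 * (N.S X.1).red φ) = 0
        rw [h', mul_zero, Place.ord_zero]
      rw [h0]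
      have := hDRb_nn X
      linarith
  -- the tuple is constant
  obtain ⟨x, hx⟩ := NS.nonspecial _ hAB
    (fun X hX => by
      rcases isSmooth_or_branch N X with hs | ⟨i, rfl⟩ | ⟨i, rfl⟩
      · have := hpole X hs
        rw [hDRb_other _ (fun i h => hX i h.symm), neg_zero] at this
        exact this
      · exact (hAB i).1
      · exact (hAB i).2.1)
    (fun i => by
      have := hpole (NS.Rb i) (GK.isSmooth_of_r N (NS.r_R i))
      rw [hDRb_self] at this
      exact this)
  have hx' : ∀ c₁, a c₁ * (N.S c₁).red φ = algebraMap k (Fk c₁) x := fun c₁ => hx c₁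
  have hx0 : x ≠ 0 := by
    rintro rfl
    obtain ⟨c₁, hc₁⟩ := hne
    have := hx' c₁
    rw [map_zero] at this
    exact mul_ne_zero (ha c₁) hc₁ this
  have hnz : ∀ c₁, (N.S c₁).red φ ≠ 0 := by
    intro c₁ h
    have := hx' c₁
    rw [h, mul_zero] at this
    exact hx0 ((map_eq_zero (algebraMap k (Fk c₁))).mp this.symm)
  have hpc : ∀ X : Σ c, Place k (Fk c), tupOrd X (fun c => a c * N.redAll φ c) = 0 := by
    rintro ⟨c₁, Q⟩
    show Q.ord (a c₁ * (N.S c₁).red φ) = 0
    rw [hx' c₁]
    exact Fermat.Agent.S24Res.ord_algebraMap Q x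
  have hmapRb : ∀ i, Finsupp.mapDomain N.r E (some (NS.Rb i)) = 1 := fun i => by
    rw [hmapE (NS.Rb i) (GK.isSmooth_of_r N (NS.r_R i)) (hnz _), hDRb_self, hpc, add_zero]
  -- choose the points `P i`
  have hex : ∀ i, ∃ P : Place K F, N.r P = some (NS.Rb i) ∧ 0 < E P := by
    intro i
    by_contra hcon
    push Not at hcon
    have : Finsupp.mapDomain N.r E (some (NS.Rb i)) ≤ 0 := by
      rw [mapDomain_apply_eq_sum]
      apply Finset.sum_nonpos
      intro P _
      split_ifs with h1
      · exact hcon P h1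
      · exact le_rfl
    rw [hmapRb] at this
    omega
  choose P hP hPpos using hex
  have hPinj : Function.Injective P := fun i j hij =>
    NS.Rb_inj (Option.some.inj (by rw [← hP i, ← hP j, hij]))
  set EP : Divisor K F := ∑ i, Finsupp.single (P i) (1 : ℤ) with hEP
  have hEP_self : ∀ i, EP (P i) = 1 := fun i => sum_single_apply_self P hPinj i
  have hEP_other : ∀ v, (∀ i, v ≠ P i) → EP v = 0 := fun v hv =>
    sum_single_apply_other P v hv
  have hdegEP : Divisor.degree EP = g := by
    rw [hEP, map_sum]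
    simp [Divisor.degree_single, hF.deg_one]
  have hle : EP ≤ E := by
    rw [Finsupp.le_def]
    intro v
    by_cases hv : ∃ i, v = P i
    · obtain ⟨i, rfl⟩ := hv
      rw [hEP_self]
      have := hPpos i
      omega
    · push Not at hv
      rw [hEP_other v hv]
      exact hEnn v
  have hdegE : Divisor.degree E = g := by
    rw [hE, map_add, map_add, hdeg, hdegR, degree_divOf]
    ring
  have hEeq : EP = E := eq_of_le_of_degree_eq_aux hF hle (by rw [hdegEP, hdegE])
  refine ⟨φ, P, hφne, hP, fun v => ?_⟩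
  have h1 : D v + v.ord φ = E v - DR v := by
    rw [hEapp]
    ring
  rw [h1, ← hEeq, Finset.sum_sub_distrib, hEP, hDR, Finsupp.finsetSum_apply,
    Finsupp.finsetSum_apply]

/-- **graph Jacobi inversion.** -/
theorem graphJacobi [Finite κ] (N : GraphSetup K F k κ Fk ι) (g : ℕ) (NS : GraphNS N g) :
    GraphJacobiStatement N g NS := by
  intro hg D hdeg hred
  refine exists_jacobi_tuple NS hg D hdeg (a := fun _ => 1) (fun _ => one_ne_zero)
    isNodalFn_one hred.1 (fun X _ => ?_)
  rw [hred.2 X]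
  show (0 : ℤ) = X.2.ord 1
  simp

/-- **the graph KEY LEMMA, with `GraphNS` as a hypothesis.** -/
theorem graphKeyOfNS [Finite κ] (N : GraphSetup K F k κ Fk ι) : GraphKeyOfNS N :=
  graphKeyOfNS_of_steps N (fun NS => graphJacobi N _ NS) (fun NS => GK.graphMain N _ NS)

/-- **the graph KEY LEMMA for divisors whose reduction is the divisor of a nodal tuple**:
`D` ordinary of degree `0`, `r_* D = div a` at the smooth points for a nodal tuple `a` with
`a c ≠ 0`, and `m D` principal, `m` a unit of `A`: then `D` is principal. -/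
theorem graphKey_tuple [Finite κ] (NS : GraphNS N (genusFF K F)) (m : ℕ) (hm0 : (m : K) ≠ 0)
    (c₀ : κ) (hmA : ((m : K))⁻¹ ∈ (N.S c₀).A) (D : Divisor K F)
    (hdeg : Divisor.degree D = 0)
    {a : ∀ c, Fk c} (ha : ∀ c, a c ≠ 0) (hab : N.IsNodalFn a)
    (hordD : N.IsOrdDiv D)
    (hred : ∀ X, N.IsSmooth X → Finsupp.mapDomain N.r D (some X) = tupOrd X a)
    (hmD : (m • D) ∈ Divisor.principal (K := K) (F := F)) :
    D ∈ Divisor.principal (K := K) (F := F) := by
  obtain ⟨φ, P, hφ, hP, hE⟩ := exists_jacobi_tuple NS rfl D hdeg ha hab hordD hred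
  obtain ⟨f₁, hf₁, hf₁d⟩ := hmD
  have hmain := GK.graphMain N _ NS m hm0 c₀ hmA P hP (f₁ * φ ^ m)
    (mul_ne_zero hf₁ (pow_ne_zero _ hφ))
    (fun v => by
      rw [v.ord_mul hf₁ (pow_ne_zero _ hφ), ← hf₁d, ← hE v, Finsupp.smul_apply]
      have hpow : ∀ n : ℕ, v.ord (φ ^ n) = n * v.ord φ := by
        intro n
        induction n with
        | zero => simp
        | succ k ihk => rw [pow_succ, v.ord_mul (pow_ne_zero _ hφ) hφ, ihk]; push_cast; ring
      rw [hpow m]
      simp only [nsmul_eq_mul]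
      ring)
  refine ⟨φ⁻¹, inv_ne_zero hφ, fun v => ?_⟩
  rw [v.ord_inv]
  have h := hE v
  rw [Finset.sum_eq_zero (fun i _ => by rw [hmain i, sub_self])] at h
  omega

end GJ

end Fermat.Agent.BadRedG
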