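import Mathlib
import Fermat.Agent.Lib.BadRed.Graph.GlueDefs
import Fermat.Agent.Lib.RR.Weil

set_option autoImplicit false

/-!
# Cluster G, abstract graph package: GLUING, seat GL-VEQ (helper91; sub-architect helper92)

Graph version of cluster T's `Gluing.GData.exists_V_eq`:

`glueVEq_of : GlueDegreeStatement N → GlueJointStatement N → GlueTwistDimStatement N →
    GluePushStatement N → GlueNodeStatement N → GlueVEqStatement N`   (`[Infinite k]`)

For a big base divisor `R` the space `V_x(R)` of the joint reductions of the joint lattice of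
`L(R + D)` IS one of the twisted graph Riemann-Roch spaces `gTwistRR N ζ (r_* R)`, `ζ i ^ n = 1`:
* every element of `V` lies in one of finitely many twisted spaces (push + node), hence `V` lies
  in one of them (a vector space over an infinite field is not a finite union of proper
  subspaces);
* `dim V ≥ ℓ(R + D) = deg R + 1 - g` (joint lattice, Riemann-Roch);
* `dim gTwistRR ≤ Σ_c ℓ(r_* R)_c - #ι = deg R + #κ - Σ g_c - #ι = deg R + 1 - g` (genus relation).

`GlueDegreeStatement N` is the degree formula `deg D = Σ_c deg (r_* D)_c` for ordinary divisors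
(seat GL-RED).
-/

noncomputable section

open AlgebraicCurve Fermat.Agent.RR Fermat.Agent.Deuring

namespace Fermat.Agent.BadRedG

open Fermat.Agent.BadRed

variable {K F k : Type*} [Field K] [Field F] [Algebra K F] [Field k]
  {κ : Type*} {Fk : κ → Type*} [∀ c, Field (Fk c)] [∀ c, Algebra k (Fk c)] {ι : Type*}

section Aux

variable (N : GraphSetup K F k κ Fk ι)

/-- the degree formula for ordinary divisors (seat GL-RED proves it). -/
def GlueDegreeStatement [Fintype κ] : Prop :=
  ∀ D : Divisor K F, N.IsOrdDiv D → Divisor.degree D = ∑ c, Divisor.degree (N.redDiv c D)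

/-- the reduction of a divisor has no node in its support (first branch). -/
theorem veq_redDiv_node₁ (D : Divisor K F) (i : ι) : N.redDiv (N.src i) D (N.s₁ i) = 0 := by
  rw [GraphSetup.redDiv_apply]
  refine Finsupp.mapDomain_of_notMem_range _ _ ?_
  rintro ⟨P, hP⟩
  exact N.r_ne_node₁ P i hP

/-- the reduction of a divisor has no node in its support (second branch). -/
theorem veq_redDiv_node₂ (D : Divisor K F) (i : ι) : N.redDiv (N.tgt i) D (N.s₂ i) = 0 := by
  rw [GraphSetup.redDiv_apply]
  refine Finsupp.mapDomain_of_notMem_range _ _ ?_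
  rintro ⟨P, hP⟩
  exact N.r_ne_node₂ P i hP

include N in
/-- a graph with a node has at least two components. -/
theorem veq_card_ineq [Fintype κ] [Fintype ι] [Nonempty κ] :
    2 * (Fintype.card ι : ℤ) < (Fintype.card κ : ℤ) * (Fintype.card ι : ℤ) + Fintype.card κ := by
  have hκ : (1 : ℤ) ≤ Fintype.card κ := by exact_mod_cast Fintype.card_pos
  rcases isEmpty_or_nonempty ι with hι | ⟨⟨i⟩⟩
  · have : Fintype.card ι = 0 := Fintype.card_eq_zero
    rw [this]
    push_cast
    linarith
  · have h2 : (2 : ℤ) ≤ Fintype.card κ := by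
      have := Fintype.one_lt_card_iff.mpr ⟨N.src i, N.tgt i, N.src_ne_tgt i⟩
      exact_mod_cast this
    have hι0 : (0 : ℤ) ≤ Fintype.card ι := Int.natCast_nonneg _
    nlinarith

end Aux

section Big

variable {N : GraphSetup K F k κ Fk ι}

/-- the degree of a big divisor is large. -/
theorem GBig.degree_gt [Fintype κ] [Fintype ι] [Nonempty κ] {R : Divisor K F} (hR : GBig N R)
    (hdeg : GlueDegreeStatement N) (hrel : N.GenusRel) :
    2 * (genusFF K F : ℤ) - 2 < Divisor.degree R := by
  have h3 := hdeg R hR.ord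
  have h4 : (genusFF K F : ℤ) + Fintype.card κ =
      (∑ c, (genusFF k (Fk c) : ℤ)) + Fintype.card ι + 1 := by
    have := hrel
    unfold GraphSetup.GenusRel at this
    exact_mod_cast this
  have h5 : ∑ c : κ, (2 * (genusFF k (Fk c) : ℤ) - 1 + Fintype.card ι) ≤
      ∑ c, Divisor.degree (N.redDiv c R) := by
    refine Finset.sum_le_sum fun c _ => ?_
    have := hR.deg c
    omega
  have h6 : ∑ c : κ, (2 * (genusFF k (Fk c) : ℤ) - 1 + Fintype.card ι) =
      2 * (∑ c, (genusFF k (Fk c) : ℤ)) - Fintype.card κ +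
        (Fintype.card κ : ℤ) * Fintype.card ι := by
    rw [Finset.sum_add_distrib, Finset.sum_sub_distrib, ← Finset.mul_sum, Finset.sum_const,
      Finset.sum_const, Finset.card_univ]
    simp only [nsmul_eq_mul, mul_one]
  have h7 := veq_card_ineq N
  rw [h3]
  rw [h6] at h5
  linarith

/-- Riemann-Roch for `R + D`, `R` big, `deg D = 0`. -/
theorem GBig.ell_eq [Fintype κ] [Fintype ι] [Nonempty κ] {R : Divisor K F} (hR : GBig N R)
    (hdeg : GlueDegreeStatement N) (hrel : N.GenusRel) {D : Divisor K F}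
    (hD : Divisor.degree D = 0) :
    (ell (R + D) : ℤ) = Divisor.degree R + 1 - (genusFF K F : ℤ) := by
  obtain ⟨c₀⟩ := ‹Nonempty κ›
  have h := ell_of_degree_gt (N.S c₀).hF (D := R + D) (by
    rw [map_add, hD, add_zero]
    exact hR.degree_gt hdeg hrel)
  rw [h, map_add, hD, add_zero]

/-- upper bound for the dimension of the twisted spaces of a big divisor. -/
theorem GBig.finrank_gTwistRR_le [Fintype κ] [Fintype ι] [Nonempty κ] {R : Divisor K F}
    (hR : GBig N R) (hdeg : GlueDegreeStatement N) (htw : GlueTwistDimStatement N)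
    (hrel : N.GenusRel) (ζ : ι → k) :
    Module.Finite k (gTwistRR N ζ (fun c => N.redDiv c R)) ∧
      (Module.finrank k (gTwistRR N ζ (fun c => N.redDiv c R)) : ℤ) ≤
        Divisor.degree R + 1 - (genusFF K F : ℤ) := by
  obtain ⟨hfin, h0⟩ := htw ζ (fun c => N.redDiv c R) (fun i => veq_redDiv_node₁ N R i)
    (fun i => veq_redDiv_node₂ N R i) hR.deg
  refine ⟨hfin, ?_⟩
  have hι0 : (0 : ℤ) ≤ Fintype.card ι := Int.natCast_nonneg _
  have h1 : ∀ c, (ell (N.redDiv c R) : ℤ) =
      Divisor.degree (N.redDiv c R) + 1 - (genusFF k (Fk c) : ℤ) := by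
    intro c
    exact ell_of_degree_gt (N.S c).hFk (by have := hR.deg c; omega)
  have h3 := hdeg R hR.ord
  have h4 : (genusFF K F : ℤ) + Fintype.card κ =
      (∑ c, (genusFF k (Fk c) : ℤ)) + Fintype.card ι + 1 := by
    have := hrel
    unfold GraphSetup.GenusRel at this
    exact_mod_cast this
  have h0' : (Module.finrank k (gTwistRR N ζ (fun c => N.redDiv c R)) : ℤ) +
      Fintype.card ι ≤ ∑ c, (ell (N.redDiv c R) : ℤ) := by
    exact_mod_cast h0
  have h5 : ∑ c, (ell (N.redDiv c R) : ℤ) =
      (∑ c, Divisor.degree (N.redDiv c R)) + Fintype.card κ -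
        ∑ c, (genusFF k (Fk c) : ℤ) := by
    rw [Finset.sum_congr rfl (fun c _ => h1 c), Finset.sum_sub_distrib, Finset.sum_add_distrib,
      Finset.sum_const, Finset.card_univ]
    simp only [nsmul_eq_mul, mul_one]
  rw [h5, ← h3] at h0'
  linarith

end Big

section V

variable {N : GraphSetup K F k κ Fk ι} {n : ℕ} (d : GlueData N n)

/-- every element of `V_x(R)` lies in one of the twisted graph Riemann-Roch spaces. -/
theorem GlueData.exists_mem_gTwistRR [Nonempty κ] (hpush : GluePushStatement N)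
    (hnode : GlueNodeStatement N) (hn : n ≠ 0) {R : Divisor K F} (hR0 : 0 ≤ R)
    (hRord : N.IsOrdDiv R) {y : ∀ c, Fk c} (hy : y ∈ d.V R) :
    ∃ ζ : ι → k, (∀ i, ζ i ^ n = 1) ∧ y ∈ gTwistRR N ζ (fun c => N.redDiv c R) := by
  obtain ⟨φ, hφ, rfl⟩ := hy
  choose ζ hζ hval using fun i => hnode n hn d R hR0 hRord φ hφ i
  exact ⟨ζ, hζ, fun c => hpush n hn d R hR0 hRord φ hφ c, hval⟩

/-- multiplication by the tuple `h`. -/
def GlueData.mulH : (∀ c, Fk c) →ₗ[k] (∀ c, Fk c) :=
  LinearMap.pi fun c => (LinearMap.mulRight k (d.h c)) ∘ₗ (LinearMap.proj c)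

theorem GlueData.mulH_apply (y : ∀ c, Fk c) (c : κ) : d.mulH y c = y c * d.h c := rfl

theorem GlueData.ker_mulH : LinearMap.ker d.mulH = ⊥ := by
  rw [LinearMap.ker_eq_bot']
  intro y hy
  funext c
  have h1 : y c * d.h c = 0 := congrFun hy c
  exact (mul_eq_zero.mp h1).resolve_right (d.hh c)

/-- **lower bound** for the dimension of `V_x(R)` (joint lattice). -/
theorem GlueData.le_finrank_V [Nonempty κ] (hjoint : GlueJointStatement N) {R : Divisor K F}
    [Module.Finite k (d.V R)] : ell (R + d.D) ≤ Module.finrank k (d.V R) := by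
  classical
  obtain ⟨c₀⟩ := ‹Nonempty κ›
  have hfinW : FiniteDimensional K (riemannRochSpace (R + d.D)) :=
    finite_riemannRochSpace (N.S c₀).hF _
  obtain ⟨r, w, hr, hwW, hwO, hli⟩ := hjoint (riemannRochSpace (R + d.D)) hfinW d.b d.hb
  have hli2 : LinearIndependent k (fun j => d.A (w j)) := by
    have := hli.map' d.mulH d.ker_mulH
    exact this
  have hmemV : ∀ j, d.A (w j) ∈ d.V R := fun j => ⟨w j, ⟨hwW j, hwO j⟩, rfl⟩
  have hli3 : LinearIndependent k (fun j => (⟨d.A (w j), hmemV j⟩ : d.V R)) := by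
    apply LinearIndependent.of_comp (d.V R).subtype
    exact hli2
  have hcard := hli3.fintype_card_le_finrank
  rw [Fintype.card_fin] at hcard
  rw [ell_def, hr]
  exact hcard

end V

/-- **(GL-VEQ)** `V_x(R)` is a twisted graph Riemann-Roch space. -/
theorem glueVEq_of [Fintype κ] [Nonempty κ] [Fintype ι] [Infinite k]
    (N : GraphSetup K F k κ Fk ι) (hdeg : GlueDegreeStatement N)
    (hjoint : GlueJointStatement N) (htw : GlueTwistDimStatement N)
    (hpush : GluePushStatement N) (hnode : GlueNodeStatement N) : GlueVEqStatement N := by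
  classical
  intro hrel n hn d R hR
  set Z : Finset (ι → k) := Fintype.piFinset (fun _ => Polynomial.nthRootsFinset n (1 : k))
    with hZ
  have hmemZ : ∀ ζ : ι → k, ζ ∈ Z ↔ ∀ i, ζ i ^ n = 1 := by
    intro ζ
    rw [hZ, Fintype.mem_piFinset]
    refine forall_congr' fun i => ?_
    rw [Polynomial.mem_nthRootsFinset (Nat.pos_of_ne_zero hn)]
  -- one of the spaces contains `V`
  have hex : ∃ ζ ∈ Z, d.V R ≤ gTwistRR N ζ (fun c => N.redDiv c R) := by
    by_contra hcon
    push Not at hcon
    let s : Finset (Subspace k (d.V R)) :=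
      Z.image (fun ζ => (gTwistRR N ζ (fun c => N.redDiv c R)).comap (d.V R).subtype)
    have hs : (⊤ : Subspace k (d.V R)) ∉ s := by
      intro h
      obtain ⟨ζ, hζ, hζtop⟩ := Finset.mem_image.mp h
      apply hcon ζ hζ
      intro p hp
      have hmem : (⟨p, hp⟩ : d.V R) ∈ (⊤ : Subspace k (d.V R)) := Submodule.mem_top
      rw [← hζtop] at hmem
      exact hmem
    apply Subspace.biUnion_ne_univ_of_top_notMem hs
    ext x
    simp only [Set.mem_iUnion, Set.mem_univ, iff_true]
    obtain ⟨ζ, hζ, hx⟩ := d.exists_mem_gTwistRR hpush hnode hn hR.nonneg hR.ord x.2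
    exact ⟨_, Finset.mem_image_of_mem _ ((hmemZ ζ).mpr hζ), hx⟩
  obtain ⟨ζ, hζ, hle⟩ := hex
  refine ⟨ζ, (hmemZ ζ).mp hζ, ?_⟩
  obtain ⟨hfinT, h2⟩ := hR.finrank_gTwistRR_le hdeg htw hrel ζ
  have hfinV : Module.Finite k (d.V R) := Submodule.finiteDimensional_of_le hle
  apply Submodule.eq_of_le_of_finrank_le hle
  have h1 := d.le_finrank_V hjoint (R := R)
  have h3 := hR.ell_eq hdeg hrel d.hdeg
  have h1' : (ell (R + d.D) : ℤ) ≤ (Module.finrank k (d.V R) : ℤ) := by exact_mod_cast h1
  have : (Module.finrank k (gTwistRR N ζ (fun c => N.redDiv c R)) : ℤ) ≤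
      (Module.finrank k (d.V R) : ℤ) := by omega
  exact_mod_cast this

end Fermat.Agent.BadRedG
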