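import Mathlib
import Fermat.Agent.Lib.BadRed.Graph.GlueDefs
import Fermat.Agent.Lib.BadRed.Graph.GlueVEq

set_option autoImplicit false

/-!
# Cluster G, abstract graph package: GLUING, seat GL-RED (helper78)

The API of `N.redDiv c D` (the reduction `r_* D` of a divisor, restricted to the component `c`)
for a `GraphSetup`: graph version of `Nodal/Gluing/Values` (section `RedDiv`) and of
`Nodal/Gluing/Space` (section `Big`).

* `redDiv_add / zero / neg / sub / nsmul / single / single_of_ne / single_of_none / nonneg`,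
  `redDiv_node₁`, `redDiv_node₂` (nothing reduces to a node), `redDiv_sum`;
* `degree_eq_redDiv`, `degree_of_isOrdDiv` : `deg D = Σ_c deg (N.redDiv c D)` for ordinary `D`;
* `isOrdDiv_zero / add / neg / sub / nsmul / single / sum`, `isOrdDiv_of_nonneg`;
* `exists_ordLift` : every family `(R_c)` of divisors without nodes in the support is the
  reduction of an ordinary divisor `R` (`R ≥ 0` if all `R_c ≥ 0`);
* `glueDegree : GlueDegreeStatement N` (the hypothesis of `glueVEq_of`, seat GL-VEQ);
* `GBig.add`, `GBig.mono`, `GBig.redDiv_deg_gt`, `GBig.ell_redDiv`, `exists_gBig`,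
  `exists_gBig_ge` (`GBig.degree_gt`, `GBig.ell_eq` are in `GlueVEq.lean`).
-/

noncomputable section

open AlgebraicCurve Fermat.Agent.RR Fermat.Agent.Deuring

namespace Fermat.Agent.BadRedG

open Fermat.Agent.BadRed

variable {K F k : Type*} [Field K] [Field F] [Algebra K F] [Field k]
  {κ : Type*} {Fk : κ → Type*} [∀ c, Field (Fk c)] [∀ c, Algebra k (Fk c)] {ι : Type*}

section RedDiv

variable (N : GraphSetup K F k κ Fk ι)

theorem GraphSetup.redDiv_add (c : κ) (D E : Divisor K F) :
    N.redDiv c (D + E) = N.redDiv c D + N.redDiv c E := by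
  ext Q
  rw [Finsupp.add_apply, N.redDiv_apply, N.redDiv_apply, N.redDiv_apply, Finsupp.mapDomain_add,
    Finsupp.add_apply]

theorem GraphSetup.redDiv_zero (c : κ) : N.redDiv c (0 : Divisor K F) = 0 := by
  ext Q
  rw [N.redDiv_apply, Finsupp.mapDomain_zero]
  rfl

theorem GraphSetup.mapDomain_r_neg (D : Divisor K F) :
    Finsupp.mapDomain N.r (-D) = -Finsupp.mapDomain N.r D := by
  have h := Finsupp.mapDomain_add (f := N.r) (v₁ := D) (v₂ := -D)
  rw [add_neg_cancel, Finsupp.mapDomain_zero] at h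
  exact eq_neg_of_add_eq_zero_right h.symm

theorem GraphSetup.mapDomain_r_sub (D E : Divisor K F) :
    Finsupp.mapDomain N.r (D - E) = Finsupp.mapDomain N.r D - Finsupp.mapDomain N.r E := by
  rw [sub_eq_add_neg, Finsupp.mapDomain_add, N.mapDomain_r_neg, sub_eq_add_neg]

theorem GraphSetup.mapDomain_r_nsmul (n : ℕ) (D : Divisor K F) :
    Finsupp.mapDomain N.r (n • D) = n • Finsupp.mapDomain N.r D := by
  induction n with
  | zero => rw [zero_smul, zero_smul, Finsupp.mapDomain_zero]
  | succ m ih => rw [succ_nsmul, succ_nsmul, Finsupp.mapDomain_add, ih]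

theorem GraphSetup.redDiv_neg (c : κ) (D : Divisor K F) : N.redDiv c (-D) = -N.redDiv c D := by
  have h := N.redDiv_add c D (-D)
  rw [add_neg_cancel, N.redDiv_zero] at h
  exact eq_neg_of_add_eq_zero_right h.symm

theorem GraphSetup.redDiv_sub (c : κ) (D E : Divisor K F) :
    N.redDiv c (D - E) = N.redDiv c D - N.redDiv c E := by
  rw [sub_eq_add_neg, N.redDiv_add, N.redDiv_neg, sub_eq_add_neg]

theorem GraphSetup.redDiv_nsmul (c : κ) (n : ℕ) (D : Divisor K F) :
    N.redDiv c (n • D) = n • N.redDiv c D := by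
  induction n with
  | zero => rw [zero_smul, zero_smul, N.redDiv_zero]
  | succ m ih => rw [succ_nsmul, succ_nsmul, N.redDiv_add, ih]

theorem GraphSetup.redDiv_sum {α : Type*} (c : κ) (s : Finset α) (D : α → Divisor K F) :
    N.redDiv c (∑ a ∈ s, D a) = ∑ a ∈ s, N.redDiv c (D a) := by
  classical
  induction s using Finset.induction_on with
  | empty => rw [Finset.sum_empty, Finset.sum_empty, N.redDiv_zero]
  | insert a s ha ih => rw [Finset.sum_insert ha, Finset.sum_insert ha, N.redDiv_add, ih]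

theorem GraphSetup.redDiv_single (P : Place K F) (m : ℤ) (c : κ) (Q : Place k (Fk c))
    (h : N.r P = some ⟨c, Q⟩) : N.redDiv c (Finsupp.single P m) = Finsupp.single Q m := by
  classical
  ext Q'
  rw [N.redDiv_apply, Finsupp.mapDomain_single, h, Finsupp.single_apply, Finsupp.single_apply]
  by_cases hQ : Q = Q'
  · rw [if_pos hQ, if_pos (by rw [hQ])]
  · rw [if_neg hQ, if_neg]
    intro h'
    exact hQ (eq_of_heq (Sigma.mk.inj (Option.some_injective _ h')).2)

theorem GraphSetup.redDiv_single_of_ne (P : Place K F) (m : ℤ) (c : κ)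
    (h : ∀ Q : Place k (Fk c), N.r P ≠ some ⟨c, Q⟩) : N.redDiv c (Finsupp.single P m) = 0 := by
  classical
  ext Q'
  rw [N.redDiv_apply, Finsupp.mapDomain_single, Finsupp.single_apply, if_neg (h Q')]
  rfl

/-- a place of the component `c'` contributes nothing on the component `c ≠ c'`. -/
theorem GraphSetup.redDiv_single_of_ne_comp (P : Place K F) (m : ℤ) {c c' : κ}
    (Q : Place k (Fk c')) (h : N.r P = some ⟨c', Q⟩) (hc : c ≠ c') :
    N.redDiv c (Finsupp.single P m) = 0 := by
  refine N.redDiv_single_of_ne P m c fun Q' h' => hc ?_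
  rw [h] at h'
  exact ((Sigma.mk.inj (Option.some_injective _ h')).1).symm

/-- a place in the annuli contributes nothing. -/
theorem GraphSetup.redDiv_single_of_none (P : Place K F) (m : ℤ) (c : κ) (h : N.r P = none) :
    N.redDiv c (Finsupp.single P m) = 0 :=
  N.redDiv_single_of_ne P m c fun Q h' => by rw [h] at h'; cases h'

/-- nothing reduces to a node (first branch). -/
theorem GraphSetup.redDiv_node₁ (D : Divisor K F) (i : ι) :
    N.redDiv (N.src i) D (N.s₁ i) = 0 := by
  classical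
  rw [N.redDiv_apply, Fermat.Agent.S18Key.mapDomain_apply_eq_sum]
  exact Finset.sum_eq_zero fun P _ => if_neg (N.r_ne_node₁ P i)

/-- nothing reduces to a node (second branch). -/
theorem GraphSetup.redDiv_node₂ (D : Divisor K F) (i : ι) :
    N.redDiv (N.tgt i) D (N.s₂ i) = 0 := by
  classical
  rw [N.redDiv_apply, Fermat.Agent.S18Key.mapDomain_apply_eq_sum]
  exact Finset.sum_eq_zero fun P _ => if_neg (N.r_ne_node₂ P i)

/-- nothing reduces to a branch point, in the form with an arbitrary place of `Fk c`. -/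
theorem GraphSetup.redDiv_eq_zero_of_branch₁ (D : Divisor K F) (c : κ) (Q : Place k (Fk c))
    (i : ι) (h : (⟨c, Q⟩ : Σ c, Place k (Fk c)) = ⟨N.src i, N.s₁ i⟩) : N.redDiv c D Q = 0 := by
  classical
  rw [N.redDiv_apply, h, Fermat.Agent.S18Key.mapDomain_apply_eq_sum]
  exact Finset.sum_eq_zero fun P _ => if_neg (N.r_ne_node₁ P i)

theorem GraphSetup.redDiv_eq_zero_of_branch₂ (D : Divisor K F) (c : κ) (Q : Place k (Fk c))
    (i : ι) (h : (⟨c, Q⟩ : Σ c, Place k (Fk c)) = ⟨N.tgt i, N.s₂ i⟩) : N.redDiv c D Q = 0 := by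
  classical
  rw [N.redDiv_apply, h, Fermat.Agent.S18Key.mapDomain_apply_eq_sum]
  exact Finset.sum_eq_zero fun P _ => if_neg (N.r_ne_node₂ P i)

theorem GraphSetup.redDiv_nonneg (c : κ) {D : Divisor K F} (hD : 0 ≤ D) : 0 ≤ N.redDiv c D := by
  intro Q
  rw [N.redDiv_apply]
  exact Fermat.Agent.S18Key.mapDomain_nonneg _ _ _ fun P _ => hD P

theorem GraphSetup.redDiv_mono (c : κ) {D E : Divisor K F} (h : D ≤ E) :
    N.redDiv c D ≤ N.redDiv c E := by
  have h1 : 0 ≤ E - D := sub_nonneg.mpr h
  have h2 := N.redDiv_nonneg c h1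
  rw [N.redDiv_sub] at h2
  exact sub_nonneg.mp h2

/-- **degree formula**. -/
theorem GraphSetup.degree_eq_redDiv [Fintype κ] [Nonempty κ] (D : Divisor K F) :
    Divisor.degree D =
      Finsupp.mapDomain N.r D none + ∑ c, Divisor.degree (N.redDiv c D) := by
  classical
  obtain ⟨c₀⟩ := ‹Nonempty κ›
  induction D using Finsupp.induction_linear with
  | zero =>
    simp only [N.redDiv_zero, Finsupp.mapDomain_zero, map_zero, Finset.sum_const_zero,
      Finsupp.coe_zero, Pi.zero_apply, add_zero]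
  | add D E hD hE =>
    simp only [N.redDiv_add, Finsupp.mapDomain_add, Finsupp.add_apply, map_add,
      Finset.sum_add_distrib]
    rw [hD, hE]
    ring
  | single P m =>
    rw [degree_single_one (N.S c₀).hF]
    rcases hr : N.r P with _ | ⟨c, Q⟩
    · rw [Finsupp.mapDomain_single, hr, Finsupp.single_eq_same,
        Finset.sum_eq_zero (fun c _ => by rw [N.redDiv_single_of_none P m c hr, map_zero]),
        add_zero]
    · rw [Finsupp.mapDomain_single, hr, Finsupp.single_apply, if_neg (by intro h; cases h),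
        zero_add, Finset.sum_eq_single c, N.redDiv_single P m c Q hr,
        degree_single_one (N.S c).hFk]
      · intro c' _ hc'
        rw [N.redDiv_single_of_ne_comp P m Q hr hc', map_zero]
      · intro h
        exact absurd (Finset.mem_univ c) h

theorem GraphSetup.mapDomain_none_of_isOrdDiv {D : Divisor K F} (hD : N.IsOrdDiv D) :
    Finsupp.mapDomain N.r D none = 0 := by
  classical
  rw [Fermat.Agent.S18Key.mapDomain_apply_eq_sum]
  refine Finset.sum_eq_zero fun P hP => if_neg ?_
  obtain ⟨Q, hQ⟩ := hD P (Finsupp.mem_support_iff.mp hP)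
  rw [hQ]
  exact fun h => by cases h

/-- **degree formula for ordinary divisors**: `deg D = Σ_c deg (r_* D)_c`. -/
theorem GraphSetup.degree_of_isOrdDiv [Fintype κ] [Nonempty κ] {D : Divisor K F}
    (hD : N.IsOrdDiv D) : Divisor.degree D = ∑ c, Divisor.degree (N.redDiv c D) := by
  rw [N.degree_eq_redDiv D, N.mapDomain_none_of_isOrdDiv hD, zero_add]

/-- **(GL-RED) the degree formula**, in the form consumed by `glueVEq_of`. -/
theorem glueDegree [Fintype κ] [Nonempty κ] : GlueDegreeStatement N :=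
  fun _ hD => N.degree_of_isOrdDiv hD

/-- an effective divisor with `(r_* E)(none) = 0` is ordinary. -/
theorem GraphSetup.isOrdDiv_of_nonneg {E : Divisor K F} (hE : 0 ≤ E)
    (h : Finsupp.mapDomain N.r E none = 0) : N.IsOrdDiv E := by
  intro P hP
  rcases hr : N.r P with _ | Q
  · exfalso
    have h1 := Fermat.Agent.S18Key.le_mapDomain N.r E none (fun P' _ => hE P') P hr
    rw [h] at h1
    have h2 : 0 ≤ E P := hE P
    exact hP (le_antisymm h1 h2)
  · exact ⟨Q, hr⟩

theorem GraphSetup.isOrdDiv_zero : N.IsOrdDiv (0 : Divisor K F) := by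
  intro P hP
  exact absurd rfl hP

theorem GraphSetup.isOrdDiv_add {D E : Divisor K F} (hD : N.IsOrdDiv D) (hE : N.IsOrdDiv E) :
    N.IsOrdDiv (D + E) := by
  intro P hP
  by_cases h : D P = 0
  · apply hE P
    intro h'
    apply hP
    rw [Finsupp.add_apply, h, h', add_zero]
  · exact hD P h

theorem GraphSetup.isOrdDiv_neg {D : Divisor K F} (hD : N.IsOrdDiv D) : N.IsOrdDiv (-D) := by
  intro P hP
  apply hD P
  intro h
  apply hP
  rw [Finsupp.neg_apply, h, neg_zero]

theorem GraphSetup.isOrdDiv_sub {D E : Divisor K F} (hD : N.IsOrdDiv D) (hE : N.IsOrdDiv E) :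
    N.IsOrdDiv (D - E) := by
  rw [sub_eq_add_neg]
  exact N.isOrdDiv_add hD (N.isOrdDiv_neg hE)

theorem GraphSetup.isOrdDiv_nsmul {D : Divisor K F} (hD : N.IsOrdDiv D) (n : ℕ) :
    N.IsOrdDiv (n • D) := by
  intro P hP
  apply hD P
  intro h
  apply hP
  rw [Finsupp.smul_apply, h, smul_zero]

theorem GraphSetup.isOrdDiv_zsmul {D : Divisor K F} (hD : N.IsOrdDiv D) (n : ℤ) :
    N.IsOrdDiv (n • D) := by
  intro P hP
  apply hD P
  intro h
  apply hP
  rw [Finsupp.smul_apply, h, smul_zero]

theorem GraphSetup.isOrdDiv_single {P : Place K F} (hP : N.IsOrd P) (m : ℤ) :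
    N.IsOrdDiv (Finsupp.single P m) := by
  classical
  intro P' hP'
  rw [Finsupp.single_apply] at hP'
  split_ifs at hP' with h
  · exact h ▸ hP
  · exact absurd rfl hP'

theorem GraphSetup.isOrdDiv_sum {α : Type*} (s : Finset α) (D : α → Divisor K F)
    (h : ∀ a ∈ s, N.IsOrdDiv (D a)) : N.IsOrdDiv (∑ a ∈ s, D a) := by
  classical
  induction s using Finset.induction_on with
  | empty => rw [Finset.sum_empty]; exact N.isOrdDiv_zero
  | insert a s ha ih =>
    rw [Finset.sum_insert ha]
    exact N.isOrdDiv_add (h a (Finset.mem_insert_self a s))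
      (ih fun b hb => h b (Finset.mem_insert_of_mem hb))

/-- the divisor of a function is ordinary iff all its zeros and poles are. -/
theorem GraphSetup.isOrdDiv_iff (D : Divisor K F) :
    N.IsOrdDiv D ↔ ∀ P, N.r P = none → D P = 0 := by
  constructor
  · intro h P hP
    by_contra hne
    obtain ⟨Q, hQ⟩ := h P hne
    rw [hP] at hQ
    cases hQ
  · intro h P hP
    rcases hr : N.r P with _ | Q
    · exact absurd (h P hr) hP
    · exact ⟨Q, hr⟩

/-- a place is smooth if it is not a branch of a node. -/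
def GraphSetup.IsSmoothPt (c : κ) (Q : Place k (Fk c)) : Prop :=
  (∀ i, (⟨c, Q⟩ : Σ c, Place k (Fk c)) ≠ ⟨N.src i, N.s₁ i⟩) ∧
    ∀ i, (⟨c, Q⟩ : Σ c, Place k (Fk c)) ≠ ⟨N.tgt i, N.s₂ i⟩

theorem GraphSetup.exists_lift_of_isSmoothPt {c : κ} {Q : Place k (Fk c)}
    (h : N.IsSmoothPt c Q) : ∃ P, N.r P = some ⟨c, Q⟩ := N.r_surj c Q h.1 h.2

/-- a place which is not in the support of a divisor without nodes in its support, or rather:
a place in the support of a divisor `R_c` with no node in the support is smooth. -/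
theorem GraphSetup.isSmoothPt_of_apply_ne_zero (Rc : ∀ c, Divisor k (Fk c))
    (h₁ : ∀ i, Rc (N.src i) (N.s₁ i) = 0) (h₂ : ∀ i, Rc (N.tgt i) (N.s₂ i) = 0)
    {c : κ} {Q : Place k (Fk c)} (hQ : Rc c Q ≠ 0) : N.IsSmoothPt c Q := by
  constructor
  · intro i h
    apply hQ
    have hc : c = N.src i := (Sigma.mk.inj h).1
    subst hc
    rw [eq_of_heq (Sigma.mk.inj h).2]
    exact h₁ i
  · intro i h
    apply hQ
    have hc : c = N.tgt i := (Sigma.mk.inj h).1
    subst hc
    rw [eq_of_heq (Sigma.mk.inj h).2]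
    exact h₂ i

/-- **lifting of divisors**: every family `(R_c)` of divisors of the components without nodes in
the support is the reduction of an ORDINARY divisor `R` of `F`, supported on lifts of the points
of the `R_c`; `R ≥ 0` if all `R_c ≥ 0`. -/
theorem GraphSetup.exists_ordLift [Fintype κ] (Rc : ∀ c, Divisor k (Fk c))
    (h₁ : ∀ i, Rc (N.src i) (N.s₁ i) = 0) (h₂ : ∀ i, Rc (N.tgt i) (N.s₂ i) = 0) :
    ∃ R : Divisor K F, N.IsOrdDiv R ∧ (∀ c, N.redDiv c R = Rc c) ∧
      ((∀ c, 0 ≤ Rc c) → 0 ≤ R) := by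
  classical
  -- a lift of every point of the supports
  have hex : ∀ (c : κ) (Q : Place k (Fk c)), Rc c Q ≠ 0 → ∃ P : Place K F,
      N.r P = some ⟨c, Q⟩ := fun c Q hQ =>
    N.exists_lift_of_isSmoothPt (N.isSmoothPt_of_apply_ne_zero Rc h₁ h₂ hQ)
  choose L hL using hex
  have hmem : ∀ (c : κ) (Q : {Q // Q ∈ (Rc c).support}), Rc c Q.1 ≠ 0 := fun c Q =>
    Finsupp.mem_support_iff.mp Q.2
  refine ⟨∑ c, ∑ Q ∈ (Rc c).support.attach,
    Finsupp.single (L c Q.1 (hmem c Q)) (Rc c Q.1), ?_, ?_, ?_⟩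
  · refine N.isOrdDiv_sum _ _ fun c _ => N.isOrdDiv_sum _ _ fun Q _ => ?_
    exact N.isOrdDiv_single ⟨_, hL c Q.1 (hmem c Q)⟩ _
  · intro c
    rw [N.redDiv_sum, Finset.sum_eq_single c]
    · rw [N.redDiv_sum]
      have : ∀ Q ∈ (Rc c).support.attach,
          N.redDiv c (Finsupp.single (L c Q.1 (hmem c Q)) (Rc c Q.1)) =
          Finsupp.single Q.1 (Rc c Q.1) := fun Q _ =>
        N.redDiv_single _ _ c Q.1 (hL c Q.1 (hmem c Q))
      rw [Finset.sum_congr rfl this,
        Finset.sum_attach (Rc c).support (fun Q => Finsupp.single Q (Rc c Q))]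
      exact Finsupp.sum_single (Rc c)
    · intro c' _ hc'
      rw [N.redDiv_sum]
      refine Finset.sum_eq_zero fun Q _ => ?_
      exact N.redDiv_single_of_ne_comp _ _ Q.1 (hL c' Q.1 (hmem c' Q)) (Ne.symm hc')
    · intro h
      exact absurd (Finset.mem_univ c) h
  · intro hpos
    refine Finset.sum_nonneg fun c _ => Finset.sum_nonneg fun Q _ => ?_
    intro P
    rw [Finsupp.single_apply]
    split_ifs
    · exact hpos c Q.1
    · exact le_rfl

end RedDiv

section Big

variable {N : GraphSetup K F k κ Fk ι}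

theorem GBig.add [Fintype ι] {R R' : Divisor K F} (hR : GBig N R) (hR'0 : 0 ≤ R')
    (hR' : N.IsOrdDiv R') : GBig N (R + R') := by
  refine ⟨add_nonneg hR.nonneg hR'0, N.isOrdDiv_add hR.ord hR', fun c => ?_⟩
  rw [N.redDiv_add, map_add]
  have h1 := degree_nonneg_of_nonneg (N.S c).hFk (N.redDiv_nonneg c hR'0)
  have := hR.deg c
  omega

theorem GBig.mono [Fintype ι] {R R' : Divisor K F} (hR : GBig N R) (hle : R ≤ R')
    (hR' : N.IsOrdDiv R') : GBig N R' := by
  have h := hR.add (sub_nonneg.mpr hle) (N.isOrdDiv_sub hR' hR.ord)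
  rwa [add_sub_cancel] at h

/-- the degree of a big divisor on the component `c` -/
theorem GBig.redDiv_deg_gt [Fintype ι] {R : Divisor K F} (hR : GBig N R) (c : κ) :
    2 * (genusFF k (Fk c) : ℤ) - 2 < Divisor.degree (N.redDiv c R) := by
  have h1 := hR.deg c
  have h5 : (0 : ℤ) ≤ Fintype.card ι := Int.natCast_nonneg _
  omega

/-- Riemann-Roch on the component `c` for a big divisor. -/
theorem GBig.ell_redDiv [Fintype ι] {R : Divisor K F} (hR : GBig N R) (c : κ) :
    (ell (N.redDiv c R) : ℤ) =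
      Divisor.degree (N.redDiv c R) + 1 - (genusFF k (Fk c) : ℤ) :=
  ell_of_degree_gt (N.S c).hFk (hR.redDiv_deg_gt c)

variable (N)

/-- a smooth point on every component (`k` infinite). -/
theorem GraphSetup.exists_isSmoothPt [Finite ι] [Infinite k] (c : κ) :
    ∃ Q : Place k (Fk c), N.IsSmoothPt c Q := by
  classical
  have := Fintype.ofFinite ι
  have hinf : Infinite (Place k (Fk c)) := infinite_place (N.S c).hFk
  -- the finite set of the branch points on `c`
  let B₁ : Finset (Place k (Fk c)) :=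
    Finset.univ.biUnion fun i : ι =>
      if h : N.src i = c then {h ▸ N.s₁ i} else ∅
  let B₂ : Finset (Place k (Fk c)) :=
    Finset.univ.biUnion fun i : ι =>
      if h : N.tgt i = c then {h ▸ N.s₂ i} else ∅
  obtain ⟨Q, hQ⟩ := Infinite.exists_notMem_finset (B₁ ∪ B₂)
  rw [Finset.mem_union, not_or] at hQ
  refine ⟨Q, fun i h => hQ.1 ?_, fun i h => hQ.2 ?_⟩
  · have hc : c = N.src i := (Sigma.mk.inj h).1
    subst hc
    have hQ' : Q = N.s₁ i := eq_of_heq (Sigma.mk.inj h).2
    refine Finset.mem_biUnion.mpr ⟨i, Finset.mem_univ i, ?_⟩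
    rw [dif_pos rfl, Finset.mem_singleton]
    exact hQ'
  · have hc : c = N.tgt i := (Sigma.mk.inj h).1
    subst hc
    have hQ' : Q = N.s₂ i := eq_of_heq (Sigma.mk.inj h).2
    refine Finset.mem_biUnion.mpr ⟨i, Finset.mem_univ i, ?_⟩
    rw [dif_pos rfl, Finset.mem_singleton]
    exact hQ'

/-- **big base divisors exist.** -/
theorem exists_gBig [Fintype κ] [Fintype ι] [Infinite k] : ∃ R : Divisor K F, GBig N R := by
  classical
  choose Q hQ using fun c => N.exists_isSmoothPt c
  let d : κ → ℤ := fun c => 2 * (genusFF k (Fk c) : ℤ) + Fintype.card ι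
  have hd0 : ∀ c, 0 ≤ d c := fun c => by positivity
  let Rc : ∀ c, Divisor k (Fk c) := fun c => Finsupp.single (Q c) (d c)
  have hne₁ : ∀ i, Q (N.src i) ≠ N.s₁ i := fun i h => (hQ (N.src i)).1 i (by rw [h])
  have hne₂ : ∀ i, Q (N.tgt i) ≠ N.s₂ i := fun i h => (hQ (N.tgt i)).2 i (by rw [h])
  obtain ⟨R, hRord, hRred, hRpos⟩ := N.exists_ordLift Rc
    (fun i => by
      show Finsupp.single (Q (N.src i)) (d (N.src i)) (N.s₁ i) = 0
      rw [Finsupp.single_apply, if_neg (hne₁ i)])
    (fun i => by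
      show Finsupp.single (Q (N.tgt i)) (d (N.tgt i)) (N.s₂ i) = 0
      rw [Finsupp.single_apply, if_neg (hne₂ i)])
  refine ⟨R, hRpos fun c => ?_, hRord, fun c => ?_⟩
  · intro P
    show (0 : ℤ) ≤ Finsupp.single (Q c) (d c) P
    rw [Finsupp.single_apply]
    split_ifs
    · exact hd0 c
    · exact le_rfl
  · rw [hRred c]
    show _ < Divisor.degree (Finsupp.single (Q c) (d c)) - _
    rw [degree_single_one (N.S c).hFk]
    show _ < 2 * (genusFF k (Fk c) : ℤ) + Fintype.card ι - Fintype.card ι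
    omega

/-- big base divisors exist above every effective ordinary divisor. -/
theorem exists_gBig_ge [Fintype κ] [Fintype ι] [Infinite k] {E : Divisor K F} (hE : 0 ≤ E)
    (hEord : N.IsOrdDiv E) : ∃ R : Divisor K F, GBig N R ∧ E ≤ R := by
  obtain ⟨R, hR⟩ := exists_gBig N
  exact ⟨R + E, hR.add hE hEord, le_add_of_nonneg_left hR.nonneg⟩

end Big

end Fermat.Agent.BadRedG
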