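import Mathlib
import Fermat.Agent.Lib.BadRed.Graph.GlueDefs
import Fermat.Agent.Lib.BadRed.Nodal.Gluing.Inject

set_option autoImplicit false

/-!
# Cluster G, abstract graph package, seat GL-TORIC: injectivity of the gluing map

`graphToric_of : GraphKeyStatement N → GlueVEqStatement N → GlueOrdOfGenericStatement N →
GlueCoverStatement N → GraphToricStatement N`.

Proof.  For the TRIVIAL gluing datum (`D = 0`, `g = 1`, `b = 1`, `h = 1`) the space `V(R)` is a
twisted graph Riemann-Roch space (GL-VEQ) containing the constant `1`, so the twist is trivial and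
`V(R) = graphRR (r_* R)`: the nodal tuple `H` lifts to `ψ` (for `R` big, covering the poles of
`H`); `div ψ` is ordinary (GL-PUSH, degree count); `g / ψ ^ n` has ordinary divisor and all its
reductions are `1`, so its divisor reduces to `0` (push) and the KEY lemma applies.
-/

noncomputable section

open AlgebraicCurve Fermat.Agent.RR Fermat.Agent.Deuring

namespace Fermat.Agent.BadRedG

open Fermat.Agent.BadRed Fermat.Agent.BadRed.Gluing

variable {K F k : Type*} [Field K] [Field F] [Algebra K F] [Field k]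
  {κ : Type*} {Fk : κ → Type*} [∀ c, Field (Fk c)] [∀ c, Algebra k (Fk c)] {ι : Type*}

/-- **(GL-COVER)**: every tuple which is regular at the branches lies in `∏ L(r_* R)` for a big
base divisor `R` (lift the polar divisors by `r_surj`, add a big divisor). -/
def GlueCoverStatement [Fintype ι] (N : GraphSetup K F k κ Fk ι) : Prop :=
  ∀ y : ∀ c, Fk c, (∀ i, 0 ≤ (N.s₁ i).ord (y (N.src i)) ∧ 0 ≤ (N.s₂ i).ord (y (N.tgt i))) →
    ∃ R : Divisor K F, GBig N R ∧ ∀ c, y c ∈ riemannRochSpace (N.redDiv c R)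

/-- the trivial gluing datum. -/
def GlueData.triv (N : GraphSetup K F k κ Fk ι) (n : ℕ) : GlueData N n where
  D := 0
  g := 1
  b := fun _ => 1
  h := fun _ => 1
  hdeg := map_zero _
  hg := one_ne_zero
  hdiv := fun P => by rw [Place.ord_one, Finsupp.zero_apply, mul_zero]
  hb := fun _ => one_ne_zero
  hh := fun _ => one_ne_zero
  hred := fun c => by rw [one_pow, map_one, div_one, ValSetup.red_one, one_pow]

theorem GlueData.triv_A (N : GraphSetup K F k κ Fk ι) (n : ℕ) (φ : F) (c : κ) :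
    (GlueData.triv N n).A φ c = (N.S c).red φ := by
  simp [GlueData.A, GlueData.triv]

theorem GlueData.triv_D (N : GraphSetup K F k κ Fk ι) (n : ℕ) : (GlueData.triv N n).D = 0 := rfl

/-- no place reduces to a branch. -/
theorem toric_mapDomain_branch₁ (N : GraphSetup K F k κ Fk ι) (D : Divisor K F) (i : ι) :
    Finsupp.mapDomain N.r D (some ⟨N.src i, N.s₁ i⟩) = 0 := by
  classical
  rw [Fermat.Agent.S18Key.mapDomain_apply_eq_sum]
  exact Finset.sum_eq_zero fun P _ => if_neg (N.r_ne_node₁ P i)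

theorem toric_mapDomain_branch₂ (N : GraphSetup K F k κ Fk ι) (D : Divisor K F) (i : ι) :
    Finsupp.mapDomain N.r D (some ⟨N.tgt i, N.s₂ i⟩) = 0 := by
  classical
  rw [Fermat.Agent.S18Key.mapDomain_apply_eq_sum]
  exact Finset.sum_eq_zero fun P _ => if_neg (N.r_ne_node₂ P i)

/-- **lifting of nodal tuples** (from GL-VEQ for the trivial datum): a nodal tuple of functions
which are units at the branches is the tuple of reductions of a function with ordinary
divisor. -/
theorem exists_lift_nodal [Fintype κ] [Nonempty κ] [Fintype ι] (N : GraphSetup K F k κ Fk ι)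
    (hVEq : GlueVEqStatement N) (hOrd : GlueOrdOfGenericStatement N)
    (hCover : GlueCoverStatement N) (hrel : N.GenusRel) {n : ℕ} (hn : n ≠ 0)
    {H : ∀ c, Fk c} (hU : N.UnitAtBranches H) (hNod : N.IsNodalTuple H) :
    ∃ ψ : F, ψ ≠ 0 ∧ (∀ c, ψ ∈ (N.S c).Ov) ∧ (∀ c, (N.S c).red ψ = H c) ∧
      ∀ P : Place K F, P.ord ψ ≠ 0 → N.IsOrd P := by
  obtain ⟨R, hR, hHL⟩ := hCover H (fun i => ⟨(hU.2 i).1.ge, (hU.2 i).2.ge⟩)
  set d₀ := GlueData.triv N n with hd₀
  obtain ⟨ζ, -, hV⟩ := hVEq hrel n hn d₀ R hR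
  -- the constant `1` lies in `V(R)`
  have h1L : (1 : F) ∈ riemannRochSpace (R + d₀.D) := by
    rw [hd₀, GlueData.triv_D, add_zero]
    have := algebraMap_mem_riemannRochSpace_zero (K := K) (F := F) 1
    rw [map_one] at this
    exact riemannRochSpace_mono hR.nonneg this
  have h1V : (fun c => (1 : Fk c)) ∈ d₀.V R := by
    refine ⟨1, ⟨h1L, fun c => ?_⟩, ?_⟩
    · rw [hd₀]
      simp only [GlueData.triv, one_smul]
      exact one_mem _
    · funext c
      rw [hd₀, GlueData.triv_A, ValSetup.red_one]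
  rw [hV] at h1V
  have hζ1 : ∀ i, ζ i = 1 := by
    intro i
    obtain ⟨x, hx1, hx2⟩ := h1V.2 i
    have e2 : x = 1 := hx2.unique (valAt_one _)
    have e1 : ζ i * x = 1 := hx1.unique (valAt_one _)
    rw [e2, mul_one] at e1
    exact e1
  -- `H` lies in the twisted space
  have hHV : H ∈ d₀.V R := by
    rw [hV]
    refine ⟨hHL, fun i => ?_⟩
    obtain ⟨x, hx1, hx2⟩ := hNod i
    exact ⟨x, by rw [hζ1 i, one_mul]; exact hx1, hx2⟩
  obtain ⟨ψ, hψ, hHψ⟩ := hHV
  have hredψ : ∀ c, (N.S c).red ψ = H c := by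
    intro c
    rw [hHψ, hd₀, GlueData.triv_A]
  have hψmem : ∀ c, ψ ∈ (N.S c).Ov := fun c =>
    (N.S c).mem_of_red_ne_zero (by rw [hredψ c]; exact hU.1 c)
  have hψ0 : ψ ≠ 0 := by
    obtain ⟨c⟩ := ‹Nonempty κ›
    exact (N.S c).ne_zero_of_red_ne_zero (by rw [hredψ c]; exact hU.1 c)
  refine ⟨ψ, hψ0, hψmem, hredψ, fun P hP => ?_⟩
  have hUA : N.UnitAtBranches (d₀.A ψ) := by
    rw [← hHψ]
    exact hU
  have := hOrd n hn d₀ R hR.nonneg hR.ord ψ hψ0 hψ hUA P
  rw [hd₀, GlueData.triv_D, Finsupp.zero_apply, add_zero] at this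
  exact this hP

/-- **(G-TORIC)**. -/
theorem graphToric_of [Fintype κ] [Nonempty κ] [Fintype ι] (N : GraphSetup K F k κ Fk ι)
    (hKey : GraphKeyStatement N) (hVEq : GlueVEqStatement N)
    (hOrd : GlueOrdOfGenericStatement N) (hCover : GlueCoverStatement N) :
    GraphToricStatement N := by
  intro hrel n hn0 c₀ hnA g D hg hdiv hDord a H ha hred hU hNod
  have hn : n ≠ 0 := by
    rintro rfl
    exact hn0 Nat.cast_zero
  have hnZ : (n : ℤ) ≠ 0 := by exact_mod_cast hn
  obtain ⟨ψ, hψ0, hψmem, hredψ, hψord⟩ := exists_lift_nodal N hVEq hOrd hCover hrel hn hU hNod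
  have hF := (N.S c₀).hF
  set g' : F := g * (ψ ^ n)⁻¹ with hg'
  set D' : Divisor K F := D - divOf hF ψ with hD'
  have hψn : ψ ^ n ≠ 0 := pow_ne_zero n hψ0
  have hg'0 : g' ≠ 0 := mul_ne_zero hg (inv_ne_zero hψn)
  have hordg' : ∀ P : Place K F, P.ord g' = n * D' P := by
    intro P
    rw [hg', P.ord_mul hg (inv_ne_zero hψn), P.ord_inv, ord_pow_nat, hdiv, hD', Finsupp.sub_apply,
      divOf_apply]
    ring
  have hdivg' : divOf hF g' = n • D' := by
    ext P
    rw [divOf_apply, hordg', Finsupp.smul_apply]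
    simp
  -- degree
  have hdivg : divOf hF g = n • D := by
    ext P
    rw [divOf_apply, hdiv, Finsupp.smul_apply]
    simp
  have hdegD : Divisor.degree D = 0 := by
    have h := degree_divOf hF g
    rw [hdivg, map_nsmul, nsmul_eq_mul] at h
    rcases mul_eq_zero.mp h with h | h
    · exact absurd h hnZ
    · exact h
  have hdegD' : Divisor.degree D' = 0 := by
    rw [hD', map_sub, hdegD, degree_divOf, sub_zero]
  -- ordinary
  have hD'ord : N.IsOrdDiv D' := by
    intro P hP
    by_cases h : D P = 0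
    · apply hψord P
      intro h0
      apply hP
      rw [hD', Finsupp.sub_apply, divOf_apply, h, h0, sub_zero]
    · exact hDord P h
  -- trivial reduction
  have hred' : ∀ Q, Finsupp.mapDomain N.r D' (some Q) = 0 := by
    classical
    rintro ⟨c, Q⟩
    by_cases hb1 : ∃ i, (⟨c, Q⟩ : Σ c, Place k (Fk c)) = ⟨N.src i, N.s₁ i⟩
    · obtain ⟨i, hi⟩ := hb1
      rw [hi]
      exact toric_mapDomain_branch₁ N D' i
    by_cases hb2 : ∃ i, (⟨c, Q⟩ : Σ c, Place k (Fk c)) = ⟨N.tgt i, N.s₂ i⟩
    · obtain ⟨i, hi⟩ := hb2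
      rw [hi]
      exact toric_mapDomain_branch₂ N D' i
    push Not at hb1 hb2
    set f : F := g' / algebraMap K F (a c) with hf
    have hac : algebraMap K F (a c) ≠ 0 := (map_ne_zero _).mpr (ha c)
    have hHn : H c ^ n ≠ 0 := pow_ne_zero n (hU.1 c)
    have hGred : (N.S c).red (g / algebraMap K F (a c)) ≠ 0 := by rw [hred c]; exact hHn
    have hGmem := (N.S c).mem_of_red_ne_zero hGred
    have hψred : (N.S c).red ψ ≠ 0 := by rw [hredψ c]; exact hU.1 c
    have hψinv := (N.S c).inv_mem_of_red_ne_zero hψred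
    have hfeq : f = (g / algebraMap K F (a c)) * (ψ⁻¹) ^ n := by
      rw [hf, hg', inv_pow]
      field_simp
    have hfred : (N.S c).red f = 1 := by
      rw [hfeq, (N.S c).red_mul hGmem (pow_mem hψinv n), hred c, (N.S c).red_pow hψinv,
        (N.S c).red_inv (hψmem c) hψinv hψ0, hredψ c, ← mul_pow,
        mul_inv_cancel₀ (hU.1 c), one_pow]
    have hfne : (N.S c).red f ≠ 0 := by rw [hfred]; exact one_ne_zero
    have hpush := N.push c f ((N.S c).mem_of_red_ne_zero hfne)
      ((N.S c).inv_mem_of_red_ne_zero hfne) ((N.S c).ne_zero_of_red_ne_zero hfne) Q hb1 hb2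
    rw [hfred, Place.ord_one] at hpush
    have hdivf : divOf (N.S c).hF f = n • D' := by
      ext P
      rw [divOf_apply, hf, div_eq_mul_inv, P.ord_mul hg'0 (inv_ne_zero hac), P.ord_inv,
        Fermat.Agent.S24Res.ord_algebraMap, neg_zero, add_zero, hordg', Finsupp.smul_apply]
      simp
    rw [hdivf, Finsupp.mapDomain_smul, Finsupp.smul_apply, nsmul_eq_mul] at hpush
    rcases mul_eq_zero.mp hpush with h | h
    · exact absurd h hnZ
    · exact h
  have hprin : n • D' ∈ Divisor.principal (K := K) (F := F) := by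
    rw [← hdivg']
    exact inj_divOf_mem_principal hF hg'0
  have hD'prin := hKey hrel n hn0 c₀ hnA D' hdegD' ⟨hD'ord, hred'⟩ hprin
  have hDeq : D = D' + divOf hF ψ := by
    rw [hD', sub_add_cancel]
  rw [hDeq]
  exact (Divisor.principal (K := K) (F := F)).add_mem hD'prin (inj_divOf_mem_principal hF hψ0)

end Fermat.Agent.BadRedG
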