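import Mathlib
import Fermat.Agent.Lib.BadRed.Graph.GlueRed
import Fermat.Agent.Lib.BadRed.Graph.GlueToric

set_option autoImplicit false
set_option linter.unusedSectionVars false

/-!
# Cluster G, abstract graph package, GLUING: seat GL-COVER (helper95)

`glueCover : GlueCoverStatement N`: every tuple `(y_c)` of functions on the components which is
regular at all the branches lies in `∏_c L(r_* R)` for a BIG base divisor `R`.

Proof: the polar divisors `(y_c)_∞` avoid the branches, so they are the reduction of an
effective ordinary divisor `R₁` (`GraphSetup.exists_ordLift`, seat GL-RED); enlarge `R₁` to a big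
divisor (`exists_gBig_ge`).

* `gluePolar h f` : the polar divisor `Σ_Q max(0, -ord_Q f) · Q` of a function;
* `mem_riemannRochSpace_gluePolar` : `f ∈ L((f)_∞)`;
* `glueCover` : the statement.
-/

noncomputable section

open AlgebraicCurve Fermat.Agent.RR Fermat.Agent.Deuring

namespace Fermat.Agent.BadRedG

open Fermat.Agent.BadRed

section Polar

variable {k E : Type*} [Field k] [Field E] [Algebra k E]

/-- the polar divisor `Σ_Q max(0, -ord_Q f) · Q` of a function. -/
def gluePolar (h : IsRRField k E) (f : E) : Divisor k E :=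
  (divOf h f).mapRange (fun n : ℤ => max 0 (-n)) (by simp)

theorem gluePolar_apply (h : IsRRField k E) (f : E) (Q : Place k E) :
    gluePolar h f Q = max 0 (-Q.ord f) := by
  unfold gluePolar
  rw [Finsupp.mapRange_apply, divOf_apply]

theorem gluePolar_nonneg (h : IsRRField k E) (f : E) : 0 ≤ gluePolar h f := by
  intro Q
  rw [gluePolar_apply]
  exact le_max_left _ _

theorem gluePolar_eq_zero_of_ord_nonneg (h : IsRRField k E) {f : E} {Q : Place k E}
    (hQ : 0 ≤ Q.ord f) : gluePolar h f Q = 0 := by
  rw [gluePolar_apply]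
  exact max_eq_left (by omega)

theorem mem_riemannRochSpace_gluePolar (h : IsRRField k E) (f : E) :
    f ∈ riemannRochSpace (gluePolar h f) := by
  rw [mem_riemannRochSpace_iff]
  intro Q
  right
  rw [gluePolar_apply]
  have := le_max_right (0 : ℤ) (-Q.ord f)
  omega

end Polar

variable {K F k : Type*} [Field K] [Field F] [Algebra K F] [Field k]
  {κ : Type*} {Fk : κ → Type*} [∀ c, Field (Fk c)] [∀ c, Algebra k (Fk c)] {ι : Type*}

/-- **(GL-COVER)**: every tuple which is regular at the branches lies in `∏ L(r_* R)` for a big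
base divisor `R`. -/
theorem glueCover [Fintype κ] [Fintype ι] [Infinite k] (N : GraphSetup K F k κ Fk ι) :
    GlueCoverStatement N := by
  intro y hy
  obtain ⟨R₁, hR₁ord, hR₁red, hR₁pos⟩ := N.exists_ordLift
    (fun c => gluePolar (N.S c).hFk (y c))
    (fun i => gluePolar_eq_zero_of_ord_nonneg _ (hy i).1)
    (fun i => gluePolar_eq_zero_of_ord_nonneg _ (hy i).2)
  have hR₁0 : 0 ≤ R₁ := hR₁pos fun c => gluePolar_nonneg _ _
  obtain ⟨R, hR, hle⟩ := exists_gBig_ge N hR₁0 hR₁ord
  refine ⟨R, hR, fun c => ?_⟩
  refine riemannRochSpace_mono (N.redDiv_mono c hle) ?_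
  rw [hR₁red c]
  exact mem_riemannRochSpace_gluePolar _ _

end Fermat.Agent.BadRedG
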