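import Mathlib
import Fermat.Agent.Lib.BadRed.Graph.GlueDefs
import Fermat.Agent.Lib.BadRed.Graph.RedSpaceG

set_option autoImplicit false
set_option linter.unusedSectionVars false
set_option linter.style.haveILetI false

/-!
# Cluster G, gluing, seat GL-JL: the JOINT LATTICE property WITH SCALINGS  (helper18)

`F / K` with constant reductions `S c : ValSetup K F k (Fk c)` (`c : κ`, `κ` finite, nonempty) over
the same valuation ring `A` of `K`, each with the lattice property, and constants `b c ≠ 0`.  For a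
finite-dimensional `K`-subspace `W` of `F` the scaled joint lattice
`{φ ∈ W : b_c φ ∈ O_c for all c}` is free on a `K`-basis `u` of `W`, and the tuples
`(red_c (b_c u_i))_c` are `k`-linearly independent.  Same proof as `RedSpaceG.lean` (Hahn-Banach for
the maximum of the scaled norms `|b_c| ‖x‖_c`).

* `famsc_exists_normalise` : `x ≠ 0` is a constant times an element of the scaled joint lattice
  which is a unit for one `c`;
* `famsc_exists_functional`: one valuation: a unit `e ∈ W ∩ O` has a functional `φ` with `φ e = 1`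
  integral on `W ∩ O`;
* `famsc_exists_split`, `famsc_exists_basis`, `famsc_linearIndependent_red`;
* `glueJoint : GlueJointStatement N`  (`[Finite κ] [Nonempty κ]`).
-/

noncomputable section

open AlgebraicCurve Fermat.Agent.RR Fermat.Agent.Deuring Fermat.Agent.GaussInt

namespace Fermat.Agent.BadRedG

open Fermat.Agent.BadRed

section Family

variable {K F k : Type*} [Field K] [Field F] [Algebra K F] [Field k]
  {κ : Type*} {Fk : κ → Type*} [∀ c, Field (Fk c)] [∀ c, Algebra k (Fk c)]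
  (S : ∀ c : κ, ValSetup K F k (Fk c))

/-- `x ≠ 0` is a constant times an element of the scaled joint lattice which is a unit for one of
the `c`. -/
theorem famsc_exists_normalise [Finite κ] [Nonempty κ] (hA : ∀ c c' : κ, (S c).A = (S c').A)
    (b : κ → K) (hb : ∀ c, b c ≠ 0) {x : F} (hx : x ≠ 0) :
    ∃ d : K, d ≠ 0 ∧ (∀ c, b c • (d⁻¹ • x) ∈ (S c).Ov) ∧
      ∃ c₁, (b c₁ • (d⁻¹ • x))⁻¹ ∈ (S c₁).Ov := by
  classical
  cases nonempty_fintype κ
  choose d hd0 hd1 hd2 using fun c => (S c).scale (b c • x) (smul_ne_zero (hb c) hx)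
  obtain ⟨c₀⟩ := ‹Nonempty κ›
  obtain ⟨c₁, -, hmax⟩ := exists_max_entry (S c₀).A Finset.univ ⟨c₀, Finset.mem_univ _⟩ d
  have hmax' : ∀ c, d c / d c₁ ∈ (S c₀).A := fun c => by
    rcases hmax c (Finset.mem_univ _) with h | h
    · exact absurd h.1 (hd0 c₁)
    · exact h.2
  have key : ∀ (c : κ) (t : K), b c • (t⁻¹ • x) = (b c • x) * (algebraMap K F t)⁻¹ := fun c t => by
    rw [Algebra.smul_def, Algebra.smul_def, Algebra.smul_def, map_inv₀]
    ring
  refine ⟨d c₁, hd0 c₁, fun c => ?_, c₁, ?_⟩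
  · have hdc : algebraMap K F (d c) ≠ 0 := by simpa using hd0 c
    have hdc₁ : algebraMap K F (d c₁) ≠ 0 := by simpa using hd0 c₁
    have e : b c • ((d c₁)⁻¹ • x) =
        algebraMap K F (d c / d c₁) * ((b c • x) * (algebraMap K F (d c))⁻¹) := by
      rw [key, map_div₀]
      field_simp
    rw [e]
    exact mul_mem ((S c).algebraMap_mem (hA c₀ c ▸ hmax' c)) (hd1 c)
  · rw [key]
    exact hd2 c₁

/-- one valuation: `e ∈ W` with `e⁻¹ ∈ O` has a functional `φ` on `W` with `φ e = 1` which takes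
integral values on `W ∩ O`. -/
theorem famsc_exists_functional {Fk₁ : Type*} [Field Fk₁] [Algebra k Fk₁]
    (S₁ : ValSetup K F k Fk₁) (hL : HasLattice S₁) (W : Submodule K F) [FiniteDimensional K W]
    {e : F} (heW : e ∈ W) (he0 : e ≠ 0) (hunit : e⁻¹ ∈ S₁.Ov) :
    ∃ φ : W →ₗ[K] K, φ ⟨e, heW⟩ = 1 ∧ ∀ w : W, (w : F) ∈ S₁.Ov → φ w ∈ S₁.A := by
  classical
  obtain ⟨n, w, hwW, hwO, hwli, hwspan, hworth⟩ :=
    orthLattice_of_hasLattice S₁ hL W inferInstance
  set w' : Fin n → W := fun i => ⟨w i, hwW i⟩ with hw'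
  have hw'li : LinearIndependent K w' := by
    apply LinearIndependent.of_comp W.subtype
    exact hwli
  have hw'span : ⊤ ≤ Submodule.span K (Set.range w') := by
    intro y _
    have hy : (y : F) ∈ Submodule.span K (Set.range w) := by rw [hwspan]; exact y.2
    have h2 : Submodule.span K (Set.range w) = (Submodule.span K (Set.range w')).map W.subtype := by
      rw [Submodule.map_span, ← Set.range_comp]
      rfl
    rw [h2] at hy
    obtain ⟨y', hy', hyy'⟩ := hy
    have : y' = y := Subtype.ext hyy'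
    rw [← this]
    exact hy'
  set B : Module.Basis (Fin n) K W := Module.Basis.mk hw'li hw'span with hB
  have hBi : ∀ i, ((B i : W) : F) = w i := fun i => by
    rw [hB, Module.Basis.mk_apply]
  have horth' : ∀ c : Fin n → K, ∑ i, c i • ((B i : W) : F) ∈ S₁.Ov → ∀ i, c i ∈ S₁.A := by
    intro c hc
    apply hworth c
    have : ∑ i, c i • w i = ∑ i, c i • ((B i : W) : F) :=
      Finset.sum_congr rfl fun i _ => by rw [hBi]
    rw [this]
    exact hc
  have hrepr : ∀ y : W, (y : F) ∈ S₁.Ov → ∀ i, B.repr y i ∈ S₁.A := fun y hy i =>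
    repr_mem_of_orth (A := S₁.A) B horth' y hy i
  -- the coordinates of `e`
  set b : Fin n → K := fun i => B.repr ⟨e, heW⟩ i with hb
  have hsum : e = ∑ i, b i • w i := by
    have h := congrArg (Subtype.val) (B.sum_repr ⟨e, heW⟩)
    simp only [Submodule.coe_sum, Submodule.coe_smul] at h
    rw [← h]
    exact Finset.sum_congr rfl fun i _ => by rw [hBi]
  have hbne : ∃ i, b i ≠ 0 := by
    by_contra hne
    apply he0
    rw [hsum]
    refine Finset.sum_eq_zero fun i _ => ?_
    have hi : b i = 0 := by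
      by_contra h
      exact hne ⟨i, h⟩
    rw [hi, zero_smul]
  obtain ⟨i₁, hi₁⟩ := hbne
  obtain ⟨i₀, -, hmax⟩ := exists_max_entry S₁.A Finset.univ ⟨i₁, Finset.mem_univ _⟩ b
  have hb0 : b i₀ ≠ 0 := by
    rcases hmax i₁ (Finset.mem_univ _) with h | h
    · exact absurd h.2 hi₁
    · exact h.1
  have hmax' : ∀ i, b i / b i₀ ∈ S₁.A := fun i => by
    rcases hmax i (Finset.mem_univ _) with h | h
    · exact absurd h.1 hb0
    · exact h.2
  -- `b i₀` is a unit of `A`
  have hbinv : (b i₀)⁻¹ ∈ S₁.A := by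
    have h1 : (b i₀)⁻¹ • e ∈ S₁.Ov := by
      have : (b i₀)⁻¹ • e = ∑ i, (b i / b i₀) • w i := by
        rw [hsum, Finset.smul_sum]
        exact Finset.sum_congr rfl fun i _ => by rw [smul_smul, div_eq_inv_mul]
      rw [this]
      exact sum_smul_mem_Ov S₁ _ _ w hmax' hwO
    have h2 : algebraMap K F (b i₀)⁻¹ = ((b i₀)⁻¹ • e) * e⁻¹ := by
      rw [Algebra.smul_def, mul_assoc, mul_inv_cancel₀ he0, mul_one]
    rw [← S₁.mem_Ov_iff, h2]
    exact mul_mem h1 hunit
  refine ⟨(b i₀)⁻¹ • B.coord i₀, ?_, fun y hy => ?_⟩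
  · rw [LinearMap.smul_apply, Module.Basis.coord_apply, smul_eq_mul]
    exact inv_mul_cancel₀ hb0
  · rw [LinearMap.smul_apply, Module.Basis.coord_apply, smul_eq_mul]
    exact mul_mem hbinv (hrepr y hy i₀)

/-- **Hahn-Banach for the maximum of the scaled norms**: a vector `e` of the scaled joint lattice
of `W` and a functional `φ` on `W` with `φ e = 1` which takes integral values on
`{w ∈ W : b_{c₁} w ∈ O_{c₁}}`. -/
theorem famsc_exists_split [Finite κ] [Nonempty κ] (hA : ∀ c c' : κ, (S c).A = (S c').A)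
    (hL : ∀ c, HasLattice (S c)) (b : κ → K) (hb : ∀ c, b c ≠ 0)
    (W : Submodule K F) [FiniteDimensional K W] (hW : W ≠ ⊥) :
    ∃ (e : F) (φ : W →ₗ[K] K), e ∈ W ∧ e ≠ 0 ∧ (∀ he : e ∈ W, φ ⟨e, he⟩ = 1) ∧
      (∀ c, b c • e ∈ (S c).Ov) ∧
      ∃ c₁, ∀ w : W, b c₁ • (w : F) ∈ (S c₁).Ov → φ w ∈ (S c₁).A := by
  classical
  obtain ⟨x, hxW, hx0⟩ := Submodule.exists_mem_ne_zero_of_ne_bot hW
  obtain ⟨d, hd0, hint, c₁, hunit⟩ := famsc_exists_normalise S hA b hb hx0
  set e : F := d⁻¹ • x with he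
  have heW : e ∈ W := W.smul_mem _ hxW
  have he0 : e ≠ 0 := smul_ne_zero (inv_ne_zero hd0) hx0
  have he'W : b c₁ • e ∈ W := W.smul_mem _ heW
  have he'0 : b c₁ • e ≠ 0 := smul_ne_zero (hb c₁) he0
  obtain ⟨φ', hφ'e, hφ'A⟩ :=
    famsc_exists_functional (S c₁) (hL c₁) W he'W he'0 hunit
  refine ⟨e, b c₁ • φ', heW, he0, fun he' => ?_, hint, c₁, fun w hw => ?_⟩
  · rw [LinearMap.smul_apply, ← map_smul]
    exact hφ'e
  · rw [LinearMap.smul_apply, ← map_smul]
    exact hφ'A (b c₁ • w) hw

/-- **Orthonormal basis for the scaled family**, by induction on the dimension. -/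
theorem famsc_exists_basis_aux [Finite κ] [Nonempty κ] (hA : ∀ c c' : κ, (S c).A = (S c').A)
    (hL : ∀ c, HasLattice (S c)) (b : κ → K) (hb : ∀ c, b c ≠ 0) :
    ∀ (d : ℕ) (W : Submodule K F), FiniteDimensional K W → Module.finrank K W = d →
      ∃ u : Fin d → F, (∀ i, u i ∈ W) ∧ (∀ i c, b c • u i ∈ (S c).Ov) ∧ LinearIndependent K u ∧
        Submodule.span K (Set.range u) = W ∧
        ∀ a : Fin d → K, (∀ c, b c • ∑ i, a i • u i ∈ (S c).Ov) → ∀ i c, a i ∈ (S c).A := by
  classical
  intro d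
  induction d with
  | zero =>
    intro W hfd hW
    have hbot : W = ⊥ := Submodule.finrank_eq_zero.mp hW
    refine ⟨Fin.elim0, fun i => i.elim0, fun i => i.elim0, linearIndependent_empty_type, ?_,
      fun _ _ i => i.elim0⟩
    rw [hbot]
    have : Set.range (Fin.elim0 : Fin 0 → F) = ∅ := Set.range_eq_empty _
    rw [this, Submodule.span_empty]
  | succ d ih =>
    intro W hfd hW
    have hne : W ≠ ⊥ := by
      intro h0
      rw [h0, finrank_bot] at hW
      omega
    obtain ⟨e, φ, heW, he0, hφe, heO, c₁, hφA⟩ := famsc_exists_split S hA hL b hb W hne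
    have hφe' : φ ⟨e, heW⟩ = 1 := hφe heW
    set W' : Submodule K F := (LinearMap.ker φ).map W.subtype with hW'
    have hW'le : W' ≤ W := by
      rintro _ ⟨x, -, rfl⟩
      exact x.2
    have hmemW' : ∀ x : F, x ∈ W' ↔ ∃ hx : x ∈ W, φ ⟨x, hx⟩ = 0 := by
      intro x
      constructor
      · rintro ⟨y, hy, rfl⟩
        exact ⟨y.2, hy⟩
      · rintro ⟨hx, h0⟩
        exact ⟨⟨x, hx⟩, h0, rfl⟩
    have hfdW' : FiniteDimensional K W' := Submodule.finiteDimensional_of_le hW'le
    have hsurj : Function.Surjective φ := by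
      intro c
      refine ⟨c • ⟨e, heW⟩, ?_⟩
      rw [map_smul, hφe', smul_eq_mul, mul_one]
    have hfr : Module.finrank K W' = d := by
      have h1 : Module.finrank K W' = Module.finrank K (LinearMap.ker φ) :=
        (LinearEquiv.finrank_eq
          (Submodule.equivMapOfInjective W.subtype W.injective_subtype (LinearMap.ker φ))).symm
      have h2 := LinearMap.finrank_range_add_finrank_ker φ
      rw [LinearMap.range_eq_top.mpr hsurj, finrank_top, Module.finrank_self, hW] at h2
      omega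
    obtain ⟨u', hu'W, hu'O, hu'li, hu'span, hu'orth⟩ := ih W' hfdW' hfr
    -- the decomposition of a linear combination
    have hsum : ∀ a : Fin (d + 1) → K,
        ∑ i, a i • (Fin.cons e u' : Fin (d + 1) → F) i =
          a 0 • e + ∑ i : Fin d, a i.succ • u' i := by
      intro a
      rw [Fin.sum_univ_succ]
      simp only [Fin.cons_zero, Fin.cons_succ]
    have hrestW : ∀ a : Fin d → K, ∑ i, a i • u' i ∈ W' := fun a =>
      W'.sum_mem fun i _ => W'.smul_mem _ (hu'W i)
    have hφsum : ∀ a : Fin (d + 1) → K,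
        ∀ h : a 0 • e + ∑ i : Fin d, a i.succ • u' i ∈ W,
          φ ⟨a 0 • e + ∑ i : Fin d, a i.succ • u' i, h⟩ = a 0 := by
      intro a h
      obtain ⟨hx, h0⟩ := (hmemW' _).mp (hrestW fun i => a i.succ)
      have : (⟨a 0 • e + ∑ i : Fin d, a i.succ • u' i, h⟩ : W) =
          a 0 • ⟨e, heW⟩ + ⟨∑ i : Fin d, a i.succ • u' i, hx⟩ := rfl
      rw [this, map_add, map_smul, hφe', h0, add_zero, smul_eq_mul, mul_one]
    refine ⟨Fin.cons e u', ?_, ?_, ?_, ?_, ?_⟩
    · intro i
      refine Fin.cases ?_ (fun j => ?_) i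
      · simpa only [Fin.cons_zero] using heW
      · simpa only [Fin.cons_succ] using hW'le (hu'W j)
    · intro i c
      refine Fin.cases ?_ (fun j => ?_) i
      · simpa only [Fin.cons_zero] using heO c
      · simpa only [Fin.cons_succ] using hu'O j c
    · rw [linearIndependent_finCons]
      refine ⟨hu'li, ?_⟩
      rw [hu'span, hmemW']
      rintro ⟨hx, h0⟩
      rw [hφe hx] at h0
      exact one_ne_zero h0
    · rw [Fin.range_cons, Submodule.span_insert, hu'span]
      apply le_antisymm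
      · apply sup_le
        · rw [Submodule.span_le]
          rintro _ rfl
          exact heW
        · exact hW'le
      · intro w hw
        have h1 : w = φ ⟨w, hw⟩ • e + (w - φ ⟨w, hw⟩ • e) := by ring
        rw [h1]
        apply Submodule.add_mem
        · exact Submodule.mem_sup_left
            (Submodule.smul_mem _ _ (Submodule.mem_span_singleton_self e))
        · apply Submodule.mem_sup_right
          rw [hmemW']
          have hmem : w - φ ⟨w, hw⟩ • e ∈ W := W.sub_mem hw (W.smul_mem _ heW)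
          refine ⟨hmem, ?_⟩
          have : (⟨w - φ ⟨w, hw⟩ • e, hmem⟩ : W) = ⟨w, hw⟩ - φ ⟨w, hw⟩ • ⟨e, heW⟩ := rfl
          rw [this, map_sub, map_smul, hφe', smul_eq_mul, mul_one, sub_self]
    · intro a ha
      have ha' : ∀ c, b c • (a 0 • e + ∑ i : Fin d, a i.succ • u' i) ∈ (S c).Ov := fun c => by
        rw [← hsum]
        exact ha c
      have hmemW : a 0 • e + ∑ i : Fin d, a i.succ • u' i ∈ W :=
        W.add_mem (W.smul_mem _ heW) (hW'le (hrestW _))
      have h0 : a 0 ∈ (S c₁).A := by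
        have := hφA ⟨_, hmemW⟩ (ha' c₁)
        rwa [hφsum a hmemW] at this
      have h0c : ∀ c, a 0 ∈ (S c).A := fun c => hA c₁ c ▸ h0
      have hrest : ∀ c, b c • ∑ i : Fin d, a i.succ • u' i ∈ (S c).Ov := fun c => by
        have := sub_mem (ha' c) ((S c).smul_mem (h0c c) (heO c))
        rwa [smul_add, smul_comm (b c) (a 0) e, add_sub_cancel_left] at this
      have hall := hu'orth (fun i => a i.succ) hrest
      intro i c
      refine Fin.cases ?_ (fun j => ?_) i
      · exact h0c c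
      · exact hall j c

/-- **Orthonormal basis for the scaled family**: every finite-dimensional `K`-subspace `W` of `F`
has a `K`-basis `u` in the scaled joint lattice which is an `A`-basis of it. -/
theorem famsc_exists_basis [Finite κ] [Nonempty κ] (hA : ∀ c c' : κ, (S c).A = (S c').A)
    (hL : ∀ c, HasLattice (S c)) (b : κ → K) (hb : ∀ c, b c ≠ 0)
    (W : Submodule K F) [hfd : FiniteDimensional K W] :
    ∃ u : Fin (Module.finrank K W) → F, (∀ i, u i ∈ W) ∧ (∀ i c, b c • u i ∈ (S c).Ov) ∧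
      LinearIndependent K u ∧ Submodule.span K (Set.range u) = W ∧
      ∀ a : Fin (Module.finrank K W) → K, (∀ c, b c • ∑ i, a i • u i ∈ (S c).Ov) →
        ∀ i c, a i ∈ (S c).A :=
  famsc_exists_basis_aux S hA hL b hb _ W hfd rfl

/-- the scaled joint reductions of an orthonormal basis for the scaled family are `k`-linearly
independent. -/
theorem famsc_linearIndependent_red [Finite κ] [Nonempty κ]
    (hA : ∀ c c' : κ, (S c).A = (S c').A)
    (hres : ∀ (c c' : κ) (x : K) (h : x ∈ (S c).A) (h' : x ∈ (S c').A),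
      (S c).res ⟨x, h⟩ = (S c').res ⟨x, h'⟩)
    (b : κ → K) (hb : ∀ c, b c ≠ 0)
    {n : ℕ} (u : Fin n → F) (hu : ∀ i c, b c • u i ∈ (S c).Ov) (huli : LinearIndependent K u)
    (horth : ∀ a : Fin n → K, (∀ c, b c • ∑ i, a i • u i ∈ (S c).Ov) → ∀ i c, a i ∈ (S c).A) :
    LinearIndependent k (fun i => (fun c => (S c).red (b c • u i) : ∀ c, Fk c)) := by
  classical
  obtain ⟨c₀⟩ := ‹Nonempty κ›
  haveI : Nonempty κ := ⟨c₀⟩
  rw [Fintype.linearIndependent_iff]
  intro g hg
  -- lift the coefficients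
  choose a ha using fun i => (S c₀).res_surj (g i)
  have haA : ∀ c i, ((a i : (S c₀).A) : K) ∈ (S c).A := fun c i => hA c₀ c ▸ (a i).2
  set x : F := ∑ i, ((a i : (S c₀).A) : K) • u i with hx
  have hbx : ∀ c, b c • x = ∑ i, ((a i : (S c₀).A) : K) • (b c • u i) := fun c => by
    rw [hx, Finset.smul_sum]
    exact Finset.sum_congr rfl fun i _ => smul_comm _ _ _
  have hxO : ∀ c, b c • x ∈ (S c).Ov := fun c => by
    rw [hbx]
    exact sum_smul_mem_Ov (S c) _ _ _ (haA c) (fun i => hu i c)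
  have hr : ∀ c, (S c).red (b c • x) = 0 := by
    intro c
    have hgc : ∑ i, g i • (S c).red (b c • u i) = 0 := by
      have := congrFun hg c
      simpa only [Finset.sum_apply, Pi.smul_apply, Pi.zero_apply] using this
    rw [hbx, fam_red_sum_smul S c _ _ (haA c) (fun i => hu i c), ← hgc]
    refine Finset.sum_congr rfl fun i _ => ?_
    rw [← ha i, hres c c₀ _ (haA c i) (a i).2]
  have hzero : ∀ (t : K) (ht : t ∈ (S c₀).A), t⁻¹ ∉ (S c₀).A → (S c₀).res ⟨t, ht⟩ = 0 := by
    intro t ht hinv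
    by_cases ht0 : t = 0
    · subst ht0
      exact map_zero (S c₀).res
    · obtain ⟨h', hres'⟩ := (S c₀).res_inv_eq_zero hinv
      have : (⟨t, ht⟩ : (S c₀).A) = ⟨t⁻¹⁻¹, h'⟩ := Subtype.ext (inv_inv t).symm
      rw [this]
      exact hres'
  intro i
  rw [← ha i]
  by_cases hx0 : x = 0
  · have h := Fintype.linearIndependent_iff.mp huli (fun i => ((a i : (S c₀).A) : K))
      (hx ▸ hx0) i
    have : a i = 0 := Subtype.ext h
    rw [this, map_zero]
  · obtain ⟨d, hd0, hint, c₁, hunit⟩ := famsc_exists_normalise S hA b hb hx0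
    have hd' : algebraMap K F d ≠ 0 := by simpa using hd0
    have hbx0 : b c₁ • x ≠ 0 := smul_ne_zero (hb c₁) hx0
    have hcomm : b c₁ • (d⁻¹ • x) = d⁻¹ • (b c₁ • x) := smul_comm _ _ _
    -- `d` is a nonunit of `A`
    have hdA : d ∈ (S c₁).A ∧ d⁻¹ ∉ (S c₁).A := by
      have hmem : algebraMap K F d ∈ (S c₁).Ov := by
        have : algebraMap K F d = (b c₁ • x) * (b c₁ • (d⁻¹ • x))⁻¹ := by
          rw [hcomm, Algebra.smul_def d⁻¹, map_inv₀, mul_inv, inv_inv,
            mul_comm (algebraMap K F d), ← mul_assoc, mul_inv_cancel₀ hbx0, one_mul]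
        rw [this]
        exact mul_mem (hxO c₁) hunit
      refine ⟨((S c₁).mem_Ov_iff _).mp hmem, fun hinv => ?_⟩
      have h3 : (S c₁).red (b c₁ • (d⁻¹ • x)) = 0 := by
        rw [hcomm, (S c₁).red_smul hinv (hxO c₁), hr c₁, smul_zero]
      have hne : b c₁ • (d⁻¹ • x) ≠ 0 :=
        smul_ne_zero (hb c₁) (smul_ne_zero (inv_ne_zero hd0) hx0)
      exact ((S c₁).red_eq_zero_iff (hint c₁) hne).mp h3 hunit
    have hdA₀ : d ∈ (S c₀).A ∧ d⁻¹ ∉ (S c₀).A := by
      rw [hA c₀ c₁]
      exact hdA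
    have hsum : d⁻¹ • x = ∑ i, (d⁻¹ * ((a i : (S c₀).A) : K)) • u i := by
      rw [hx, Finset.smul_sum]
      exact Finset.sum_congr rfl fun i _ => smul_smul _ _ _
    have hai := horth _ (fun c => by rw [← hsum]; exact hint c) i c₀
    have hprod : a i = ⟨d, hdA₀.1⟩ * ⟨d⁻¹ * ((a i : (S c₀).A) : K), hai⟩ := by
      apply Subtype.ext
      show ((a i : (S c₀).A) : K) = d * (d⁻¹ * ((a i : (S c₀).A) : K))
      rw [← mul_assoc, mul_inv_cancel₀ hd0, one_mul]
    rw [hprod, map_mul, hzero d hdA₀.1 hdA₀.2, zero_mul]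

end Family

/-! ### The statement of the seat -/

section Statement

variable {K F k : Type*} [Field K] [Field F] [Algebra K F] [Field k]
  {κ : Type*} {Fk : κ → Type*} [∀ c, Field (Fk c)] [∀ c, Algebra k (Fk c)] {ι : Type*}

/-- **(GL-JL)** the joint lattice property with scalings, for a family of constant reductions. -/
theorem glueJoint_of [Finite κ] [Nonempty κ] (S : ∀ c : κ, ValSetup K F k (Fk c))
    (hA : ∀ c c' : κ, (S c).A = (S c').A)
    (hres : ∀ (c c' : κ) (x : K) (h : x ∈ (S c).A) (h' : x ∈ (S c').A),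
      (S c).res ⟨x, h⟩ = (S c').res ⟨x, h'⟩)
    (hL : ∀ c, HasLattice (S c)) (W : Submodule K F) (hW : FiniteDimensional K W)
    (b : κ → K) (hb : ∀ c, b c ≠ 0) :
    ∃ (r : ℕ) (w : Fin r → F), Module.finrank K W = r ∧ (∀ j, w j ∈ W) ∧
      (∀ j c, b c • w j ∈ (S c).Ov) ∧
      LinearIndependent k (fun j => (fun c => (S c).red (b c • w j) : ∀ c, Fk c)) := by
  obtain ⟨u, huW, huO, huli, -, horth⟩ := famsc_exists_basis S hA hL b hb W
  exact ⟨_, u, rfl, huW, huO, famsc_linearIndependent_red S hA hres b hb u huO huli horth⟩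

/-- **(GL-JL)** for a graph package. -/
theorem glueJoint [Finite κ] [Nonempty κ] (N : GraphSetup K F k κ Fk ι) :
    GlueJointStatement N := fun W hW b hb =>
  glueJoint_of N.S N.A_eq N.res_eq N.lat W hW b hb

/-- **(GL-JL)** for a graph core. -/
theorem GraphCore.glueJoint [Finite κ] [Nonempty κ] (C : GraphCore K F k κ Fk ι)
    (W : Submodule K F) (hW : FiniteDimensional K W) (b : κ → K) (hb : ∀ c, b c ≠ 0) :
    ∃ (r : ℕ) (w : Fin r → F), Module.finrank K W = r ∧ (∀ j, w j ∈ W) ∧
      (∀ j c, b c • w j ∈ (C.S c).Ov) ∧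
      LinearIndependent k (fun j => (fun c => (C.S c).red (b c • w j) : ∀ c, Fk c)) :=
  glueJoint_of C.S C.A_eq C.res_eq C.lat W hW b hb

end Statement

end Fermat.Agent.BadRedG
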