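import Mathlib
import Fermat.Agent.Lib.BadRed.Graph.GlueDefs

set_option autoImplicit false
set_option linter.unusedSectionVars false
set_option linter.unusedVariables false

/-!
# Cluster G, abstract graph package, GLUING: seat GL-ORD (helper94)

Graph version of cluster T's `Nodal/Gluing/Ordinary.lean` and of the `W₀`-data of
`Nodal/Gluing/Data.lean`.

* `graphOrd_of`  : **(G-ORD)** from (GL-VEQ), (GL-GEN) and (GL-PUSH, ordinarity): for every big
  base divisor `R` every gluing datum has `φ ≠ 0` in the joint lattice of `L(R + D)` whose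
  reductions are units at all the branches, and then `D + div φ` is ordinary;
* `GlueData.move` : the moved datum `(D + div φ, φ ^ n * g, 1, A φ)`;
* `exists_glueData_of_isW0Div` : every `W₀`-divisor of degree `0` has gluing data
  (`K` algebraically closed: `n`-th roots of the normalising constants).
-/

noncomputable section

open AlgebraicCurve Fermat.Agent.RR Fermat.Agent.Deuring

namespace Fermat.Agent.BadRedG

open Fermat.Agent.BadRed Fermat.Agent.BadRed.Gluing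

variable {K F k : Type*} [Field K] [Field F] [Algebra K F] [Field k]
  {κ : Type*} {Fk : κ → Type*} [∀ c, Field (Fk c)] [∀ c, Algebra k (Fk c)] {ι : Type*}

section RedDiv

variable (N : GraphSetup K F k κ Fk ι)

/-- nothing reduces to the first branch of a node. -/
theorem glueOrd_redDiv_node₁ (D : Divisor K F) (i : ι) :
    N.redDiv (N.src i) D (N.s₁ i) = 0 := by
  classical
  rw [GraphSetup.redDiv_apply, Fermat.Agent.S18Key.mapDomain_apply_eq_sum]
  exact Finset.sum_eq_zero fun P _ => if_neg (N.r_ne_node₁ P i)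

/-- nothing reduces to the second branch of a node. -/
theorem glueOrd_redDiv_node₂ (D : Divisor K F) (i : ι) :
    N.redDiv (N.tgt i) D (N.s₂ i) = 0 := by
  classical
  rw [GraphSetup.redDiv_apply, Fermat.Agent.S18Key.mapDomain_apply_eq_sum]
  exact Finset.sum_eq_zero fun P _ => if_neg (N.r_ne_node₂ P i)

/-- the reduction of an effective divisor is effective. -/
theorem glueOrd_redDiv_nonneg (c : κ) {D : Divisor K F} (hD : 0 ≤ D) : 0 ≤ N.redDiv c D := by
  intro Q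
  rw [GraphSetup.redDiv_apply]
  exact Fermat.Agent.S18Key.mapDomain_nonneg _ _ _ fun P _ => hD P

end RedDiv

theorem glueOrd_ne_zero_of_pow {z : k} {n : ℕ} (hn : n ≠ 0) (h : z ^ n = 1) : z ≠ 0 := by
  rintro rfl
  rw [zero_pow hn] at h
  exact zero_ne_one h

/-- **(G-ORD)** from (GL-VEQ), (GL-GEN) and the ordinarity part of (GL-PUSH). -/
theorem graphOrd_of [Fintype κ] [Nonempty κ] [Fintype ι] (N : GraphSetup K F k κ Fk ι)
    (hV : GlueVEqStatement N) (hG : GlueGenericStatement N)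
    (hO : GlueOrdOfGenericStatement N) : GraphOrdStatement N := by
  intro hrel n hn d R hR
  obtain ⟨ζ, hζ, hVeq⟩ := hV hrel n hn d R hR
  have hζ0 : ∀ i, ζ i ≠ 0 := fun i => glueOrd_ne_zero_of_pow hn (hζ i)
  obtain ⟨y, hy, hy0, hval⟩ := hG ζ hζ0 (fun c => N.redDiv c R)
    (fun c => glueOrd_redDiv_nonneg N c hR.nonneg)
    (fun i => glueOrd_redDiv_node₁ N R i) (fun i => glueOrd_redDiv_node₂ N R i) hR.deg
  rw [← hVeq] at hy
  obtain ⟨φ, hφ, hyφ⟩ := hy
  have hφ0 : φ ≠ 0 := by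
    rintro rfl
    obtain ⟨c⟩ := ‹Nonempty κ›
    apply hy0 c
    rw [hyφ, d.A_zero]
    rfl
  have hunit : N.UnitAtBranches (d.A φ) := by
    rw [← hyφ]
    exact ⟨hy0, fun i => ⟨ord_eq_zero_of_valAt (hval i).1 (hζ0 i),
      ord_eq_zero_of_valAt (hval i).2 one_ne_zero⟩⟩
  exact ⟨φ, hφ0, hφ, hunit, hO n hn d R hR.nonneg hR.ord φ hφ0 hφ hunit⟩

/-! ### The moved datum -/

namespace GlueData

variable {N : GraphSetup K F k κ Fk ι} {n : ℕ} (d : GlueData N n)

/-- the normalised Kummer generator on the component `c`. -/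
def goU (c : κ) : F := d.g / algebraMap K F (d.b c ^ n)

theorem go_red_u (c : κ) : (N.S c).red (d.goU c) = d.h c ^ n := d.hred c

theorem go_red_u_ne (c : κ) : (N.S c).red (d.goU c) ≠ 0 := by
  rw [d.go_red_u]
  exact pow_ne_zero n (d.hh c)

theorem go_u_mem (c : κ) : d.goU c ∈ (N.S c).Ov := (N.S c).mem_of_red_ne_zero (d.go_red_u_ne c)

theorem go_algebraMap_b_ne (c : κ) : algebraMap K F (d.b c) ≠ 0 := (map_ne_zero _).mpr (d.hb c)

/-- `f φ = (b_c φ) ^ n * (g / b_c ^ n)`. -/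
theorem go_f_eq (c : κ) (φ : F) : d.f φ = (d.b c • φ) ^ n * d.goU c := by
  unfold f goU
  rw [Algebra.smul_def, mul_pow, map_pow]
  have h0 : algebraMap K F (d.b c) ^ n ≠ 0 := pow_ne_zero n (d.go_algebraMap_b_ne c)
  field_simp

theorem go_f_mem {c : κ} {φ : F} (hφ : d.b c • φ ∈ (N.S c).Ov) : d.f φ ∈ (N.S c).Ov := by
  rw [d.go_f_eq c]
  exact mul_mem (pow_mem hφ n) (d.go_u_mem c)

/-- the reductions of `f φ = φ ^ n * g` are the `n`-th powers of the `A φ c`. -/
theorem go_red_f {c : κ} {φ : F} (hφ : d.b c • φ ∈ (N.S c).Ov) :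
    (N.S c).red (d.f φ) = d.A φ c ^ n := by
  rw [d.go_f_eq c]
  unfold A
  rw [(N.S c).red_mul (pow_mem hφ n) (d.go_u_mem c), (N.S c).red_pow hφ, d.go_red_u, mul_pow]

theorem go_f_ne_zero {φ : F} (hφ : φ ≠ 0) : d.f φ ≠ 0 :=
  mul_ne_zero (pow_ne_zero n hφ) d.hg

theorem go_ord_f {φ : F} (hφ : φ ≠ 0) (P : Place K F) :
    P.ord (d.f φ) = n * (P.ord φ + d.D P) := by
  unfold f
  rw [P.ord_mul (pow_ne_zero n hφ) d.hg, ord_pow_nat, d.hdiv]
  ring

/-- **the moved datum**: `D' = D + div φ`, `g' = φ ^ n * g`, `b' = 1`, `h' = A φ`, for `φ ≠ 0` in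
the scaled lattice with nonzero reductions. -/
def move (c₀ : κ) (φ : F) (hφ0 : φ ≠ 0) (hφ : ∀ c, d.b c • φ ∈ (N.S c).Ov)
    (hA : ∀ c, d.A φ c ≠ 0) : GlueData N n where
  D := d.D + divOf (N.S c₀).hF φ
  g := d.f φ
  b := fun _ => 1
  h := d.A φ
  hdeg := by
    rw [map_add, d.hdeg, degree_divOf, add_zero]
  hg := d.go_f_ne_zero hφ0
  hdiv := fun P => by
    rw [d.go_ord_f hφ0, Finsupp.add_apply, divOf_apply]
    ring
  hb := fun _ => one_ne_zero
  hh := hA
  hred := fun c => by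
    rw [one_pow, map_one, div_one]
    exact d.go_red_f (hφ c)

@[simp] theorem move_D (c₀ : κ) (φ : F) (hφ0 : φ ≠ 0) (hφ : ∀ c, d.b c • φ ∈ (N.S c).Ov)
    (hA : ∀ c, d.A φ c ≠ 0) :
    (d.move c₀ φ hφ0 hφ hA).D = d.D + divOf (N.S c₀).hF φ := rfl

@[simp] theorem move_g (c₀ : κ) (φ : F) (hφ0 : φ ≠ 0) (hφ : ∀ c, d.b c • φ ∈ (N.S c).Ov)
    (hA : ∀ c, d.A φ c ≠ 0) : (d.move c₀ φ hφ0 hφ hA).g = φ ^ n * d.g := rfl

@[simp] theorem move_b (c₀ : κ) (φ : F) (hφ0 : φ ≠ 0) (hφ : ∀ c, d.b c • φ ∈ (N.S c).Ov)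
    (hA : ∀ c, d.A φ c ≠ 0) (c : κ) : (d.move c₀ φ hφ0 hφ hA).b c = 1 := rfl

@[simp] theorem move_h (c₀ : κ) (φ : F) (hφ0 : φ ≠ 0) (hφ : ∀ c, d.b c • φ ∈ (N.S c).Ov)
    (hA : ∀ c, d.A φ c ≠ 0) : (d.move c₀ φ hφ0 hφ hA).h = d.A φ := rfl

/-- the moved generator is integral for ALL the valuations, with ONE constant, and its
reductions are the `n`-th powers of the `A φ c`. -/
theorem move_red (c₀ : κ) (φ : F) (hφ0 : φ ≠ 0) (hφ : ∀ c, d.b c • φ ∈ (N.S c).Ov)
    (hA : ∀ c, d.A φ c ≠ 0) (c : κ) :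
    (d.move c₀ φ hφ0 hφ hA).g ∈ (N.S c).Ov ∧
      (N.S c).red (d.move c₀ φ hφ0 hφ hA).g = d.A φ c ^ n :=
  ⟨d.go_f_mem (hφ c), d.go_red_f (hφ c)⟩

/-- the moved divisor is ordinary as soon as `div φ + D` is supported on ordinary places. -/
theorem move_isOrdDiv (c₀ : κ) (φ : F) (hφ0 : φ ≠ 0) (hφ : ∀ c, d.b c • φ ∈ (N.S c).Ov)
    (hA : ∀ c, d.A φ c ≠ 0) (hord : ∀ P : Place K F, P.ord φ + d.D P ≠ 0 → N.IsOrd P) :
    N.IsOrdDiv (d.move c₀ φ hφ0 hφ hA).D := by
  intro P hP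
  apply hord P
  rw [move_D, Finsupp.add_apply, divOf_apply, add_comm] at hP
  exact hP

end GlueData

/-- **(G-ORD), normal form**: for every big base divisor every gluing datum can be moved to a
datum with ORDINARY divisor `D' = D + div φ ≥ -R`, constants `b' = 1` and reductions `h' = A φ`
which are units at all the branches. -/
theorem exists_move_of_graphOrd [Fintype κ] [Nonempty κ] [Fintype ι]
    (N : GraphSetup K F k κ Fk ι) (hOrd : GraphOrdStatement N) (hrel : N.GenusRel)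
    {n : ℕ} (hn : n ≠ 0) (d : GlueData N n) {R : Divisor K F} (hR : GBig N R) (c₀ : κ) :
    ∃ (φ : F) (d' : GlueData N n), φ ≠ 0 ∧ d.InLam R φ ∧
      d'.D = d.D + divOf (N.S c₀).hF φ ∧ d'.g = φ ^ n * d.g ∧ (∀ c, d'.b c = 1) ∧
      d'.h = d.A φ ∧ N.UnitAtBranches d'.h ∧ N.IsOrdDiv d'.D ∧
      ∀ c, d'.g ∈ (N.S c).Ov ∧ (N.S c).red d'.g = d'.h c ^ n := by
  obtain ⟨φ, hφ0, hφ, hunit, hord⟩ := hOrd hrel n hn d R hR
  refine ⟨φ, d.move c₀ φ hφ0 hφ.2 hunit.1, hφ0, hφ, rfl, rfl, fun _ => rfl, rfl, hunit,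
    d.move_isOrdDiv c₀ φ hφ0 hφ.2 hunit.1 hord, fun c => d.move_red c₀ φ hφ0 hφ.2 hunit.1 c⟩

/-! ### Gluing data of a `W₀`-divisor -/

/-- every `W₀`-divisor of degree `0` has gluing data (`n`-th roots of the normalising constants
exist in the algebraically closed field `K`). -/
theorem exists_glueData_of_isW0Div [IsAlgClosed K] (N : GraphSetup K F k κ Fk ι) {n : ℕ}
    (hn : n ≠ 0) {D : Divisor K F} (hdeg : Divisor.degree D = 0) (h : N.IsW0Div n D) :
    ∃ d : GlueData N n, d.D = D := by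
  obtain ⟨g, hg, hdiv, hpow⟩ := h
  choose a ha hh hh0 hred using hpow
  have hroot : ∀ c, ∃ b : K, b ^ n = a c := fun c =>
    IsAlgClosed.exists_pow_nat_eq (a c) (Nat.pos_of_ne_zero hn)
  choose b hb using hroot
  refine ⟨{ D := D, g := g, b := b, h := hh, hdeg := hdeg, hg := hg, hdiv := hdiv,
            hb := fun c hbc => ha c (by rw [← hb c, hbc, zero_pow hn]),
            hh := hh0,
            hred := fun c => by rw [hb c]; exact hred c }, rfl⟩

/-- the same, keeping the Kummer generator. -/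
theorem exists_glueData_of_gen [IsAlgClosed K] (N : GraphSetup K F k κ Fk ι) {n : ℕ}
    (hn : n ≠ 0) {D : Divisor K F} (hdeg : Divisor.degree D = 0) {g : F} (hg : g ≠ 0)
    (hdiv : ∀ P : Place K F, P.ord g = n * D P) (hpow : ∀ c, N.IsPowAt n c g) :
    ∃ d : GlueData N n, d.D = D ∧ d.g = g := by
  choose a ha hh hh0 hred using hpow
  have hroot : ∀ c, ∃ b : K, b ^ n = a c := fun c =>
    IsAlgClosed.exists_pow_nat_eq (a c) (Nat.pos_of_ne_zero hn)
  choose b hb using hroot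
  refine ⟨{ D := D, g := g, b := b, h := hh, hdeg := hdeg, hg := hg, hdiv := hdiv,
            hb := fun c hbc => ha c (by rw [← hb c, hbc, zero_pow hn]),
            hh := hh0,
            hred := fun c => by rw [hb c]; exact hred c }, rfl, rfl⟩

end Fermat.Agent.BadRedG
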