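import Mathlib
import Fermat.Agent.Lib.BadRed.Graph.GlueDefs

set_option autoImplicit false
set_option linter.unusedVariables false
set_option linter.unusedSectionVars false

/-!
# Cluster G, abstract graph package, seat GL-PUSH (helper37)

Graph version of cluster T's `Nodal/Gluing/Push.lean` and `Data.node_of_adm`: for gluing data
`d : GlueData N n`, an ordinary effective divisor `R` and `φ` in the joint lattice of `L(R + D)`:

* `gluePush : GluePushStatement N` : `A φ c ∈ L(r_* R)` on every component (push at the smooth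
  points, node condition at the branches);
* `glueNode : GlueNodeStatement N` : the node condition for `A φ` up to `n`-th roots of unity;
* `glueOrdOfGeneric : GlueOrdOfGenericStatement N` (`[Nonempty κ]`) : if `A φ` is a unit at all
  the branches, then `div φ + D` is ordinary (degree count).

The small `redDiv` API needed here is proved locally (prefix `gpush_`); the public `redDiv` API is
the seat GL-RED.
-/

noncomputable section

open AlgebraicCurve Fermat.Agent.RR Fermat.Agent.Deuring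

namespace Fermat.Agent.BadRedG

open Fermat.Agent.BadRed Fermat.Agent.BadRed.Gluing

variable {K F k : Type*} [Field K] [Field F] [Algebra K F] [Field k]
  {κ : Type*} {Fk : κ → Type*} [∀ c, Field (Fk c)] [∀ c, Algebra k (Fk c)] {ι : Type*}

/-! ### reduction of divisors (local API) -/

section RedDiv

variable (N : GraphSetup K F k κ Fk ι)

theorem gpush_redDiv_add (c : κ) (D E : Divisor K F) :
    N.redDiv c (D + E) = N.redDiv c D + N.redDiv c E := by
  ext Q
  rw [Finsupp.add_apply, N.redDiv_apply, N.redDiv_apply, N.redDiv_apply, Finsupp.mapDomain_add,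
    Finsupp.add_apply]

theorem gpush_redDiv_zero (c : κ) : N.redDiv c (0 : Divisor K F) = 0 := by
  ext Q
  rw [N.redDiv_apply, Finsupp.mapDomain_zero]
  rfl

theorem gpush_mapDomain_nsmul (n : ℕ) (D : Divisor K F) :
    Finsupp.mapDomain N.r (n • D) = n • Finsupp.mapDomain N.r D := by
  induction n with
  | zero => rw [zero_smul, zero_smul, Finsupp.mapDomain_zero]
  | succ m ih => rw [succ_nsmul, succ_nsmul, Finsupp.mapDomain_add, ih]

theorem gpush_redDiv_single (P : Place K F) (m : ℤ) (c : κ) (Q : Place k (Fk c))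
    (h : N.r P = some ⟨c, Q⟩) :
    N.redDiv c (Finsupp.single P m) = Finsupp.single Q m := by
  classical
  ext Q'
  rw [N.redDiv_apply, Finsupp.mapDomain_single, h, Finsupp.single_apply, Finsupp.single_apply]
  by_cases hQ : Q = Q'
  · rw [if_pos hQ, if_pos (by rw [hQ])]
  · rw [if_neg hQ, if_neg]
    intro h'
    exact hQ (eq_of_heq (Sigma.mk.inj (Option.some_injective _ h')).2)

theorem gpush_redDiv_single_of_ne (P : Place K F) (m : ℤ) (c : κ)
    (h : ∀ Q : Place k (Fk c), N.r P ≠ some ⟨c, Q⟩) :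
    N.redDiv c (Finsupp.single P m) = 0 := by
  classical
  ext Q'
  rw [N.redDiv_apply, Finsupp.mapDomain_single, Finsupp.single_apply, if_neg (h Q')]
  rfl

/-- nothing reduces to a node (first branch). -/
theorem gpush_redDiv_node₁ (D : Divisor K F) (i : ι) : N.redDiv (N.src i) D (N.s₁ i) = 0 := by
  classical
  rw [N.redDiv_apply, Fermat.Agent.S18Key.mapDomain_apply_eq_sum]
  exact Finset.sum_eq_zero fun P _ => if_neg (N.r_ne_node₁ P i)

/-- nothing reduces to a node (second branch). -/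
theorem gpush_redDiv_node₂ (D : Divisor K F) (i : ι) : N.redDiv (N.tgt i) D (N.s₂ i) = 0 := by
  classical
  rw [N.redDiv_apply, Fermat.Agent.S18Key.mapDomain_apply_eq_sum]
  exact Finset.sum_eq_zero fun P _ => if_neg (N.r_ne_node₂ P i)

/-- **degree formula**: `deg D = (r_* D)(none) + Σ_c deg (r_* D)_c`. -/
theorem gpush_degree_eq [Fintype κ] (hF : IsRRField K F) (hFk : ∀ c, IsRRField k (Fk c))
    (D : Divisor K F) :
    Divisor.degree D =
      Finsupp.mapDomain N.r D none + ∑ c, Divisor.degree (N.redDiv c D) := by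
  classical
  induction D using Finsupp.induction_linear with
  | zero =>
    rw [Finsupp.mapDomain_zero]
    simp [gpush_redDiv_zero]
  | add D E hD hE =>
    rw [Finsupp.mapDomain_add, Finsupp.add_apply, map_add, hD, hE]
    simp only [gpush_redDiv_add, map_add, Finset.sum_add_distrib]
    ring
  | single P m =>
    rw [degree_single_one hF]
    rcases hr : N.r P with _ | ⟨c, Q⟩
    · have h0 : ∀ c, N.redDiv c (Finsupp.single P m) = 0 := fun c =>
        gpush_redDiv_single_of_ne N P m c (by rw [hr]; intro Q h; cases h)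
      rw [Finsupp.mapDomain_single, hr]
      simp [h0]
    · have h0 : ∀ c', c' ≠ c → N.redDiv c' (Finsupp.single P m) = 0 := fun c' hc' =>
        gpush_redDiv_single_of_ne N P m c' (by
          rw [hr]
          intro Q' h
          exact hc' (Sigma.mk.inj (Option.some_injective _ h)).1.symm)
      rw [Finsupp.mapDomain_single, hr, Finset.sum_eq_single c
        (fun c' _ hc' => by rw [h0 c' hc', map_zero])
        (fun h => absurd (Finset.mem_univ c) h),
        gpush_redDiv_single N P m c Q hr, degree_single_one (hFk c)]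
      simp

theorem gpush_mapDomain_none_of_isOrdDiv {D : Divisor K F} (hD : N.IsOrdDiv D) :
    Finsupp.mapDomain N.r D none = 0 := by
  classical
  rw [Fermat.Agent.S18Key.mapDomain_apply_eq_sum]
  refine Finset.sum_eq_zero fun P hP => if_neg ?_
  obtain ⟨Q, hQ⟩ := hD P (Finsupp.mem_support_iff.mp hP)
  rw [hQ]
  exact fun h => by cases h

/-- an effective divisor with `(r_* E)(none) = 0` is ordinary. -/
theorem gpush_isOrdDiv_of_nonneg {E : Divisor K F} (hE : 0 ≤ E)
    (h : Finsupp.mapDomain N.r E none = 0) : N.IsOrdDiv E := by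
  intro P hP
  rcases hr : N.r P with _ | Q
  · exfalso
    have h1 := Fermat.Agent.S18Key.le_mapDomain N.r E none (fun P' _ => hE P') P hr
    rw [h] at h1
    have h2 : 0 ≤ E P := hE P
    exact hP (le_antisymm h1 h2)
  · exact ⟨Q, hr⟩

end RedDiv

/-! ### gluing data -/

namespace GlueData

variable {N : GraphSetup K F k κ Fk ι} {n : ℕ} (d : GlueData N n)

/-- the normalised Kummer generator on the component `c`. -/
def gpU (c : κ) : F := d.g / algebraMap K F (d.b c ^ n)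

theorem gp_red_u (c : κ) : (N.S c).red (d.gpU c) = d.h c ^ n := d.hred c

theorem gp_red_u_ne (c : κ) : (N.S c).red (d.gpU c) ≠ 0 := by
  rw [d.gp_red_u]
  exact pow_ne_zero n (d.hh c)

theorem gp_u_mem (c : κ) : d.gpU c ∈ (N.S c).Ov := (N.S c).mem_of_red_ne_zero (d.gp_red_u_ne c)

theorem gp_u_inv_mem (c : κ) : (d.gpU c)⁻¹ ∈ (N.S c).Ov :=
  (N.S c).inv_mem_of_red_ne_zero (d.gp_red_u_ne c)

theorem gp_algebraMap_b_ne (c : κ) : algebraMap K F (d.b c) ≠ 0 := (map_ne_zero _).mpr (d.hb c)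

/-- `f φ = (b_c φ) ^ n * (g / b_c ^ n)`. -/
theorem gp_f_eq (c : κ) (φ : F) : d.f φ = (d.b c • φ) ^ n * d.gpU c := by
  unfold f gpU
  rw [Algebra.smul_def, mul_pow, map_pow]
  have h0 : algebraMap K F (d.b c) ^ n ≠ 0 := pow_ne_zero n (d.gp_algebraMap_b_ne c)
  field_simp

theorem gp_f_mem {c : κ} {φ : F} (hφ : d.b c • φ ∈ (N.S c).Ov) : d.f φ ∈ (N.S c).Ov := by
  rw [d.gp_f_eq c]
  exact mul_mem (pow_mem hφ n) (d.gp_u_mem c)

theorem gp_red_f {c : κ} {φ : F} (hφ : d.b c • φ ∈ (N.S c).Ov) :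
    (N.S c).red (d.f φ) = d.A φ c ^ n := by
  rw [d.gp_f_eq c]
  unfold A
  rw [(N.S c).red_mul (pow_mem hφ n) (d.gp_u_mem c), (N.S c).red_pow hφ, d.gp_red_u, mul_pow]

theorem gp_f_ne_zero {φ : F} (hφ : φ ≠ 0) : d.f φ ≠ 0 :=
  mul_ne_zero (pow_ne_zero n hφ) d.hg

theorem gp_ord_f {φ : F} (hφ : φ ≠ 0) (P : Place K F) :
    P.ord (d.f φ) = n * (P.ord φ + d.D P) := by
  unfold f
  rw [P.ord_mul (pow_ne_zero n hφ) d.hg, ord_pow_nat, d.hdiv]
  ring

theorem gp_divOf_f (hF : IsRRField K F) {φ : F} (hφ : φ ≠ 0) :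
    divOf hF (d.f φ) = n • (divOf hF φ + d.D) := by
  ext P
  rw [divOf_apply, d.gp_ord_f hφ, Finsupp.smul_apply, Finsupp.add_apply, divOf_apply]
  simp

theorem gp_f_inv_mem {c : κ} {φ : F} (hφ : d.b c • φ ∈ (N.S c).Ov) (hA : d.A φ c ≠ 0) :
    (d.f φ)⁻¹ ∈ (N.S c).Ov := by
  apply (N.S c).inv_mem_of_red_ne_zero
  rw [d.gp_red_f hφ]
  exact pow_ne_zero n hA

theorem gp_ne_zero_of_A_ne {c : κ} {φ : F} (hA : d.A φ c ≠ 0) : φ ≠ 0 := by
  rintro rfl
  apply hA
  rw [d.A_zero]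
  rfl

/-- `div φ + D + R ≥ 0` for `φ ∈ L(R + D)`, `φ ≠ 0`. -/
theorem gp_nonneg_E (hF : IsRRField K F) {R : Divisor K F} {φ : F} (hφ0 : φ ≠ 0)
    (hφL : φ ∈ riemannRochSpace (R + d.D)) : 0 ≤ divOf hF φ + d.D + R := by
  intro P
  have h := ((mem_riemannRochSpace_iff.mp hφL) P).resolve_left hφ0
  rw [Finsupp.add_apply] at h
  show (0 : Divisor K F) P ≤ (divOf hF φ + d.D + R) P
  rw [Finsupp.add_apply, Finsupp.add_apply, divOf_apply, Finsupp.zero_apply]
  linarith

/-- `f φ` has no pole in the annuli if `R` is ordinary. -/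
theorem gp_ord_f_nonneg {R : Divisor K F} (hRord : N.IsOrdDiv R) {φ : F} (hφ0 : φ ≠ 0)
    (hφL : φ ∈ riemannRochSpace (R + d.D)) (P : Place K F) (hP : N.r P = none) :
    0 ≤ P.ord (d.f φ) := by
  have h := ((mem_riemannRochSpace_iff.mp hφL) P).resolve_left hφ0
  rw [Finsupp.add_apply] at h
  have hR : R P = 0 := by
    by_contra hne
    obtain ⟨Q, hQ⟩ := hRord P hne
    rw [hP] at hQ
    cases hQ
  rw [d.gp_ord_f hφ0]
  apply mul_nonneg (Int.natCast_nonneg n)
  linarith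

/-- the reduction of `div φ + D` in terms of `f φ`. -/
theorem gp_mapDomain_f (hF : IsRRField K F) {φ : F} (hφ0 : φ ≠ 0)
    (X : Option (Σ c, Place k (Fk c))) :
    Finsupp.mapDomain N.r (divOf hF (d.f φ)) X =
      n * Finsupp.mapDomain N.r (divOf hF φ + d.D) X := by
  rw [d.gp_divOf_f hF hφ0, gpush_mapDomain_nsmul, Finsupp.smul_apply]
  simp

/-- smooth points of the component `c`: `r_* (div φ + D) = div (A φ c)`. -/
theorem gp_push_eq (hn : n ≠ 0) {c : κ} {φ : F} (hφc : d.b c • φ ∈ (N.S c).Ov)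
    (hA : d.A φ c ≠ 0) (Q : Place k (Fk c))
    (hQ₁ : ∀ i, (⟨c, Q⟩ : Σ c, Place k (Fk c)) ≠ ⟨N.src i, N.s₁ i⟩)
    (hQ₂ : ∀ i, (⟨c, Q⟩ : Σ c, Place k (Fk c)) ≠ ⟨N.tgt i, N.s₂ i⟩) :
    Finsupp.mapDomain N.r (divOf (N.S c).hF φ + d.D) (some ⟨c, Q⟩) = Q.ord (d.A φ c) := by
  have hφ0 : φ ≠ 0 := d.gp_ne_zero_of_A_ne hA
  have h := N.push c (d.f φ) (d.gp_f_mem hφc) (d.gp_f_inv_mem hφc hA) (d.gp_f_ne_zero hφ0)
    Q hQ₁ hQ₂
  rw [d.gp_mapDomain_f (N.S c).hF hφ0, d.gp_red_f hφc, ord_pow_nat] at h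
  have hn' : (n : ℤ) ≠ 0 := by exact_mod_cast hn
  exact mul_left_cancel₀ hn' h

/-- `r_* (div φ + D) ≥ - r_* R`. -/
theorem gp_mapDomain_ge (hF : IsRRField K F) {R : Divisor K F} {φ : F} (hφ0 : φ ≠ 0)
    (hφL : φ ∈ riemannRochSpace (R + d.D)) (X : Option (Σ c, Place k (Fk c))) :
    -Finsupp.mapDomain N.r R X ≤ Finsupp.mapDomain N.r (divOf hF φ + d.D) X := by
  have hE := d.gp_nonneg_E hF hφ0 hφL
  have h0 : 0 ≤ Finsupp.mapDomain N.r (divOf hF φ + d.D + R) X :=
    Fermat.Agent.S18Key.mapDomain_nonneg _ _ _ fun P _ => hE P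
  rw [Finsupp.mapDomain_add, Finsupp.add_apply] at h0
  linarith

/-- the node condition for `f φ`. -/
theorem gp_node {R : Divisor K F} (hRord : N.IsOrdDiv R) {φ : F} (hφ0 : φ ≠ 0)
    (hφ : d.InLam R φ) (i : ι) :
    0 ≤ (N.s₁ i).ord (d.A φ (N.src i) ^ n) ∧ 0 ≤ (N.s₂ i).ord (d.A φ (N.tgt i) ^ n) ∧
      ∃ a : k, ValAt (N.s₁ i) (d.A φ (N.src i) ^ n) a ∧ ValAt (N.s₂ i) (d.A φ (N.tgt i) ^ n) a := by
  have hnode := N.node (d.f φ) (fun c => d.gp_f_mem (hφ.2 c))
    (d.gp_ord_f_nonneg hRord hφ0 hφ.1) i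
  rw [d.gp_red_f (hφ.2 (N.src i)), d.gp_red_f (hφ.2 (N.tgt i))] at hnode
  exact hnode

end GlueData

/-! ### the three statements of the seat -/

variable (N : GraphSetup K F k κ Fk ι)

/-- **(GL-PUSH), pole bound.** -/
theorem gluePush : GluePushStatement N := by
  intro n hn d R hR0 hRord φ hφ c
  rw [mem_riemannRochSpace_iff]
  intro Q
  by_cases hA : d.A φ c = 0
  · exact Or.inl hA
  right
  have hφ0 : φ ≠ 0 := d.gp_ne_zero_of_A_ne hA
  by_cases hQ₁ : ∀ i, (⟨c, Q⟩ : Σ c, Place k (Fk c)) ≠ ⟨N.src i, N.s₁ i⟩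
  · by_cases hQ₂ : ∀ i, (⟨c, Q⟩ : Σ c, Place k (Fk c)) ≠ ⟨N.tgt i, N.s₂ i⟩
    · rw [← d.gp_push_eq hn (hφ.2 c) hA Q hQ₁ hQ₂, N.redDiv_apply]
      exact d.gp_mapDomain_ge (N.S c).hF hφ0 hφ.1 _
    · push Not at hQ₂
      obtain ⟨i, hi⟩ := hQ₂
      obtain ⟨hc, hQ⟩ := Sigma.mk.inj hi
      subst hc
      have hQ' : Q = N.s₂ i := eq_of_heq hQ
      subst hQ'
      rw [gpush_redDiv_node₂, neg_zero]
      exact ord_nonneg_of_pow hn (d.gp_node hRord hφ0 hφ i).2.1
  · push Not at hQ₁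
    obtain ⟨i, hi⟩ := hQ₁
    obtain ⟨hc, hQ⟩ := Sigma.mk.inj hi
    subst hc
    have hQ' : Q = N.s₁ i := eq_of_heq hQ
    subst hQ'
    rw [gpush_redDiv_node₁, neg_zero]
    exact ord_nonneg_of_pow hn (d.gp_node hRord hφ0 hφ i).1

/-- **(GL-PUSH), node part.** -/
theorem glueNode : GlueNodeStatement N := by
  intro n hn d R hR0 hRord φ hφ i
  rcases eq_or_ne φ 0 with rfl | hφ0
  · refine ⟨1, one_pow n, 0, ?_, ?_⟩
    · rw [d.A_zero, mul_zero]
      exact valAt_zero _
    · rw [d.A_zero]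
      exact valAt_zero _
  · have hnode := d.gp_node hRord hφ0 hφ i
    exact exists_root_of_unity (N.S (N.src i)).hFk (N.S (N.tgt i)).hFk _ _ hn hnode.1 hnode.2.1
      hnode.2.2

/-- **(GL-PUSH), ordinarity of the generic divisor.**  (`[Nonempty κ]` is needed: for `κ = ∅`
the field `F` is arbitrary, e.g. `F = K((t))`, `D = 0`, `φ = t`, and the statement fails.) -/
theorem glueOrdOfGeneric [Fintype κ] [Nonempty κ] [Fintype ι] : GlueOrdOfGenericStatement N := by
  classical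
  intro n hn d R hR0 hRord φ hφ0 hφ hunit P hP
  obtain ⟨c₀⟩ := ‹Nonempty κ›
  have hF : IsRRField K F := (N.S c₀).hF
  have hE := d.gp_nonneg_E hF hφ0 hφ.1
  -- the reduction of `E = div φ + D + R` on the component `c`
  have hred : ∀ c, N.redDiv c (divOf hF φ + d.D + R) =
      divOf (N.S c).hFk (d.A φ c) + N.redDiv c R := by
    intro c
    rw [gpush_redDiv_add]
    congr 1
    ext Q
    rw [N.redDiv_apply, divOf_apply]
    by_cases hQ₁ : ∀ i, (⟨c, Q⟩ : Σ c, Place k (Fk c)) ≠ ⟨N.src i, N.s₁ i⟩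
    · by_cases hQ₂ : ∀ i, (⟨c, Q⟩ : Σ c, Place k (Fk c)) ≠ ⟨N.tgt i, N.s₂ i⟩
      · exact d.gp_push_eq hn (hφ.2 c) (hunit.1 c) Q hQ₁ hQ₂
      · push Not at hQ₂
        obtain ⟨i, hi⟩ := hQ₂
        obtain ⟨hc, hQ⟩ := Sigma.mk.inj hi
        subst hc
        have hQ' : Q = N.s₂ i := eq_of_heq hQ
        subst hQ'
        rw [(hunit.2 i).2, ← N.redDiv_apply, gpush_redDiv_node₂]
    · push Not at hQ₁
      obtain ⟨i, hi⟩ := hQ₁
      obtain ⟨hc, hQ⟩ := Sigma.mk.inj hi
      subst hc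
      have hQ' : Q = N.s₁ i := eq_of_heq hQ
      subst hQ'
      rw [(hunit.2 i).1, ← N.redDiv_apply, gpush_redDiv_node₁]
  have hFk : ∀ c, IsRRField k (Fk c) := fun c => (N.S c).hFk
  have hEord : N.IsOrdDiv (divOf hF φ + d.D + R) := by
    apply gpush_isOrdDiv_of_nonneg N hE
    have hdeg := gpush_degree_eq N hF hFk (divOf hF φ + d.D + R)
    have hdegR := gpush_degree_eq N hF hFk R
    rw [gpush_mapDomain_none_of_isOrdDiv N hRord, zero_add] at hdegR
    simp only [hred, map_add, degree_divOf, zero_add, d.hdeg] at hdeg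
    linarith
  by_cases hRP : R P = 0
  · apply hEord P
    rw [Finsupp.add_apply, Finsupp.add_apply, divOf_apply, hRP, add_zero]
    exact hP
  · exact hRord P hRP

end Fermat.Agent.BadRedG
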