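import Mathlib
import Fermat.Agent.Lib.BadRed.Graph.GlueDefs
import Fermat.Agent.Lib.BadRed.Graph.RRGraph

set_option autoImplicit false
set_option linter.style.haveILetI false
set_option linter.unusedSectionVars false

/-!
# Cluster G, abstract graph package, GLUING: seat GL-TW (helper95)

The twisted graph Riemann-Roch space `gTwistRR N ζ R` of `GlueDefs.lean`
(tuples `(y_c) ∈ ∏ L(R_c)` with `y_{src i}(s₁ i) = ζ i * y_{tgt i}(s₂ i)` at every node).
Graph version of cluster T's `Nodal/Gluing/Space.lean` (`finrank_twistRR_le`, `exists_generic`).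

* `gTwist_card_branchesAt_le` : a component carries at most `|ι|` branch points
  (`src i ≠ tgt i`);
* `gTwistVal` : the linear map `gTwistRR → k ^ ι`, the value at the second branch of the nodes;
* `ker_gTwistVal` : its kernel is the space of the tuples vanishing at all the branch points;
* `finrank_gTwistRR_le` : `dim gTwistRR ≤ Σ_c ℓ(R_c - branches on c) + |ι|` (unconditional);
* `glueTwistDim : GlueTwistDimStatement N` : `dim gTwistRR + |ι| ≤ Σ_c ℓ(R_c)` for big `R_c`;
* `glueGeneric : GlueGenericStatement N` : for `ζ i ≠ 0` and big `R_c ≥ 0` there is an element of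
  the twisted space with the values `ζ i` resp. `1` on the two branches of every node, and
  `≠ 0` on every component.
-/

noncomputable section

open AlgebraicCurve

namespace Fermat.Agent.BadRedG

open Fermat.Agent.BadRed Fermat.Agent.RR

variable {K F k : Type*} [Field K] [Field F] [Algebra K F] [Field k]
  {κ : Type*} {Fk : κ → Type*} [∀ c, Field (Fk c)] [∀ c, Algebra k (Fk c)] {ι : Type*}

/-! ### The number of branch points on a component -/

section BranchCard

variable [Fintype ι] {src tgt : ι → κ} {s₁ : ∀ i : ι, Place k (Fk (src i))}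
  {s₂ : ∀ i : ι, Place k (Fk (tgt i))}

/-- if no node is a loop, a component carries at most one branch of every node. -/
theorem gTwist_card_branchesAt_le (hne : ∀ i, src i ≠ tgt i) (c : κ) :
    (graphRRBranchesAt src tgt s₁ s₂ c).card ≤ Fintype.card ι := by
  classical
  let h : ι → Σ c, Place k (Fk c) := fun i =>
    if src i = c then ⟨src i, s₁ i⟩ else ⟨tgt i, s₂ i⟩
  have h1 : ((graphRRBranchesAt src tgt s₁ s₂ c).image
      (fun Q : Place k (Fk c) => (⟨c, Q⟩ : Σ c, Place k (Fk c)))) ⊆ Finset.univ.image h := by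
    intro x hx
    obtain ⟨Q, hQ, rfl⟩ := Finset.mem_image.mp hx
    rcases mem_graphRRBranches.mp (mem_graphRRBranchesAt.mp hQ) with ⟨i, hi⟩ | ⟨i, hi⟩
    · refine Finset.mem_image.mpr ⟨i, Finset.mem_univ _, ?_⟩
      have hc : src i = c := congrArg Sigma.fst hi
      simp only [h, if_pos hc]
      exact hi
    · refine Finset.mem_image.mpr ⟨i, Finset.mem_univ _, ?_⟩
      have hc : tgt i = c := congrArg Sigma.fst hi
      have hc' : src i ≠ c := fun e => hne i (e.trans hc.symm)
      simp only [h, if_neg hc']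
      exact hi
  calc (graphRRBranchesAt src tgt s₁ s₂ c).card
      = ((graphRRBranchesAt src tgt s₁ s₂ c).image
          (fun Q : Place k (Fk c) => (⟨c, Q⟩ : Σ c, Place k (Fk c)))).card :=
        (Finset.card_image_of_injective _ (graph_sigma_mk_injective c)).symm
    _ ≤ (Finset.univ.image h).card := Finset.card_le_card h1
    _ ≤ Fintype.card ι := by
        rw [← Finset.card_univ]
        exact Finset.card_image_le

end BranchCard

/-! ### The twisted space: finiteness, the value map, the exact sequence -/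

section Twist

variable (N : GraphSetup K F k κ Fk ι)

/-- the branch points on the component `c` of a graph setup. -/
abbrev GraphSetup.branchesAt [Fintype ι] (c : κ) : Finset (Place k (Fk c)) :=
  graphRRBranchesAt N.src N.tgt N.s₁ N.s₂ c

theorem finite_gTwistRR [Finite κ] (ζ : ι → k) (R : ∀ c, Divisor k (Fk c)) :
    Module.Finite k (gTwistRR N ζ R) := by
  haveI : ∀ c, Module.Finite k (riemannRochSpace (R c)) := fun c =>
    finite_riemannRochSpace (N.S c).hFk (R c)
  let f : ↥(gTwistRR N ζ R) →ₗ[k] (∀ c, ↥(riemannRochSpace (R c))) :=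
    LinearMap.pi fun c =>
      LinearMap.codRestrict (riemannRochSpace (R c))
        ((LinearMap.proj c) ∘ₗ (gTwistRR N ζ R).subtype) (fun y => y.2.1 c)
  have hf : Function.Injective f := by
    intro x y hxy
    apply Subtype.ext
    funext c
    have := congrArg (fun z : ∀ c, ↥(riemannRochSpace (R c)) => ((z c : Fk c))) hxy
    exact this
  exact Module.Finite.of_injective f hf

/-- the value of a tuple of `gTwistRR` at the nodes, on the SECOND branch
(the value on the first branch is `ζ i` times it). -/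
def gTwistVal (ζ : ι → k) (R : ∀ c, Divisor k (Fk c)) : ↥(gTwistRR N ζ R) →ₗ[k] (ι → k) where
  toFun y i := Classical.choose (y.2.2 i)
  map_add' := by
    intro x y
    funext i
    have hx := (Classical.choose_spec (x.2.2 i)).2
    have hy := (Classical.choose_spec (y.2.2 i)).2
    have hxy := (Classical.choose_spec ((x + y).2.2 i)).2
    exact hxy.unique (hx.add hy)
  map_smul' := by
    intro a x
    funext i
    have hx := (Classical.choose_spec (x.2.2 i)).2
    have hax := (Classical.choose_spec ((a • x).2.2 i)).2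
    exact hax.unique (hx.smul a)

variable {N}

theorem gTwistVal_spec₁ {ζ : ι → k} {R : ∀ c, Divisor k (Fk c)} (y : ↥(gTwistRR N ζ R))
    (i : ι) :
    ValAt (N.s₁ i) ((y : ∀ c, Fk c) (N.src i)) (ζ i * gTwistVal N ζ R y i) :=
  (Classical.choose_spec (y.2.2 i)).1

theorem gTwistVal_spec₂ {ζ : ι → k} {R : ∀ c, Divisor k (Fk c)} (y : ↥(gTwistRR N ζ R))
    (i : ι) :
    ValAt (N.s₂ i) ((y : ∀ c, Fk c) (N.tgt i)) (gTwistVal N ζ R y i) :=
  (Classical.choose_spec (y.2.2 i)).2

theorem gTwistVal_eq_of_valAt₂ {ζ : ι → k} {R : ∀ c, Divisor k (Fk c)}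
    (y : ↥(gTwistRR N ζ R)) (i : ι) {a : k}
    (h : ValAt (N.s₂ i) ((y : ∀ c, Fk c) (N.tgt i)) a) : gTwistVal N ζ R y i = a :=
  (gTwistVal_spec₂ y i).unique h

variable (N)

section Dim

variable [Fintype ι] [Fintype κ] (ζ : ι → k) (R : ∀ c, Divisor k (Fk c))

/-- the inclusion of the tuples vanishing at all the branch points. -/
def gTwistIncl (hR₁ : ∀ i, R (N.src i) (N.s₁ i) = 0) (hR₂ : ∀ i, R (N.tgt i) (N.s₂ i) = 0) :
    (∀ c, ↥(riemannRochSpace (R c - sumPlaces (N.branchesAt c)))) →ₗ[k]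
      ↥(gTwistRR N ζ R) :=
  LinearMap.codRestrict (gTwistRR N ζ R)
    (LinearMap.pi fun c =>
      (riemannRochSpace (R c - sumPlaces (N.branchesAt c))).subtype ∘ₗ LinearMap.proj c)
    (fun z => by
      have hNR : ∀ c, ∀ Q ∈ N.branchesAt c, R c Q = 0 := fun c Q hQ =>
        forall_graphRRBranchesAt (p := fun c Q => R c Q = 0) hR₁ hR₂ hQ
      have hz : ∀ c, (z c : Fk c) ∈ riemannRochSpace (R c) ∧
          ∀ Q ∈ N.branchesAt c, VanAt Q (z c : Fk c) := fun c =>
        (mem_riemannRochSpace_sub_sumPlaces_iff (hNR c) _).mp (z c).2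
      refine ⟨fun c => (hz c).1, fun i => ⟨0, ?_, ?_⟩⟩
      · rw [mul_zero]
        exact (valAt_zero_right_iff _ _).mpr ((hz (N.src i)).2 _ (src_mem_graphRRBranchesAt i))
      · exact (valAt_zero_right_iff _ _).mpr ((hz (N.tgt i)).2 _ (tgt_mem_graphRRBranchesAt i)))

variable {N ζ R}

theorem gTwistIncl_apply (hR₁ : ∀ i, R (N.src i) (N.s₁ i) = 0)
    (hR₂ : ∀ i, R (N.tgt i) (N.s₂ i) = 0)
    (z : ∀ c, ↥(riemannRochSpace (R c - sumPlaces (N.branchesAt c)))) (c : κ) :
    ((gTwistIncl N ζ R hR₁ hR₂ z : ↥(gTwistRR N ζ R)) : ∀ c, Fk c) c = (z c : Fk c) := rfl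

theorem gTwistIncl_injective (hR₁ : ∀ i, R (N.src i) (N.s₁ i) = 0)
    (hR₂ : ∀ i, R (N.tgt i) (N.s₂ i) = 0) :
    Function.Injective (gTwistIncl N ζ R hR₁ hR₂) := by
  intro x y hxy
  funext c
  apply Subtype.ext
  have := congrArg (fun z : ↥(gTwistRR N ζ R) => (z : ∀ c, Fk c) c) hxy
  exact this

/-- exactness in the middle: the kernel of the value map is the space of the tuples vanishing at
all the branch points. -/
theorem ker_gTwistVal (hR₁ : ∀ i, R (N.src i) (N.s₁ i) = 0)
    (hR₂ : ∀ i, R (N.tgt i) (N.s₂ i) = 0) :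
    LinearMap.ker (gTwistVal N ζ R) = LinearMap.range (gTwistIncl N ζ R hR₁ hR₂) := by
  have hNR : ∀ c, ∀ Q ∈ N.branchesAt c, R c Q = 0 := fun c Q hQ =>
    forall_graphRRBranchesAt (p := fun c Q => R c Q = 0) hR₁ hR₂ hQ
  ext y
  rw [LinearMap.mem_ker, LinearMap.mem_range]
  constructor
  · intro hy
    have h1 : ∀ i, VanAt (N.s₁ i) ((y : ∀ c, Fk c) (N.src i)) := fun i => by
      have := gTwistVal_spec₁ y i
      rw [hy, Pi.zero_apply, mul_zero] at this
      exact (valAt_zero_right_iff _ _).mp this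
    have h2 : ∀ i, VanAt (N.s₂ i) ((y : ∀ c, Fk c) (N.tgt i)) := fun i => by
      have := gTwistVal_spec₂ y i
      rw [hy] at this
      exact (valAt_zero_right_iff _ _).mp this
    have hmem : ∀ c, (y : ∀ c, Fk c) c ∈
        riemannRochSpace (R c - sumPlaces (N.branchesAt c)) := fun c => by
      rw [mem_riemannRochSpace_sub_sumPlaces_iff (hNR c)]
      exact ⟨y.2.1 c, fun Q hQ =>
        forall_graphRRBranchesAt (p := fun c Q => VanAt Q ((y : ∀ c, Fk c) c)) h1 h2 hQ⟩
    exact ⟨fun c => ⟨_, hmem c⟩, Subtype.ext rfl⟩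
  · rintro ⟨z, rfl⟩
    funext i
    apply gTwistVal_eq_of_valAt₂
    rw [gTwistIncl_apply]
    have hz := ((mem_riemannRochSpace_sub_sumPlaces_iff (hNR (N.tgt i)) _).mp
      (z (N.tgt i)).2).2 _ (tgt_mem_graphRRBranchesAt i)
    exact (valAt_zero_right_iff _ _).mpr hz

variable (N ζ R)

/-- The unconditional upper bound
`dim gTwistRR ≤ Σ_c ℓ(R_c - branches on c) + |ι|`. -/
theorem finrank_gTwistRR_le (hR₁ : ∀ i, R (N.src i) (N.s₁ i) = 0)
    (hR₂ : ∀ i, R (N.tgt i) (N.s₂ i) = 0) :
    Module.finrank k (gTwistRR N ζ R) ≤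
      (∑ c, ell (R c - sumPlaces (N.branchesAt c))) + Fintype.card ι := by
  classical
  haveI := finite_gTwistRR N ζ R
  haveI : ∀ c, Module.Finite k
      (riemannRochSpace (R c - sumPlaces (N.branchesAt c))) := fun c =>
    finite_riemannRochSpace (N.S c).hFk _
  have hrank := LinearMap.finrank_range_add_finrank_ker (gTwistVal N ζ R)
  rw [ker_gTwistVal hR₁ hR₂,
    LinearMap.finrank_range_of_inj (gTwistIncl_injective hR₁ hR₂),
    Module.finrank_pi_fintype] at hrank
  have h1 : Module.finrank k (LinearMap.range (gTwistVal N ζ R)) ≤ Fintype.card ι := by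
    have := Submodule.finrank_le (LinearMap.range (gTwistVal N ζ R))
    rwa [Module.finrank_fintype_fun_eq_card] at this
  have h2 : (∑ c, Module.finrank k
      (riemannRochSpace (R c - sumPlaces (N.branchesAt c)))) =
      ∑ c, ell (R c - sumPlaces (N.branchesAt c)) := rfl
  omega

end Dim

end Twist

/-! ### The two statements of the seat -/

section Statements

variable (N : GraphSetup K F k κ Fk ι) [Fintype κ] [Fintype ι]

/-- **(GL-TW)**: `dim gTwistRR + |ι| ≤ Σ_c ℓ(R_c)` for `R_c` of large degree avoiding the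
nodes. -/
theorem glueTwistDim : GlueTwistDimStatement N := by
  classical
  intro ζ R hR₁ hR₂ hdeg
  refine ⟨finite_gTwistRR N ζ R, ?_⟩
  have hle := finrank_gTwistRR_le N ζ R hR₁ hR₂
  have hB : ∀ c, ((N.branchesAt c).card : ℤ) ≤ Fintype.card ι := fun c => by
    exact_mod_cast gTwist_card_branchesAt_le (s₁ := N.s₁) (s₂ := N.s₂) N.src_ne_tgt c
  have hellB : ∀ c, (ell (R c - sumPlaces (N.branchesAt c)) : ℤ) =
      Divisor.degree (R c) + 1 - (genusFF k (Fk c) : ℤ) - (N.branchesAt c).card := by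
    intro c
    have := ell_of_degree_gt (N.S c).hFk (D := R c - sumPlaces (N.branchesAt c))
      (by
        rw [map_sub, degree_sumPlaces (N.S c).hFk]
        have := hdeg c
        have := hB c
        omega)
    rw [map_sub, degree_sumPlaces (N.S c).hFk] at this
    rw [this]
    ring
  have hell : ∀ c, (ell (R c) : ℤ) =
      Divisor.degree (R c) + 1 - (genusFF k (Fk c) : ℤ) := by
    intro c
    refine ell_of_degree_gt (N.S c).hFk ?_
    have := hdeg c
    have h0 : (0 : ℤ) ≤ Fintype.card ι := Int.natCast_nonneg _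
    omega
  have hcard : (∑ c, ((N.branchesAt c).card : ℤ)) = 2 * Fintype.card ι := by
    have := sum_card_graphRRBranchesAt (src := N.src) (tgt := N.tgt) (s₁ := N.s₁) (s₂ := N.s₂)
    rw [card_graphRRBranches N.s₁_inj N.s₂_inj N.s₁_ne_s₂] at this
    exact_mod_cast this
  have hsum : (∑ c, (ell (R c - sumPlaces (N.branchesAt c)) : ℤ)) =
      (∑ c, (ell (R c) : ℤ)) - 2 * Fintype.card ι := by
    rw [Finset.sum_congr rfl (fun c _ => hellB c), Finset.sum_sub_distrib, hcard,
      Finset.sum_congr rfl (fun c _ => (hell c).symm)]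
  have hle' : (Module.finrank k (gTwistRR N ζ R) : ℤ) ≤
      (∑ c, (ell (R c - sumPlaces (N.branchesAt c)) : ℤ)) + Fintype.card ι := by
    exact_mod_cast hle
  have : (Module.finrank k (gTwistRR N ζ R) : ℤ) + Fintype.card ι ≤ ∑ c, (ell (R c) : ℤ) := by
    rw [hsum] at hle'
    omega
  exact_mod_cast this

open Classical in
/-- **(GL-GEN)**: generic elements of the twisted space. -/
theorem glueGeneric : GlueGenericStatement N := by
  intro ζ hζ R hR0 hR₁ hR₂ hdeg
  have hNR : ∀ c, ∀ Q ∈ N.branchesAt c, R c Q = 0 := fun c Q hQ =>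
    forall_graphRRBranchesAt (p := fun c Q => R c Q = 0) hR₁ hR₂ hQ
  have hB : ∀ c, ((N.branchesAt c).card : ℤ) ≤ Fintype.card ι := fun c => by
    exact_mod_cast gTwist_card_branchesAt_le (s₁ := N.s₁) (s₂ := N.s₂) N.src_ne_tgt c
  -- the prescribed values at the branch points
  let v : (Σ c, Place k (Fk c)) → k := fun x =>
    if hx : ∃ i, (⟨N.src i, N.s₁ i⟩ : Σ c, Place k (Fk c)) = x then ζ hx.choose else 1
  have hv₁ : ∀ i, v ⟨N.src i, N.s₁ i⟩ = ζ i := by
    intro i
    have hx : ∃ j, (⟨N.src j, N.s₁ j⟩ : Σ c, Place k (Fk c)) = ⟨N.src i, N.s₁ i⟩ := ⟨i, rfl⟩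
    have hvx : v ⟨N.src i, N.s₁ i⟩ = ζ hx.choose := dif_pos hx
    rw [hvx, N.s₁_inj _ _ hx.choose_spec]
  have hv₂ : ∀ i, v ⟨N.tgt i, N.s₂ i⟩ = 1 := by
    intro i
    have hx : ¬ ∃ j, (⟨N.src j, N.s₁ j⟩ : Σ c, Place k (Fk c)) = ⟨N.tgt i, N.s₂ i⟩ := by
      rintro ⟨j, hj⟩
      exact N.s₁_ne_s₂ j i hj
    exact dif_neg hx
  have hv0 : ∀ x, v x ≠ 0 := by
    intro x
    by_cases hx : ∃ i, (⟨N.src i, N.s₁ i⟩ : Σ c, Place k (Fk c)) = x
    · have hvx : v x = ζ hx.choose := dif_pos hx
      rw [hvx]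
      exact hζ _
    · have hvx : v x = 1 := dif_neg hx
      rw [hvx]
      exact one_ne_zero
  -- interpolation on every component
  have hex : ∀ c, ∃ a ∈ riemannRochSpace (R c), a ≠ 0 ∧
      ∀ Q ∈ N.branchesAt c, ValAt Q a (v ⟨c, Q⟩) := by
    intro c
    rcases (N.branchesAt c).eq_empty_or_nonempty with hemp | ⟨Q₀, hQ₀⟩
    · refine ⟨1, ?_, one_ne_zero, fun Q hQ => ?_⟩
      · refine riemannRochSpace_mono (hR0 c) ?_
        have := algebraMap_mem_riemannRochSpace_zero (K := k) (F := Fk c) 1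
        rwa [map_one] at this
      · rw [hemp] at hQ
        exact absurd hQ (Finset.notMem_empty _)
    · obtain ⟨a, haL, ha⟩ := exists_interpolation (N.S c).hFk
        (fun Q : ↥(N.branchesAt c) => (Q : Place k (Fk c)))
        Subtype.val_injective (R c) (fun Q => hNR c Q Q.2)
        (by
          rw [Fintype.card_coe]
          have := hdeg c
          have := hB c
          omega)
        (fun Q => v ⟨c, Q⟩)
      refine ⟨a, haL, ?_, fun Q hQ => ha ⟨Q, hQ⟩⟩
      rintro rfl
      exact hv0 _ ((ha ⟨Q₀, hQ₀⟩).unique (valAt_zero _))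
  choose y hyL hy0 hyval using hex
  have h₁ : ∀ i, ValAt (N.s₁ i) (y (N.src i)) (ζ i) := fun i => by
    have := hyval (N.src i) (N.s₁ i) (src_mem_graphRRBranchesAt i)
    rwa [hv₁] at this
  have h₂ : ∀ i, ValAt (N.s₂ i) (y (N.tgt i)) 1 := fun i => by
    have := hyval (N.tgt i) (N.s₂ i) (tgt_mem_graphRRBranchesAt i)
    rwa [hv₂] at this
  refine ⟨y, ⟨hyL, fun i => ⟨1, ?_, h₂ i⟩⟩, hy0, fun i => ⟨h₁ i, h₂ i⟩⟩
  rw [mul_one]
  exact h₁ i

end Statements

end Fermat.Agent.BadRedG
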