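import Mathlib
import Fermat.Agent.Lib.BadRed.Graph.GlueVEq
import Fermat.Agent.Lib.BadRed.Graph.GluePush
import Fermat.Agent.Lib.BadRed.Graph.GlueRed
import Fermat.Agent.Lib.BadRed.Graph.GlueTwist
import Fermat.Agent.Lib.BadRed.Graph.GlueToric
import Fermat.Agent.Lib.BadRed.Graph.GlueOrd
import Fermat.Agent.Lib.BadRed.Graph.GlueCover
import Fermat.Agent.Lib.BadRed.Graph.GlueJoint

set_option autoImplicit false

/-!
# Cluster G, abstract graph package: GLUING, seat GL-WIRE (helper91; sub-architect helper92)

The wiring of the GLUE seats.  The ONLY input which is not discharged here is the JOINT LATTICE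
property with scalings (`GlueJointStatement N`, seat GL-JL); everything else (`glueDegree`,
`glueTwistDim`, `glueGeneric`, `gluePush`, `glueNode`, `glueOrdOfGeneric`, `glueVEq_of`,
`graphOrd_of`, `glueCover`, `graphToric_of`) is on main.

* `glueVEq_of_joint   : GlueJointStatement N → GlueVEqStatement N`              (`[Infinite k]`)
* `graphOrd_of_vEq    : GlueVEqStatement N → GraphOrdStatement N`
* `graphOrd_of_joint  : GlueJointStatement N → GraphOrdStatement N`             (`[Infinite k]`)
* `graphToric_of_key_joint : GraphKeyStatement N → GlueJointStatement N → GraphToricStatement N`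
                                                                                (`[Infinite k]`)
* `graphToric_of_key_vEq : GraphKeyStatement N → GlueVEqStatement N → GraphToricStatement N`

With helper18's `glueJoint` (GL-JL) everything is UNCONDITIONAL (`[Infinite k]`):

* `glueVEq N : GlueVEqStatement N`,  `graphOrd N : GraphOrdStatement N`,
* `graphToric_of_key N : GraphKeyStatement N → GraphToricStatement N`.
-/

noncomputable section

open AlgebraicCurve Fermat.Agent.RR Fermat.Agent.Deuring

namespace Fermat.Agent.BadRedG

open Fermat.Agent.BadRed Fermat.Agent.BadRed.Gluing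

variable {K F k : Type*} [Field K] [Field F] [Algebra K F] [Field k]
  {κ : Type*} {Fk : κ → Type*} [∀ c, Field (Fk c)] [∀ c, Algebra k (Fk c)] {ι : Type*}
  [Fintype κ] [Nonempty κ] [Fintype ι]

/-- **(GL-VEQ)** from the joint lattice property alone. -/
theorem glueVEq_of_joint [Infinite k] (N : GraphSetup K F k κ Fk ι)
    (hJ : GlueJointStatement N) : GlueVEqStatement N :=
  glueVEq_of N (glueDegree N) hJ (glueTwistDim N) (gluePush N) (glueNode N)

/-- **(G-ORD)** from (GL-VEQ): a generic element of the twisted space is the joint reduction of
an element of the joint lattice, which is then a unit at all the branches; its divisor is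
ordinary. -/
theorem graphOrd_of_vEq (N : GraphSetup K F k κ Fk ι) (hVEq : GlueVEqStatement N) :
    GraphOrdStatement N :=
  graphOrd_of N hVEq (glueGeneric N) (glueOrdOfGeneric N)

/-- **(G-ORD)** from the joint lattice property alone. -/
theorem graphOrd_of_joint [Infinite k] (N : GraphSetup K F k κ Fk ι)
    (hJ : GlueJointStatement N) : GraphOrdStatement N :=
  graphOrd_of_vEq N (glueVEq_of_joint N hJ)

/-- **(G-TORIC)** from the KEY lemma and (GL-VEQ). -/
theorem graphToric_of_key_vEq [Infinite k] (N : GraphSetup K F k κ Fk ι)
    (hKey : GraphKeyStatement N) (hVEq : GlueVEqStatement N) : GraphToricStatement N :=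
  graphToric_of N hKey hVEq (glueOrdOfGeneric N) (glueCover N)

/-- **(G-TORIC)** from the KEY lemma and the joint lattice property. -/
theorem graphToric_of_key_joint [Infinite k] (N : GraphSetup K F k κ Fk ι)
    (hKey : GraphKeyStatement N) (hJ : GlueJointStatement N) : GraphToricStatement N :=
  graphToric_of_key_vEq N hKey (glueVEq_of_joint N hJ)

/-- **(GL-VEQ)**, unconditional. -/
theorem glueVEq [Infinite k] (N : GraphSetup K F k κ Fk ι) : GlueVEqStatement N :=
  glueVEq_of_joint N (glueJoint N)

/-- **(G-ORD)**, unconditional. -/
theorem graphOrd [Infinite k] (N : GraphSetup K F k κ Fk ι) : GraphOrdStatement N :=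
  graphOrd_of_joint N (glueJoint N)

/-- **(G-TORIC)** from the KEY lemma alone. -/
theorem graphToric_of_key [Infinite k] (N : GraphSetup K F k κ Fk ι)
    (hKey : GraphKeyStatement N) : GraphToricStatement N :=
  graphToric_of_key_joint N hKey (glueJoint N)

end Fermat.Agent.BadRedG
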