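import Mathlib
import Fermat.Agent.Lib.BadRed.Graph.KeyJacobi
import Fermat.Agent.Lib.BadRed.Graph.NSLift
import Fermat.Agent.Lib.BadRed.Graph.Deuring.RSurj
import Fermat.Agent.Lib.BadRed.Graph.Deuring.RRDim

set_option autoImplicit false
set_option linter.unusedSectionVars false

/-!
# Cluster G (S36), G-KEY: the graph KEY LEMMA from (LIFT), and for the package of a seed (helper7)

* `GraphSetup.keyConcl_of_lift` : `GenusRel` + `HasLift D₀ R` ⟹ `GraphKeyConcl N`
  (`= Nodal/Gluing/ToricKeyOfLift.keyConcl_of_lift` of cluster T);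
* `GraphSetup.graphKeyStatement_of_lift` : the same in the form `GraphKeyStatement N`;
* `GraphType.toGraphSetup_genusRel`, `GraphType.keyConcl` : for the package of a seed, the KEY
  LEMMA is unconditional (given `Push` and `Node`).
-/

noncomputable section

open AlgebraicCurve Fermat.Agent.RR Fermat.Agent.Deuring

namespace Fermat.Agent.BadRedG

open Fermat.Agent.BadRed

variable {K F k : Type*} [Field K] [Field F] [Algebra K F] [Field k]
  {κ : Type*} {Fk : κ → Type*} [∀ c, Field (Fk c)] [∀ c, Algebra k (Fk c)] {ι : Type*}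
  [Fintype κ] [Fintype ι]

/-- **the graph KEY LEMMA from (LIFT) and the genus relation.** -/
theorem GraphSetup.keyConcl_of_lift [IsAlgClosed k] [Nonempty κ]
    (N : GraphSetup K F k κ Fk ι) (hg : N.GenusRel) (D₀ : Divisor K F)
    (R : ∀ c, Divisor k (Fk c)) (hR : ∀ c, 0 < Divisor.degree (R c))
    (hn₁ : ∀ i, R (N.src i) (N.s₁ i) = 0) (hn₂ : ∀ i, R (N.tgt i) (N.s₂ i) = 0)
    (hlift : N.HasLift D₀ R) : GraphKeyConcl N :=
  GJ.graphKeyOfNS N (N.nonempty_graphNS_of_lift hg D₀ R hR hn₁ hn₂ hlift)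

/-- the same, in the form of `GraphKeyStatement`. -/
theorem GraphSetup.graphKeyStatement_of_lift [IsAlgClosed k] [Nonempty κ]
    (N : GraphSetup K F k κ Fk ι) (D₀ : Divisor K F)
    (R : ∀ c, Divisor k (Fk c)) (hR : ∀ c, 0 < Divisor.degree (R c))
    (hn₁ : ∀ i, R (N.src i) (N.s₁ i) = 0) (hn₂ : ∀ i, R (N.tgt i) (N.s₂ i) = 0)
    (hlift : N.HasLift D₀ R) : GraphKeyStatement N :=
  fun hg => N.keyConcl_of_lift hg D₀ R hR hn₁ hn₂ hlift

variable {G : GraphSeed K F k κ Fk ι}

/-- the genus relation of the package of a seed. -/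
theorem GraphType.toGraphSetup_genusRel [Nonempty κ] (T : GraphType G) (hs : T.RSurj)
    (hp : T.Push) (hn : T.Node) : (T.toGraphSetup hs hp hn).GenusRel :=
  G.genus_eq

/-- the package of a seed, with `r_surj` from (LIFT) and `Push`. -/
def GraphType.toSetup [Infinite k] [Nonempty κ] (T : GraphType G) (hp : T.Push)
    (hn : T.Node) : GraphSetup K F k κ Fk ι :=
  T.toGraphSetup (T.rSurj G.hasLift hp) hp hn

theorem GraphType.toSetup_genusRel [Infinite k] [Nonempty κ] (T : GraphType G) (hp : T.Push)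
    (hn : T.Node) : (T.toSetup hp hn).GenusRel :=
  G.genus_eq

theorem GraphType.toSetup_hasLift [Infinite k] [Nonempty κ] (T : GraphType G) (hp : T.Push)
    (hn : T.Node) : (T.toSetup hp hn).HasLift G.D₀ G.R :=
  T.toGraphSetup_hasLift _ hp hn G.hasLift

/-- **the graph KEY LEMMA for the package of a seed.** -/
theorem GraphType.keyConcl [IsAlgClosed k] [Nonempty κ] (T : GraphType G) (hs : T.RSurj)
    (hp : T.Push) (hn : T.Node) : GraphKeyConcl (T.toGraphSetup hs hp hn) :=
  (T.toGraphSetup hs hp hn).keyConcl_of_lift G.genus_eq G.D₀ G.R G.R_pos G.R_node₁ G.R_node₂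
    (T.toGraphSetup_hasLift hs hp hn G.hasLift)

end Fermat.Agent.BadRedG
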