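import Mathlib
import Fermat.Agent.Lib.BadRed.Graph.MultiNodeDefs

set_option autoImplicit false

/-!
# Cluster G (S36), seat G-NODE, part 1: TRANSPORT of the Gauss reduction

Two constant reductions `S`, `S'` of `F / K` over the same valuation ring `A` of `K` with the
same residue map, `u ∈ F` integral for both with transcendental reductions.  Then both induce the
SAME valuation on `K(u)` (the Gauss valuation) and the "same" reduction map `K(u) ∩ O → k(T)`:

* `mn_red_canon` : for `a ∈ K(u) ∩ O_S` there are `p, q ∈ k[T]`, `q ≠ 0`, with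
  `red_S a * q(ū) = p(ū)`, `a ∈ O_{S'}` and `red_{S'} a * q(ū') = p(ū')`;
* `mn_red_transport` : if `red_S a = P(ū)` with `P ∈ k[T]`, then `a ∈ O_{S'}` and
  `red_{S'} a = P(ū')`.

Nothing here mentions modular curves.
-/

noncomputable section

open AlgebraicCurve Polynomial IntermediateField

namespace Fermat.Agent.BadRedG

open Fermat.Agent.RR Fermat.Agent.Deuring Fermat.Agent.BadRed Fermat.Agent.BadRed.SeedNode

variable {K F k Fk Fk' : Type*} [Field K] [Field F] [Algebra K F] [Field k]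
  [Field Fk] [Algebra k Fk] [Field Fk'] [Algebra k Fk']

/-- the identity `S.A → S'.A` for two constant reductions over the same valuation ring. -/
def mnIncl (S : ValSetup K F k Fk) (S' : ValSetup K F k Fk') (hA : S.A = S'.A) :
    S.A →+* S'.A where
  toFun x := ⟨x.1, hA ▸ x.2⟩
  map_one' := rfl
  map_mul' _ _ := rfl
  map_zero' := rfl
  map_add' _ _ := rfl

theorem mnIncl_algebraMap (S : ValSetup K F k Fk) (S' : ValSetup K F k Fk') (hA : S.A = S'.A) :
    (algebraMap S'.A K).comp (mnIncl S S' hA) = algebraMap S.A K := rfl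

theorem mnIncl_res (S : ValSetup K F k Fk) (S' : ValSetup K F k Fk') (hA : S.A = S'.A)
    (hres : ∀ (c : K) (h : c ∈ S.A) (h' : c ∈ S'.A), S.res ⟨c, h⟩ = S'.res ⟨c, h'⟩) :
    S'.res.comp (mnIncl S S' hA) = S.res := by
  ext x
  exact (hres x.1 x.2 _).symm

/-- a polynomial over `A` with nonzero reduction takes a unit value at `u`, for every constant
reduction over `A`. -/
theorem mn_unit_transport (S : ValSetup K F k Fk) (S' : ValSetup K F k Fk') (hA : S.A = S'.A)
    (hres : ∀ (c : K) (h : c ∈ S.A) (h' : c ∈ S'.A), S.res ⟨c, h⟩ = S'.res ⟨c, h'⟩)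
    {u : F} (hu' : u ∈ S'.Ov) (hub' : Transcendental k (S'.red u))
    {p₀ : S.A[X]} (hp₀ : p₀.map S.res ≠ 0) :
    aeval u (p₀.map (algebraMap S.A K)) ∈ S'.Ov ∧
      S'.red (aeval u (p₀.map (algebraMap S.A K))) = aeval (S'.red u) (p₀.map S.res) ∧
      S'.red (aeval u (p₀.map (algebraMap S.A K))) ≠ 0 := by
  have h1 : (p₀.map (mnIncl S S' hA)).map (algebraMap S'.A K) = p₀.map (algebraMap S.A K) := by
    rw [Polynomial.map_map, mnIncl_algebraMap]
  have h2 : (p₀.map (mnIncl S S' hA)).map S'.res = p₀.map S.res := by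
    rw [Polynomial.map_map, mnIncl_res S S' hA hres]
  have h3 := sn_red_aeval S' hu' (p₀.map (mnIncl S S' hA))
  rw [h1, h2] at h3
  refine ⟨h3.1, h3.2, ?_⟩
  have h4 := sn_red_aeval_ne_zero S' hu' hub' (p := p₀.map (mnIncl S S' hA)) (by rw [h2]; exact hp₀)
  rwa [h1] at h4

/-- **Canonical form of the Gauss reduction.** -/
theorem mn_red_canon (S : ValSetup K F k Fk) (S' : ValSetup K F k Fk') (hA : S.A = S'.A)
    (hres : ∀ (c : K) (h : c ∈ S.A) (h' : c ∈ S'.A), S.res ⟨c, h⟩ = S'.res ⟨c, h'⟩)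
    {u : F} (hu : u ∈ S.Ov) (hub : Transcendental k (S.red u))
    (hu' : u ∈ S'.Ov) (hub' : Transcendental k (S'.red u))
    {a : F} (ha : a ∈ K⟮u⟯) (haO : a ∈ S.Ov) :
    ∃ p q : k[X], q ≠ 0 ∧ S.red a * aeval (S.red u) q = aeval (S.red u) p ∧
      a ∈ S'.Ov ∧ S'.red a * aeval (S'.red u) q = aeval (S'.red u) p := by
  obtain ⟨r, s, rfl⟩ := (IntermediateField.mem_adjoin_simple_iff K a).mp ha
  by_cases hs : s = 0
  · refine ⟨0, 1, one_ne_zero, ?_, ?_, ?_⟩
    · rw [hs, map_zero, div_zero, S.red_zero, zero_mul, map_zero]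
    · rw [hs, map_zero, div_zero]; exact zero_mem _
    · rw [hs, map_zero, div_zero, S'.red_zero, zero_mul, map_zero]
  by_cases hr : r = 0
  · refine ⟨0, 1, one_ne_zero, ?_, ?_, ?_⟩
    · rw [hr, map_zero, zero_div, S.red_zero, zero_mul, map_zero]
    · rw [hr, map_zero, zero_div]; exact zero_mem _
    · rw [hr, map_zero, zero_div, S'.red_zero, zero_mul, map_zero]
  obtain ⟨c, r₀, hc, hr₀, hr₀'⟩ := sn_exists_normalize S hr
  obtain ⟨d, s₀, hd, hs₀, hs₀'⟩ := sn_exists_normalize S hs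
  set R : F := aeval u (r₀.map (algebraMap S.A K)) with hR
  set T : F := aeval u (s₀.map (algebraMap S.A K)) with hT
  -- at `S`
  have hRm : R ∈ S.Ov := (sn_red_aeval S hu r₀).1
  have hTm : T ∈ S.Ov := (sn_red_aeval S hu s₀).1
  have hRr : S.red R = aeval (S.red u) (r₀.map S.res) := (sn_red_aeval S hu r₀).2
  have hTr : S.red T = aeval (S.red u) (s₀.map S.res) := (sn_red_aeval S hu s₀).2
  have hRred : S.red R ≠ 0 := sn_red_aeval_ne_zero S hu hub hr₀'
  have hTred : S.red T ≠ 0 := sn_red_aeval_ne_zero S hu hub hs₀'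
  have hR0 : R ≠ 0 := S.ne_zero_of_red_ne_zero hRred
  have hT0 : T ≠ 0 := S.ne_zero_of_red_ne_zero hTred
  have hRi : R⁻¹ ∈ S.Ov := S.inv_mem_of_red_ne_zero hRred
  have hTi : T⁻¹ ∈ S.Ov := S.inv_mem_of_red_ne_zero hTred
  -- at `S'`
  obtain ⟨hRm', hRr', hRred'⟩ := mn_unit_transport S S' hA hres hu' hub' hr₀'
  obtain ⟨hTm', hTr', hTred'⟩ := mn_unit_transport S S' hA hres hu' hub' hs₀'
  rw [← hR] at hRm' hRr' hRred'
  rw [← hT] at hTm' hTr' hTred'
  have hTi' : T⁻¹ ∈ S'.Ov := S'.inv_mem_of_red_ne_zero hTred'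
  have e1 : aeval u r = algebraMap K F c * R := by
    rw [hr₀, map_mul, aeval_C]
  have e2 : aeval u s = algebraMap K F d * T := by
    rw [hs₀, map_mul, aeval_C]
  have hc' : algebraMap K F c ≠ 0 := (_root_.map_ne_zero _).mpr hc
  have hd' : algebraMap K F d ≠ 0 := (_root_.map_ne_zero _).mpr hd
  have e3 : aeval u r / aeval u s = algebraMap K F (c / d) * (R * T⁻¹) := by
    rw [e1, e2, map_div₀]
    field_simp
  rw [e3] at haO ⊢
  have hw : R * T⁻¹ ∈ S.Ov := mul_mem hRm hTi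
  have hwi : (R * T⁻¹)⁻¹ ∈ S.Ov := by
    rw [mul_inv, inv_inv]
    exact mul_mem hRi hTm
  have hcd : c / d ∈ S.A := by
    rw [← S.mem_Ov_iff]
    have : algebraMap K F (c / d) = algebraMap K F (c / d) * (R * T⁻¹) * (R * T⁻¹)⁻¹ := by
      rw [mul_assoc, mul_inv_cancel₀ (mul_ne_zero hR0 (inv_ne_zero hT0)), mul_one]
    rw [this]
    exact mul_mem haO hwi
  have hcd' : c / d ∈ S'.A := hA ▸ hcd
  have hw' : R * T⁻¹ ∈ S'.Ov := mul_mem hRm' hTi'
  refine ⟨C (S.res ⟨c / d, hcd⟩) * r₀.map S.res, s₀.map S.res, hs₀', ?_, ?_, ?_⟩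
  · rw [S.red_mul (S.algebraMap_mem hcd) hw, S.red_algebraMap hcd, S.red_mul hRm hTi,
      S.red_inv hTm hTi hT0, hRr, hTr, map_mul, aeval_C]
    have hne : aeval (S.red u) (s₀.map S.res) ≠ 0 := by rw [← hTr]; exact hTred
    field_simp
  · exact mul_mem (S'.algebraMap_mem hcd') hw'
  · have hT0' : T ≠ 0 := hT0
    rw [S'.red_mul (S'.algebraMap_mem hcd') hw', S'.red_algebraMap hcd', S'.red_mul hRm' hTi',
      S'.red_inv hTm' hTi' hT0', hRr', hTr', map_mul, aeval_C, ← hres (c / d) hcd hcd']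
    have hne : aeval (S'.red u) (s₀.map S.res) ≠ 0 := by rw [← hTr']; exact hTred'
    field_simp

/-- **Transport of the Gauss reduction**: the membership of `a ∈ K(u)` in the valuation ring and
the polynomial form of its reduction do not depend on the constant reduction. -/
theorem mn_red_transport (S : ValSetup K F k Fk) (S' : ValSetup K F k Fk') (hA : S.A = S'.A)
    (hres : ∀ (c : K) (h : c ∈ S.A) (h' : c ∈ S'.A), S.res ⟨c, h⟩ = S'.res ⟨c, h'⟩)
    {u : F} (hu : u ∈ S.Ov) (hub : Transcendental k (S.red u))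
    (hu' : u ∈ S'.Ov) (hub' : Transcendental k (S'.red u))
    {a : F} (ha : a ∈ K⟮u⟯) (haO : a ∈ S.Ov) :
    a ∈ S'.Ov ∧ ∀ P : k[X], S.red a = aeval (S.red u) P → S'.red a = aeval (S'.red u) P := by
  obtain ⟨p, q, hq, h1, h2, h3⟩ := mn_red_canon S S' hA hres hu hub hu' hub' ha haO
  refine ⟨h2, fun P hP => ?_⟩
  have hPq : P * q = p := by
    apply transcendental_iff_injective.mp hub
    rw [map_mul, ← hP, h1]
  have hq' : aeval (S'.red u) q ≠ 0 := by
    intro h0
    apply hq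
    apply transcendental_iff_injective.mp hub'
    rw [h0, map_zero]
  have h4 : S'.red a * aeval (S'.red u) q = aeval (S'.red u) P * aeval (S'.red u) q := by
    rw [h3, ← hPq, map_mul]
  exact mul_right_cancel₀ hq' h4

/-- the membership in the valuation ring of an element of `K(u)` does not depend on the constant
reduction. -/
theorem mn_mem_iff (S : ValSetup K F k Fk) (S' : ValSetup K F k Fk') (hA : S.A = S'.A)
    (hres : ∀ (c : K) (h : c ∈ S.A) (h' : c ∈ S'.A), S.res ⟨c, h⟩ = S'.res ⟨c, h'⟩)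
    {u : F} (hu : u ∈ S.Ov) (hub : Transcendental k (S.red u))
    (hu' : u ∈ S'.Ov) (hub' : Transcendental k (S'.red u))
    {a : F} (ha : a ∈ K⟮u⟯) : a ∈ S.Ov ↔ a ∈ S'.Ov :=
  ⟨fun h => (mn_red_transport S S' hA hres hu hub hu' hub' ha h).1,
    fun h => (mn_red_transport S' S hA.symm (fun c h h' => (hres c h' h).symm) hu' hub' hu hub
      ha h).1⟩

/-- the vanishing of the reduction of an element of `K(u)` does not depend on the constant
reduction. -/
theorem mn_red_eq_zero (S : ValSetup K F k Fk) (S' : ValSetup K F k Fk') (hA : S.A = S'.A)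
    (hres : ∀ (c : K) (h : c ∈ S.A) (h' : c ∈ S'.A), S.res ⟨c, h⟩ = S'.res ⟨c, h'⟩)
    {u : F} (hu : u ∈ S.Ov) (hub : Transcendental k (S.red u))
    (hu' : u ∈ S'.Ov) (hub' : Transcendental k (S'.red u))
    {a : F} (ha : a ∈ K⟮u⟯) (haO : a ∈ S.Ov) (h0 : S.red a = 0) : S'.red a = 0 := by
  have := (mn_red_transport S S' hA hres hu hub hu' hub' ha haO).2 0 (by rw [h0, map_zero])
  rw [this, map_zero]

end Fermat.Agent.BadRedG
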