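import Mathlib
import Fermat.Agent.Lib.BadRed.Graph.MultiNodeRed
import Fermat.Agent.Lib.BadRed.ValApprox

set_option autoImplicit false

/-!
# Cluster G (S36), seat G-NODE, part 2: the MULTI-BASIS

A finite family `T i` (`i : ι`) of constant reductions of `F / K` over the same valuation ring of
`K`, pairwise incomparable, `w ∈ F` integral for all of them with transcendental reductions.

* `MNFamily.exists_multibasis` : lifts `B ⟨i, j⟩` of bases of the `Fk i / k(w̄_i)` which are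
  integral everywhere and reduce to `0` at the other reductions (weak approximation);
* `MNFamily.linearIndependent` : the lifts are `K(w)`-linearly independent;
* `MNFamily.coeff_mem` : the coordinates of an everywhere integral element are integral.

Nothing here mentions modular curves.
-/

noncomputable section

open AlgebraicCurve Polynomial IntermediateField

namespace Fermat.Agent.BadRedG

open Fermat.Agent.RR Fermat.Agent.Deuring Fermat.Agent.BadRed Fermat.Agent.BadRed.SeedNode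

section OneSetup

variable {K F k Fk : Type*} [Field K] [Field F] [Algebra K F] [Field k] [Field Fk] [Algebra k Fk]
  (S : ValSetup K F k Fk)

theorem mn_red_eq_zero_of_mem_nonunits {x : F} (hx : x ∈ S.Ov.nonunits) :
    x ∈ S.Ov ∧ S.red x = 0 := by
  have hv : S.Ov.valuation x < 1 := by rwa [ValuationSubring.mem_nonunits_iff] at hx
  have hmem : x ∈ S.Ov := (S.Ov.valuation_le_one_iff x).mp hv.le
  refine ⟨hmem, ?_⟩
  by_cases h0 : x = 0
  · rw [h0, S.red_zero]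
  · rw [S.red_eq_zero_iff hmem h0]
    intro hinv
    have h1 : S.Ov.valuation x⁻¹ ≤ 1 := (S.Ov.valuation_le_one_iff _).mpr hinv
    rw [map_inv₀] at h1
    have hne : S.Ov.valuation x ≠ 0 := by
      rw [Ne, map_eq_zero]
      exact h0
    have h2 : 1 ≤ S.Ov.valuation x := (inv_le_one₀ (zero_lt_iff.mpr hne)).mp h1
    exact absurd hv (not_lt.mpr h2)

theorem mn_not_mem_nonunits_of_red_ne_zero {x : F} (hx : S.red x ≠ 0) : x ∉ S.Ov.nonunits :=
  fun h => hx (mn_red_eq_zero_of_mem_nonunits S h).2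

theorem mn_red_eq_one_of_sub_one_mem_nonunits {E : F} (hE : E ∈ S.Ov)
    (h : E - 1 ∈ S.Ov.nonunits) : S.red E = 1 := by
  have h1 := (mn_red_eq_zero_of_mem_nonunits S h).2
  rw [S.red_sub hE S.Ov.one_mem, S.red_one, sub_eq_zero] at h1
  exact h1

theorem mn_red_ne_zero_of_val_eq_one {s : F} (hs : S.Ov.valuation s = 1) :
    s ∈ S.Ov ∧ S.red s ≠ 0 := by
  have hmem : s ∈ S.Ov := (S.Ov.valuation_le_one_iff s).mp hs.le
  have h0 : s ≠ 0 := by
    rintro rfl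
    rw [map_zero] at hs
    exact zero_ne_one hs
  have hinv : s⁻¹ ∈ S.Ov := by
    apply (S.Ov.valuation_le_one_iff _).mp
    rw [map_inv₀, hs, inv_one]
  exact ⟨hmem, S.red_ne_zero hmem hinv h0⟩

end OneSetup

section Family

variable {K F k : Type*} [Field K] [Field F] [Algebra K F] [Field k]
  {ι : Type*} [Fintype ι] {Fk : ι → Type*} [∀ i, Field (Fk i)] [∀ i, Algebra k (Fk i)]

/-- A finite family of constant reductions over the same valuation ring of `K`, pairwise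
incomparable, and an element `w` which is integral for all of them with transcendental
reductions. -/
structure MNFamily (T : ∀ i : ι, ValSetup K F k (Fk i)) (w : F) : Prop where
  A_eq : ∀ i j : ι, (T i).A = (T j).A
  res_eq : ∀ (i j : ι) (x : K) (h : x ∈ (T i).A) (h' : x ∈ (T j).A),
    (T i).res ⟨x, h⟩ = (T j).res ⟨x, h'⟩
  indep : ∀ i j : ι, i ≠ j → ¬ (T i).Ov ≤ (T j).Ov
  w_mem : ∀ i, w ∈ (T i).Ov
  w_tr : ∀ i, Transcendental k ((T i).red w)

variable {T : ∀ i : ι, ValSetup K F k (Fk i)} {w : F}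

omit [Fintype ι] in
/-- membership of an element of `K(w)` does not depend on the reduction. -/
theorem MNFamily.mem_iff (H : MNFamily T w) (i j : ι) {a : F} (ha : a ∈ K⟮w⟯) :
    a ∈ (T i).Ov ↔ a ∈ (T j).Ov :=
  mn_mem_iff (T i) (T j) (H.A_eq i j) (H.res_eq i j) (H.w_mem i) (H.w_tr i) (H.w_mem j)
    (H.w_tr j) ha

/-- constants with pairwise distinct residues. -/
theorem MNFamily.exists_consts [Infinite k] [Nonempty ι] (H : MNFamily T w) :
    ∃ c : ℕ → F, (∀ i m, c m ∈ (T i).Ov) ∧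
      ∀ i m m', m ≠ m' → c m - c m' ∉ ((T i).Ov).nonunits := by
  obtain ⟨i₀⟩ := ‹Nonempty ι›
  let e := Infinite.natEmbedding k
  choose a ha using fun m => (T i₀).res_surj (e m)
  have hmem : ∀ i m, ((a m : (T i₀).A) : K) ∈ (T i).A := fun i m => H.A_eq i₀ i ▸ (a m).2
  refine ⟨fun m => algebraMap K F ((a m : (T i₀).A) : K),
    fun i m => (T i).algebraMap_mem (hmem i m), fun i m m' hmm => ?_⟩
  apply mn_not_mem_nonunits_of_red_ne_zero (T i)
  rw [← map_sub]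
  have hsub : ((a m : (T i₀).A) : K) - ((a m' : (T i₀).A) : K) ∈ (T i).A :=
    sub_mem (hmem i m) (hmem i m')
  rw [(T i).red_algebraMap hsub]
  have hsub₀ : ((a m : (T i₀).A) : K) - ((a m' : (T i₀).A) : K) ∈ (T i₀).A :=
    sub_mem (a m).2 (a m').2
  have h1 : (T i).res ⟨_, hsub⟩ = e m - e m' := by
    rw [← H.res_eq i₀ i (((a m : (T i₀).A) : K) - ((a m' : (T i₀).A) : K)) hsub₀ hsub]
    have : (⟨((a m : (T i₀).A) : K) - ((a m' : (T i₀).A) : K), hsub₀⟩ : (T i₀).A) =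
        a m - a m' := rfl
    rw [this, map_sub, ha, ha]
  rw [h1]
  intro h0
  rw [map_eq_zero_iff _ (algebraMap k (Fk i)).injective, sub_eq_zero] at h0
  exact hmm (e.injective h0)

/-- **The multi-basis.** -/
theorem MNFamily.exists_multibasis [Infinite k] [Nonempty ι] (H : MNFamily T w) (n : ι → ℕ)
    (bbar : ∀ i, Fin (n i) → Fk i)
    (hli : ∀ i, LinearIndependent k⟮(T i).red w⟯ (bbar i)) :
    ∃ B : (Σ i, Fin (n i)) → F, (∀ p i, B p ∈ (T i).Ov) ∧
      (∀ p i, i ≠ p.1 → (T i).red (B p) = 0) ∧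
      ∀ i, LinearIndependent k⟮(T i).red w⟯ (fun j => (T i).red (B ⟨i, j⟩)) := by
  classical
  obtain ⟨c, hc, hcu⟩ := H.exists_consts
  choose y hy using fun (i : ι) (j : Fin (n i)) => (T i).ρ_surj (bbar i j)
  have hyred : ∀ i j, (T i).red ((y i j : (T i).Ov) : F) = bbar i j := by
    intro i j
    rw [(T i).red_of_mem (y i j).2]
    exact hy i j
  have hE := fun i => exists_idempotent_like (fun i => (T i).Ov) c H.indep hc hcu i
  choose E hE1 hE2 hE3 using hE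
  have hs := fun i => exists_common_denominator (fun i => (T i).Ov) c hc hcu i
    (fun j : Fin (n i) => ((y i j : (T i).Ov) : F)) (fun j => (y i j).2)
  choose s hs1 hs2 hs3 using hs
  refine ⟨fun p => E p.1 * (s p.1 * ((y p.1 p.2 : (T p.1).Ov) : F)), fun p i => ?_,
    fun p i hi => ?_, fun i => ?_⟩
  · exact mul_mem (hE1 p.1 i) (hs3 p.1 p.2 i)
  · exact (mn_red_eq_zero_of_mem_nonunits (T i)
      (nonunits_mul_mem (hE3 p.1 i hi) (hs3 p.1 p.2 i))).2
  · obtain ⟨hsm, hsr⟩ := mn_red_ne_zero_of_val_eq_one (T i) (hs2 i)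
    have h1 : (fun j => (T i).red (E i * (s i * ((y i j : (T i).Ov) : F)))) =
        (LinearMap.mulLeft k⟮(T i).red w⟯ ((T i).red (s i))) ∘ (bbar i) := by
      funext j
      rw [(T i).red_mul (hE1 i i) (hs3 i j i),
        mn_red_eq_one_of_sub_one_mem_nonunits (T i) (hE1 i i) (hE2 i), one_mul,
        (T i).red_mul hsm (y i j).2, hyred]
      rfl
    rw [h1]
    refine (hli i).map' _ ?_
    rw [LinearMap.ker_eq_bot]
    intro a b hab
    exact mul_left_cancel₀ hsr hab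

/-- the core of the independence arguments. -/
theorem MNFamily.red_coeff_eq_zero (H : MNFamily T w) (n : ι → ℕ)
    (B : (Σ i, Fin (n i)) → F) (hB1 : ∀ p i, B p ∈ (T i).Ov)
    (hB2 : ∀ p i, i ≠ p.1 → (T i).red (B p) = 0)
    (hB3 : ∀ i, LinearIndependent k⟮(T i).red w⟯ (fun j => (T i).red (B ⟨i, j⟩)))
    (a : (Σ i, Fin (n i)) → K⟮w⟯) (i₀ : ι) (ha : ∀ p, ((a p : K⟮w⟯) : F) ∈ (T i₀).Ov)
    (hred : (T i₀).red (∑ p, ((a p : K⟮w⟯) : F) * B p) = 0) (j : Fin (n i₀)) :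
    (T i₀).red ((a ⟨i₀, j⟩ : K⟮w⟯) : F) = 0 := by
  classical
  have h1 := sn_red_comb (H.w_mem i₀) (H.w_tr i₀) B (fun p => hB1 p i₀)
    (fun p => (⟨a p, ha p⟩ : snRing (T i₀) w))
  rw [hred] at h1
  rw [Fintype.sum_sigma, Finset.sum_eq_single i₀] at h1
  · have h2 := Fintype.linearIndependent_iff.mp (hB3 i₀) _ h1.symm j
    have h3 := congrArg (fun z : k⟮(T i₀).red w⟯ => (z : Fk i₀)) h2
    simpa using h3
  · intro i _ hi
    refine Finset.sum_eq_zero fun j _ => ?_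
    rw [hB2 ⟨i, j⟩ i₀ (Ne.symm hi), smul_zero]
  · intro h
    exact absurd (Finset.mem_univ i₀) h

/-- the lifts are linearly independent over `K(w)`. -/
theorem MNFamily.linearIndependent (H : MNFamily T w) (n : ι → ℕ)
    (B : (Σ i, Fin (n i)) → F) (hB1 : ∀ p i, B p ∈ (T i).Ov)
    (hB2 : ∀ p i, i ≠ p.1 → (T i).red (B p) = 0)
    (hB3 : ∀ i, LinearIndependent k⟮(T i).red w⟯ (fun j => (T i).red (B ⟨i, j⟩))) :
    LinearIndependent K⟮w⟯ B := by
  classical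
  rw [Fintype.linearIndependent_iff]
  intro g hg
  by_contra hne
  push Not at hne
  obtain ⟨p₁, hp₁⟩ := hne
  have hp₁' : ((g p₁ : K⟮w⟯) : F) ≠ 0 := fun h0 => hp₁ (Subtype.ext h0)
  obtain ⟨p₀, hp₀, hall⟩ := exists_max_coeff (T p₁.1).Ov (fun p => ((g p : K⟮w⟯) : F))
    ⟨p₁, hp₁'⟩
  let a : (Σ i, Fin (n i)) → K⟮w⟯ := fun p => g p * (g p₀)⁻¹
  have ha₁ : ∀ p, ((a p : K⟮w⟯) : F) ∈ (T p₁.1).Ov := fun p => by
    simpa [a] using hall p
  have ha : ∀ p, ((a p : K⟮w⟯) : F) ∈ (T p₀.1).Ov := fun p =>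
    (H.mem_iff p₁.1 p₀.1 (a p).2).mp (ha₁ p)
  have hsum : ∑ p, ((a p : K⟮w⟯) : F) * B p = 0 := by
    have h1 : ∀ p, ((a p : K⟮w⟯) : F) * B p = (((g p₀ : K⟮w⟯) : F))⁻¹ * ((g p) • B p) := by
      intro p
      simp only [a, IntermediateField.smul_def, smul_eq_mul]
      push_cast
      ring
    rw [Finset.sum_congr rfl fun p _ => h1 p, ← Finset.mul_sum, hg, mul_zero]
  have h0 := H.red_coeff_eq_zero n B hB1 hB2 hB3 a p₀.1 ha
    (by rw [hsum, (T p₀.1).red_zero]) p₀.2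
  have h1 : ((a ⟨p₀.1, p₀.2⟩ : K⟮w⟯) : F) = 1 := by
    simp only [a]
    push_cast
    exact mul_inv_cancel₀ hp₀
  rw [h1, (T p₀.1).red_one] at h0
  exact one_ne_zero h0

/-- the coordinates of an everywhere integral element in the multi-basis are integral
(everywhere). -/
theorem MNFamily.coeff_mem (H : MNFamily T w) (n : ι → ℕ)
    (B : (Σ i, Fin (n i)) → F) (hB1 : ∀ p i, B p ∈ (T i).Ov)
    (hB2 : ∀ p i, i ≠ p.1 → (T i).red (B p) = 0)
    (hB3 : ∀ i, LinearIndependent k⟮(T i).red w⟯ (fun j => (T i).red (B ⟨i, j⟩)))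
    (g : (Σ i, Fin (n i)) → K⟮w⟯) {x : F} (hx : ∀ i, x ∈ (T i).Ov)
    (hsum : ∑ p, ((g p : K⟮w⟯) : F) * B p = x) :
    ∀ p i, ((g p : K⟮w⟯) : F) ∈ (T i).Ov := by
  classical
  by_contra hne
  push Not at hne
  obtain ⟨p₁, i₁, hp₁⟩ := hne
  have hp₁' : ((g p₁ : K⟮w⟯) : F) ≠ 0 := fun h0 => hp₁ (h0 ▸ zero_mem _)
  obtain ⟨p₀, hp₀, hall⟩ := exists_max_coeff (T i₁).Ov (fun p => ((g p : K⟮w⟯) : F))
    ⟨p₁, hp₁'⟩
  have hp₀' : ((g p₀ : K⟮w⟯) : F) ∉ (T i₁).Ov := by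
    intro hmem
    apply hp₁
    have : ((g p₁ : K⟮w⟯) : F) =
        ((g p₁ : K⟮w⟯) : F) * (((g p₀ : K⟮w⟯) : F))⁻¹ * (g p₀ : K⟮w⟯) := by
      rw [mul_assoc, inv_mul_cancel₀ hp₀, mul_one]
    rw [this]
    exact mul_mem (hall p₁) hmem
  have hp₀'' : ((g p₀ : K⟮w⟯) : F) ∉ (T p₀.1).Ov := fun h =>
    hp₀' ((H.mem_iff p₀.1 i₁ (g p₀).2).mp h)
  have hinv : (((g p₀ : K⟮w⟯) : F))⁻¹ ∈ (T p₀.1).Ov :=
    ((T p₀.1).Ov.mem_or_inv_mem _).resolve_left hp₀''
  have hredinv : (T p₀.1).red (((g p₀ : K⟮w⟯) : F))⁻¹ = 0 := by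
    rw [(T p₀.1).red_eq_zero_iff hinv (inv_ne_zero hp₀), inv_inv]
    exact hp₀''
  let a : (Σ i, Fin (n i)) → K⟮w⟯ := fun p => g p * (g p₀)⁻¹
  have ha₁ : ∀ p, ((a p : K⟮w⟯) : F) ∈ (T i₁).Ov := fun p => by
    simpa [a] using hall p
  have ha : ∀ p, ((a p : K⟮w⟯) : F) ∈ (T p₀.1).Ov := fun p =>
    (H.mem_iff i₁ p₀.1 (a p).2).mp (ha₁ p)
  have hsum' : ∑ p, ((a p : K⟮w⟯) : F) * B p = x * (((g p₀ : K⟮w⟯) : F))⁻¹ := by
    have h1 : ∀ p, ((a p : K⟮w⟯) : F) * B p =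
        (((g p : K⟮w⟯) : F) * B p) * (((g p₀ : K⟮w⟯) : F))⁻¹ := by
      intro p
      simp only [a]
      push_cast
      ring
    rw [Finset.sum_congr rfl fun p _ => h1 p, ← Finset.sum_mul, hsum]
  have h0 := H.red_coeff_eq_zero n B hB1 hB2 hB3 a p₀.1 ha
    (by rw [hsum', (T p₀.1).red_mul (hx _) hinv, hredinv, mul_zero]) p₀.2
  have h1 : ((a ⟨p₀.1, p₀.2⟩ : K⟮w⟯) : F) = 1 := by
    simp only [a]
    push_cast
    exact mul_inv_cancel₀ hp₀
  rw [h1, (T p₀.1).red_one] at h0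
  exact one_ne_zero h0

end Family

end Fermat.Agent.BadRedG
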