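import Mathlib
import Fermat.Agent.Lib.BadRed.Graph.MultiNodeDefs

set_option autoImplicit false

/-!
# Cluster G (S36), seat G-NODE, part 3a: Gauss' lemma for the factors

`E / k` a field extension, `x ∈ E` transcendental, `toAdj x : k[T] → k(x)`.  If a monic
`Φ ∈ k[T][X]` factors over `k(x)` into monic factors, every factor has coefficients in `k[T]`
(`k[T]` is integrally closed).

Mathlib only (plus the definition of `toAdj`).
-/

noncomputable section

open Polynomial IntermediateField

namespace Fermat.Agent.BadRedG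

open Fermat.Agent.BadRed.SeedNode

variable {k E : Type*} [Field k] [Field E] [Algebra k E]

/-- `toAdj x` is the composite of `k[T] → k(T)` and the isomorphism `k(T) ≃ k(x)`. -/
theorem mn_toAdj_eq {x : E} (hx : Transcendental k x) (p : k[X]) :
    RatFunc.algEquivOfTranscendental x hx (algebraMap k[X] (RatFunc k) p) = toAdj x p := by
  rw [RatFunc.algEquivOfTranscendental_algebraMap, toAdj_apply]
  rfl

theorem mn_toAdj_comp {x : E} (hx : Transcendental k x) :
    ((RatFunc.algEquivOfTranscendental x hx : RatFunc k ≃ₐ[k] k⟮x⟯) : RatFunc k →+* k⟮x⟯).comp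
      (algebraMap k[X] (RatFunc k)) = toAdj x :=
  RingHom.ext fun p => mn_toAdj_eq hx p

theorem mn_symm_toAdj {x : E} (hx : Transcendental k x) (p : k[X]) :
    (RatFunc.algEquivOfTranscendental x hx).symm (toAdj x p) = algebraMap k[X] (RatFunc k) p := by
  rw [← mn_toAdj_eq hx p, AlgEquiv.symm_apply_apply]

/-- **Gauss' lemma**: a monic factor over `k(x)` of a monic polynomial over `k[T]` has
coefficients in `k[T]`. -/
theorem mn_gauss_factor {x : E} (hx : Transcendental k x) {Φ : Polynomial (Polynomial k)}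
    (hΦ : Φ.Monic) {g : Polynomial k⟮x⟯} (hg : g.Monic) (hdvd : g ∣ Φ.map (toAdj x)) :
    ∃ Ψ : Polynomial (Polynomial k), Ψ.Monic ∧ Ψ.map (toAdj x) = g := by
  set τ : RatFunc k ≃ₐ[k] k⟮x⟯ := RatFunc.algEquivOfTranscendental x hx with hτ
  have hcomp : (τ.symm : k⟮x⟯ →+* RatFunc k).comp (toAdj x) = algebraMap k[X] (RatFunc k) :=
    RingHom.ext fun p => mn_symm_toAdj hx p
  have hdvd' : g.map (τ.symm : k⟮x⟯ →+* RatFunc k) ∣ Φ.map (algebraMap k[X] (RatFunc k)) := by
    have := Polynomial.map_dvd (τ.symm : k⟮x⟯ →+* RatFunc k) hdvd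
    rwa [Polynomial.map_map, hcomp] at this
  obtain ⟨Ψ, hΨ⟩ := IsIntegrallyClosed.eq_map_mul_C_of_dvd (RatFunc k) hΦ hdvd'
  have hmon : (g.map (τ.symm : k⟮x⟯ →+* RatFunc k)).Monic := hg.map _
  rw [hmon.leadingCoeff, map_one, mul_one] at hΨ
  have hmap : Ψ.map (toAdj x) = g := by
    rw [← mn_toAdj_comp hx, ← Polynomial.map_map, hΨ, Polynomial.map_map]
    have : ((τ : RatFunc k →+* k⟮x⟯)).comp (τ.symm : k⟮x⟯ →+* RatFunc k) = RingHom.id _ :=
      RingHom.ext fun a => τ.apply_symm_apply a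
    rw [this, Polynomial.map_id]
  refine ⟨Ψ, ?_, hmap⟩
  apply Polynomial.monic_of_injective (toAdj_injective hx)
  rw [hmap]
  exact hg

end Fermat.Agent.BadRedG
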