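import Mathlib
import Fermat.Agent.Lib.BadRed.Graph.MultiNodeBasis
import Fermat.Agent.Lib.BadRed.Graph.MultiNodeGauss

set_option autoImplicit false

/-!
# Cluster G (S36), seat G-NODE, part 3: multi-extension PIECE A

A finite family `T i` of constant reductions of `F / K` (`MNFamily T w`) with
`[F : K(w)] ≤ ∑ i, [Fk i : k(w̄_i)]`, i.e. the `T i` are ALL the extensions of the Gauss valuation
of `K(w)`.  Then for `f` integral at all `T i`:

* the coefficients of the characteristic polynomial `χ` of `f` on `F / K(w)` are integral;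
* if the reduced coefficients are `P r (w̄)` with `P r ∈ k[T]`, then
  `snPhi n P = ∏ i, Φ i` with `Φ i ∈ k[T][X]` monic and `Φ i (w̄_i, X)` the characteristic
  polynomial of `red_i f` on `Fk i / k(w̄_i)`.

Nothing here mentions modular curves.
-/

noncomputable section

open AlgebraicCurve Polynomial IntermediateField

namespace Fermat.Agent.BadRedG

open Fermat.Agent.RR Fermat.Agent.Deuring Fermat.Agent.BadRed Fermat.Agent.BadRed.SeedNode

section OneSetup

variable {K F k Fk : Type*} [Field K] [Field F] [Algebra K F] [Field k] [Field Fk] [Algebra k Fk]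

/-- the characteristic polynomial of a matrix over `K(u)` with integral entries has integral
coefficients and reduces to the characteristic polynomial of the reduced matrix. -/
theorem mn_charpoly_coeff_red (S : ValSetup K F k Fk) {u : F} (hu : u ∈ S.Ov)
    (hub : Transcendental k (S.red u)) {m : Type*} [Fintype m] [DecidableEq m]
    (D : Matrix m m K⟮u⟯) (hD : ∀ j j', ((D j j' : K⟮u⟯) : F) ∈ S.Ov) (r : ℕ) :
    ((D.charpoly.coeff r : K⟮u⟯) : F) ∈ S.Ov ∧
      S.red ((D.charpoly.coeff r : K⟮u⟯) : F) =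
        (((Matrix.of fun j j' => snRed S hu hub ⟨D j j', hD j j'⟩).charpoly.coeff r :
          k⟮S.red u⟯) : Fk) := by
  let D' : Matrix m m (snRing S u) := Matrix.of fun j j' => ⟨D j j', hD j j'⟩
  have hD' : D'.map (snRing S u).subtype = D := by
    ext j j'
    rfl
  have h1 : D.charpoly = D'.charpoly.map (snRing S u).subtype := by
    rw [← Matrix.charpoly_map, hD']
  have h2 : (Matrix.of fun j j' => snRed S hu hub ⟨D j j', hD j j'⟩) =
      D'.map (snRed S hu hub) := by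
    ext j j'
    rfl
  rw [h1, Polynomial.coeff_map, h2, Matrix.charpoly_map, Polynomial.coeff_map]
  exact ⟨(D'.charpoly.coeff r).2, rfl⟩

end OneSetup

section Family

variable {K F k : Type*} [Field K] [Field F] [Algebra K F] [Field k]
  {ι : Type*} [Fintype ι] {Fk : ι → Type*} [∀ i, Field (Fk i)] [∀ i, Algebra k (Fk i)]
  {T : ∀ i : ι, ValSetup K F k (Fk i)} {w : F}

/-- reduction of a combination of the multi-basis at the reduction `i`. -/
theorem MNFamily.red_col (H : MNFamily T w) (n : ι → ℕ)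
    (B : (Σ i, Fin (n i)) → F) (hB1 : ∀ p i, B p ∈ (T i).Ov)
    (hB2 : ∀ p i, i ≠ p.1 → (T i).red (B p) = 0)
    (g : (Σ i, Fin (n i)) → K⟮w⟯) (i : ι) (hg : ∀ p, ((g p : K⟮w⟯) : F) ∈ (T i).Ov) :
    (T i).red (∑ p, ((g p : K⟮w⟯) : F) * B p) =
      ∑ j, snRed (T i) (H.w_mem i) (H.w_tr i) ⟨g ⟨i, j⟩, hg ⟨i, j⟩⟩ • (T i).red (B ⟨i, j⟩) := by
  classical
  have h1 := sn_red_comb (H.w_mem i) (H.w_tr i) B (fun p => hB1 p i)
    (fun p => (⟨g p, hg p⟩ : snRing (T i) w))
  rw [h1, Fintype.sum_sigma, Finset.sum_eq_single i]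
  · intro i' _ hi'
    refine Finset.sum_eq_zero fun j _ => ?_
    rw [hB2 ⟨i', j⟩ i (Ne.symm hi'), smul_zero]
  · intro h
    exact absurd (Finset.mem_univ i) h

/-- **Multi-extension piece A.** -/
theorem MNFamily.charpoly_prod [Infinite k] [Nonempty ι] (H : MNFamily T w)
    [FiniteDimensional K⟮w⟯ F] [∀ i, FiniteDimensional k⟮(T i).red w⟯ (Fk i)]
    (hdeg : Module.finrank K⟮w⟯ F ≤ ∑ i, Module.finrank k⟮(T i).red w⟯ (Fk i))
    {f : F} (hf : ∀ i, f ∈ (T i).Ov) :
    (∀ r i, (((LinearMap.mulLeft K⟮w⟯ f).charpoly.coeff r : K⟮w⟯) : F) ∈ (T i).Ov) ∧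
    ∀ (i₀ : ι) (P : ℕ → k[X]),
      (∀ r, (T i₀).red (((LinearMap.mulLeft K⟮w⟯ f).charpoly.coeff r : K⟮w⟯) : F) =
        aeval ((T i₀).red w) (P r)) →
      ∃ Φ : ι → Polynomial (Polynomial k),
        (∀ i, (Φ i).Monic ∧ (Φ i).map (toAdj ((T i).red w)) =
          (LinearMap.mulLeft k⟮(T i).red w⟯ ((T i).red f)).charpoly) ∧
        ∏ i, Φ i = snPhi (Module.finrank K⟮w⟯ F) P := by
  classical
  letI : LinearOrder ι := LinearOrder.lift' (Fintype.equivFin ι) (Fintype.equivFin ι).injective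
  -- the multi-basis
  set n : ι → ℕ := fun i => Module.finrank k⟮(T i).red w⟯ (Fk i) with hn
  have hnpos : ∀ i, 0 < n i := fun i => Module.finrank_pos
  obtain ⟨B, hB1, hB2, hB3⟩ := H.exists_multibasis n
    (fun i => Module.finBasis k⟮(T i).red w⟯ (Fk i))
    (fun i => (Module.finBasis k⟮(T i).red w⟯ (Fk i)).linearIndependent)
  have hliF := H.linearIndependent n B hB1 hB2 hB3
  have hcardI : Fintype.card (Σ i, Fin (n i)) = ∑ i, n i := by
    rw [Fintype.card_sigma]
    simp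
  have hcard : Fintype.card (Σ i, Fin (n i)) = Module.finrank K⟮w⟯ F :=
    le_antisymm hliF.fintype_card_le_finrank (by rw [hcardI]; exact hdeg)
  haveI : Nonempty (Σ i, Fin (n i)) := ⟨⟨Classical.arbitrary ι, ⟨0, hnpos _⟩⟩⟩
  let Bb : Module.Basis (Σ i, Fin (n i)) K⟮w⟯ F :=
    basisOfLinearIndependentOfCardEqFinrank hliF hcard
  have hBb : ∀ p, Bb p = B p := fun p => by
    simp only [Bb, coe_basisOfLinearIndependentOfCardEqFinrank]
  haveI : ∀ i, Nonempty (Fin (n i)) := fun i => ⟨⟨0, hnpos i⟩⟩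
  let bb : ∀ i, Module.Basis (Fin (n i)) k⟮(T i).red w⟯ (Fk i) := fun i =>
    basisOfLinearIndependentOfCardEqFinrank (hB3 i) (by simp [n])
  have hbb : ∀ i j, bb i j = (T i).red (B ⟨i, j⟩) := fun i j => by
    simp only [bb, coe_basisOfLinearIndependentOfCardEqFinrank]
  -- the matrix of `f`
  set M : Matrix (Σ i, Fin (n i)) (Σ i, Fin (n i)) K⟮w⟯ :=
    LinearMap.toMatrix Bb Bb (LinearMap.mulLeft K⟮w⟯ f) with hM
  have hMsum : ∀ q, ∑ p, ((M p q : K⟮w⟯) : F) * B p = f * B q := by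
    intro q
    have h1 := Bb.sum_repr (f * Bb q)
    rw [← hBb q, ← h1]
    refine Finset.sum_congr rfl fun p _ => ?_
    rw [hM, LinearMap.toMatrix_apply, LinearMap.mulLeft_apply, IntermediateField.smul_def,
      hBb p, smul_eq_mul]
  have hMmem : ∀ p q i, ((M p q : K⟮w⟯) : F) ∈ (T i).Ov := fun p q i =>
    H.coeff_mem n B hB1 hB2 hB3 (fun p => M p q) (fun i => mul_mem (hf i) (hB1 q i))
      (hMsum q) p i
  have hχ : (LinearMap.mulLeft K⟮w⟯ f).charpoly = M.charpoly := by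
    rw [hM, LinearMap.charpoly_toMatrix]
  -- reduction of the columns
  have hcol : ∀ i q, (T i).red f * (T i).red (B q) =
      ∑ j, snRed (T i) (H.w_mem i) (H.w_tr i) ⟨M ⟨i, j⟩ q, hMmem _ _ i⟩ •
        (T i).red (B ⟨i, j⟩) := by
    intro i q
    rw [← (T i).red_mul (hf i) (hB1 q i), ← hMsum q]
    exact H.red_col n B hB1 hB2 (fun p => M p q) i (fun p => hMmem p q i)
  -- the off-diagonal blocks reduce to zero
  have hoff : ∀ (p q : Σ i, Fin (n i)), p.1 ≠ q.1 → ∀ i',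
      (T i').red ((M p q : K⟮w⟯) : F) = 0 := by
    intro p q hpq i'
    have h1 := hcol p.1 q
    rw [hB2 q p.1 hpq, mul_zero] at h1
    have h2 := Fintype.linearIndependent_iff.mp (hB3 p.1) _ h1.symm p.2
    have h3 : (T p.1).red ((M ⟨p.1, p.2⟩ q : K⟮w⟯) : F) = 0 := by
      have := congrArg (fun z : k⟮(T p.1).red w⟯ => (z : Fk p.1)) h2
      simpa using this
    exact mn_red_eq_zero (T p.1) (T i') (H.A_eq _ _) (H.res_eq _ _) (H.w_mem _) (H.w_tr _)
      (H.w_mem _) (H.w_tr _) (M p q).2 (hMmem p q p.1) h3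
  -- the diagonal blocks
  let D : ∀ i, Matrix (Fin (n i)) (Fin (n i)) K⟮w⟯ := fun i => Matrix.of fun j j' =>
    M ⟨i, j⟩ ⟨i, j'⟩
  have hDmem : ∀ i j j' i', (((D i) j j' : K⟮w⟯) : F) ∈ (T i').Ov := fun i j j' i' =>
    hMmem _ _ i'
  -- the diagonal block `i` reduces at `i` to the matrix of `red_i f`
  have hdiag : ∀ i, (Matrix.of fun j j' =>
      snRed (T i) (H.w_mem i) (H.w_tr i) ⟨(D i) j j', hDmem i j j' i⟩) =
      LinearMap.toMatrix (bb i) (bb i) (LinearMap.mulLeft k⟮(T i).red w⟯ ((T i).red f)) := by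
    intro i
    ext j j'
    rw [Matrix.of_apply, LinearMap.toMatrix_apply, LinearMap.mulLeft_apply, hbb i j',
      hcol i ⟨i, j'⟩]
    have h3 : ∑ j, snRed (T i) (H.w_mem i) (H.w_tr i) ⟨M ⟨i, j⟩ ⟨i, j'⟩, hMmem _ _ i⟩ •
        (T i).red (B ⟨i, j⟩) =
        ∑ j, snRed (T i) (H.w_mem i) (H.w_tr i) ⟨M ⟨i, j⟩ ⟨i, j'⟩, hMmem _ _ i⟩ • bb i j :=
      Finset.sum_congr rfl fun j _ => by rw [hbb i j]
    rw [h3, Module.Basis.repr_sum_self]
    rfl
  refine ⟨fun r i => ?_, fun i₀ P hP => ?_⟩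
  · rw [hχ]
    exact (mn_charpoly_coeff_red (T i) (H.w_mem i) (H.w_tr i) M (fun p q => hMmem p q i) r).1
  -- the reduced matrix at `i₀`
  set Mbar : Matrix (Σ i, Fin (n i)) (Σ i, Fin (n i)) k⟮(T i₀).red w⟯ := Matrix.of fun p q =>
    snRed (T i₀) (H.w_mem i₀) (H.w_tr i₀) ⟨M p q, hMmem p q i₀⟩ with hMbar
  have hMbar_off : ∀ p q : Σ i, Fin (n i), p.1 ≠ q.1 → Mbar p q = 0 := by
    intro p q hpq
    apply Subtype.ext
    rw [hMbar, Matrix.of_apply, snRed_coe]
    exact hoff p q hpq i₀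
  set N : ℕ := Module.finrank K⟮w⟯ F with hN
  have hdegχ : (LinearMap.mulLeft K⟮w⟯ f).charpoly.natDegree = N :=
    LinearMap.charpoly_natDegree _
  -- `Φ(w̄, X)` is the characteristic polynomial of the reduced matrix
  have hΦmap : (snPhi N P).map (toAdj ((T i₀).red w)) = Mbar.charpoly := by
    ext r : 1
    apply Subtype.ext
    rw [Polynomial.coeff_map, coe_toAdj, snPhi_coeff]
    have h1 := (mn_charpoly_coeff_red (T i₀) (H.w_mem i₀) (H.w_tr i₀) M
      (fun p q => hMmem p q i₀) r).2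
    rw [← hMbar, ← hχ] at h1
    rw [← h1]
    split_ifs with hr
    · exact (hP r).symm
    · rw [map_zero, Polynomial.coeff_eq_zero_of_natDegree_lt (by omega)]
      exact ((T i₀).red_zero).symm
  have hΦmonic : (snPhi N P).Monic := by
    apply Polynomial.monic_of_injective (toAdj_injective (H.w_tr i₀))
    rw [hΦmap]
    exact Matrix.charpoly_monic _
  -- block decomposition
  set Dbar : ∀ i, Matrix (Fin (n i)) (Fin (n i)) k⟮(T i₀).red w⟯ := fun i =>
    Matrix.of fun j j' => snRed (T i₀) (H.w_mem i₀) (H.w_tr i₀) ⟨(D i) j j', hDmem i j j' i₀⟩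
    with hDbar
  have hblock : Mbar.charpoly = ∏ i, (Dbar i).charpoly := by
    have hBT : Mbar.BlockTriangular (Sigma.fst : (Σ i, Fin (n i)) → ι) := fun p q hlt =>
      hMbar_off p q (ne_of_gt hlt)
    rw [hBT.charpoly]
    have himg : Finset.image (Sigma.fst : (Σ i, Fin (n i)) → ι) Finset.univ = Finset.univ :=
      Finset.image_univ_of_surjective fun i => ⟨⟨i, ⟨0, hnpos i⟩⟩, rfl⟩
    rw [himg]
    refine Finset.prod_congr rfl fun i _ => ?_
    have h1 : Dbar i = Matrix.reindex (Equiv.sigmaSubtype i) (Equiv.sigmaSubtype i)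
        (Mbar.toSquareBlock Sigma.fst i) := by
      ext j j'
      rfl
    rw [h1, Matrix.charpoly_reindex]
  -- Gauss' lemma for the factors
  have hfac : ∀ i, ∃ Ψ : Polynomial (Polynomial k), Ψ.Monic ∧
      Ψ.map (toAdj ((T i₀).red w)) = (Dbar i).charpoly := by
    intro i
    refine mn_gauss_factor (H.w_tr i₀) hΦmonic (Matrix.charpoly_monic _) ?_
    rw [hΦmap, hblock]
    exact Finset.dvd_prod_of_mem _ (Finset.mem_univ i)
  choose Ψ hΨm hΨ using hfac
  refine ⟨Ψ, fun i => ⟨hΨm i, ?_⟩, ?_⟩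
  · -- transport from `i₀` to `i`
    ext r : 1
    apply Subtype.ext
    rw [Polynomial.coeff_map, coe_toAdj]
    obtain ⟨hm₀, hr₀⟩ := mn_charpoly_coeff_red (T i₀) (H.w_mem i₀) (H.w_tr i₀) (D i)
      (fun j j' => hDmem i j j' i₀) r
    obtain ⟨-, hr⟩ := mn_charpoly_coeff_red (T i) (H.w_mem i) (H.w_tr i) (D i)
      (fun j j' => hDmem i j j' i) r
    rw [hdiag i, LinearMap.charpoly_toMatrix] at hr
    rw [← hr]
    have h1 : (T i₀).red (((D i).charpoly.coeff r : K⟮w⟯) : F) =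
        aeval ((T i₀).red w) ((Ψ i).coeff r) := by
      rw [hr₀]
      show (((Dbar i).charpoly.coeff r : k⟮(T i₀).red w⟯) : Fk i₀) = _
      rw [← hΨ i, Polynomial.coeff_map, coe_toAdj]
    exact ((mn_red_transport (T i₀) (T i) (H.A_eq _ _) (H.res_eq _ _) (H.w_mem _) (H.w_tr _)
      (H.w_mem _) (H.w_tr _) ((D i).charpoly.coeff r).2 hm₀).2 _ h1).symm
  · apply Polynomial.map_injective (toAdj ((T i₀).red w)) (toAdj_injective (H.w_tr i₀))
    rw [Polynomial.map_prod, hΦmap, hblock]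
    exact Finset.prod_congr rfl fun i _ => hΨ i

end Family

end Fermat.Agent.BadRedG
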