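/-
Cluster G (S36), seat G-NODE, split ROOT-COUNT (helper4): the refined root formula.

`E / k` a function field (`IsRRField`), `x ∈ E` transcendental, `g ∈ E` such that the characteristic
polynomial of `g` on `E / k(x)` is `Φ(x, X)` with `Φ ∈ k[T][X]`.  Then
`Φ(0, X) = ∏_{Q, x(Q) = 0} (X - g(Q)) ^ (ord_Q x)`: the multiplicity of `a` as a root of `Φ(0, X)`
is the number of zeros of `x`, counted with multiplicity, at which `g` takes the value `a`.

Proof.  `R` = the functions without poles off the poles of `x` is free over `k[x]` on a reduced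
basis `b` (`SeedNodeC1.exists_int_basis`); `g` acts on `R / x R = k ^ n` through the matrix `m(0)`,
whose characteristic polynomial is `Φ(0, X)`.  The multiplicity of `a` is the dimension of the
generalised eigenspace.  A vector `w` lies in the generalised eigenspace of `a` iff the function
`ι w = ∑ w_i b_i` vanishes to the order `ord_Q x` at the zeros `Q` of `x` with `g(Q) ≠ a`, and `w`
is in the image of `(m(0) - a) ^ N` (`N` large) only if `ι w` vanishes to the order `ord_Q x` at
the zeros with `g(Q) = a`.  Both dimensions are bounded by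
`ℓ(D) - ℓ(D - Z) ≤ deg Z` (`RR.degree_sub_ell_mono`).
-/
import Mathlib
import Fermat.Agent.Lib.BadRed.Graph.MultiNodeDefs

set_option autoImplicit false
set_option linter.unusedSectionVars false
set_option linter.style.haveILetI false

noncomputable section

open AlgebraicCurve Polynomial IntermediateField

namespace Fermat.Agent.BadRedG

open Fermat.Agent.RR Fermat.Agent.RRHur Fermat.Agent.BadRed Fermat.Agent.BadRed.SeedNode

namespace RootCount

variable {k E : Type*} [Field k] [Field E] [Algebra k E]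

/-! ### the submodule `x R` -/

/-- the functions `x r`, `r` without poles off the poles of `x` -/
def xR (x : E) : Submodule k E where
  carrier := {f | ∃ r, IntAway (K := k) x r ∧ f = x * r}
  zero_mem' := ⟨0, IntAway.zero x, by rw [mul_zero]⟩
  add_mem' := by
    rintro f₁ f₂ ⟨r₁, hr₁, rfl⟩ ⟨r₂, hr₂, rfl⟩
    exact ⟨r₁ + r₂, hr₁.add hr₂, by ring⟩
  smul_mem' := by
    rintro c f ⟨r, hr, rfl⟩
    refine ⟨algebraMap k E c * r, ?_, ?_⟩
    · exact IntAway.mul (fun v _ => v.adicValuation_algebraMap_le_one c) hr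
    · rw [Algebra.smul_def]
      ring

theorem mem_xR {x f : E} : f ∈ xR (k := k) x ↔ ∃ r, IntAway (K := k) x r ∧ f = x * r := Iff.rfl

theorem mul_mem_xR {x f s : E} (hs : IntAway (K := k) x s) (hf : f ∈ xR (k := k) x) :
    s * f ∈ xR (k := k) x := by
  obtain ⟨r, hr, rfl⟩ := hf
  exact ⟨s * r, hs.mul hr, by ring⟩

/-- the functions of `x R` vanish at the zeros of `x` to the order of `x` -/
theorem adicValuation_le_of_mem_xR {x f : E} (hf : f ∈ xR (k := k) x) (Q : Place k E)
    (hQ : Q.adicValuation x ≤ 1) : Q.adicValuation f ≤ Q.adicValuation x := by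
  obtain ⟨r, hr, rfl⟩ := hf
  rw [map_mul]
  exact mul_le_of_le_one_right' (hr Q hQ)

/-- conversely -/
theorem mem_xR_of_adicValuation_le {x f : E} (hx0 : x ≠ 0) (hf : IntAway (K := k) x f)
    (h : ∀ Q : Place k E, Q.adicValuation x < 1 → Q.adicValuation f ≤ Q.adicValuation x) :
    f ∈ xR (k := k) x := by
  refine ⟨f / x, ?_, by field_simp⟩
  intro Q hQ
  rw [map_div₀]
  have hx0' : Q.adicValuation x ≠ 0 := (Valuation.ne_zero_iff _).mpr hx0
  rcases lt_or_eq_of_le hQ with hlt | heq
  · exact (div_le_one₀ (zero_lt_iff.mpr hx0')).mpr (h Q hlt)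
  · rw [heq, div_one]
    exact hf Q hQ

/-! ### the linear combinations of the basis with constant coefficients -/

section Iota

variable {x : E} [FiniteDimensional k⟮x⟯ E] {n : ℕ} (b : Module.Basis (Fin n) k⟮x⟯ E)

/-- `w ↦ ∑ w_i b_i` -/
def iota : (Fin n → k) →ₗ[k] E := Fintype.linearCombination k (fun i => b i)

theorem iota_apply (w : Fin n → k) : iota b w = ∑ i, algebraMap k E (w i) * b i := by
  simp only [iota, Fintype.linearCombination_apply, Algebra.smul_def]

theorem iota_eq_sum_toAdj (w : Fin n → k) : iota b w = ∑ i, toAdj x (C (w i)) • b i := by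
  rw [iota_apply]
  refine Finset.sum_congr rfl fun i _ => ?_
  rw [smul_toAdj, aeval_C]

theorem intAway_iota (hb : ∀ i, IntAway (K := k) x (b i)) (w : Fin n → k) :
    IntAway (K := k) x (iota b w) := by
  rw [iota_apply]
  exact IntAway.sum _ _
    (fun i _ => IntAway.mul (fun v _ => v.adicValuation_algebraMap_le_one _) (hb i))

/-- uniqueness of the polynomial coordinates -/
theorem coord_unique (hx : Transcendental k x) {p q : Fin n → k[X]}
    (h : ∑ i, toAdj x (p i) • b i = ∑ i, toAdj x (q i) • b i) : p = q := by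
  funext i
  apply toAdj_injective hx
  have hp := b.repr_sum_self (fun i => toAdj x (p i))
  have hq := b.repr_sum_self (fun i => toAdj x (q i))
  rw [h] at hp
  exact congrFun (hp.symm.trans hq) i

/-- a combination with constant coefficients which lies in `x R` is zero -/
theorem eq_zero_of_iota_mem_xR (hx : Transcendental k x)
    (hint : ∀ f : E, IntAway (K := k) x f → ∃ a : Fin n → k[X], f = ∑ i, toAdj x (a i) • b i)
    {w : Fin n → k} (h : iota b w ∈ xR (k := k) x) : w = 0 := by
  obtain ⟨r, hr, hxr⟩ := h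
  obtain ⟨a, ha⟩ := hint r hr
  have h1 : ∑ i, toAdj x (C (w i)) • b i = ∑ i, toAdj x (X * a i) • b i := by
    rw [← iota_eq_sum_toAdj, hxr, ha, Finset.mul_sum]
    refine Finset.sum_congr rfl fun i _ => ?_
    rw [smul_toAdj, smul_toAdj, map_mul, aeval_X]
    ring
  have h2 := coord_unique b hx h1
  funext i
  have h3 := congrArg (fun p : k[X] => p.coeff 0) (congrFun h2 i)
  simpa using h3

theorem iota_injective (hx : Transcendental k x)
    (hint : ∀ f : E, IntAway (K := k) x f → ∃ a : Fin n → k[X], f = ∑ i, toAdj x (a i) • b i) :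
    Function.Injective (iota b) := by
  rw [← LinearMap.ker_eq_bot, LinearMap.ker_eq_bot']
  intro w hw
  apply eq_zero_of_iota_mem_xR b hx hint
  rw [hw]
  exact Submodule.zero_mem _

/-- multiplication by `g` on `R / x R` is given by the matrix `m(0)` -/
theorem mul_iota_sub_mem (hb : ∀ i, IntAway (K := k) x (b i)) (g : E)
    (m : Matrix (Fin n) (Fin n) k[X]) (hm : ∀ j, g * b j = ∑ i, toAdj x (m i j) • b i)
    (w : Fin n → k) :
    g * iota b w - iota b (Matrix.toLin' (m.map (Polynomial.evalRingHom 0)) w)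
      ∈ xR (k := k) x := by
  -- the case of a basis vector
  have key : ∀ j, g * b j - ∑ i, algebraMap k E ((m i j).eval 0) * b i ∈ xR (k := k) x := by
    intro j
    refine ⟨∑ i, Polynomial.aeval x (m i j).divX * b i, ?_, ?_⟩
    · exact IntAway.sum _ _ (fun i _ => IntAway.mul (intAway_aeval x _) (hb i))
    · rw [hm j, ← Finset.sum_sub_distrib, Finset.mul_sum]
      refine Finset.sum_congr rfl fun i _ => ?_
      rw [smul_toAdj]
      have h1 : Polynomial.aeval x (m i j)
          = Polynomial.aeval x (m i j).divX * x + algebraMap k E ((m i j).eval 0) := by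
        conv_lhs => rw [← Polynomial.divX_mul_X_add (m i j)]
        rw [map_add, map_mul, aeval_X, aeval_C, Polynomial.coeff_zero_eq_eval_zero]
      rw [h1]
      ring
  have h2 : g * iota b w - iota b (Matrix.toLin' (m.map (Polynomial.evalRingHom 0)) w)
      = ∑ j, w j • (g * b j - ∑ i, algebraMap k E ((m i j).eval 0) * b i) := by
    rw [iota_apply, iota_apply, Finset.mul_sum]
    simp only [Matrix.toLin'_apply, Matrix.mulVec, dotProduct, Matrix.map_apply,
      Polynomial.coe_evalRingHom, map_sum, map_mul, Finset.sum_mul, Algebra.smul_def, mul_sub,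
      Finset.mul_sum, Finset.sum_sub_distrib]
    congr 1
    · refine Finset.sum_congr rfl fun j _ => ?_
      ring
    · rw [Finset.sum_comm]
      refine Finset.sum_congr rfl fun j _ => Finset.sum_congr rfl fun i _ => ?_
      ring
  rw [h2]
  exact Submodule.sum_mem _ fun j _ => Submodule.smul_mem _ _ (key j)

/-- the same for the powers of `g - a` -/
theorem pow_mul_iota_sub_mem (hb : ∀ i, IntAway (K := k) x (b i)) (g : E)
    (hg : IntAway (K := k) x g)
    (m : Matrix (Fin n) (Fin n) k[X]) (hm : ∀ j, g * b j = ∑ i, toAdj x (m i j) • b i)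
    (a : k) (N : ℕ) (w : Fin n → k) :
    (g - algebraMap k E a) ^ N * iota b w
      - iota b (((Matrix.toLin' (m.map (Polynomial.evalRingHom 0)) - a • 1) ^ N) w)
      ∈ xR (k := k) x := by
  have hga : IntAway (K := k) x (g - algebraMap k E a) :=
    hg.sub (fun v _ => v.adicValuation_algebraMap_le_one a)
  induction N generalizing w with
  | zero =>
    simp only [pow_zero, one_mul, Module.End.one_apply, sub_self]
    exact Submodule.zero_mem _
  | succ N ih =>
    generalize hA : (Matrix.toLin' (m.map (Polynomial.evalRingHom 0)) :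
      Module.End k (Fin n → k)) = A at ih ⊢
    have hψv : ∀ v, iota b ((A - a • 1) v) = iota b (A v) - algebraMap k E a * iota b v := by
      intro v
      rw [LinearMap.sub_apply, LinearMap.smul_apply, Module.End.one_apply, map_sub, map_smul,
        Algebra.smul_def]
    have e1 : ((A - a • 1) ^ (N + 1)) w = (A - a • 1) (((A - a • 1) ^ N) w) := by
      rw [pow_succ', Module.End.mul_apply]
    have e2 : (g - algebraMap k E a) ^ (N + 1) * iota b w - iota b (((A - a • 1) ^ (N + 1)) w)
        = (g - algebraMap k E a)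
            * ((g - algebraMap k E a) ^ N * iota b w - iota b (((A - a • 1) ^ N) w))
          + (g * iota b (((A - a • 1) ^ N) w) - iota b (A (((A - a • 1) ^ N) w))) := by
      rw [e1, hψv]
      ring
    rw [e2]
    refine Submodule.add_mem _ (mul_mem_xR hga (ih w)) ?_
    rw [← hA]
    exact mul_iota_sub_mem b hb g m hm _

end Iota

/-! ### the dimension bound -/

section Core

variable {x : E} [FiniteDimensional k⟮x⟯ E] {n : ℕ} (b : Module.Basis (Fin n) k⟮x⟯ E)

open WithZero in
/-- **the dimension bound**: `Z₁ + Z₂ ≥ (x)₀` supported off the poles of `x`, `W` a space of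
vectors `w` such that `ι w` vanishes along `Z₁`.  Then `dim W ≤ deg Z₂`. -/
theorem finrank_le_degree (h : IsRRField k E) (hx : Transcendental k x)
    (hb : ∀ i, IntAway (K := k) x (b i))
    (hint : ∀ f : E, IntAway (K := k) x f → ∃ a : Fin n → k[X], f = ∑ i, toAdj x (a i) • b i)
    (Z₁ Z₂ : Divisor k E) (hZ₁ : ∀ Q : Place k E, 1 < Q.adicValuation x → Z₁ Q = 0)
    (hZ₂ : 0 ≤ Z₂)
    (hZ : ∀ Q : Place k E, Q.adicValuation x < 1 →
      exp (-(Z₁ Q + Z₂ Q)) ≤ Q.adicValuation x)
    (W : Submodule k (Fin n → k))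
    (hW : ∀ w ∈ W, ∀ Q : Place k E, Q.adicValuation x ≤ 1 →
      Q.adicValuation (iota b w) ≤ exp (-(Z₁ Q))) :
    (Module.finrank k W : ℤ) ≤ Divisor.degree Z₂ := by
  classical
  have hx0 : x ≠ 0 := fun h0 => hx (h0 ▸ isAlgebraic_zero)
  set D₀ : Divisor k E := ∑ i, poleDiv h (b i) with hD₀
  have hD₀b : ∀ i, b i ∈ riemannRochSpace D₀ := fun i =>
    riemannRochSpace_mono
      (Finset.single_le_sum (f := fun j => poleDiv h (b j)) (fun j _ => poleDiv_nonneg h (b j))
        (Finset.mem_univ i)) (mem_riemannRochSpace_poleDiv h (b i))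
  have hD₀0 : ∀ Q : Place k E, Q.adicValuation x ≤ 1 → D₀ Q = 0 := by
    intro Q hQ
    rw [hD₀, Finsupp.finset_sum_apply]
    refine Finset.sum_eq_zero fun i _ => ?_
    rw [poleDiv_apply, max_eq_right]
    have := (adicValuation_le_one_iff' Q).mp (hb i Q hQ)
    omega
  have hι₀ : ∀ w, iota b w ∈ riemannRochSpace D₀ := by
    intro w
    rw [iota_apply]
    refine Submodule.sum_mem _ fun i _ => ?_
    rw [← Algebra.smul_def]
    exact Submodule.smul_mem _ _ (hD₀b i)
  -- the functions `ι w`, `w ∈ W`, lie in `L(D₀ - Z₁)`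
  have h1 : ∀ w ∈ W, iota b w ∈ riemannRochSpace (D₀ - Z₁) := by
    intro w hw Q
    show Q.adicValuation (iota b w) ≤ exp ((D₀ - Z₁) Q)
    rw [Finsupp.sub_apply]
    by_cases hQ : Q.adicValuation x ≤ 1
    · rw [hD₀0 Q hQ, zero_sub]
      exact hW w hw Q hQ
    · rw [hZ₁ Q (not_le.mp hQ), sub_zero]
      exact hι₀ w Q
  -- none of them lies in `L(D₀ - Z₁ - Z₂)`
  have h2 : ∀ w, iota b w ∈ riemannRochSpace (D₀ - Z₁ - Z₂) → w = 0 := by
    intro w hw
    apply eq_zero_of_iota_mem_xR b hx hint
    apply mem_xR_of_adicValuation_le hx0 (intAway_iota b hb w)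
    intro Q hQ
    have h3 : Q.adicValuation (iota b w) ≤ exp ((D₀ - Z₁ - Z₂) Q) := hw Q
    rw [Finsupp.sub_apply, Finsupp.sub_apply, hD₀0 Q hQ.le, zero_sub] at h3
    refine h3.trans ?_
    have h4 := hZ Q hQ
    rwa [neg_add'] at h4
  have hinj := iota_injective b hx hint
  set U : Submodule k E := W.map (iota b) with hU
  have hUle : U ≤ riemannRochSpace (D₀ - Z₁) := by
    rintro _ ⟨w, hw, rfl⟩
    exact h1 w hw
  have hUinf : U ⊓ riemannRochSpace (D₀ - Z₁ - Z₂) = ⊥ := by
    rw [eq_bot_iff]
    rintro f ⟨⟨w, -, rfl⟩, hf⟩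
    rw [h2 w hf, map_zero]
    exact Submodule.zero_mem _
  haveI hfinD := finite_riemannRochSpace h (D₀ - Z₁)
  haveI hfinDZ := finite_riemannRochSpace h (D₀ - Z₁ - Z₂)
  have hle : D₀ - Z₁ - Z₂ ≤ D₀ - Z₁ := sub_le_self _ hZ₂
  have hsub : riemannRochSpace (D₀ - Z₁ - Z₂) ≤ riemannRochSpace (D₀ - Z₁) :=
    riemannRochSpace_mono hle
  haveI hfinU : Module.Finite k U := Submodule.finiteDimensional_of_le hUle
  have hUW : Module.finrank k U = Module.finrank k W :=
    (Submodule.equivMapOfInjective (iota b) hinj W).finrank_eq.symm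
  have hsum : Module.finrank k U + Module.finrank k (riemannRochSpace (D₀ - Z₁ - Z₂))
      ≤ Module.finrank k (riemannRochSpace (D₀ - Z₁)) := by
    have h5 := Submodule.finrank_sup_add_finrank_inf_eq U (riemannRochSpace (D₀ - Z₁ - Z₂))
    rw [hUinf, finrank_bot, add_zero] at h5
    rw [← h5]
    exact Submodule.finrank_mono (sup_le hUle hsub)
  have hmono := degree_sub_ell_mono h hle
  rw [map_sub (Divisor.degree (K := k) (F := E)) (D₀ - Z₁) Z₂] at hmono
  unfold ell at hmono
  rw [hUW] at hsum
  have hsum' : (Module.finrank k W : ℤ)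
      + (Module.finrank k (riemannRochSpace (D₀ - Z₁ - Z₂)) : ℤ)
      ≤ (Module.finrank k (riemannRochSpace (D₀ - Z₁)) : ℤ) := by exact_mod_cast hsum
  linarith

end Core

end RootCount

end Fermat.Agent.BadRedG
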