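/-
Cluster G (S36), seat G-NODE, split ROOT-COUNT (helper4): the refined root formula, main theorem.

`rootCount : RootCountStatement k E`.  See `RootCountCore.lean` for the plan of the proof.
-/
import Mathlib
import Fermat.Agent.Lib.BadRed.Graph.RootCountCore
import Fermat.Agent.Lib.RR.Hurwitz.Count

set_option autoImplicit false
set_option linter.unusedSectionVars false
set_option linter.style.haveILetI false

noncomputable section

open AlgebraicCurve Polynomial IntermediateField

namespace Fermat.Agent.BadRedG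

open Fermat.Agent.RR Fermat.Agent.RRHur Fermat.Agent.BadRed Fermat.Agent.BadRed.SeedNode

namespace RootCount

variable {k E : Type*} [Field k] [Field E] [Algebra k E]

/-! ### the divisors of the zeros of `x` with a condition -/

open Classical in
/-- the zeros of `x` which satisfy `P`, with the multiplicity `ord_Q x` -/
def zDiv (h : IsRRField k E) (x : E) (P : Place k E → Prop) : Divisor k E :=
  Finsupp.onFinset (divOf h x).support (fun Q => if 0 < Q.ord x ∧ P Q then Q.ord x else 0)
    (by
      intro Q hQ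
      rw [Finsupp.mem_support_iff, divOf_apply]
      intro h0
      apply hQ
      rw [if_neg]
      rintro ⟨h1, -⟩
      omega)

open Classical in
theorem zDiv_apply (h : IsRRField k E) (x : E) (P : Place k E → Prop) (Q : Place k E) :
    zDiv h x P Q = if 0 < Q.ord x ∧ P Q then Q.ord x else 0 := rfl

theorem zDiv_apply_of (h : IsRRField k E) (x : E) (P : Place k E → Prop) (Q : Place k E)
    (h1 : 0 < Q.ord x) (h2 : P Q) : zDiv h x P Q = Q.ord x := by
  rw [zDiv_apply, if_pos ⟨h1, h2⟩]

theorem zDiv_apply_of_not (h : IsRRField k E) (x : E) (P : Place k E → Prop) (Q : Place k E)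
    (h2 : ¬ P Q) : zDiv h x P Q = 0 := by
  rw [zDiv_apply, if_neg (fun h3 => h2 h3.2)]

theorem zDiv_apply_of_le (h : IsRRField k E) (x : E) (P : Place k E → Prop) (Q : Place k E)
    (h1 : Q.ord x ≤ 0) : zDiv h x P Q = 0 := by
  rw [zDiv_apply, if_neg (fun h3 => absurd h3.1 (not_lt.mpr h1))]

theorem zDiv_cases (h : IsRRField k E) (x : E) (P : Place k E → Prop) (Q : Place k E) :
    (0 < Q.ord x ∧ P Q ∧ zDiv h x P Q = Q.ord x) ∨ (¬ (0 < Q.ord x ∧ P Q) ∧ zDiv h x P Q = 0) := by
  by_cases h1 : 0 < Q.ord x ∧ P Q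
  · exact Or.inl ⟨h1.1, h1.2, zDiv_apply_of h x P Q h1.1 h1.2⟩
  · refine Or.inr ⟨h1, ?_⟩
    rw [zDiv_apply, if_neg h1]

theorem zDiv_nonneg (h : IsRRField k E) (x : E) (P : Place k E → Prop) : 0 ≤ zDiv h x P := by
  rw [Finsupp.le_def]
  intro Q
  rcases zDiv_cases h x P Q with ⟨h1, -, h3⟩ | ⟨-, h3⟩
  · rw [h3]
    exact h1.le
  · rw [h3]
    rfl

theorem zDiv_add (h : IsRRField k E) (x : E) (P : Place k E → Prop) :
    zDiv h x P + zDiv h x (fun Q => ¬ P Q) = poleDiv h x⁻¹ := by
  ext Q
  rw [Finsupp.add_apply, poleDiv_apply, Q.ord_inv, neg_neg]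
  by_cases h1 : 0 < Q.ord x
  · rw [max_eq_left h1.le]
    by_cases h2 : P Q
    · rw [zDiv_apply_of h x P Q h1 h2, zDiv_apply_of_not h x _ Q (not_not.mpr h2), add_zero]
    · rw [zDiv_apply_of_not h x P Q h2, zDiv_apply_of h x _ Q h1 h2, zero_add]
  · rw [max_eq_right (not_lt.mp h1), zDiv_apply_of_le h x _ Q (not_lt.mp h1),
      zDiv_apply_of_le h x _ Q (not_lt.mp h1), add_zero]

theorem degree_poleDiv_inv' (h : IsRRField k E) (u : E) :
    Divisor.degree (poleDiv h u⁻¹) = Divisor.degree (poleDiv h u) := by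
  have h1 : poleDiv h u⁻¹ = poleDiv h u + divOf h u := by
    ext v
    rw [Finsupp.add_apply, poleDiv_apply, poleDiv_apply, divOf_apply, v.ord_inv, neg_neg]
    rcases max_cases (v.ord u) 0 with ⟨h1, _⟩ | ⟨h1, _⟩ <;>
      rcases max_cases (-(v.ord u)) 0 with ⟨h2, _⟩ | ⟨h2, _⟩ <;> omega
  rw [h1, map_add, degree_divOf, add_zero]

theorem degree_zDiv_add (h : IsRRField k E) {x : E} (hx : Transcendental k x)
    [FiniteDimensional k⟮x⟯ E] (P : Place k E → Prop) :
    Divisor.degree (zDiv h x P) + Divisor.degree (zDiv h x (fun Q => ¬ P Q))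
      = (Module.finrank k⟮x⟯ E : ℤ) := by
  rw [← map_add, zDiv_add, degree_poleDiv_inv', degree_poleDiv_eq_finrank h hx]

theorem zDiv_le_finrank (h : IsRRField k E) {x : E} (hx : Transcendental k x)
    [FiniteDimensional k⟮x⟯ E] (P : Place k E → Prop) (Q : Place k E) :
    zDiv h x P Q ≤ (Module.finrank k⟮x⟯ E : ℤ) := by
  have h1 := sn_coeff_le_degree h (poleDiv_nonneg h x⁻¹) Q
  rw [degree_poleDiv_inv', degree_poleDiv_eq_finrank h hx, ← zDiv_add h x P,
    Finsupp.add_apply] at h1
  have h2 := (Finsupp.le_def.mp (zDiv_nonneg h x (fun Q => ¬ P Q))) Q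
  rw [Finsupp.zero_apply] at h2
  omega

theorem degree_zDiv_valAt (h : IsRRField k E) (x g : E) (a : k) :
    Divisor.degree (zDiv h x (fun Q => ValAt Q g a)) = mnCount h x g a := by
  classical
  rw [degree_eq_sum h]
  unfold mnCount
  have h1 : (zDiv h x (fun Q => ValAt Q g a)).support ⊆ (divOf h x).support :=
    Finsupp.support_onFinset_subset
  rw [Finset.sum_subset h1 (fun Q _ hQ => Finsupp.notMem_support_iff.mp hQ)]
  refine Finset.sum_congr rfl fun Q _ => ?_
  rw [zDiv_apply]

/-! ### valuations at the zeros of `x` -/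

open WithZero in
theorem adicValuation_eq_exp_of_ne {x : E} (hx0 : x ≠ 0) (Q : Place k E) :
    Q.adicValuation x = exp (-(Q.ord x)) := Q.adicValuation_eq_exp_neg_ord hx0

open WithZero in
theorem one_lt_adicValuation_iff {x : E} (Q : Place k E) :
    1 < Q.adicValuation x ↔ Q.ord x < 0 := by
  rw [← not_le, Q.not_adicValuation_le_one_iff]

/-! ### the two spaces -/

section Main

variable {x : E} [FiniteDimensional k⟮x⟯ E] {n : ℕ} (b : Module.Basis (Fin n) k⟮x⟯ E)

open WithZero in
/-- the generalised eigenspace of `a`: the functions vanish at the zeros of `x` with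
`g ≠ a`. -/
theorem adicValuation_iota_le_of_mem_maxGen (h : IsRRField k E) (hx0 : x ≠ 0)
    (hb : ∀ i, IntAway (K := k) x (b i)) (g : E) (hg : IntAway (K := k) x g)
    (m : Matrix (Fin n) (Fin n) k[X]) (hm : ∀ j, g * b j = ∑ i, toAdj x (m i j) • b i)
    (a : k) (w : Fin n → k)
    (hw : w ∈ Module.End.maxGenEigenspace
      (Matrix.toLin' (m.map (Polynomial.evalRingHom 0))) a)
    (Q : Place k E) (hQ : Q.adicValuation x ≤ 1) :
    Q.adicValuation (iota b w) ≤ exp (-(zDiv h x (fun Q => ¬ ValAt Q g a) Q)) := by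
  rcases zDiv_cases h x (fun Q => ¬ ValAt Q g a) Q with ⟨h1, h2, h3⟩ | ⟨-, h3⟩
  · rw [h3, ← adicValuation_eq_exp_of_ne hx0]
    obtain ⟨N, hN⟩ := (Module.End.mem_maxGenEigenspace _ _ _).mp hw
    have h4 := pow_mul_iota_sub_mem b hb g hg m hm a N w
    rw [hN, map_zero, sub_zero] at h4
    have h5 := adicValuation_le_of_mem_xR h4 Q hQ
    rw [map_mul, map_pow] at h5
    have h6 : Q.adicValuation (g - algebraMap k E a) = 1 := by
      have h7 : Q.adicValuation (g - algebraMap k E a) ≤ 1 :=
        (hg.sub (fun v _ => v.adicValuation_algebraMap_le_one a)) Q hQ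
      have h8 : ¬ Q.adicValuation (algebraMap k E a - g) < 1 :=
        fun h9 => h2 ((valAt_iff Q g a).mpr h9)
      rw [Valuation.map_sub_swap] at h8
      exact le_antisymm h7 (not_lt.mp h8)
    rwa [h6, one_pow, one_mul] at h5
  · rw [h3, neg_zero, exp_zero]
    exact intAway_iota b hb w Q hQ

open WithZero in
/-- the image of `(m(0) - a) ^ N`, `N ≥ ord_Q x`: the functions vanish at the zeros of `x` with
`g = a`. -/
theorem adicValuation_iota_le_of_mem_range (h : IsRRField k E) (hx0 : x ≠ 0)
    (hb : ∀ i, IntAway (K := k) x (b i)) (g : E) (hg : IntAway (K := k) x g)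
    (m : Matrix (Fin n) (Fin n) k[X]) (hm : ∀ j, g * b j = ∑ i, toAdj x (m i j) • b i)
    (a : k) (N : ℕ) (hN : ∀ Q : Place k E, zDiv h x (fun Q => ValAt Q g a) Q ≤ (N : ℤ))
    (w : Fin n → k)
    (hw : w ∈ LinearMap.range
      ((Matrix.toLin' (m.map (Polynomial.evalRingHom 0)) - a • 1) ^ N))
    (Q : Place k E) (hQ : Q.adicValuation x ≤ 1) :
    Q.adicValuation (iota b w) ≤ exp (-(zDiv h x (fun Q => ValAt Q g a) Q)) := by
  rcases zDiv_cases h x (fun Q => ValAt Q g a) Q with ⟨h1, h2, h3⟩ | ⟨-, h3⟩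
  · obtain ⟨c, rfl⟩ := hw
    have h4 := pow_mul_iota_sub_mem b hb g hg m hm a N c
    have h5 : iota b (((Matrix.toLin' (m.map (Polynomial.evalRingHom 0)) - a • 1) ^ N) c)
        = (g - algebraMap k E a) ^ N * iota b c
          - ((g - algebraMap k E a) ^ N * iota b c
            - iota b (((Matrix.toLin' (m.map (Polynomial.evalRingHom 0)) - a • 1) ^ N) c)) := by
      ring
    rw [h5]
    refine (Valuation.map_sub _ _ _).trans (max_le ?_ ?_)
    · rw [map_mul, map_pow]
      have h6 : Q.adicValuation (g - algebraMap k E a) ≤ exp (-1) := by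
        rw [Q.adicValuation_le_exp_iff, neg_neg]
        rcases h2 with h2 | h2
        · exact Or.inl (sub_eq_zero.mpr h2)
        · exact Or.inr h2
      have h7 : Q.adicValuation (iota b c) ≤ 1 := intAway_iota b hb c Q hQ
      have h8 : Q.adicValuation (g - algebraMap k E a) ^ N * Q.adicValuation (iota b c)
          ≤ exp (-1) ^ N * 1 := mul_le_mul' (pow_le_pow_left' h6 N) h7
      refine h8.trans ?_
      rw [mul_one, ← exp_nsmul, exp_le_exp]
      have h9 := hN Q
      rw [nsmul_eq_mul, mul_neg, mul_one]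
      omega
    · rw [h3, ← adicValuation_eq_exp_of_ne hx0]
      exact adicValuation_le_of_mem_xR h4 Q hQ
  · rw [h3, neg_zero, exp_zero]
    exact intAway_iota b hb w Q hQ

open WithZero in
/-- **the refined root formula**, with a basis -/
theorem rootMultiplicity_eq_mnCount (h : IsRRField k E) (hx : Transcendental k x)
    (hn : n = Module.finrank k⟮x⟯ E)
    (hb : ∀ i, IntAway (K := k) x (b i))
    (hint : ∀ f : E, IntAway (K := k) x f → ∃ a : Fin n → k[X], f = ∑ i, toAdj x (a i) • b i)
    (g : E) (hg : IntAway (K := k) x g)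
    (m : Matrix (Fin n) (Fin n) k[X]) (hm : ∀ j, g * b j = ∑ i, toAdj x (m i j) • b i)
    (a : k) :
    (((m.map (Polynomial.evalRingHom 0)).charpoly.rootMultiplicity a : ℕ) : ℤ)
      = mnCount h x g a := by
  have hx0 : x ≠ 0 := fun h0 => hx (h0 ▸ isAlgebraic_zero)
  rw [← Matrix.charpoly_toLin', ← LinearMap.finrank_maxGenEigenspace_eq,
    ← degree_zDiv_valAt]
  have hdeg : Divisor.degree (zDiv h x (fun Q => ValAt Q g a))
      + Divisor.degree (zDiv h x (fun Q => ¬ ValAt Q g a)) = (n : ℤ) := by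
    rw [hn]
    exact degree_zDiv_add h hx _
  have hsum : ∀ Q : Place k E, Q.adicValuation x < 1 →
      zDiv h x (fun Q => ValAt Q g a) Q + zDiv h x (fun Q => ¬ ValAt Q g a) Q = Q.ord x := by
    intro Q hQ
    have h1 : 0 < Q.ord x := ((adicValuation_lt_one_iff Q x).mp hQ).resolve_left hx0
    have h2 := congrArg (fun D : Divisor k E => D Q) (zDiv_add h x (fun Q => ValAt Q g a))
    simp only [Finsupp.add_apply] at h2
    rw [h2, poleDiv_apply, Q.ord_inv, neg_neg, max_eq_left h1.le]
  apply le_antisymm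
  · refine finrank_le_degree b h hx hb hint (zDiv h x (fun Q => ¬ ValAt Q g a))
      (zDiv h x (fun Q => ValAt Q g a)) ?_ (zDiv_nonneg _ _ _) ?_ _ ?_
    · intro Q hQ
      exact zDiv_apply_of_le h x _ Q ((one_lt_adicValuation_iff Q).mp hQ).le
    · intro Q hQ
      rw [add_comm, hsum Q hQ, adicValuation_eq_exp_of_ne hx0]
    · intro w hw Q hQ
      exact adicValuation_iota_le_of_mem_maxGen b h hx0 hb g hg m hm a w hw Q hQ
  · have h1 : (Module.finrank k (LinearMap.range
        ((Matrix.toLin' (m.map (Polynomial.evalRingHom 0)) - a • 1) ^ n)) : ℤ)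
        ≤ Divisor.degree (zDiv h x (fun Q => ¬ ValAt Q g a)) := by
      refine finrank_le_degree b h hx hb hint (zDiv h x (fun Q => ValAt Q g a))
        (zDiv h x (fun Q => ¬ ValAt Q g a)) ?_ (zDiv_nonneg _ _ _) ?_ _ ?_
      · intro Q hQ
        exact zDiv_apply_of_le h x _ Q ((one_lt_adicValuation_iff Q).mp hQ).le
      · intro Q hQ
        rw [hsum Q hQ, adicValuation_eq_exp_of_ne hx0]
      · intro w hw Q hQ
        refine adicValuation_iota_le_of_mem_range b h hx0 hb g hg m hm a n ?_ w hw Q hQ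
        intro Q'
        rw [hn]
        exact zDiv_le_finrank h hx _ Q'
    have h2 := LinearMap.finrank_range_add_finrank_ker
      ((Matrix.toLin' (m.map (Polynomial.evalRingHom 0)) - a • 1) ^ n)
    rw [Module.finrank_fin_fun] at h2
    have h3 : Module.End.maxGenEigenspace (Matrix.toLin' (m.map (Polynomial.evalRingHom 0))) a
        = LinearMap.ker ((Matrix.toLin' (m.map (Polynomial.evalRingHom 0)) - a • 1) ^ n) := by
      rw [Module.End.maxGenEigenspace_eq_genEigenspace_finrank, Module.finrank_fin_fun,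
        Module.End.genEigenspace_nat]
    rw [h3]
    have h2' : (Module.finrank k (LinearMap.range
        ((Matrix.toLin' (m.map (Polynomial.evalRingHom 0)) - a • 1) ^ n)) : ℤ)
        + (Module.finrank k (LinearMap.ker
          ((Matrix.toLin' (m.map (Polynomial.evalRingHom 0)) - a • 1) ^ n)) : ℤ) = n := by
      exact_mod_cast h2
    linarith

end Main

end RootCount

/-- **The refined root formula**: if `Φ(x, X)` is the characteristic polynomial of `g` on
`E / k(x)`, then the multiplicity of `a` as a root of `Φ(0, X)` is the number of zeros of `x`,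
counted with multiplicity, at which `g` takes the value `a`. -/
theorem rootCount {k E : Type*} [Field k] [Field E] [Algebra k E] : RootCountStatement k E := by
  intro h x hx _ g Φ hΦ a
  have hg : IntAway (K := k) x g := intAway_iff.mpr (regular_of_charpoly_poly g Φ hΦ)
  obtain ⟨b, hb, hint⟩ := exists_int_basis h hx
  obtain ⟨m, hm, hmat⟩ := exists_matrix b hint hb g hg
  have hΦm : Φ = m.charpoly := by
    apply Polynomial.map_injective (toAdj x) (toAdj_injective hx)
    rw [hΦ, charpoly_mulLeft_eq b g, hmat, Matrix.charpoly_map]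
  rw [hΦm, ← Matrix.charpoly_map]
  exact RootCount.rootMultiplicity_eq_mnCount b h hx rfl hb hint g hg m hm a

end Fermat.Agent.BadRedG
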