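import Fermat.Agent.Lib.BadRed.Graph.NodeMultiWire
import Fermat.Agent.Lib.BadRed.Graph.RootCount

set_option autoImplicit false

/-!
# Cluster G (S36): the multi-extension node theorem, unconditional

`multiNode : MultiNodeStatement S V₁ V₂ u ϖ` (helper99's statement in `MultiNodeDefs.lean`):
for two consecutive Gauss radii of `K(u)` with the families `V₁`, `V₂` of extensions to `F`, and
`f` integral for all of them with poles only at the zeros and poles of `u`, the weighted numbers
of node values of `f` on the two sides agree.  It is `multiNode_of_rootCount` (the charpoly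
reduction, `NodeMultiWire.lean`) applied to `rootCount` (helper4, `RootCount.lean`).
-/

noncomputable section

open AlgebraicCurve

namespace Fermat.Agent.BadRedG

open Fermat.Agent.RR Fermat.Agent.Deuring Fermat.Agent.BadRed

variable {K F k : Type*} [Field K] [Field F] [Algebra K F] [Field k]
  {κ : Type*} {Fk : κ → Type*} [∀ c, Field (Fk c)] [∀ c, Algebra k (Fk c)]

/-- **The multi-extension node theorem** (multiset form), unconditional. -/
theorem multiNode [Infinite k] (S : ∀ c : κ, ValSetup K F k (Fk c))
    (V₁ V₂ : Finset κ) (u : F) (ϖ : K) : MultiNodeStatement S V₁ V₂ u ϖ :=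
  multiNode_of_rootCount S V₁ V₂ u ϖ (fun _ => rootCount)

end Fermat.Agent.BadRedG
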