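import Mathlib
import Fermat.Agent.Lib.BadRed.Graph.NodeMatch

set_option autoImplicit false
set_option linter.unusedSectionVars false

/-!
# Cluster G (S36), SEED: matching of the branches for TWO weight classes
(seat NODE-MATCH2, helper78; helper92's SEED blueprint v1.1, node theorem (1))

`NodeMatch.lean` (helper82) gives the matching `σ : PI ≃ PJ` for CONSTANT weights.  At the node
`u = u₁` (radii `0 | 12/(q+1)`) the weights are NOT constant: `12` at the points `P_∞` / `p_∞` and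
`12 e_m` at the points `P_m` / `p_m`.  But the points of the first kind are already matched (node
theorem (A), `u = u₂`, constant weight `12 q`, for the LARGER set of admissible functions `𝔏_A`).

* `NmtEq.mono` : `NmtEq` for a larger set of admissible functions implies `NmtEq` for a smaller;
* `nmt_equiv_of_fibre_sum` : abstract: equal weighted fibre sums for a constant weight `≠ 0` give
  a fibre-preserving bijection;
* `nmt_exists_equiv_two` : **the matching for two weight classes**: `PI = PIa ⊔ PIb`,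
  `PJ = PJa ⊔ PJb`, the count equality for the weights `w` on `PI`, `w'` on `PJ`, a matching
  `σa : PIa ≃ PJa` (with `NmtEq` and `w p = w' (σa p)`), and CONSTANT weight `wb ≠ 0` on `PIb` and
  on `PJb`  ⟹  a matching `σb : PIb ≃ PJb` with `NmtEq`;
* `nmt_exists_equiv_union` : the two matchings glued to a matching `PIa ∪ PIb ≃ PJa ∪ PJb`
  which maps `PIa` onto `PJa` and `PIb` onto `PJb`.
-/

noncomputable section

open AlgebraicCurve Fermat.Agent.RR Fermat.Agent.Deuring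

namespace Fermat.Agent.BadRedG

open Fermat.Agent.BadRed

/-! ### abstract part -/

section Abstract

open Classical in
/-- the cardinality of a fibre of a map on a finset, as a sum. -/
theorem nmt_card_fibre {P Φ : Type*} (e : P → Φ) (T : Finset P) (φ : Φ) :
    Fintype.card {a : {p // p ∈ T} // e a.1 = φ} = (T.filter fun p => e p = φ).card := by
  rw [Fintype.card_subtype]
  rw [← Finset.card_map (Function.Embedding.subtype _)]
  congr 1
  ext p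
  simp only [Finset.mem_map, Finset.mem_filter, Finset.mem_univ, true_and,
    Function.Embedding.coe_subtype, Subtype.exists, exists_and_right, exists_eq_right]
  constructor
  · rintro ⟨hp, h⟩
    exact ⟨hp, h⟩
  · rintro ⟨hp, h⟩
    exact ⟨hp, h⟩

open Classical in
/-- equal weighted fibre sums for a constant weight `w₀ ≠ 0` give a fibre-preserving
bijection. -/
theorem nmt_equiv_of_fibre_sum {P Φ : Type*} (e : P → Φ) (PI PJ : Finset P) (w₀ : ℤ)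
    (hw₀ : w₀ ≠ 0)
    (h : ∀ φ : Φ, (∑ p ∈ PI, if e p = φ then w₀ else 0) = ∑ p ∈ PJ, if e p = φ then w₀ else 0) :
    ∃ σ : {p // p ∈ PI} ≃ {p // p ∈ PJ}, ∀ p : {p // p ∈ PI}, e (σ p).1 = e p.1 := by
  have hcard : ∀ φ, Fintype.card {a : {p // p ∈ PI} // e a.1 = φ} =
      Fintype.card {b : {p // p ∈ PJ} // e b.1 = φ} := by
    intro φ
    have h1 := h φ
    rw [← Finset.sum_filter, ← Finset.sum_filter, Finset.sum_const, Finset.sum_const,
      nsmul_eq_mul, nsmul_eq_mul] at h1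
    have h2 : ((PI.filter fun p => e p = φ).card : ℤ) = (PJ.filter fun p => e p = φ).card :=
      mul_right_cancel₀ hw₀ h1
    have h3 : (PI.filter fun p => e p = φ).card = (PJ.filter fun p => e p = φ).card := by
      exact_mod_cast h2
    rw [nmt_card_fibre e PI φ, nmt_card_fibre e PJ φ, h3]
  let σ : {p // p ∈ PI} ≃ {p // p ∈ PJ} :=
    Equiv.ofFiberEquiv (f := fun a : {p // p ∈ PI} => e a.1)
      (g := fun b : {p // p ∈ PJ} => e b.1)
      (fun φ => Fintype.equivOfCardEq (hcard φ))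
  exact ⟨σ, fun p => Equiv.ofFiberEquiv_map (f := fun a : {p // p ∈ PI} => e a.1)
    (g := fun b : {p // p ∈ PJ} => e b.1) (fun φ => Fintype.equivOfCardEq (hcard φ)) p⟩

open Classical in
/-- a fibre-preserving and weight-preserving bijection gives equal weighted fibre sums. -/
theorem nmt_fibre_sum_of_equiv {P Φ : Type*} (e : P → Φ) (PI PJ : Finset P) (w w' : P → ℤ)
    (σ : {p // p ∈ PI} ≃ {p // p ∈ PJ}) (hσ : ∀ p : {p // p ∈ PI}, e (σ p).1 = e p.1)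
    (hw : ∀ p : {p // p ∈ PI}, w p.1 = w' (σ p).1) (φ : Φ) :
    (∑ p ∈ PI, if e p = φ then w p else 0) = ∑ p ∈ PJ, if e p = φ then w' p else 0 := by
  rw [← Finset.sum_coe_sort PI (fun p => if e p = φ then w p else 0),
    ← Finset.sum_coe_sort PJ (fun p => if e p = φ then w' p else 0),
    ← Equiv.sum_comp σ (fun y : {p // p ∈ PJ} => if e y.1 = φ then w' y.1 else 0)]
  refine Finset.sum_congr rfl fun p _ => ?_
  rw [hσ p, hw p]

open Classical in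
/-- **abstract matching for two weight classes.** -/
theorem nmt_equiv_two_abs {P Φ : Type*} [DecidableEq P] (e : P → Φ)
    (PIa PIb PJa PJb : Finset P)
    (hI : Disjoint PIa PIb) (hJ : Disjoint PJa PJb) (w w' : P → ℤ) (wb : ℤ) (hwb : wb ≠ 0)
    (hIb : ∀ p ∈ PIb, w p = wb) (hJb : ∀ p ∈ PJb, w' p = wb)
    (h : ∀ φ : Φ, (∑ p ∈ PIa ∪ PIb, if e p = φ then w p else 0) =
      ∑ p ∈ PJa ∪ PJb, if e p = φ then w' p else 0)
    (σa : {p // p ∈ PIa} ≃ {p // p ∈ PJa}) (hσa : ∀ p : {p // p ∈ PIa}, e (σa p).1 = e p.1)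
    (hwσ : ∀ p : {p // p ∈ PIa}, w p.1 = w' (σa p).1) :
    ∃ σb : {p // p ∈ PIb} ≃ {p // p ∈ PJb}, ∀ p : {p // p ∈ PIb}, e (σb p).1 = e p.1 := by
  refine nmt_equiv_of_fibre_sum e PIb PJb wb hwb fun φ => ?_
  have h1 := h φ
  rw [Finset.sum_union hI, Finset.sum_union hJ,
    nmt_fibre_sum_of_equiv e PIa PJa w w' σa hσa hwσ φ] at h1
  have h2 := add_left_cancel h1
  have e1 : (∑ p ∈ PIb, if e p = φ then w p else 0) = ∑ p ∈ PIb, if e p = φ then wb else 0 :=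
    Finset.sum_congr rfl fun p hp => by rw [hIb p hp]
  have e2 : (∑ p ∈ PJb, if e p = φ then w' p else 0) = ∑ p ∈ PJb, if e p = φ then wb else 0 :=
    Finset.sum_congr rfl fun p hp => by rw [hJb p hp]
  rw [← e1, ← e2]
  exact h2

/-- two bijections of disjoint pieces glue to a bijection of the unions. -/
theorem nmt_equiv_union {P : Type*} [DecidableEq P] (PIa PIb PJa PJb : Finset P)
    (hI : Disjoint PIa PIb) (hJ : Disjoint PJa PJb)
    (σa : {p // p ∈ PIa} ≃ {p // p ∈ PJa}) (σb : {p // p ∈ PIb} ≃ {p // p ∈ PJb}) :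
    ∃ σ : {p // p ∈ PIa ∪ PIb} ≃ {p // p ∈ PJa ∪ PJb},
      (∀ (p : {p // p ∈ PIa ∪ PIb}) (hp : p.1 ∈ PIa), (σ p).1 = (σa ⟨p.1, hp⟩).1) ∧
        ∀ (p : {p // p ∈ PIa ∪ PIb}) (hp : p.1 ∈ PIb), (σ p).1 = (σb ⟨p.1, hp⟩).1 := by
  have hIab : ∀ p, p ∈ PIa → p ∉ PIb := fun p h1 h2 => (Finset.disjoint_left.mp hI h1) h2
  have hJab : ∀ p, p ∈ PJa → p ∉ PJb := fun p h1 h2 => (Finset.disjoint_left.mp hJ h1) h2
  have hIor : ∀ p : {p // p ∈ PIa ∪ PIb}, p.1 ∉ PIa → p.1 ∈ PIb := fun p h =>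
    (Finset.mem_union.mp p.2).resolve_left h
  have hJor : ∀ p : {p // p ∈ PJa ∪ PJb}, p.1 ∉ PJa → p.1 ∈ PJb := fun p h =>
    (Finset.mem_union.mp p.2).resolve_left h
  let f : {p // p ∈ PIa ∪ PIb} → {p // p ∈ PJa ∪ PJb} := fun p =>
    if hp : p.1 ∈ PIa then ⟨(σa ⟨p.1, hp⟩).1, Finset.mem_union_left _ (σa ⟨p.1, hp⟩).2⟩
    else ⟨(σb ⟨p.1, hIor p hp⟩).1, Finset.mem_union_right _ (σb ⟨p.1, hIor p hp⟩).2⟩
  let g : {p // p ∈ PJa ∪ PJb} → {p // p ∈ PIa ∪ PIb} := fun p =>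
    if hp : p.1 ∈ PJa then ⟨(σa.symm ⟨p.1, hp⟩).1, Finset.mem_union_left _ (σa.symm ⟨p.1, hp⟩).2⟩
    else ⟨(σb.symm ⟨p.1, hJor p hp⟩).1,
      Finset.mem_union_right _ (σb.symm ⟨p.1, hJor p hp⟩).2⟩
  have hfa : ∀ (p : {p // p ∈ PIa ∪ PIb}) (hp : p.1 ∈ PIa), (f p).1 = (σa ⟨p.1, hp⟩).1 := by
    intro p hp
    show (if hp : p.1 ∈ PIa then
      (⟨(σa ⟨p.1, hp⟩).1, Finset.mem_union_left _ (σa ⟨p.1, hp⟩).2⟩ : {p // p ∈ PJa ∪ PJb})
      else ⟨(σb ⟨p.1, hIor p hp⟩).1, Finset.mem_union_right _ (σb ⟨p.1, hIor p hp⟩).2⟩).1 = _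
    rw [dif_pos hp]
  have hfb : ∀ (p : {p // p ∈ PIa ∪ PIb}) (hp : p.1 ∈ PIb), (f p).1 = (σb ⟨p.1, hp⟩).1 := by
    intro p hp
    have hna : p.1 ∉ PIa := fun h => hIab p.1 h hp
    show (if hp : p.1 ∈ PIa then
      (⟨(σa ⟨p.1, hp⟩).1, Finset.mem_union_left _ (σa ⟨p.1, hp⟩).2⟩ : {p // p ∈ PJa ∪ PJb})
      else ⟨(σb ⟨p.1, hIor p hp⟩).1, Finset.mem_union_right _ (σb ⟨p.1, hIor p hp⟩).2⟩).1 = _
    rw [dif_neg hna]
  have hga : ∀ (p : {p // p ∈ PJa ∪ PJb}) (hp : p.1 ∈ PJa),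
      (g p).1 = (σa.symm ⟨p.1, hp⟩).1 := by
    intro p hp
    show (if hp : p.1 ∈ PJa then
      (⟨(σa.symm ⟨p.1, hp⟩).1, Finset.mem_union_left _ (σa.symm ⟨p.1, hp⟩).2⟩ :
        {p // p ∈ PIa ∪ PIb})
      else ⟨(σb.symm ⟨p.1, hJor p hp⟩).1,
        Finset.mem_union_right _ (σb.symm ⟨p.1, hJor p hp⟩).2⟩).1 = _
    rw [dif_pos hp]
  have hgb : ∀ (p : {p // p ∈ PJa ∪ PJb}) (hp : p.1 ∈ PJb),
      (g p).1 = (σb.symm ⟨p.1, hp⟩).1 := by
    intro p hp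
    have hna : p.1 ∉ PJa := fun h => hJab p.1 h hp
    show (if hp : p.1 ∈ PJa then
      (⟨(σa.symm ⟨p.1, hp⟩).1, Finset.mem_union_left _ (σa.symm ⟨p.1, hp⟩).2⟩ :
        {p // p ∈ PIa ∪ PIb})
      else ⟨(σb.symm ⟨p.1, hJor p hp⟩).1,
        Finset.mem_union_right _ (σb.symm ⟨p.1, hJor p hp⟩).2⟩).1 = _
    rw [dif_neg hna]
  have hgf : ∀ p, g (f p) = p := by
    intro p
    apply Subtype.ext
    by_cases hp : p.1 ∈ PIa
    · have h1 : (f p).1 ∈ PJa := by rw [hfa p hp]; exact (σa ⟨p.1, hp⟩).2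
      rw [hga (f p) h1]
      have h2 : (⟨(f p).1, h1⟩ : {p // p ∈ PJa}) = σa ⟨p.1, hp⟩ := Subtype.ext (hfa p hp)
      rw [h2, Equiv.symm_apply_apply]
    · have hpb := hIor p hp
      have h1 : (f p).1 ∈ PJb := by rw [hfb p hpb]; exact (σb ⟨p.1, hpb⟩).2
      rw [hgb (f p) h1]
      have h2 : (⟨(f p).1, h1⟩ : {p // p ∈ PJb}) = σb ⟨p.1, hpb⟩ := Subtype.ext (hfb p hpb)
      rw [h2, Equiv.symm_apply_apply]
  have hfg : ∀ p, f (g p) = p := by
    intro p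
    apply Subtype.ext
    by_cases hp : p.1 ∈ PJa
    · have h1 : (g p).1 ∈ PIa := by rw [hga p hp]; exact (σa.symm ⟨p.1, hp⟩).2
      rw [hfa (g p) h1]
      have h2 : (⟨(g p).1, h1⟩ : {p // p ∈ PIa}) = σa.symm ⟨p.1, hp⟩ := Subtype.ext (hga p hp)
      rw [h2, Equiv.apply_symm_apply]
    · have hpb := hJor p hp
      have h1 : (g p).1 ∈ PIb := by rw [hgb p hpb]; exact (σb.symm ⟨p.1, hpb⟩).2
      rw [hfb (g p) h1]
      have h2 : (⟨(g p).1, h1⟩ : {p // p ∈ PIb}) = σb.symm ⟨p.1, hpb⟩ := Subtype.ext (hgb p hpb)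
      rw [h2, Equiv.apply_symm_apply]
  exact ⟨⟨f, g, hgf, hfg⟩, hfa, hfb⟩

end Abstract

/-! ### the form for a family of constant reductions -/

section Val

variable {K F k : Type*} [Field K] [Field F] [Algebra K F] [Field k]
  {κ : Type*} {Fk : κ → Type*} [∀ c, Field (Fk c)] [∀ c, Algebra k (Fk c)]
  {S : ∀ c : κ, ValSetup K F k (Fk c)} {𝔏 𝔏' : Set F}

/-- `NmtEq` for a larger set of admissible functions implies `NmtEq` for a smaller one. -/
theorem NmtEq.mono (h𝔏 : 𝔏 ⊆ 𝔏') {p p' : Σ c, Place k (Fk c)} (h : NmtEq S 𝔏' p p') :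
    NmtEq S 𝔏 p p' := fun f hf a => h f (h𝔏 hf) a

/-- the admissible functions for a smaller set of points. -/
theorem NmtAdm.mono_pts {Pts Pts' : Finset (Σ c, Place k (Fk c))} (hadm : NmtAdm S 𝔏 Pts')
    (h : Pts ⊆ Pts') : NmtAdm S 𝔏 Pts where
  A_eq := hadm.A_eq
  res_eq := hadm.res_eq
  zero_mem := hadm.zero_mem
  add_mem := hadm.add_mem
  smul_mem := hadm.smul_mem
  int := fun f hf p hp => hadm.int f hf p (h hp)
  reg := fun f hf p hp => hadm.reg f hf p (h hp)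

variable [Infinite k]

open Classical in
/-- **the matching for two weight classes** (node theorem (1) of the SEED blueprint v1.1):
`PI = PIa ⊔ PIb`, `PJ = PJa ⊔ PJb`; the count equality holds for the weights `w` on `PI` and `w'`
on `PJ`; the points of `PIa` are already matched with those of `PJa` (matching `σa`, compatible
with the weights); the weights are constant `= wb ≠ 0` on `PIb` and on `PJb`.  Then there is a
bijection `σb` of `PIb` onto `PJb` such that all the admissible functions take the same value at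
`p` and at `σb p`. -/
theorem nmt_exists_equiv_two (PIa PIb PJa PJb : Finset (Σ c, Place k (Fk c)))
    (hI : Disjoint PIa PIb) (hJ : Disjoint PJa PJb)
    (hadm : NmtAdm S 𝔏 ((PIa ∪ PIb) ∪ (PJa ∪ PJb))) (c₀ : κ)
    (w w' : (Σ c, Place k (Fk c)) → ℤ) (wb : ℤ) (hwb : wb ≠ 0)
    (hIb : ∀ p ∈ PIb, w p = wb) (hJb : ∀ p ∈ PJb, w' p = wb)
    (hcount : ∀ f : F, f ∈ 𝔏 → ∀ a : k,
      (∑ p ∈ PIa ∪ PIb, if ValAt p.2 ((S p.1).red f) a then w p else 0) =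
        ∑ p ∈ PJa ∪ PJb, if ValAt p.2 ((S p.1).red f) a then w' p else 0)
    (σa : {p // p ∈ PIa} ≃ {p // p ∈ PJa})
    (hσa : ∀ p : {p // p ∈ PIa}, NmtEq S 𝔏 p.1 (σa p).1)
    (hwσ : ∀ p : {p // p ∈ PIa}, w p.1 = w' (σa p).1) :
    ∃ σb : {p // p ∈ PIb} ≃ {p // p ∈ PJb}, ∀ p : {p // p ∈ PIb}, NmtEq S 𝔏 p.1 (σb p).1 := by
  have hsum := fun φ => nmt_sum_eq_of_count (k := k) (nmtEval hadm c₀) (PIa ∪ PIb) (PJa ∪ PJb)
    w w' (nmt_count_vals (PIa ∪ PIb) (PJa ∪ PJb) hadm c₀ w w' hcount) φ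
  have hmemIa : ∀ p : {p // p ∈ PIa}, p.1 ∈ (PIa ∪ PIb) ∪ (PJa ∪ PJb) := fun p =>
    Finset.mem_union_left _ (Finset.mem_union_left _ p.2)
  have hmemJa : ∀ p : {p // p ∈ PJa}, p.1 ∈ (PIa ∪ PIb) ∪ (PJa ∪ PJb) := fun p =>
    Finset.mem_union_right _ (Finset.mem_union_left _ p.2)
  have hmemIb : ∀ p : {p // p ∈ PIb}, p.1 ∈ (PIa ∪ PIb) ∪ (PJa ∪ PJb) := fun p =>
    Finset.mem_union_left _ (Finset.mem_union_right _ p.2)
  have hmemJb : ∀ p : {p // p ∈ PJb}, p.1 ∈ (PIa ∪ PIb) ∪ (PJa ∪ PJb) := fun p =>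
    Finset.mem_union_right _ (Finset.mem_union_right _ p.2)
  obtain ⟨σb, hσb⟩ := nmt_equiv_two_abs (nmtEval hadm c₀) PIa PIb PJa PJb hI hJ w w' wb hwb
    hIb hJb hsum σa
    (fun p => ((nmtEval_eq_iff hadm c₀ (hmemIa p) (hmemJa (σa p))).mpr (hσa p)).symm) hwσ
  exact ⟨σb, fun p =>
    (nmtEval_eq_iff hadm c₀ (hmemIb p) (hmemJb (σb p))).mp (hσb p).symm⟩

open Classical in
/-- **the matching for two weight classes, glued**: a bijection of `PIa ∪ PIb` onto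
`PJa ∪ PJb` which extends `σa`, maps `PIb` onto `PJb`, and such that all the admissible functions
take the same value at `p` and at `σ p`. -/
theorem nmt_exists_equiv_union (PIa PIb PJa PJb : Finset (Σ c, Place k (Fk c)))
    (hI : Disjoint PIa PIb) (hJ : Disjoint PJa PJb)
    (hadm : NmtAdm S 𝔏 ((PIa ∪ PIb) ∪ (PJa ∪ PJb))) (c₀ : κ)
    (w w' : (Σ c, Place k (Fk c)) → ℤ) (wb : ℤ) (hwb : wb ≠ 0)
    (hIb : ∀ p ∈ PIb, w p = wb) (hJb : ∀ p ∈ PJb, w' p = wb)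
    (hcount : ∀ f : F, f ∈ 𝔏 → ∀ a : k,
      (∑ p ∈ PIa ∪ PIb, if ValAt p.2 ((S p.1).red f) a then w p else 0) =
        ∑ p ∈ PJa ∪ PJb, if ValAt p.2 ((S p.1).red f) a then w' p else 0)
    (σa : {p // p ∈ PIa} ≃ {p // p ∈ PJa})
    (hσa : ∀ p : {p // p ∈ PIa}, NmtEq S 𝔏 p.1 (σa p).1)
    (hwσ : ∀ p : {p // p ∈ PIa}, w p.1 = w' (σa p).1) :
    ∃ σ : {p // p ∈ PIa ∪ PIb} ≃ {p // p ∈ PJa ∪ PJb},
      (∀ p : {p // p ∈ PIa ∪ PIb}, NmtEq S 𝔏 p.1 (σ p).1) ∧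
      (∀ (p : {p // p ∈ PIa ∪ PIb}) (hp : p.1 ∈ PIa), (σ p).1 = (σa ⟨p.1, hp⟩).1) ∧
        ∀ (p : {p // p ∈ PIa ∪ PIb}), p.1 ∈ PIb → (σ p).1 ∈ PJb := by
  obtain ⟨σb, hσb⟩ := nmt_exists_equiv_two PIa PIb PJa PJb hI hJ hadm c₀ w w' wb hwb hIb hJb
    hcount σa hσa hwσ
  obtain ⟨σ, hσ1, hσ2⟩ := nmt_equiv_union PIa PIb PJa PJb hI hJ σa σb
  refine ⟨σ, fun p => ?_, hσ1, fun p hp => ?_⟩
  · rcases Finset.mem_union.mp p.2 with hp | hp
    · rw [hσ1 p hp]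
      exact hσa ⟨p.1, hp⟩
    · rw [hσ2 p hp]
      exact hσb ⟨p.1, hp⟩
  · rw [hσ2 p hp]
    exact (σb ⟨p.1, hp⟩).2

end Val

end Fermat.Agent.BadRedG
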