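/-
Cluster G (S36), seat G-NODE (helper74), abstract part: characteristic polynomials of elements
which are integral for ALL the valuations above a given one.

`E ⊆ F` finite, `OE` a valuation ring of `E`, finitely many valuation rings `OF i` of `F` over
`OE` with residue maps `ρF i : OF i → Fk i`, and residue maps `ρE i : OE → Ek i` of `OE` into
subfields `Ek i` of the `Fk i` (the target MAY DEPEND ON `i`; all the `ρE i` kill the maximal
ideal of `OE`), with joint lifts and `[F : E] ≤ Σ_i [Fk i : Ek i]`.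

`nm_charpoly_multi`: for `t ∈ ∩_i OF i` the characteristic polynomial of `t` over `E` has an
integral model `P ∈ OE[X]`, and there are monic `Pb i ∈ OE[X]` such that
`Pb i` reduces (by `ρE i`) to the characteristic polynomial of `ρF i t` over `Ek i`, and
`P ≡ ∏_i Pb i` modulo the maximal ideal of `OE` (i.e. after every `ρE i₀`).

The linear algebra is the one of helper28's `normRed_multi` (S36/Norm/Multi.lean), with `charpoly`
instead of `det` and residue fields depending on `i`.  Mathlib only.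
-/
import Mathlib

set_option autoImplicit false
set_option linter.style.haveILetI false
set_option linter.unusedSectionVars false

noncomputable section

namespace Fermat.Agent.BadRed.NodeMulti

open Matrix Polynomial

/-- the determinant of a block diagonal matrix with blocks of variable size. -/
theorem nm_det_blockDiagonal' {ι : Type*} [Fintype ι] [DecidableEq ι] {R : Type*}
    [CommRing R] {m' : ι → Type*} [∀ i, Fintype (m' i)] [∀ i, DecidableEq (m' i)]
    (d : ∀ i, Matrix (m' i) (m' i) R) :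
    (Matrix.blockDiagonal' d).det = ∏ i, (d i).det := by
  classical
  letI : LinearOrder ι := LinearOrder.lift' (Fintype.equivFin ι) (Fintype.equivFin ι).injective
  rw [(Matrix.blockTriangular_blockDiagonal' d).det_fintype]
  refine Finset.prod_congr rfl (fun k _ => ?_)
  rw [← Matrix.det_submatrix_equiv_self (Equiv.sigmaSubtype (β := m') k) (d k)]
  congr 1
  ext ⟨⟨i1, x⟩, hi⟩ ⟨⟨j1, y⟩, hj⟩
  simp only at hi hj
  subst hi
  subst hj
  simp [Matrix.toSquareBlock_def, Matrix.blockDiagonal'_apply_eq, Equiv.sigmaSubtype]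

/-- the characteristic matrix of a block diagonal matrix. -/
theorem nm_charmatrix_blockDiagonal' {ι : Type*} [Fintype ι] [DecidableEq ι] {R : Type*}
    [CommRing R] {m' : ι → Type*} [∀ i, Fintype (m' i)] [∀ i, DecidableEq (m' i)]
    (d : ∀ i, Matrix (m' i) (m' i) R) :
    (Matrix.blockDiagonal' d).charmatrix = Matrix.blockDiagonal' (fun i => (d i).charmatrix) := by
  ext ⟨i, x⟩ ⟨j, y⟩
  by_cases hij : i = j
  · subst hij
    rw [Matrix.blockDiagonal'_apply_eq]
    by_cases hxy : x = y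
    · subst hxy
      rw [Matrix.charmatrix_apply_eq, Matrix.charmatrix_apply_eq, Matrix.blockDiagonal'_apply_eq]
    · have hne : (⟨i, x⟩ : Σ i, m' i) ≠ ⟨i, y⟩ := by
        intro h
        exact hxy (eq_of_heq (Sigma.mk.inj h).2)
      rw [Matrix.charmatrix_apply_ne _ _ _ hne, Matrix.charmatrix_apply_ne _ _ _ hxy,
        Matrix.blockDiagonal'_apply_eq]
  · have hne : (⟨i, x⟩ : Σ i, m' i) ≠ ⟨j, y⟩ := fun h => hij (congrArg Sigma.fst h)
    rw [Matrix.blockDiagonal'_apply_ne _ _ _ hij, Matrix.charmatrix_apply_ne _ _ _ hne,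
      Matrix.blockDiagonal'_apply_ne _ _ _ hij, map_zero, neg_zero]

/-- the characteristic polynomial of a block diagonal matrix. -/
theorem nm_charpoly_blockDiagonal' {ι : Type*} [Fintype ι] [DecidableEq ι] {R : Type*}
    [CommRing R] {m' : ι → Type*} [∀ i, Fintype (m' i)] [∀ i, DecidableEq (m' i)]
    (d : ∀ i, Matrix (m' i) (m' i) R) :
    (Matrix.blockDiagonal' d).charpoly = ∏ i, (d i).charpoly := by
  unfold Matrix.charpoly
  rw [nm_charmatrix_blockDiagonal', nm_det_blockDiagonal']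

section Multi

variable {E F : Type*} [Field E] [Field F] [Algebra E F]
  {ι : Type*} [Fintype ι] [DecidableEq ι]
  {Ek : ι → Type*} [∀ i, Field (Ek i)]
  {Fk : ι → Type*} [∀ i, Field (Fk i)] [∀ i, Algebra (Ek i) (Fk i)]
  (OE : ValuationSubring E) (OF : ι → ValuationSubring F)
  (ρE : ∀ i, OE →+* Ek i) (ρF : ∀ i, OF i →+* Fk i)

/-- the hypotheses of the abstract lemma: several valuations over `OE`, residue fields of `OE`
depending on the valuation. -/
structure NMSetup : Prop where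
  /-- `OF i ∩ E = OE` -/
  mem_iff : ∀ (i : ι) (y : E), algebraMap E F y ∈ OF i ↔ y ∈ OE
  /-- the residue maps are compatible -/
  red_map : ∀ (i : ι) (y : E) (hy : y ∈ OE) (hy' : algebraMap E F y ∈ OF i),
    ρF i ⟨algebraMap E F y, hy'⟩ = algebraMap (Ek i) (Fk i) (ρE i ⟨y, hy⟩)
  /-- every `ρE i` kills the maximal ideal -/
  ker : ∀ (i : ι) (y : OE), ¬ IsUnit y → ρE i y = 0
  /-- joint lifts (weak approximation) -/
  lift : ∀ (i : ι) (β : Fk i), ∃ b : F, ∃ hb : ∀ l, b ∈ OF l,
    ρF i ⟨b, hb i⟩ = β ∧ ∀ l, l ≠ i → ρF l ⟨b, hb l⟩ = 0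

variable {OE OF ρE ρF}

/-- a family of joint lifts of families `β i` of residues. -/
structure NMJointLift {d : ι → ℕ} (β : ∀ i, Fin (d i) → Fk i) (b : (Σ i, Fin (d i)) → F) :
    Prop where
  mem : ∀ j l, b j ∈ OF l
  self : ∀ j (h : b j ∈ OF j.1), ρF j.1 ⟨b j, h⟩ = β j.1 j.2
  other : ∀ j l (h : b j ∈ OF l), l ≠ j.1 → ρF l ⟨b j, h⟩ = 0

theorem nm_exists_jointLift (H : NMSetup OE OF ρE ρF) {d : ι → ℕ}
    (β : ∀ i, Fin (d i) → Fk i) :
    ∃ b : (Σ i, Fin (d i)) → F, NMJointLift (OF := OF) (ρF := ρF) β b := by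
  classical
  choose b hb hself hother using fun j : (Σ i, Fin (d i)) => H.lift j.1 (β j.1 j.2)
  exact ⟨b, ⟨hb, fun j _ => hself j, fun j l _ hl => hother j l hl⟩⟩

/-- reduction at `i` of a combination with integral coefficients of joint lifts. -/
theorem nm_red_sum (H : NMSetup OE OF ρE ρF) {d : ι → ℕ}
    {β : ∀ i, Fin (d i) → Fk i} {b : (Σ i, Fin (d i)) → F}
    (hb : NMJointLift (OF := OF) (ρF := ρF) β b)
    (c : (Σ i, Fin (d i)) → E) (hc : ∀ j, c j ∈ OE) (s : F) (hs : s = ∑ j, c j • b j)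
    (i : ι) (hsi : s ∈ OF i) :
    ρF i ⟨s, hsi⟩ = ∑ m : Fin (d i), ρE i ⟨c ⟨i, m⟩, hc _⟩ • β i m := by
  classical
  have hmem' : ∀ j, algebraMap E F (c j) ∈ OF i := fun j => (H.mem_iff i _).mpr (hc j)
  have hs' : (⟨s, hsi⟩ : OF i)
      = ∑ j, (⟨algebraMap E F (c j), hmem' j⟩ : OF i) * ⟨b j, hb.mem j i⟩ := by
    apply Subtype.ext
    have h1 : ((∑ j, (⟨algebraMap E F (c j), hmem' j⟩ : OF i) * ⟨b j, hb.mem j i⟩ : OF i) : F)
        = ∑ j, (((⟨algebraMap E F (c j), hmem' j⟩ : OF i) * ⟨b j, hb.mem j i⟩ : OF i) : F) :=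
      map_sum (OF i).subtype _ _
    rw [h1]
    show s = _
    rw [hs]
    refine Finset.sum_congr rfl (fun j _ => ?_)
    rw [Algebra.smul_def]
    rfl
  rw [hs', map_sum, Fintype.sum_sigma]
  rw [Finset.sum_eq_single i]
  · refine Finset.sum_congr rfl (fun m _ => ?_)
    rw [map_mul, H.red_map i _ (hc _), hb.self ⟨i, m⟩ (hb.mem _ i), Algebra.smul_def]
  · intro l _ hl
    refine Finset.sum_eq_zero (fun m _ => ?_)
    rw [map_mul, hb.other ⟨l, m⟩ i (hb.mem _ i) (fun h => hl h.symm), mul_zero]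
  · intro h
    exact absurd (Finset.mem_univ i) h

/-- the core scaling argument. -/
theorem nm_core (H : NMSetup OE OF ρE ρF) {d : ι → ℕ}
    {β : ∀ i, Fin (d i) → Fk i} (hβ : ∀ i, LinearIndependent (Ek i) (β i))
    {b : (Σ i, Fin (d i)) → F} (hb : NMJointLift (OF := OF) (ρF := ρF) β b)
    (c : (Σ i, Fin (d i)) → E) (j₀ : Σ i, Fin (d i)) (hj₀ : c j₀ ≠ 0)
    (hmax : ∀ j, OE.valuation (c j) ≤ OE.valuation (c j₀))
    (s : F) (hsmem : s ∈ OF j₀.1) (hs : s = ∑ j, (c j / c j₀) • b j) :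
    ρF j₀.1 ⟨s, hsmem⟩ ≠ 0 := by
  classical
  intro h0
  have hmem : ∀ j, c j / c j₀ ∈ OE := by
    intro j
    rw [← OE.valuation_le_one_iff, map_div₀]
    exact div_le_one_of_le₀ (hmax j) zero_le
  have h1 := nm_red_sum H hb (fun j => c j / c j₀) hmem s hs j₀.1 hsmem
  rw [h0] at h1
  have h2 := Fintype.linearIndependent_iff.mp (hβ j₀.1) _ h1.symm j₀.2
  have h3 : (⟨c ⟨j₀.1, j₀.2⟩ / c j₀, hmem _⟩ : OE) = 1 := by
    apply Subtype.ext
    exact div_self hj₀
  rw [h3, map_one] at h2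
  exact one_ne_zero h2

/-- joint lifts of independent residues are `E`-independent. -/
theorem nm_linearIndependent (H : NMSetup OE OF ρE ρF) {d : ι → ℕ}
    {β : ∀ i, Fin (d i) → Fk i} (hβ : ∀ i, LinearIndependent (Ek i) (β i))
    {b : (Σ i, Fin (d i)) → F} (hb : NMJointLift (OF := OF) (ρF := ρF) β b) :
    LinearIndependent E b := by
  classical
  rw [Fintype.linearIndependent_iff]
  intro g hg
  by_contra hne
  push Not at hne
  obtain ⟨i0, hi0⟩ := hne
  have : Nonempty (Σ i, Fin (d i)) := ⟨i0⟩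
  obtain ⟨j, hj⟩ := Finite.exists_max (fun i => OE.valuation (g i))
  have hgj : g j ≠ 0 := by
    intro h0
    have h1 := hj i0
    simp only [h0, map_zero] at h1
    exact hi0 ((map_eq_zero _).mp (le_antisymm h1 zero_le))
  have h1 : ∑ i, (g i / g j) • b i = (g j)⁻¹ • ∑ i, g i • b i := by
    rw [Finset.smul_sum]
    refine Finset.sum_congr rfl (fun i _ => ?_)
    rw [smul_smul, div_eq_inv_mul]
  have h2 : (0 : F) = ∑ i, (g i / g j) • b i := by rw [h1, hg, smul_zero]
  refine nm_core H hβ hb g j hgj hj 0 (OF j.1).zero_mem h2 ?_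
  exact map_zero (ρF j.1)

/-- the coordinates of an element which is integral for all the valuations, with respect to
joint lifts of independent residues, are integral. -/
theorem nm_coord_mem (H : NMSetup OE OF ρE ρF) {d : ι → ℕ}
    {β : ∀ i, Fin (d i) → Fk i} (hβ : ∀ i, LinearIndependent (Ek i) (β i))
    {b : (Σ i, Fin (d i)) → F} (hb : NMJointLift (OF := OF) (ρF := ρF) β b)
    (c : (Σ i, Fin (d i)) → E) (t : F) (htm : ∀ l, t ∈ OF l)
    (ht : t = ∑ i, c i • b i) (i : Σ i, Fin (d i)) : c i ∈ OE := by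
  classical
  by_contra hne
  have : Nonempty (Σ i, Fin (d i)) := ⟨i⟩
  obtain ⟨j, hj⟩ := Finite.exists_max (fun i => OE.valuation (c i))
  have hi : 1 < OE.valuation (c i) := by
    rw [← OE.valuation_le_one_iff] at hne
    exact not_le.mp hne
  have hjv : 1 < OE.valuation (c j) := lt_of_lt_of_le hi (hj i)
  have hcj : c j ≠ 0 := by
    intro h0
    rw [h0, map_zero] at hjv
    exact not_lt.mpr zero_le hjv
  have hinv_lt : OE.valuation (c j)⁻¹ < 1 := by
    rw [map_inv₀]
    exact inv_lt_one_of_one_lt₀ hjv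
  have hinv : (c j)⁻¹ ∈ OE := (OE.valuation_le_one_iff _).mp hinv_lt.le
  have hnu : ¬ IsUnit (⟨(c j)⁻¹, hinv⟩ : OE) := by
    rw [ValuationSubring.valuation_eq_one_iff]
    exact hinv_lt.ne
  have hinv' : algebraMap E F (c j)⁻¹ ∈ OF j.1 := (H.mem_iff j.1 _).mpr hinv
  have hprod : algebraMap E F (c j)⁻¹ * t ∈ OF j.1 := (OF j.1).mul_mem _ _ hinv' (htm j.1)
  have h1 : ∑ i, (c i / c j) • b i = (c j)⁻¹ • ∑ i, c i • b i := by
    rw [Finset.smul_sum]
    refine Finset.sum_congr rfl (fun i _ => ?_)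
    rw [smul_smul, div_eq_inv_mul]
  have h2 : algebraMap E F (c j)⁻¹ * t = ∑ i, (c i / c j) • b i := by
    rw [h1, ← ht, Algebra.smul_def]
  refine nm_core H hβ hb c j hcj hj _ hprod h2 ?_
  have h3 : (⟨algebraMap E F (c j)⁻¹ * t, hprod⟩ : OF j.1)
      = ⟨algebraMap E F (c j)⁻¹, hinv'⟩ * ⟨t, htm j.1⟩ := rfl
  rw [h3, map_mul, H.red_map j.1 _ hinv, H.ker _ _ hnu, map_zero, zero_mul]

/-- **The abstract lemma.**  The characteristic polynomial of an element which is integral for
all the valuations above `OE` has an integral model `P`, which is congruent modulo the maximal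
ideal of `OE` to a product of monic integral polynomials `Pb i`; `Pb i` reduces at `i` to the
characteristic polynomial of the reduction at `i`. -/
theorem nm_charpoly_multi (H : NMSetup OE OF ρE ρF) [Module.Finite E F]
    [∀ i, Module.Finite (Ek i) (Fk i)]
    (hrank : Module.finrank E F ≤ ∑ i, Module.finrank (Ek i) (Fk i))
    (t : F) (ht : ∀ i, t ∈ OF i) :
    ∃ (P : OE[X]) (Pb : ι → OE[X]),
      P.Monic ∧ P.natDegree = Module.finrank E F ∧
      P.map OE.subtype = (LinearMap.mulLeft E t).charpoly ∧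
      (∀ i, (Pb i).Monic) ∧
      (∀ i, (Pb i).map (ρE i) = (LinearMap.mulLeft (Ek i) (ρF i ⟨t, ht i⟩)).charpoly) ∧
      ∀ i₀, P.map (ρE i₀) = ∏ i, (Pb i).map (ρE i₀) := by
  classical
  set d : ι → ℕ := fun i => Module.finrank (Ek i) (Fk i) with hd
  set βb : ∀ i, Module.Basis (Fin (d i)) (Ek i) (Fk i) :=
    fun i => Module.finBasis (Ek i) (Fk i) with hβb
  set β : ∀ i, Fin (d i) → Fk i := fun i => βb i with hβ
  have hli : ∀ i, LinearIndependent (Ek i) (β i) := fun i => (βb i).linearIndependent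
  obtain ⟨b, hb⟩ := nm_exists_jointLift H β
  have hliE := nm_linearIndependent H hli hb
  have hcard : Fintype.card (Σ i, Fin (d i)) = Module.finrank E F := by
    refine le_antisymm hliE.fintype_card_le_finrank ?_
    rw [Fintype.card_sigma]
    refine hrank.trans (le_of_eq ?_)
    refine Finset.sum_congr rfl (fun i _ => ?_)
    rw [Fintype.card_fin]
  have hne : Nonempty (Σ i, Fin (d i)) := by
    rw [← Fintype.card_pos_iff, hcard]
    exact Module.finrank_pos
  set B : Module.Basis (Σ i, Fin (d i)) E F :=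
    basisOfLinearIndependentOfCardEqFinrank hliE hcard with hB
  have hBb : ∀ j, B j = b j := by
    intro j
    rw [hB, coe_basisOfLinearIndependentOfCardEqFinrank]
  -- the multiplication matrix
  set M := Algebra.leftMulMatrix B t with hM
  have hMexp : ∀ j, t * b j = ∑ i, M i j • b i := by
    intro j
    have h1 := B.sum_repr (t * B j)
    rw [← hBb j, ← h1]
    refine Finset.sum_congr rfl (fun i _ => ?_)
    rw [hM, Algebra.leftMulMatrix_eq_repr_mul, hBb i]
  have hMmem : ∀ i j, M i j ∈ OE := fun i j =>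
    nm_coord_mem H hli hb (fun i => M i j) (t * b j)
      (fun l => (OF l).mul_mem _ _ (ht l) (hb.mem j l)) (hMexp j) i
  set M' : Matrix (Σ i, Fin (d i)) (Σ i, Fin (d i)) OE := fun i j => ⟨M i j, hMmem i j⟩ with hM'
  have hMM' : M'.map OE.subtype = M := by
    ext i j
    rfl
  -- the diagonal blocks
  set Mb : ∀ i, Matrix (Fin (d i)) (Fin (d i)) OE := fun i m m' => M' ⟨i, m⟩ ⟨i, m'⟩ with hMb
  -- reduction at `i` of the row block `i`
  have hrow : ∀ (i : ι) (m : Fin (d i)) (l : ι) (m' : Fin (d l)),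
      (i = l → ∀ h : i = l, ρE i (M' ⟨i, m⟩ ⟨l, m'⟩)
        = Algebra.leftMulMatrix (βb i) (ρF i ⟨t, ht i⟩) m (h ▸ m')) ∧
      (i ≠ l → ρE i (M' ⟨i, m⟩ ⟨l, m'⟩) = 0) := by
    intro i m l m'
    have htb : t * b ⟨l, m'⟩ ∈ OF i := (OF i).mul_mem _ _ (ht i) (hb.mem _ i)
    have hred := nm_red_sum H hb (fun j => M j ⟨l, m'⟩) (fun j => hMmem j ⟨l, m'⟩)
      (t * b ⟨l, m'⟩) (hMexp ⟨l, m'⟩) i htb
    have hprod : (⟨t * b ⟨l, m'⟩, htb⟩ : OF i) = ⟨t, ht i⟩ * ⟨b ⟨l, m'⟩, hb.mem _ i⟩ := rfl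
    rw [hprod, map_mul] at hred
    constructor
    · intro hil h
      subst h
      rw [Algebra.leftMulMatrix_eq_repr_mul]
      have h2 := hb.self ⟨i, m'⟩ (hb.mem _ i)
      simp only at h2
      rw [h2] at hred
      have h3 : (βb i).repr (ρF i ⟨t, ht i⟩ * (βb i) m') m
          = (βb i).repr (∑ m'' : Fin (d i), ρE i ⟨M ⟨i, m''⟩ ⟨i, m'⟩, hMmem _ _⟩ • (βb i) m'') m := by
        rw [← hred]
      rw [h3, (βb i).repr_sum_self]
    · intro hil
      have h2 := hb.other ⟨l, m'⟩ i (hb.mem _ i) hil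
      rw [h2, mul_zero] at hred
      exact Fintype.linearIndependent_iff.mp (hli i) _ hred.symm m
  have hdiag : ∀ i, (Mb i).map (ρE i) = Algebra.leftMulMatrix (βb i) (ρF i ⟨t, ht i⟩) := by
    intro i
    ext m m'
    rw [Matrix.map_apply]
    exact (hrow i m i m').1 rfl rfl
  have hoff : ∀ (i : ι) (m : Fin (d i)) (l : ι) (m' : Fin (d l)), i ≠ l →
      ¬ IsUnit (M' ⟨i, m⟩ ⟨l, m'⟩) := by
    intro i m l m' hil hu
    have h1 := (hrow i m l m').2 hil
    have h2 : IsUnit (ρE i (M' ⟨i, m⟩ ⟨l, m'⟩)) := hu.map (ρE i)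
    rw [h1] at h2
    exact not_isUnit_zero h2
  -- congruence modulo the maximal ideal
  have hblock : ∀ i₀, M'.map (ρE i₀) = Matrix.blockDiagonal' (fun i => (Mb i).map (ρE i₀)) := by
    intro i₀
    ext ⟨i, m⟩ ⟨l, m'⟩
    rw [Matrix.map_apply]
    by_cases hil : i = l
    · subst hil
      rw [Matrix.blockDiagonal'_apply_eq, Matrix.map_apply]
    · rw [Matrix.blockDiagonal'_apply_ne _ _ _ hil]
      exact H.ker i₀ _ (hoff i m l m' hil)
  refine ⟨M'.charpoly, fun i => (Mb i).charpoly, Matrix.charpoly_monic M', ?_, ?_,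
    fun i => Matrix.charpoly_monic _, fun i => ?_, fun i₀ => ?_⟩
  · rw [Matrix.charpoly_natDegree_eq_dim, hcard]
  · rw [← Matrix.charpoly_map, hMM', hM, Algebra.leftMulMatrix_apply, LinearMap.charpoly_toMatrix]
    rfl
  · rw [← Matrix.charpoly_map, hdiag i, Algebra.leftMulMatrix_apply,
      LinearMap.charpoly_toMatrix]
    rfl
  · rw [← Matrix.charpoly_map, hblock i₀, nm_charpoly_blockDiagonal']
    refine Finset.prod_congr rfl (fun i _ => ?_)
    rw [Matrix.charpoly_map]

end Multi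

end Fermat.Agent.BadRed.NodeMulti
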