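/-
Cluster G (S36), seat G-NODE (helper74), Gauss part: a finite family of constant reductions
`S i : ValSetup K F k (Fk i)` of `F / K` over the same `(A, res)`, all extending the GAUSS
valuation of `K(w)` (`w` a unit of every `Ov i` with transcendental reduction).

* `nm_red_aeval`     : reduction of `P(w)`, `P ∈ A[X]`;
* `nm_normal_form`   : every `a ∈ K(w)ˣ` is `c R(w) / T(w)`, `R`, `T` primitive;
* `nm_mem_iff`, `nm_red_eq_zero_iff` : `K(w) ∩ Ov i` and its maximal ideal do not depend on `i`;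
* `nm_red_canonical` : `red_i a = P(w̄_i)` implies `red_j a = P(w̄_j)`;
* `nm_joint_lift`    : joint lifts (weak approximation);
* `nmSetup`          : the family is an `NMSetup` over the Gauss ring of `K(w)`.
-/
import Mathlib
import Fermat.Agent.Lib.BadRed.Mod.SeedNodeA
import Fermat.Agent.Lib.BadRed.FundIneq
import Fermat.Agent.Lib.BadRed.Graph.NodeMultiAbs

set_option autoImplicit false
set_option linter.style.haveILetI false
set_option linter.unusedSectionVars false

noncomputable section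

open Polynomial IntermediateField

namespace Fermat.Agent.BadRed.NodeMulti

open Fermat.Agent.Deuring Fermat.Agent.BadRed.SeedNode

variable {K F k : Type*} [Field K] [Field F] [Algebra K F] [Field k]
  {ι : Type*} {Fk : ι → Type*} [∀ i, Field (Fk i)] [∀ i, Algebra k (Fk i)]

/-- A family of constant reductions over the same `(A, res)`, all extending the Gauss valuation
of `K(w)`, pairwise distinct. -/
structure GaussFamily (S : ∀ i, ValSetup K F k (Fk i)) (A : ValuationSubring K) (res : A →+* k)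
    (w : F) : Prop where
  hA : ∀ i, (S i).A = A
  hres : ∀ (i : ι) (c : K) (h : c ∈ (S i).A) (h' : c ∈ A), (S i).res ⟨c, h⟩ = res ⟨c, h'⟩
  mem : ∀ i, w ∈ (S i).Ov
  trans : ∀ i, Transcendental k ((S i).red w)
  inj : Function.Injective fun i => (S i).Ov

variable {S : ∀ i, ValSetup K F k (Fk i)} {A : ValuationSubring K} {res : A →+* k} {w : F}

theorem GaussFamily.mem_A (G : GaussFamily S A res w) (i : ι) {c : K} (hc : c ∈ A) :
    c ∈ (S i).A := by
  rw [G.hA i]
  exact hc

theorem GaussFamily.res_surj (G : GaussFamily S A res w) (i : ι) : Function.Surjective res := by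
  intro y
  obtain ⟨⟨c, hc⟩, h⟩ := (S i).res_surj y
  have hc' : c ∈ A := by
    rw [← G.hA i]
    exact hc
  exact ⟨⟨c, hc'⟩, by rw [← G.hres i c hc hc', h]⟩

/-- evaluation at `w` of a polynomial with coefficients in `A`. -/
theorem nm_red_aeval (G : GaussFamily S A res w) (i : ι) (p : A[X]) :
    aeval w (p.map (algebraMap A K)) ∈ (S i).Ov ∧
      (S i).red (aeval w (p.map (algebraMap A K))) = aeval ((S i).red w) (p.map res) := by
  induction p using Polynomial.induction_on with
  | C a =>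
    have haS : (a : K) ∈ (S i).A := G.mem_A i a.2
    have h1 : aeval w ((C a : A[X]).map (algebraMap A K)) = algebraMap K F (a : K) := by
      rw [Polynomial.map_C, aeval_C]
      rfl
    rw [h1, Polynomial.map_C, aeval_C]
    refine ⟨(S i).algebraMap_mem haS, ?_⟩
    rw [(S i).red_algebraMap haS, G.hres i _ haS a.2]
  | add p q hp hq =>
    rw [Polynomial.map_add, map_add, Polynomial.map_add, map_add]
    exact ⟨add_mem hp.1 hq.1, by rw [(S i).red_add hp.1 hq.1, hp.2, hq.2]⟩
  | monomial n a ih =>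
    have h1 : aeval w ((C a * X ^ (n + 1) : A[X]).map (algebraMap A K)) =
        aeval w ((C a * X ^ n : A[X]).map (algebraMap A K)) * w := by
      simp only [Polynomial.map_mul, Polynomial.map_pow, Polynomial.map_X, map_mul, map_pow,
        aeval_X, pow_succ, mul_assoc]
    have h2 : aeval ((S i).red w) ((C a * X ^ (n + 1) : A[X]).map res) =
        aeval ((S i).red w) ((C a * X ^ n : A[X]).map res) * (S i).red w := by
      simp only [Polynomial.map_mul, Polynomial.map_pow, Polynomial.map_X, map_mul, map_pow,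
        aeval_X, pow_succ, mul_assoc]
    rw [h1, h2]
    exact ⟨mul_mem ih.1 (G.mem i), by rw [(S i).red_mul ih.1 (G.mem i), ih.2]⟩

/-- a primitive polynomial takes a unit value at `w`. -/
theorem nm_red_aeval_ne_zero (G : GaussFamily S A res w) (i : ι) {p : A[X]}
    (hp : p.map res ≠ 0) : (S i).red (aeval w (p.map (algebraMap A K))) ≠ 0 := by
  rw [(nm_red_aeval G i p).2]
  intro h0
  exact hp ((transcendental_iff_injective.mp (G.trans i)) (by rw [h0, map_zero]))

/-- Gauss normalisation: a nonzero polynomial over `K` is a constant times a primitive polynomial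
over `A`. -/
theorem nm_normalize (A : ValuationSubring K) (res : A →+* k) {p : K[X]} (hp : p ≠ 0) :
    ∃ (c : K) (p₀ : A[X]), c ≠ 0 ∧ p = C c * p₀.map (algebraMap A K) ∧ p₀.map res ≠ 0 := by
  classical
  have hex : ∃ i : Fin (p.natDegree + 1), p.coeff i ≠ 0 :=
    ⟨⟨p.natDegree, Nat.lt_succ_self _⟩, by
      simpa using Polynomial.leadingCoeff_ne_zero.mpr hp⟩
  obtain ⟨i₀, hi₀, hall⟩ := exists_max_coeff A (fun i : Fin (p.natDegree + 1) => p.coeff i) hex
  set c : K := p.coeff i₀ with hc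
  have hmem : ∀ i : ℕ, p.coeff i * c⁻¹ ∈ A := by
    intro i
    by_cases hi : i < p.natDegree + 1
    · exact hall ⟨i, hi⟩
    · have : p.coeff i = 0 := Polynomial.coeff_eq_zero_of_natDegree_lt (by omega)
      rw [this, zero_mul]
      exact zero_mem _
  let p₀ : A[X] := ∑ i ∈ Finset.range (p.natDegree + 1),
    Polynomial.monomial i (⟨p.coeff i * c⁻¹, hmem i⟩ : A)
  have hmap : p₀.map (algebraMap A K) = C c⁻¹ * p := by
    have h1 : p₀.map (algebraMap A K) =
        ∑ i ∈ Finset.range (p.natDegree + 1), Polynomial.monomial i (p.coeff i * c⁻¹) := by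
      rw [Polynomial.map_sum]
      refine Finset.sum_congr rfl fun i _ => ?_
      rw [Polynomial.map_monomial]
      rfl
    rw [h1]
    conv_rhs => rw [Polynomial.as_sum_range' p (p.natDegree + 1) (Nat.lt_succ_self _)]
    rw [Finset.mul_sum]
    refine Finset.sum_congr rfl fun i _ => ?_
    rw [Polynomial.C_mul_monomial, mul_comm]
  refine ⟨c, p₀, hi₀, ?_, ?_⟩
  · rw [hmap, ← mul_assoc, ← Polynomial.C_mul, mul_inv_cancel₀ hi₀, Polynomial.C_1, one_mul]
  · intro h0
    have h1 : (p₀.map res).coeff i₀ = 1 := by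
      rw [Polynomial.coeff_map]
      have h2 : p₀.coeff i₀ = (⟨p.coeff i₀ * c⁻¹, hmem i₀⟩ : A) := by
        simp only [p₀, Polynomial.finsetSum_coeff, Polynomial.coeff_monomial]
        rw [Finset.sum_eq_single (i₀ : ℕ)]
        · simp
        · intro b _ hb
          simp [hb]
        · intro hb
          exact absurd (Finset.mem_range.mpr i₀.2) hb
      rw [h2]
      have h3 : (⟨p.coeff i₀ * c⁻¹, hmem i₀⟩ : A) = 1 := by
        apply Subtype.ext
        change p.coeff i₀ * c⁻¹ = 1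
        rw [← hc]
        exact mul_inv_cancel₀ hi₀
      rw [h3, map_one]
    rw [h0, Polynomial.coeff_zero] at h1
    exact zero_ne_one h1

/-- normal form of the elements of `K(w)`. -/
theorem nm_normal_form (A : ValuationSubring K) (res : A →+* k) {w a : F} (ha : a ∈ K⟮w⟯)
    (ha0 : a ≠ 0) :
    ∃ (c : K) (R T : A[X]), c ≠ 0 ∧ R.map res ≠ 0 ∧ T.map res ≠ 0 ∧
      a * aeval w (T.map (algebraMap A K)) = algebraMap K F c * aeval w (R.map (algebraMap A K)) ∧
      (aeval w (T.map (algebraMap A K)) ≠ 0 → a =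
        algebraMap K F c * (aeval w (R.map (algebraMap A K)) *
          (aeval w (T.map (algebraMap A K)))⁻¹)) := by
  obtain ⟨r, s, rfl⟩ := (IntermediateField.mem_adjoin_simple_iff K a).mp ha
  have hs : s ≠ 0 := by
    rintro rfl
    apply ha0
    rw [map_zero, div_zero]
  have hr : r ≠ 0 := by
    rintro rfl
    apply ha0
    rw [map_zero, zero_div]
  have hs0 : aeval w s ≠ 0 := by
    intro h
    apply ha0
    rw [h, div_zero]
  obtain ⟨c, r₀, hc, hr₀, hr₀'⟩ := nm_normalize A res hr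
  obtain ⟨d, s₀, hd, hs₀, hs₀'⟩ := nm_normalize A res hs
  have e1 : aeval w r = algebraMap K F c * aeval w (r₀.map (algebraMap A K)) := by
    conv_lhs => rw [hr₀]
    rw [map_mul, aeval_C]
  have e2 : aeval w s = algebraMap K F d * aeval w (s₀.map (algebraMap A K)) := by
    conv_lhs => rw [hs₀]
    rw [map_mul, aeval_C]
  have hd' : algebraMap K F d ≠ 0 := (_root_.map_ne_zero _).mpr hd
  have hT0 : aeval w (s₀.map (algebraMap A K)) ≠ 0 := by
    intro h
    apply hs0
    rw [e2, h, mul_zero]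
  refine ⟨c / d, r₀, s₀, div_ne_zero hc hd, hr₀', hs₀', ?_, fun _ => ?_⟩
  · rw [e1, e2, map_div₀]
    field_simp
  · rw [e1, e2, map_div₀]
    field_simp

section Indep

variable (G : GaussFamily S A res w)
include G

/-- `K(w) ∩ Ov i` is described by the constant of the normal form. -/
theorem nm_mem_iff_aux (i : ι) {a : F} {c : K} {R T : A[X]} (hR : R.map res ≠ 0)
    (hT : T.map res ≠ 0)
    (h : a * aeval w (T.map (algebraMap A K)) = algebraMap K F c * aeval w (R.map (algebraMap A K))) :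
    (a ∈ (S i).Ov ↔ c ∈ A) ∧
      ∀ hc : c ∈ A, (S i).red a * aeval ((S i).red w) (T.map res) =
        algebraMap k (Fk i) (res ⟨c, hc⟩) * aeval ((S i).red w) (R.map res) := by
  set Rv : F := aeval w (R.map (algebraMap A K)) with hRv
  set Tv : F := aeval w (T.map (algebraMap A K)) with hTv
  have hRm : Rv ∈ (S i).Ov := (nm_red_aeval G i R).1
  have hTm : Tv ∈ (S i).Ov := (nm_red_aeval G i T).1
  have hRred : (S i).red Rv ≠ 0 := nm_red_aeval_ne_zero G i hR
  have hTred : (S i).red Tv ≠ 0 := nm_red_aeval_ne_zero G i hT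
  have hR0 : Rv ≠ 0 := (S i).ne_zero_of_red_ne_zero hRred
  have hT0 : Tv ≠ 0 := (S i).ne_zero_of_red_ne_zero hTred
  have hRi : Rv⁻¹ ∈ (S i).Ov := (S i).inv_mem_of_red_ne_zero hRred
  have hTi : Tv⁻¹ ∈ (S i).Ov := (S i).inv_mem_of_red_ne_zero hTred
  have hiff : a ∈ (S i).Ov ↔ c ∈ A := by
    constructor
    · intro ha
      rw [← G.hA i, ← (S i).mem_Ov_iff]
      have e : algebraMap K F c = a * Tv * Rv⁻¹ := by
        rw [h, mul_assoc, mul_inv_cancel₀ hR0, mul_one]
      rw [e]
      exact mul_mem (mul_mem ha hTm) hRi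
    · intro hc
      have e : a = algebraMap K F c * Rv * Tv⁻¹ := by
        rw [← h, mul_assoc, mul_inv_cancel₀ hT0, mul_one]
      rw [e]
      exact mul_mem (mul_mem ((S i).algebraMap_mem (G.mem_A i hc)) hRm) hTi
  refine ⟨hiff, fun hc => ?_⟩
  have ha : a ∈ (S i).Ov := hiff.mpr hc
  have hcS : c ∈ (S i).A := G.mem_A i hc
  have h1 := congrArg (S i).red h
  rw [(S i).red_mul ha hTm, (S i).red_mul ((S i).algebraMap_mem hcS) hRm,
    (S i).red_algebraMap hcS, G.hres i c hcS hc, (nm_red_aeval G i T).2,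
    (nm_red_aeval G i R).2] at h1
  exact h1

/-- `K(w) ∩ Ov i` does not depend on `i`. -/
theorem nm_mem_iff {a : F} (ha : a ∈ K⟮w⟯) (i j : ι) : a ∈ (S i).Ov ↔ a ∈ (S j).Ov := by
  by_cases ha0 : a = 0
  · rw [ha0]
    exact ⟨fun _ => zero_mem _, fun _ => zero_mem _⟩
  obtain ⟨c, R, T, -, hR, hT, h, -⟩ := nm_normal_form A res ha ha0
  rw [(nm_mem_iff_aux G i hR hT h).1, (nm_mem_iff_aux G j hR hT h).1]

/-- the maximal ideal of `K(w) ∩ Ov i` does not depend on `i`. -/
theorem nm_red_eq_zero_iff {a : F} (ha : a ∈ K⟮w⟯) (i j : ι) (hai : a ∈ (S i).Ov) :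
    (S i).red a = 0 ↔ (S j).red a = 0 := by
  by_cases ha0 : a = 0
  · rw [ha0, (S i).red_zero, (S j).red_zero]
    exact ⟨fun _ => rfl, fun _ => rfl⟩
  obtain ⟨c, R, T, -, hR, hT, h, -⟩ := nm_normal_form A res ha ha0
  have hc : c ∈ A := (nm_mem_iff_aux G i hR hT h).1.mp hai
  have hi := (nm_mem_iff_aux G i hR hT h).2 hc
  have hj := (nm_mem_iff_aux G j hR hT h).2 hc
  have hTi : aeval ((S i).red w) (T.map res) ≠ 0 := by
    rw [← (nm_red_aeval G i T).2]
    exact nm_red_aeval_ne_zero G i hT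
  have hTj : aeval ((S j).red w) (T.map res) ≠ 0 := by
    rw [← (nm_red_aeval G j T).2]
    exact nm_red_aeval_ne_zero G j hT
  have hRi : aeval ((S i).red w) (R.map res) ≠ 0 := by
    rw [← (nm_red_aeval G i R).2]
    exact nm_red_aeval_ne_zero G i hR
  have hRj : aeval ((S j).red w) (R.map res) ≠ 0 := by
    rw [← (nm_red_aeval G j R).2]
    exact nm_red_aeval_ne_zero G j hR
  have key : ∀ (l : ι), aeval ((S l).red w) (T.map res) ≠ 0 →
      aeval ((S l).red w) (R.map res) ≠ 0 →
      (S l).red a * aeval ((S l).red w) (T.map res) =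
        algebraMap k (Fk l) (res ⟨c, hc⟩) * aeval ((S l).red w) (R.map res) →
      ((S l).red a = 0 ↔ res ⟨c, hc⟩ = 0) := by
    intro l hT' hR' hl
    constructor
    · intro h0
      rw [h0, zero_mul] at hl
      rcases mul_eq_zero.mp hl.symm with h1 | h1
      · exact (map_eq_zero_iff _ (algebraMap k (Fk l)).injective).mp h1
      · exact absurd h1 hR'
    · intro h0
      rw [h0, map_zero, zero_mul] at hl
      rcases mul_eq_zero.mp hl with h1 | h1
      · exact h1
      · exact absurd h1 hT'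
  rw [key i hTi hRi hi, key j hTj hRj hj]

/-- **canonical reduction**: the reduction of an element of `K(w) ∩ Ov` is the same rational
function of `w̄` for all the valuations of the family (polynomial case). -/
theorem nm_red_canonical {a : F} (ha : a ∈ K⟮w⟯) (i j : ι) (hai : a ∈ (S i).Ov) (P : k[X])
    (h : (S i).red a = aeval ((S i).red w) P) : (S j).red a = aeval ((S j).red w) P := by
  obtain ⟨P', hP'⟩ := Polynomial.map_surjective res (G.res_surj i) P
  set b : F := aeval w (P'.map (algebraMap A K)) with hb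
  have hbK : b ∈ K⟮w⟯ := by
    rw [hb, IntermediateField.mem_adjoin_simple_iff]
    exact ⟨P'.map (algebraMap A K), 1, by simp⟩
  have hbi := nm_red_aeval G i P'
  have hbj := nm_red_aeval G j P'
  have hdK : a - b ∈ K⟮w⟯ := sub_mem ha hbK
  have hdi : a - b ∈ (S i).Ov := sub_mem hai hbi.1
  have hd0 : (S i).red (a - b) = 0 := by
    rw [(S i).red_sub hai hbi.1, h, hbi.2, hP', sub_self]
  have hdj : a - b ∈ (S j).Ov := (nm_mem_iff G hdK i j).mp hdi
  have hd0' : (S j).red (a - b) = 0 := (nm_red_eq_zero_iff G hdK i j hdi).mp hd0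
  have haj : a ∈ (S j).Ov := (nm_mem_iff G ha i j).mp hai
  rw [(S j).red_sub haj hbj.1, hbj.2, hP', sub_eq_zero] at hd0'
  exact hd0'

end Indep

/-! ### joint lifts -/

section Lift

variable (G : GaussFamily S A res w)
include G

/-- constants with pairwise distinct residues. -/
theorem nm_exists_consts [Infinite k] (i : ι) :
    ∃ c : ℕ → K, (∀ m, c m ∈ A) ∧
      ∀ m m', m ≠ m' → ∀ h : c m - c m' ∈ A, res ⟨c m - c m', h⟩ ≠ 0 := by
  classical
  have hsurj := G.res_surj i
  choose c hc using fun m : ℕ => hsurj (Infinite.natEmbedding k m)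
  refine ⟨fun m => (c m : K), fun m => (c m).2, fun m m' hmm h => ?_⟩
  have e : (⟨(c m : K) - (c m' : K), h⟩ : A) = c m - c m' := rfl
  rw [e, map_sub, hc, hc, sub_ne_zero]
  exact fun h' => hmm ((Infinite.natEmbedding k).injective h')

/-- an element of `Ov` with nonzero reduction is not in the maximal ideal. -/
theorem nm_notMem_nonunits_of_red_ne_zero (i : ι) {x : F} (hx : (S i).red x ≠ 0) :
    x ∉ (S i).Ov.nonunits := by
  intro h
  rw [ValuationSubring.mem_nonunits_iff] at h
  have hinv := (S i).inv_mem_of_red_ne_zero hx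
  have hx0 := (S i).ne_zero_of_red_ne_zero hx
  have h1 : (S i).Ov.valuation x⁻¹ ≤ 1 := ((S i).Ov.valuation_le_one_iff _).mpr hinv
  rw [map_inv₀] at h1
  have h2 : (S i).Ov.valuation x ≠ 0 := (_root_.map_ne_zero _).mpr hx0
  have h3 : 1 ≤ (S i).Ov.valuation x := by
    rwa [inv_le_one₀ (zero_lt_iff.mpr h2)] at h1
  exact absurd h (not_lt.mpr h3)

/-- an element of the maximal ideal reduces to `0`. -/
theorem nm_red_eq_zero_of_mem_nonunits (i : ι) {x : F} (hx : x ∈ (S i).Ov.nonunits) :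
    ∃ h : x ∈ (S i).Ov, (S i).ρ ⟨x, h⟩ = 0 := by
  have hlt := (ValuationSubring.mem_nonunits_iff _).mp hx
  have hmem : x ∈ (S i).Ov := ((S i).Ov.valuation_le_one_iff _).mp hlt.le
  refine ⟨hmem, ?_⟩
  rw [(S i).ρ_eq_zero_iff, ValuationSubring.valuation_eq_one_iff]
  exact hlt.ne

/-- the valuation rings of the family lie over the same valuation ring of `K(w)`. -/
theorem nm_liesOverV (i₀ i : ι) :
    LiesOverV ((S i₀).Ov.comap (algebraMap K⟮w⟯ F)) (S i).Ov := by
  unfold LiesOverV
  ext y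
  exact nm_mem_iff G y.2 i i₀

/-- **joint lifts** (weak approximation in the residue fields). -/
theorem nm_joint_lift [Fintype ι] [Infinite k] [FiniteDimensional K⟮w⟯ F] (i : ι) (β : Fk i) :
    ∃ b : F, ∃ hb : ∀ l, b ∈ (S l).Ov,
      (S i).ρ ⟨b, hb i⟩ = β ∧ ∀ l, l ≠ i → (S l).ρ ⟨b, hb l⟩ = 0 := by
  classical
  obtain ⟨c, hcA, hcu⟩ := nm_exists_consts G i
  set O : ι → ValuationSubring F := fun l => (S l).Ov with hO
  set cF : ℕ → F := fun m => algebraMap K F (c m) with hcF
  have hc : ∀ l m, cF m ∈ O l := fun l m => (S l).algebraMap_mem (G.mem_A l (hcA m))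
  have hcu' : ∀ l m m', m ≠ m' → cF m - cF m' ∉ (O l).nonunits := by
    intro l m m' hmm
    apply nm_notMem_nonunits_of_red_ne_zero G l
    have hd : c m - c m' ∈ A := sub_mem (hcA m) (hcA m')
    have e : cF m - cF m' = algebraMap K F (c m - c m') := by
      rw [hcF, map_sub]
    rw [e, (S l).red_algebraMap (G.mem_A l hd), G.hres l _ (G.mem_A l hd) hd]
    exact (_root_.map_ne_zero _).mpr (hcu m m' hmm hd)
  have hinc : ∀ l j, l ≠ j → ¬ O l ≤ O j := fun l j hlj =>
    not_le_of_liesOverV (nm_liesOverV G i l) (nm_liesOverV G i j) (fun h => hlj (G.inj h))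
  obtain ⟨E, hE1, hE2, hE3⟩ := exists_idempotent_like O cF hinc hc hcu' i
  obtain ⟨⟨b₀, hb₀m⟩, hb₀⟩ := (S i).ρ_surj β
  obtain ⟨s, hs1, hs2, hs3⟩ := exists_common_denominator O cF hc hcu' i
    (fun _ : Unit => b₀) (fun _ => hb₀m)
  have hsb : ∀ l, s * b₀ ∈ O l := fun l => hs3 () l
  set s' : F := s * E + (1 - E) with hs'
  have hs'mem : ∀ l, s' ∈ O l := fun l =>
    add_mem (mul_mem (hs1 l) (hE1 l)) (sub_mem (one_mem _) (hE1 l))
  have h1E : (1 - E) ∈ (O i).nonunits := by
    have e : 1 - E = -(E - 1) := by ring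
    rw [e, ValuationSubring.mem_nonunits_iff, Valuation.map_neg]
    exact (ValuationSubring.mem_nonunits_iff _).mp hE2
  have hs'val : ∀ l, (O l).valuation s' = 1 := by
    intro l
    by_cases hl : l = i
    · subst hl
      have e : s' = (1 - E) * (1 - s) + s := by
        rw [hs']
        ring
      have hlt : (O l).valuation ((1 - E) * (1 - s)) < (O l).valuation s := by
        rw [hs2, ← ValuationSubring.mem_nonunits_iff]
        exact nonunits_mul_mem h1E (sub_mem (one_mem _) (hs1 l))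
      rw [e, Valuation.map_add_eq_of_lt_right _ hlt, hs2]
    · apply val_eq_one_of_sub_one_mem_nonunits
      have e : s' - 1 = E * (s - 1) := by
        rw [hs']
        ring
      rw [e]
      exact nonunits_mul_mem (hE3 l hl) (sub_mem (hs1 l) (one_mem _))
  have hs'inv : ∀ l, s'⁻¹ ∈ O l := by
    intro l
    rw [← (O l).valuation_le_one_iff, map_inv₀, hs'val l, inv_one]
  have hs'0 : s' ≠ 0 := by
    intro h0
    have := hs'val i
    rw [h0, map_zero] at this
    exact zero_ne_one this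
  set b : F := E * (s * b₀) * s'⁻¹ with hbdef
  have hb : ∀ l, b ∈ O l := fun l => mul_mem (mul_mem (hE1 l) (hsb l)) (hs'inv l)
  refine ⟨b, hb, ?_, fun l hl => ?_⟩
  · -- at `i`
    have e0 : b₀ = b₀ * s' * s'⁻¹ := by rw [mul_assoc, mul_inv_cancel₀ hs'0, mul_one]
    have h3 : E * (s * b₀) - b₀ * s' = b₀ * (E - 1) := by
      rw [hs']
      ring
    have e : b - b₀ = (b₀ * s'⁻¹) * (E - 1) := by
      calc b - b₀ = E * (s * b₀) * s'⁻¹ - b₀ * s' * s'⁻¹ := by rw [← e0]
        _ = (E * (s * b₀) - b₀ * s') * s'⁻¹ := by ring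
        _ = (b₀ * s'⁻¹) * (E - 1) := by rw [h3]; ring
    have hmem : b - b₀ ∈ (O i).nonunits := by
      rw [e]
      exact mul_nonunits_mem (mul_mem hb₀m (hs'inv i)) hE2
    obtain ⟨hd, hd0⟩ := nm_red_eq_zero_of_mem_nonunits G i hmem
    have e2 : (⟨b - b₀, hd⟩ : (S i).Ov) = ⟨b, hb i⟩ - ⟨b₀, hb₀m⟩ := rfl
    rw [e2, map_sub, sub_eq_zero] at hd0
    rw [hd0, hb₀]
  · -- at `l ≠ i`
    have hmem : b ∈ (O l).nonunits := by
      rw [hbdef, mul_assoc]
      exact nonunits_mul_mem (hE3 l hl) (mul_mem (hsb l) (hs'inv l))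
    obtain ⟨hd, hd0⟩ := nm_red_eq_zero_of_mem_nonunits G l hmem
    exact hd0

end Lift

/-! ### the `NMSetup` of a Gauss family -/

section Setup

/-- the Gauss ring of `K(w)`. -/
def nmOE (S : ∀ i, ValSetup K F k (Fk i)) (w : F) (i₀ : ι) : ValuationSubring K⟮w⟯ :=
  (S i₀).Ov.comap (algebraMap K⟮w⟯ F)

theorem mem_nmOE {i₀ : ι} {y : K⟮w⟯} : y ∈ nmOE S w i₀ ↔ (y : F) ∈ (S i₀).Ov := Iff.rfl

variable (G : GaussFamily S A res w)

/-- the residue maps of the Gauss ring, with values in `k(w̄_i)`. -/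
def nmρE (i₀ i : ι) : nmOE S w i₀ →+* k⟮(S i).red w⟯ where
  toFun a := ⟨(S i).red ((a : K⟮w⟯) : F),
    sn_red_mem_adjoin (S i) (G.mem i) (G.trans i) (a : K⟮w⟯).2
      ((nm_mem_iff G (a : K⟮w⟯).2 i₀ i).mp a.2)⟩
  map_one' := Subtype.ext (by simp)
  map_mul' a b := Subtype.ext (by
    have ha : ((a : K⟮w⟯) : F) ∈ (S i).Ov := (nm_mem_iff G (a : K⟮w⟯).2 i₀ i).mp a.2
    have hb : ((b : K⟮w⟯) : F) ∈ (S i).Ov := (nm_mem_iff G (b : K⟮w⟯).2 i₀ i).mp b.2
    simpa using (S i).red_mul ha hb)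
  map_zero' := Subtype.ext (by simp)
  map_add' a b := Subtype.ext (by
    have ha : ((a : K⟮w⟯) : F) ∈ (S i).Ov := (nm_mem_iff G (a : K⟮w⟯).2 i₀ i).mp a.2
    have hb : ((b : K⟮w⟯) : F) ∈ (S i).Ov := (nm_mem_iff G (b : K⟮w⟯).2 i₀ i).mp b.2
    simpa using (S i).red_add ha hb)

@[simp]
theorem nmρE_coe (i₀ i : ι) (a : nmOE S w i₀) :
    ((nmρE G i₀ i a : k⟮(S i).red w⟯) : Fk i) = (S i).red ((a : K⟮w⟯) : F) := rfl

/-- a Gauss family is an `NMSetup` over the Gauss ring. -/
theorem nmSetup [Fintype ι] [DecidableEq ι] [Infinite k] [FiniteDimensional K⟮w⟯ F] (i₀ : ι) :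
    NMSetup (E := K⟮w⟯) (F := F) (Ek := fun i => k⟮(S i).red w⟯) (Fk := Fk)
      (nmOE S w i₀) (fun i => (S i).Ov) (nmρE G i₀) (fun i => (S i).ρ) where
  mem_iff i y := nm_mem_iff G y.2 i i₀
  red_map i y hy hy' := by
    rw [← (S i).red_of_mem hy']
    rfl
  ker i y hy := by
    by_contra hne
    apply hy
    have h1 : (S i).red ((y : K⟮w⟯) : F) ≠ 0 := by
      intro h0
      apply hne
      apply Subtype.ext
      rw [nmρE_coe]
      exact h0
    have hinv := (S i).inv_mem_of_red_ne_zero h1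
    have hy0 := (S i).ne_zero_of_red_ne_zero h1
    have hinv' : ((y : K⟮w⟯)⁻¹ : K⟮w⟯) ∈ nmOE S w i₀ := by
      rw [mem_nmOE]
      have : (((y : K⟮w⟯)⁻¹ : K⟮w⟯) : F) = ((y : K⟮w⟯) : F)⁻¹ := rfl
      rw [this]
      exact (nm_mem_iff G (inv_mem (y : K⟮w⟯).2) i i₀).mp hinv
    refine IsUnit.of_mul_eq_one (⟨(y : K⟮w⟯)⁻¹, hinv'⟩ : nmOE S w i₀) ?_
    apply Subtype.ext
    apply Subtype.ext
    show ((y : K⟮w⟯) : F) * ((y : K⟮w⟯) : F)⁻¹ = 1
    exact mul_inv_cancel₀ hy0
  lift i β := nm_joint_lift G i β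

end Setup

end Fermat.Agent.BadRed.NodeMulti
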