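/-
Cluster G (S36), seat G-NODE (helper74): the MULTI-EXTENSION NODE THEOREM.

`F / K` a function field, `u ∈ F`, `ϖ ∈ 𝔪_A`, `u' = ϖ / u`.  `S₁ i` (`i : ι₁`) are ALL the
extensions of the Gauss valuation of `K(u)` to `F`, `S₂ j` (`j : ι₂`) ALL the extensions of the
Gauss valuation of `K(u')` (hypotheses: `[F : K(u)] ≤ Σ_i [Fk₁ i : k(ū_i)]` and the same on the
second side).  For `f` integral for all these valuations whose poles are zeros or poles of `u`: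

* `nm_node_poly`   : there are monic `Ψ₁ i, Ψ₂ j ∈ k[X][Y]`, the characteristic polynomials of
  `red f` over `k(ū)` resp. `k(ū')`, with `∏_i Ψ₁ i (0, Y) = ∏_j Ψ₂ j (0, Y)`
  (= equality of the MULTISETS of the values of `red f` at the zeros of `ū` resp. `ū'`, counted
  with the multiplicities `ord_Q ū`, `ord_Q ū'`);
* `nm_node_values` : the SET form (the generalisation of `SeedNode.sn_node_values`).
-/
import Mathlib
import Fermat.Agent.Lib.BadRed.Mod.SeedNodeMain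
import Fermat.Agent.Lib.BadRed.Graph.NodeMultiGauss

set_option autoImplicit false
set_option linter.style.haveILetI false
set_option linter.unusedSectionVars false

noncomputable section

open Polynomial IntermediateField AlgebraicCurve

namespace Fermat.Agent.BadRed.NodeMulti

open Fermat.Agent.Deuring Fermat.Agent.RR Fermat.Agent.RRHur Fermat.Agent.BadRed.SeedNode

/-- an element which is a root of a monic polynomial with coefficients in `K[x]` has no poles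
off the poles of `x`. -/
theorem nm_regular_of_root {K F : Type*} [Field K] [Field F] [Algebra K F] {x : F} (f : F)
    (Φ : Polynomial (Polynomial K)) (hmonic : (Φ.map (toAdj x)).Monic)
    (hroot : Polynomial.aeval f (Φ.map (toAdj (K := K) x)) = 0) :
    ∀ v : Place K F, 0 ≤ v.ord x → 0 ≤ v.ord f := by
  intro v hv
  apply Fermat.Agent.S24Res.ord_nonneg_of_mem
  let R : Subring K⟮x⟯ := (toAdj (K := K) x).range
  letI : Algebra R F := ((algebraMap K⟮x⟯ F).comp R.subtype).toAlgebra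
  have halg : ∀ r : R, algebraMap R F r = ((r : K⟮x⟯) : F) := fun r => rfl
  refine Fermat.Agent.S24Bridge.mem_of_isIntegral (R := R) v (fun r => ?_) ?_
  · rw [halg]
    obtain ⟨p, hp⟩ := r.2
    rw [← hp, coe_toAdj]
    have := adicValuation_aeval_le_one v ((adicValuation_le_one_iff' v).mpr hv) p
    exact Fermat.Agent.S24Res.mem_of_ord_nonneg v ((adicValuation_le_one_iff' v).mp this)
  · have hmap : (Φ.map (toAdj (K := K) x).rangeRestrict).map R.subtype = Φ.map (toAdj x) := by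
      rw [Polynomial.map_map]
      rfl
    have hmonic' : (Φ.map (toAdj (K := K) x).rangeRestrict).Monic := by
      apply Polynomial.monic_of_injective (f := R.subtype) Subtype.val_injective
      rw [hmap]
      exact hmonic
    refine ⟨Φ.map (toAdj (K := K) x).rangeRestrict, hmonic', ?_⟩
    have h2 := hroot
    rw [← hmap, Polynomial.aeval_def, Polynomial.eval₂_map] at h2
    exact h2

variable {K F k : Type*} [Field K] [Field F] [Algebra K F] [Field k]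

section OneSide

variable {ι : Type*} {Fk : ι → Type*} [∀ i, Field (Fk i)] [∀ i, Algebra k (Fk i)]
  {S : ∀ i, ValSetup K F k (Fk i)} {A : ValuationSubring K} {res : A →+* k} {w : F}

/-- **One side of the node theorem.**  The coefficients of the characteristic polynomial of `f`
over `K(w)` are integral; if their reductions are the polynomials `Q r` in `w̄`, then the
bivariate polynomial `snPhi n Q` is the product of the characteristic polynomials of the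
reductions of `f`. -/
theorem nm_side (G : GaussFamily S A res w) [Fintype ι] [Infinite k]
    (L : IntermediateField K F) (hL : K⟮w⟯ = L) [FiniteDimensional L F]
    [∀ i, FiniteDimensional k⟮(S i).red w⟯ (Fk i)]
    (hdeg : Module.finrank L F ≤ ∑ i, Module.finrank k⟮(S i).red w⟯ (Fk i))
    (f : F) (hf : ∀ i, f ∈ (S i).Ov) :
    (∀ (r : ℕ) (i : ι), (((LinearMap.mulLeft L f).charpoly.coeff r : L) : F) ∈ (S i).Ov) ∧
    ∀ (Q : ℕ → k[X]) (i₀ : ι),
      (∀ r, (S i₀).red (((LinearMap.mulLeft L f).charpoly.coeff r : L) : F) =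
        Polynomial.aeval ((S i₀).red w) (Q r)) →
      ∃ Ψ : ι → Polynomial (Polynomial k),
        (∀ i, (Ψ i).Monic ∧ (Ψ i).map (toAdj ((S i).red w)) =
          (LinearMap.mulLeft k⟮(S i).red w⟯ ((S i).red f)).charpoly) ∧
        snPhi (Module.finrank L F) Q = ∏ i, Ψ i := by
  classical
  subst hL
  have hne : Nonempty ι := by
    by_contra hemp
    rw [not_nonempty_iff] at hemp
    have h0 : Module.finrank K⟮w⟯ F ≤ 0 := by
      simpa using hdeg
    have := Module.finrank_pos (R := K⟮w⟯) (M := F)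
    omega
  obtain ⟨j₀⟩ := hne
  have H := nmSetup G j₀
  obtain ⟨P, Pb, hPmonic, hPdeg, hPmap, hPbmonic, hPbmap, hcong⟩ :=
    nm_charpoly_multi H hdeg f hf
  have hcoeff : ∀ r, ((P.coeff r : nmOE S w j₀) : K⟮w⟯) =
      (LinearMap.mulLeft K⟮w⟯ f).charpoly.coeff r := by
    intro r
    rw [← hPmap, Polynomial.coeff_map]
    rfl
  have hint : ∀ (r : ℕ) (i : ι),
      (((LinearMap.mulLeft K⟮w⟯ f).charpoly.coeff r : K⟮w⟯) : F) ∈ (S i).Ov := by
    intro r i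
    rw [← hcoeff r]
    exact (nm_mem_iff G ((P.coeff r : nmOE S w j₀) : K⟮w⟯).2 j₀ i).mp (P.coeff r).2
  refine ⟨hint, fun Q i₀ hQ => ?_⟩
  set n := Module.finrank K⟮w⟯ F with hn
  -- the reduction of `P` at every `i`
  have hPred : ∀ i, P.map (nmρE G j₀ i) = (snPhi n Q).map (toAdj ((S i).red w)) := by
    intro i
    ext r : 1
    rw [Polynomial.coeff_map, Polynomial.coeff_map, snPhi_coeff]
    apply Subtype.ext
    rw [nmρE_coe, hcoeff r]
    split_ifs with hr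
    · rw [coe_toAdj]
      exact nm_red_canonical G
        ((LinearMap.mulLeft K⟮w⟯ f).charpoly.coeff r : K⟮w⟯).2 i₀ i (hint r i₀) (Q r) (hQ r)
    · have h0 : (LinearMap.mulLeft K⟮w⟯ f).charpoly.coeff r = 0 := by
        rw [← hcoeff r]
        have : P.coeff r = 0 := Polynomial.coeff_eq_zero_of_natDegree_lt (by omega)
        rw [this]
        rfl
      rw [h0, map_zero]
      exact (S i).red_zero
  -- the reductions of `f` are regular
  have hρf : ∀ i, (S i).ρ ⟨f, hf i⟩ = (S i).red f := fun i => ((S i).red_of_mem (hf i)).symm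
  have hPb : ∀ i, (Pb i).map (nmρE G j₀ i) =
      (LinearMap.mulLeft k⟮(S i).red w⟯ ((S i).red f)).charpoly := by
    intro i
    rw [hPbmap i, hρf i]
  have hroot : ∀ i, Polynomial.aeval ((S i).red f)
      ((snPhi n Q).map (toAdj ((S i).red w))) = 0 := by
    intro i
    rw [← hPred i, hcong i, map_prod]
    refine Finset.prod_eq_zero (Finset.mem_univ i) ?_
    rw [hPb i]
    exact aeval_charpoly_mulLeft (L := k⟮(S i).red w⟯) ((S i).red f)
  have hmonic : ∀ i, ((snPhi n Q).map (toAdj ((S i).red w))).Monic := by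
    intro i
    rw [← hPred i]
    exact hPmonic.map _
  have hreg : ∀ i, ∀ v : Place k (Fk i), 0 ≤ v.ord ((S i).red w) → 0 ≤ v.ord ((S i).red f) :=
    fun i => nm_regular_of_root ((S i).red f) (snPhi n Q) (hmonic i) (hroot i)
  choose Ψ hΨmonic hΨ using fun i =>
    exists_charpoly_poly (S i).hFk (G.trans i) ((S i).red f) (hreg i)
  refine ⟨Ψ, fun i => ⟨hΨmonic i, hΨ i⟩, ?_⟩
  -- transport of the blocks to `i₀`
  have hblock : ∀ i, (Pb i).map (nmρE G j₀ i₀) = (Ψ i).map (toAdj ((S i₀).red w)) := by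
    intro i
    ext r : 1
    rw [Polynomial.coeff_map, Polynomial.coeff_map]
    apply Subtype.ext
    rw [nmρE_coe, coe_toAdj]
    have hmem : ((((Pb i).coeff r : nmOE S w j₀) : K⟮w⟯) : F) ∈ (S i).Ov :=
      (nm_mem_iff G (((Pb i).coeff r : nmOE S w j₀) : K⟮w⟯).2 j₀ i).mp ((Pb i).coeff r).2
    refine nm_red_canonical G (((Pb i).coeff r : nmOE S w j₀) : K⟮w⟯).2 i i₀ hmem
      ((Ψ i).coeff r) ?_
    have h1 := congrArg (fun p => ((p.coeff r : k⟮(S i).red w⟯) : Fk i)) ((hPb i).trans (hΨ i).symm)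
    simp only [Polynomial.coeff_map, nmρE_coe, coe_toAdj] at h1
    exact h1
  apply Polynomial.map_injective (toAdj ((S i₀).red w)) (toAdj_injective (G.trans i₀))
  rw [← hPred i₀, hcong i₀, Polynomial.map_prod]
  exact Finset.prod_congr rfl fun i _ => hblock i

end OneSide

section TwoSides

variable {ι₁ ι₂ : Type*} [Fintype ι₁] [Fintype ι₂]
  {Fk₁ : ι₁ → Type*} [∀ i, Field (Fk₁ i)] [∀ i, Algebra k (Fk₁ i)]
  {Fk₂ : ι₂ → Type*} [∀ j, Field (Fk₂ j)] [∀ j, Algebra k (Fk₂ j)]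
  {S₁ : ∀ i, ValSetup K F k (Fk₁ i)} {S₂ : ∀ j, ValSetup K F k (Fk₂ j)}
  {A : ValuationSubring K} {res : A →+* k} {u : F} {ϖ : K}

/-- **The multi-extension node theorem, polynomial form.** -/
theorem nm_node_poly [Infinite k] (hϖ0 : ϖ ≠ 0) (hϖ : ϖ ∈ A) (hϖres : res ⟨ϖ, hϖ⟩ = 0)
    (G₁ : GaussFamily S₁ A res u) (G₂ : GaussFamily S₂ A res (algebraMap K F ϖ / u))
    [FiniteDimensional K⟮u⟯ F] [∀ i, FiniteDimensional k⟮(S₁ i).red u⟯ (Fk₁ i)]
    [∀ j, FiniteDimensional k⟮(S₂ j).red (algebraMap K F ϖ / u)⟯ (Fk₂ j)]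
    (hdeg₁ : Module.finrank K⟮u⟯ F ≤ ∑ i, Module.finrank k⟮(S₁ i).red u⟯ (Fk₁ i))
    (hdeg₂ : Module.finrank K⟮u⟯ F ≤
      ∑ j, Module.finrank k⟮(S₂ j).red (algebraMap K F ϖ / u)⟯ (Fk₂ j))
    (f : F) (hf₁ : ∀ i, f ∈ (S₁ i).Ov) (hf₂ : ∀ j, f ∈ (S₂ j).Ov)
    (hf : ∀ v : Place K F, v.ord f < 0 → v.ord u ≠ 0) :
    ∃ (Ψ₁ : ι₁ → Polynomial (Polynomial k)) (Ψ₂ : ι₂ → Polynomial (Polynomial k)),
      (∀ i, (Ψ₁ i).Monic ∧ (Ψ₁ i).map (toAdj ((S₁ i).red u)) =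
        (LinearMap.mulLeft k⟮(S₁ i).red u⟯ ((S₁ i).red f)).charpoly) ∧
      (∀ j, (Ψ₂ j).Monic ∧ (Ψ₂ j).map (toAdj ((S₂ j).red (algebraMap K F ϖ / u))) =
        (LinearMap.mulLeft k⟮(S₂ j).red (algebraMap K F ϖ / u)⟯ ((S₂ j).red f)).charpoly) ∧
      ∏ i, (Ψ₁ i).map (Polynomial.evalRingHom 0) = ∏ j, (Ψ₂ j).map (Polynomial.evalRingHom 0) := by
  classical
  have hne₁ : Nonempty ι₁ := by
    by_contra hemp
    rw [not_nonempty_iff] at hemp
    have h0 : Module.finrank K⟮u⟯ F ≤ 0 := by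
      simpa using hdeg₁
    have := Module.finrank_pos (R := K⟮u⟯) (M := F)
    omega
  have hne₂ : Nonempty ι₂ := by
    by_contra hemp
    rw [not_nonempty_iff] at hemp
    have h0 : Module.finrank K⟮u⟯ F ≤ 0 := by
      simpa using hdeg₂
    have := Module.finrank_pos (R := K⟮u⟯) (M := F)
    omega
  obtain ⟨i₀⟩ := hne₁
  obtain ⟨j₀⟩ := hne₂
  have hu0 : u ≠ 0 := by
    rintro rfl
    apply G₁.trans i₀
    rw [(S₁ i₀).red_zero]
    exact isAlgebraic_zero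
  have huK : Transcendental K u := sn_transcendental_of_red (S₁ i₀) (G₁.mem i₀) (G₁.trans i₀)
  have hL : K⟮algebraMap K F ϖ / u⟯ = K⟮u⟯ := sn_adjoin_inv_eq hϖ0 hu0
  obtain ⟨hint₁, hside₁⟩ := nm_side G₁ K⟮u⟯ rfl hdeg₁ f hf₁
  obtain ⟨hint₂, hside₂⟩ := nm_side G₂ K⟮u⟯ hL hdeg₂ f hf₂
  -- Laurent form of the coefficients
  have hC := exists_laurent_coeff (S₁ i₀).hF huK f hf
  choose M P hMP using hC
  have hA : (S₁ i₀).A = (S₂ j₀).A := (G₁.hA i₀).trans (G₂.hA j₀).symm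
  have hres : ∀ (c : K) (h₁ : c ∈ (S₁ i₀).A) (h₂ : c ∈ (S₂ j₀).A),
      (S₁ i₀).res ⟨c, h₁⟩ = (S₂ j₀).res ⟨c, h₂⟩ := by
    intro c h₁ h₂
    have hc : c ∈ A := by
      rw [← G₁.hA i₀]
      exact h₁
    rw [G₁.hres i₀ c h₁ hc, G₂.hres j₀ c h₂ hc]
  have hϖ₁ : ϖ ∈ (S₁ i₀).A := G₁.mem_A i₀ hϖ
  have hϖres₁ : (S₁ i₀).res ⟨ϖ, hϖ₁⟩ = 0 := by
    rw [G₁.hres i₀ ϖ hϖ₁ hϖ, hϖres]
  have hB := fun r => laurent_gauss (S₁ i₀) (S₂ j₀) hA hres hϖ0 hϖ₁ hϖres₁ (G₁.mem i₀)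
    (G₁.trans i₀) (G₂.mem j₀) (G₂.trans j₀) _ (hint₁ r i₀) (hint₂ r j₀) (M r) (P r) (hMP r)
  choose Q₁ Q₂ h0 hQ₁ hQ₂ using hB
  obtain ⟨Ψ₁, hΨ₁, hprod₁⟩ := hside₁ Q₁ i₀ hQ₁
  obtain ⟨Ψ₂, hΨ₂, hprod₂⟩ := hside₂ Q₂ j₀ hQ₂
  refine ⟨Ψ₁, Ψ₂, hΨ₁, hΨ₂, ?_⟩
  rw [← Polynomial.map_prod, ← Polynomial.map_prod, ← hprod₁, ← hprod₂]
  exact snPhi_eval_zero _ Q₁ Q₂ h0

/-- **The multi-extension node theorem, set form**: the reductions of `f` are regular off the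
poles of `ū`, `ū'`, and the set of values of the reductions of `f` at the zeros of `ū` (on all
the components of the first family) equals the set of its values at the zeros of `ū'` (on all the
components of the second family). -/
theorem nm_node_values [Infinite k] (hϖ0 : ϖ ≠ 0) (hϖ : ϖ ∈ A) (hϖres : res ⟨ϖ, hϖ⟩ = 0)
    (G₁ : GaussFamily S₁ A res u) (G₂ : GaussFamily S₂ A res (algebraMap K F ϖ / u))
    [FiniteDimensional K⟮u⟯ F] [∀ i, FiniteDimensional k⟮(S₁ i).red u⟯ (Fk₁ i)]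
    [∀ j, FiniteDimensional k⟮(S₂ j).red (algebraMap K F ϖ / u)⟯ (Fk₂ j)]
    (hdeg₁ : Module.finrank K⟮u⟯ F ≤ ∑ i, Module.finrank k⟮(S₁ i).red u⟯ (Fk₁ i))
    (hdeg₂ : Module.finrank K⟮u⟯ F ≤
      ∑ j, Module.finrank k⟮(S₂ j).red (algebraMap K F ϖ / u)⟯ (Fk₂ j))
    (f : F) (hf₁ : ∀ i, f ∈ (S₁ i).Ov) (hf₂ : ∀ j, f ∈ (S₂ j).Ov)
    (hf : ∀ v : Place K F, v.ord f < 0 → v.ord u ≠ 0) :
    (∀ (i : ι₁) (Q : Place k (Fk₁ i)), 0 ≤ Q.ord ((S₁ i).red u) → 0 ≤ Q.ord ((S₁ i).red f)) ∧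
    (∀ (j : ι₂) (Q : Place k (Fk₂ j)), 0 ≤ Q.ord ((S₂ j).red (algebraMap K F ϖ / u)) →
      0 ≤ Q.ord ((S₂ j).red f)) ∧
    ∀ c : k, (∃ i, ∃ Q : Place k (Fk₁ i), 0 < Q.ord ((S₁ i).red u) ∧ ValAt Q ((S₁ i).red f) c) ↔
      (∃ j, ∃ Q : Place k (Fk₂ j), 0 < Q.ord ((S₂ j).red (algebraMap K F ϖ / u)) ∧
        ValAt Q ((S₂ j).red f) c) := by
  classical
  obtain ⟨Ψ₁, Ψ₂, hΨ₁, hΨ₂, hprod⟩ := nm_node_poly hϖ0 hϖ hϖres G₁ G₂ hdeg₁ hdeg₂ f hf₁ hf₂ hf
  refine ⟨fun i => regular_of_charpoly_poly ((S₁ i).red f) (Ψ₁ i) (hΨ₁ i).2,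
    fun j => regular_of_charpoly_poly ((S₂ j).red f) (Ψ₂ j) (hΨ₂ j).2, fun c => ?_⟩
  have hR₁ : ∀ i, ((Ψ₁ i).map (Polynomial.evalRingHom 0)).eval c = 0 ↔
      ∃ Q : Place k (Fk₁ i), 0 < Q.ord ((S₁ i).red u) ∧ ValAt Q ((S₁ i).red f) c := by
    intro i
    have := root_iff_exists_place (S₁ i).hFk (G₁.trans i) ((S₁ i).red f) (Ψ₁ i) (hΨ₁ i).2 0 c
    rwa [map_zero, sub_zero] at this
  have hR₂ : ∀ j, ((Ψ₂ j).map (Polynomial.evalRingHom 0)).eval c = 0 ↔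
      ∃ Q : Place k (Fk₂ j), 0 < Q.ord ((S₂ j).red (algebraMap K F ϖ / u)) ∧
        ValAt Q ((S₂ j).red f) c := by
    intro j
    have := root_iff_exists_place (S₂ j).hFk (G₂.trans j) ((S₂ j).red f) (Ψ₂ j) (hΨ₂ j).2 0 c
    rwa [map_zero, sub_zero] at this
  have h1 : (∃ i, ∃ Q : Place k (Fk₁ i), 0 < Q.ord ((S₁ i).red u) ∧ ValAt Q ((S₁ i).red f) c) ↔
      (∏ i, (Ψ₁ i).map (Polynomial.evalRingHom 0)).eval c = 0 := by
    rw [Polynomial.eval_prod, Finset.prod_eq_zero_iff]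
    constructor
    · rintro ⟨i, hi⟩
      exact ⟨i, Finset.mem_univ i, (hR₁ i).mpr hi⟩
    · rintro ⟨i, -, hi⟩
      exact ⟨i, (hR₁ i).mp hi⟩
  have h2 : (∃ j, ∃ Q : Place k (Fk₂ j), 0 < Q.ord ((S₂ j).red (algebraMap K F ϖ / u)) ∧
      ValAt Q ((S₂ j).red f) c) ↔
      (∏ j, (Ψ₂ j).map (Polynomial.evalRingHom 0)).eval c = 0 := by
    rw [Polynomial.eval_prod, Finset.prod_eq_zero_iff]
    constructor
    · rintro ⟨j, hj⟩
      exact ⟨j, Finset.mem_univ j, (hR₂ j).mpr hj⟩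
    · rintro ⟨j, -, hj⟩
      exact ⟨j, (hR₂ j).mp hj⟩
  rw [h1, h2, hprod]

end TwoSides

end Fermat.Agent.BadRed.NodeMulti
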