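/-
Cluster G (S36), seat G-NODE: the MULTISET form `MultiNodeStatement` (helper99's exact Prop in
`MultiNodeDefs.lean`) from the polynomial form `NodeMulti.nm_node_poly` (helper74) and the
refined root formula `RootCountStatement` (seat RootCount).
-/
import Mathlib
import Fermat.Agent.Lib.BadRed.Graph.MultiNodeDefs
import Fermat.Agent.Lib.BadRed.Graph.NodeMulti
import Fermat.Agent.Lib.RedTr.FundIdK

set_option autoImplicit false
set_option linter.style.haveILetI false
set_option linter.unusedSectionVars false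

noncomputable section

open AlgebraicCurve Polynomial IntermediateField

namespace Fermat.Agent.BadRedG

open Fermat.Agent.RR Fermat.Agent.Deuring Fermat.Agent.BadRed Fermat.Agent.BadRed.SeedNode
open Fermat.Agent.BadRed.NodeMulti

variable {K F k : Type*} [Field K] [Field F] [Algebra K F] [Field k]
  {κ : Type*} {Fk : κ → Type*} [∀ c, Field (Fk c)] [∀ c, Algebra k (Fk c)]

/-- the root multiplicity of a finite product of monic polynomials. -/
theorem nmw_rootMultiplicity_prod {ι : Type*} (s : Finset ι) (p : ι → k[X])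
    (hp : ∀ i ∈ s, (p i).Monic) (a : k) :
    (∏ i ∈ s, p i).rootMultiplicity a = ∑ i ∈ s, (p i).rootMultiplicity a := by
  classical
  induction s using Finset.induction_on with
  | empty => simp
  | insert j s hj ih =>
    have h1 : (p j).Monic := hp j (Finset.mem_insert_self j s)
    have h2 : (∏ i ∈ s, p i).Monic :=
      Polynomial.monic_prod_of_monic s p fun i hi => hp i (Finset.mem_insert_of_mem hi)
    rw [Finset.prod_insert hj, Finset.sum_insert hj,
      Polynomial.rootMultiplicity_mul (h1.mul h2).ne_zero,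
      ih fun i hi => hp i (Finset.mem_insert_of_mem hi)]

/-- **The multi-extension node theorem, multiset form** (helper99's `MultiNodeStatement`), from
the refined root formula on every component. -/
theorem multiNode_of_rootCount [Infinite k] (S : ∀ c : κ, ValSetup K F k (Fk c))
    (V₁ V₂ : Finset κ) (u : F) (ϖ : K) (hRC : ∀ c, RootCountStatement k (Fk c)) :
    MultiNodeStatement S V₁ V₂ u ϖ := by
  classical
  intro D f hf₁ hf₂ hf
  obtain ⟨c₀, hc₀⟩ := D.ne₁
  have hinj : ∀ c c' : κ, (S c).Ov = (S c').Ov → c = c' := by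
    intro c c' h
    by_contra hne
    exact D.indep c c' hne (le_of_eq h)
  have G₁ : GaussFamily (ι := V₁) (Fk := fun i => Fk i.1) (fun i => S i.1) (S c₀).A (S c₀).res u :=
    { hA := fun i => D.A_eq _ _
      hres := fun i c h h' => D.res_eq _ _ c h h'
      mem := fun i => D.u_mem i.1 i.2
      trans := fun i => D.u_tr i.1 i.2
      inj := fun i j h => Subtype.ext (hinj _ _ h) }
  have G₂ : GaussFamily (ι := V₂) (Fk := fun i => Fk i.1) (fun i => S i.1) (S c₀).A (S c₀).res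
      (algebraMap K F ϖ / u) :=
    { hA := fun i => D.A_eq _ _
      hres := fun i c h h' => D.res_eq _ _ c h h'
      mem := fun i => D.u'_mem i.1 i.2
      trans := fun i => D.u'_tr i.1 i.2
      inj := fun i j h => Subtype.ext (hinj _ _ h) }
  have huK : Transcendental K u :=
    sn_transcendental_of_red (S c₀) (D.u_mem c₀ hc₀) (D.u_tr c₀ hc₀)
  haveI : FiniteDimensional K⟮u⟯ F := Fermat.Agent.RedTr.fundIdK_finiteDimensional (S c₀).hF huK
  haveI h₁ : ∀ i : V₁, FiniteDimensional k⟮(S i.1).red u⟯ (Fk i.1) := fun i =>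
    Fermat.Agent.RedTr.fundIdK_finiteDimensional (S i.1).hFk (D.u_tr i.1 i.2)
  haveI h₂ : ∀ j : V₂, FiniteDimensional k⟮(S j.1).red (algebraMap K F ϖ / u)⟯ (Fk j.1) := fun j =>
    Fermat.Agent.RedTr.fundIdK_finiteDimensional (S j.1).hFk (D.u'_tr j.1 j.2)
  have hdeg₁ : Module.finrank K⟮u⟯ F ≤ ∑ i : V₁, Module.finrank k⟮(S i.1).red u⟯ (Fk i.1) := by
    rw [Finset.sum_coe_sort V₁ (fun c => Module.finrank k⟮(S c).red u⟯ (Fk c))]
    exact D.deg₁
  have hdeg₂ : Module.finrank K⟮u⟯ F ≤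
      ∑ j : V₂, Module.finrank k⟮(S j.1).red (algebraMap K F ϖ / u)⟯ (Fk j.1) := by
    rw [Finset.sum_coe_sort V₂
      (fun c => Module.finrank k⟮(S c).red (algebraMap K F ϖ / u)⟯ (Fk c))]
    exact D.deg₂
  obtain ⟨Ψ₁, Ψ₂, hΨ₁, hΨ₂, hprod⟩ := nm_node_poly (D.ϖ_ne) (D.ϖ_mem c₀) (D.ϖ_res c₀ _) G₁ G₂
    hdeg₁ hdeg₂ f (fun i => hf₁ i.1 i.2) (fun j => hf₂ j.1 j.2) hf
  refine ⟨fun c hc => ?_, fun c hc => ?_, fun a => ?_⟩
  · haveI := h₁ ⟨c, hc⟩
    exact regular_of_charpoly_poly ((S c).red f) (Ψ₁ ⟨c, hc⟩) (hΨ₁ ⟨c, hc⟩).2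
  · haveI := h₂ ⟨c, hc⟩
    exact regular_of_charpoly_poly ((S c).red f) (Ψ₂ ⟨c, hc⟩) (hΨ₂ ⟨c, hc⟩).2
  have e₁ : ∑ c ∈ V₁, mnCount (S c).hFk ((S c).red u) ((S c).red f) a =
      ∑ i : V₁, (((Ψ₁ i).map (Polynomial.evalRingHom 0)).rootMultiplicity a : ℤ) := by
    rw [← Finset.sum_coe_sort V₁ (fun c => mnCount (S c).hFk ((S c).red u) ((S c).red f) a)]
    refine Finset.sum_congr rfl fun i _ => ?_
    exact (hRC i.1 (S i.1).hFk ((S i.1).red u) (D.u_tr i.1 i.2) ((S i.1).red f) (Ψ₁ i)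
      (hΨ₁ i).2 a).symm
  have e₂ : ∑ c ∈ V₂, mnCount (S c).hFk ((S c).red (algebraMap K F ϖ / u)) ((S c).red f) a =
      ∑ j : V₂, (((Ψ₂ j).map (Polynomial.evalRingHom 0)).rootMultiplicity a : ℤ) := by
    rw [← Finset.sum_coe_sort V₂
      (fun c => mnCount (S c).hFk ((S c).red (algebraMap K F ϖ / u)) ((S c).red f) a)]
    refine Finset.sum_congr rfl fun j _ => ?_
    exact (hRC j.1 (S j.1).hFk ((S j.1).red (algebraMap K F ϖ / u)) (D.u'_tr j.1 j.2)
      ((S j.1).red f) (Ψ₂ j) (hΨ₂ j).2 a).symm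
  rw [e₁, e₂, ← Nat.cast_sum, ← Nat.cast_sum,
    ← nmw_rootMultiplicity_prod Finset.univ _ (fun i _ => (hΨ₁ i).1.map _) a,
    ← nmw_rootMultiplicity_prod Finset.univ _ (fun j _ => (hΨ₂ j).1.map _) a, hprod]

end Fermat.Agent.BadRedG
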