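import Mathlib
import Fermat.Agent.Lib.BadRed.Graph.NSDef
import Fermat.Agent.Lib.Deuring.Basic

set_option autoImplicit false

/-!
# Cluster G (S36), abstract graph package: the toric key WITH ordinarity  (helper3, tester)

`GraphToricKeyStatement` of `Setup.lean` is FALSE as stated (no ordinarity hypothesis: by weak
approximation every `W₀`-class has a Kummer generator all of whose reductions are `1`).
The correct statement has the hypothesis that the divisor of `g` is ORDINARY; it is then a direct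
corollary of the graph KEY LEMMA (`GraphKeyConcl`) and of `push`:

* `graphToricKeyOrd_of_key` : `n ∣ div g`, `div g` ordinary, all reductions of `g` equal to `1`
  ⟹ `g = a * u ^ n`;
* `graphToricKeyOrd_of_const` : the same with reductions which are nonzero CONSTANTS.
-/

noncomputable section

open AlgebraicCurve Fermat.Agent.RR Fermat.Agent.Deuring

namespace Fermat.Agent.BadRedG

open Fermat.Agent.BadRed

variable {K F k : Type*} [Field K] [Field F] [Algebra K F] [Field k]
  {κ : Type*} {Fk : κ → Type*} [∀ c, Field (Fk c)] [∀ c, Algebra k (Fk c)] {ι : Type*}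

/-- no place reduces to a non-smooth point, so `r_* D` vanishes there. -/
theorem tko_mapDomain_eq_zero_of_not_smooth (N : GraphSetup K F k κ Fk ι) (D : Divisor K F)
    (X : Σ c, Place k (Fk c)) (hX : ¬ N.IsSmooth X) :
    Finsupp.mapDomain N.r D (some X) = 0 := by
  classical
  rw [Finsupp.mapDomain, Finsupp.sum, Finsupp.finsetSum_apply]
  refine Finset.sum_eq_zero fun P _ => ?_
  rw [Finsupp.single_apply, if_neg]
  intro h
  apply hX
  refine ⟨fun i hi => ?_, fun i hi => ?_⟩
  · exact N.r_ne_node₁ P i (by rw [h, hi])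
  · exact N.r_ne_node₂ P i (by rw [h, hi])

/-- `push` for a function whose reduction on the component is a nonzero constant: `r_* (div g)`
vanishes at every point of the component. -/
theorem tko_mapDomain_divOf_eq_zero (N : GraphSetup K F k κ Fk ι) (c₀ c : κ) {g : F}
    {b : k} (hb : b ≠ 0) (hred : (N.S c).red g = algebraMap k (Fk c) b) (Q : Place k (Fk c)) :
    Finsupp.mapDomain N.r (divOf (N.S c₀).hF g) (some ⟨c, Q⟩) = 0 := by
  by_cases hQ : N.IsSmooth ⟨c, Q⟩
  · have hne : (N.S c).red g ≠ 0 := by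
      rw [hred]
      exact fun h => hb ((algebraMap k (Fk c)).injective (by rw [h, map_zero]))
    have h := N.push c g ((N.S c).mem_of_red_ne_zero hne) ((N.S c).inv_mem_of_red_ne_zero hne)
      ((N.S c).ne_zero_of_red_ne_zero hne) Q hQ.1 hQ.2
    rw [hred] at h
    have hconst : Q.ord (algebraMap k (Fk c) b) = 0 := Fermat.Agent.S24Res.ord_algebraMap Q b
    rw [hconst] at h
    exact h
  · exact tko_mapDomain_eq_zero_of_not_smooth N _ _ hQ

/-- **the toric key with ordinarity, constant reductions**: if `n ∣ div g`, the divisor of `g` is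
ordinary and every reduction of `g` is a nonzero constant, then `g = a * u ^ n`. -/
theorem graphToricKeyOrd_of_const (N : GraphSetup K F k κ Fk ι) (hKey : GraphKeyConcl N)
    (n : ℕ) (hn0 : (n : K) ≠ 0) (c₀ : κ) (hnA : ((n : K))⁻¹ ∈ (N.S c₀).A)
    (g : F) (hg : g ≠ 0) (hdvd : ∀ P : Place K F, (n : ℤ) ∣ P.ord g)
    (hord : ∀ P : Place K F, P.ord g ≠ 0 → N.IsOrd P)
    (hred : ∀ c, ∃ b : k, b ≠ 0 ∧ (N.S c).red g = algebraMap k (Fk c) b) :
    ∃ (u : F) (a : K), a ≠ 0 ∧ g = algebraMap K F a * u ^ n := by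
  classical
  have hn : n ≠ 0 := by
    rintro rfl
    exact hn0 Nat.cast_zero
  have hnZ : (n : ℤ) ≠ 0 := by exact_mod_cast hn
  set hF := (N.S c₀).hF with hFdef
  -- the divisor `D = div g / n`
  set D : Divisor K F := (divOf hF g).mapRange (fun z => z / (n : ℤ)) (by simp) with hD
  have hDapp : ∀ P : Place K F, D P = P.ord g / (n : ℤ) := by
    intro P
    rw [hD, Finsupp.mapRange_apply, divOf_apply]
  have hnD : ∀ P : Place K F, (n : ℤ) * D P = P.ord g := by
    intro P
    rw [hDapp]
    exact Int.mul_ediv_cancel' (hdvd P)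
  have hnsmul : n • D = divOf hF g := by
    ext P
    rw [Finsupp.smul_apply, divOf_apply, nsmul_eq_mul, hnD]
  have hdeg : Divisor.degree D = 0 := by
    have h1 : Divisor.degree (n • D) = 0 := by rw [hnsmul]; exact degree_divOf hF g
    rw [map_nsmul, nsmul_eq_mul] at h1
    rcases mul_eq_zero.mp h1 with h | h
    · exact absurd h hnZ
    · exact h
  have hOrd : N.IsOrdDiv D := by
    intro P hP
    apply hord P
    intro h0
    apply hP
    rw [hDapp, h0, Int.zero_ediv]
  have hRed : ∀ Q, Finsupp.mapDomain N.r D (some Q) = 0 := by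
    rintro ⟨c, Q⟩
    obtain ⟨b, hb, hbred⟩ := hred c
    have h1 := tko_mapDomain_divOf_eq_zero N c₀ c hb hbred Q
    rw [← hFdef, ← hnsmul, Finsupp.mapDomain_smul, Finsupp.smul_apply, nsmul_eq_mul] at h1
    rcases mul_eq_zero.mp h1 with h | h
    · exact absurd h hnZ
    · exact h
  have hprin : (n • D) ∈ Divisor.principal (K := K) (F := F) := by
    rw [hnsmul]
    exact ⟨g, hg, fun v => divOf_apply hF g v⟩
  obtain ⟨u, hu0, hu⟩ := hKey n hn0 c₀ hnA D hdeg ⟨hOrd, hRed⟩ hprin
  have hun : u ^ n ≠ 0 := pow_ne_zero n hu0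
  set w : F := g / u ^ n with hw
  have hw0 : w ≠ 0 := div_ne_zero hg hun
  have hordw : ∀ P : Place K F, P.ord w = 0 := by
    intro P
    have hpow : ∀ j : ℕ, P.ord (u ^ j) = j * P.ord u := by
      intro j
      induction j with
      | zero => simp
      | succ i ih => rw [pow_succ, P.ord_mul (pow_ne_zero _ hu0) hu0, ih]; push_cast; ring
    rw [hw, div_eq_mul_inv, P.ord_mul hg (inv_ne_zero hun), P.ord_inv, hpow, ← hu P, hnD]
    ring
  have hmem : w ∈ riemannRochSpace (0 : Divisor K F) := by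
    rw [mem_riemannRochSpace_iff]
    intro P
    right
    rw [hordw P]
    simp
  obtain ⟨a, ha⟩ := (mem_riemannRochSpace_zero_iff hF w).mp hmem
  have ha0 : a ≠ 0 := by
    rintro rfl
    rw [map_zero] at ha
    exact hw0 ha.symm
  refine ⟨u, a, ha0, ?_⟩
  rw [ha, hw, div_mul_cancel₀ _ hun]

/-- **the toric key with ordinarity**: the corrected form of `GraphToricKeyStatement`. -/
theorem graphToricKeyOrd_of_key (N : GraphSetup K F k κ Fk ι) (hKey : GraphKeyConcl N)
    (n : ℕ) (hn0 : (n : K) ≠ 0) (c₀ : κ) (hnA : ((n : K))⁻¹ ∈ (N.S c₀).A)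
    (g : F) (hg : g ≠ 0) (hdvd : ∀ P : Place K F, (n : ℤ) ∣ P.ord g)
    (hord : ∀ P : Place K F, P.ord g ≠ 0 → N.IsOrd P)
    (hred : ∀ c, g ∈ (N.S c).Ov ∧ (N.S c).red g = 1) :
    ∃ (u : F) (a : K), a ≠ 0 ∧ g = algebraMap K F a * u ^ n :=
  graphToricKeyOrd_of_const N hKey n hn0 c₀ hnA g hg hdvd hord
    (fun c => ⟨1, one_ne_zero, by rw [(hred c).2, map_one]⟩)

end Fermat.Agent.BadRedG
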