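import Mathlib
import Fermat.Agent.Lib.BadRed.Graph.ToricKeyOrd

set_option autoImplicit false

/-!
# Cluster G (S36), abstract graph package: a criterion for ORDINARY places  (helper3, tester)

From the `GraphSetup` interface (`push`) only.

* `isOrd_of_pole_count` **(ORD-CRIT)**: `f ≠ 0`, `T` a finite set of SMOOTH points of the special
  fibre such that `f` is a unit of the valuation ring of the component of every point of `T`.
  If the poles of the reductions of `f` at the points of `T` have total order at least the degree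
  of the polar divisor of `f`, then every pole of `f` is ordinary and reduces to a point of `T`.

Use (modular graph, Step 3): the fibres of `π₁`, `π₂` through ordinary places are ordinary
(`f = 1 / (u₁ - a)`, `u₁ / (1 - u₁ / a)`, ...), hence `π^* π_* D` is ordinary for ordinary `D` with
saturated support, and the node axiom applies to the norms `N_π (g)`.
-/

noncomputable section

open AlgebraicCurve Fermat.Agent.RR Fermat.Agent.Deuring

namespace Fermat.Agent.BadRedG

open Fermat.Agent.BadRed

variable {K F k : Type*} [Field K] [Field F] [Algebra K F] [Field k]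
  {κ : Type*} {Fk : κ → Type*} [∀ c, Field (Fk c)] [∀ c, Algebra k (Fk c)] {ι : Type*}

/-- the finite set of poles of `f`. -/
def polesOf (hF : IsRRField K F) (f : F) : Finset (Place K F) := by
  classical
  exact (divOf hF f).support.filter (fun P => P.ord f < 0)

theorem mem_polesOf (hF : IsRRField K F) (f : F) (P : Place K F) :
    P ∈ polesOf hF f ↔ P.ord f < 0 := by
  classical
  rw [polesOf, Finset.mem_filter, Finsupp.mem_support_iff, divOf_apply]
  constructor
  · exact fun h => h.2
  · exact fun h => ⟨ne_of_lt h, h⟩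

open Classical in
theorem oc_mapDomain_apply_eq_sum {α β : Type*} (r : α → β) (D : α →₀ ℤ) (Q : β) :
    Finsupp.mapDomain r D Q = ∑ P ∈ D.support, if r P = Q then D P else 0 := by
  rw [Finsupp.mapDomain, Finsupp.sum, Finsupp.finsetSum_apply]
  refine Finset.sum_congr rfl fun P _ => ?_
  rw [Finsupp.single_apply]

open Classical in
/-- `push` as an inequality: the order of the pole of the reduction at a smooth point `X` is at
most the total order of the poles of `f` reducing to `X`. -/
theorem oc_pole_le (N : GraphSetup K F k κ Fk ι) (c₀ : κ) {f : F} (hf : f ≠ 0)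
    (X : Σ c, Place k (Fk c)) (hX : N.IsSmooth X) (hmem : f ∈ (N.S X.1).Ov)
    (hinv : f⁻¹ ∈ (N.S X.1).Ov) :
    - X.2.ord ((N.S X.1).red f) ≤
      ∑ P ∈ (polesOf (N.S c₀).hF f).filter (fun P => N.r P = some X), (- P.ord f) := by
  classical
  obtain ⟨c, Q⟩ := X
  have hpush := N.push c f hmem hinv hf Q hX.1 hX.2
  have hsum := oc_mapDomain_apply_eq_sum N.r (divOf (N.S c).hF f)
    (some (⟨c, Q⟩ : Σ c, Place k (Fk c)))
  rw [hpush] at hsum
  show - Q.ord ((N.S c).red f) ≤ _
  rw [hsum, ← Finset.sum_neg_distrib]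
  -- compare the two sums termwise on the support
  have h1 : ∑ P ∈ (polesOf (N.S c₀).hF f).filter (fun P => N.r P = some ⟨c, Q⟩), (- P.ord f) =
      ∑ P ∈ (divOf (N.S c).hF f).support,
        (if P.ord f < 0 ∧ N.r P = some ⟨c, Q⟩ then - P.ord f else 0) := by
    rw [polesOf, Finset.filter_filter, Finset.sum_filter]
  rw [h1]
  refine Finset.sum_le_sum fun P _ => ?_
  by_cases hr : N.r P = some ⟨c, Q⟩
  · rw [if_pos hr, divOf_apply]
    by_cases hneg : P.ord f < 0
    · rw [if_pos ⟨hneg, hr⟩]
    · rw [if_neg (fun h => hneg h.1)]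
      omega
  · rw [if_neg hr, if_neg (fun h => hr h.2)]
    simp

/-- **(ORD-CRIT)**: if the poles of the reductions of `f` at the smooth points of `T` account for
the whole polar divisor of `f`, then every pole of `f` is ordinary and reduces into `T`. -/
theorem isOrd_of_pole_count (N : GraphSetup K F k κ Fk ι) (c₀ : κ) {f : F} (hf : f ≠ 0)
    (T : Finset (Σ c, Place k (Fk c)))
    (hT : ∀ X ∈ T, N.IsSmooth X ∧ f ∈ (N.S X.1).Ov ∧ f⁻¹ ∈ (N.S X.1).Ov)
    (hcount : ∑ P ∈ polesOf (N.S c₀).hF f, (- P.ord f) ≤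
      ∑ X ∈ T, (- X.2.ord ((N.S X.1).red f)))
    (P : Place K F) (hP : P.ord f < 0) : ∃ X ∈ T, N.r P = some X := by
  classical
  by_contra hcon
  have hcon' : ∀ X ∈ T, N.r P ≠ some X := fun X hX h => hcon ⟨X, hX, h⟩
  set poles := polesOf (N.S c₀).hF f with hpoles
  have hPmem : P ∈ poles := (mem_polesOf _ f P).mpr hP
  -- the fibres over the points of `T` are disjoint subsets of `poles.erase P`
  have h1 : ∑ X ∈ T, (- X.2.ord ((N.S X.1).red f)) ≤
      ∑ X ∈ T, ∑ P' ∈ poles.filter (fun P' => N.r P' = some X), (- P'.ord f) :=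
    Finset.sum_le_sum fun X hX =>
      oc_pole_le N c₀ hf X (hT X hX).1 (hT X hX).2.1 (hT X hX).2.2
  have h2 : ∑ X ∈ T, ∑ P' ∈ poles.filter (fun P' => N.r P' = some X), (- P'.ord f) =
      ∑ P' ∈ poles.filter (fun P' => ∃ X ∈ T, N.r P' = some X), (- P'.ord f) := by
    rw [← Finset.sum_biUnion]
    · refine Finset.sum_congr ?_ fun _ _ => rfl
      ext P'
      simp only [Finset.mem_biUnion, Finset.mem_filter]
      constructor
      · rintro ⟨X, hX, hP', hr⟩
        exact ⟨hP', X, hX, hr⟩
      · rintro ⟨hP', X, hX, hr⟩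
        exact ⟨X, hX, hP', hr⟩
    · intro X _ Y _ hXY
      rw [Function.onFun, Finset.disjoint_left]
      intro P' h1 h2
      rw [Finset.mem_filter] at h1 h2
      apply hXY
      have := h1.2.symm.trans h2.2
      exact Option.some_injective _ this
  have h3 : ∑ P' ∈ poles.filter (fun P' => ∃ X ∈ T, N.r P' = some X), (- P'.ord f) ≤
      ∑ P' ∈ poles.erase P, (- P'.ord f) := by
    apply Finset.sum_le_sum_of_subset_of_nonneg
    · intro P' hP'
      rw [Finset.mem_filter] at hP'
      rw [Finset.mem_erase]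
      refine ⟨?_, hP'.1⟩
      rintro rfl
      obtain ⟨X, hX, hr⟩ := hP'.2
      exact hcon' X hX hr
    · intro P' hP' _
      have := (mem_polesOf _ f P').mp (Finset.mem_of_mem_erase hP')
      omega
  have h4 : ∑ P' ∈ poles.erase P, (- P'.ord f) + (- P.ord f) = ∑ P' ∈ poles, (- P'.ord f) :=
    Finset.sum_erase_add _ _ hPmem
  rw [h2] at h1
  omega

/-- (ORD-CRIT), consequence: every pole of `f` is ordinary. -/
theorem isOrd_of_pole_count' (N : GraphSetup K F k κ Fk ι) (c₀ : κ) {f : F} (hf : f ≠ 0)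
    (T : Finset (Σ c, Place k (Fk c)))
    (hT : ∀ X ∈ T, N.IsSmooth X ∧ f ∈ (N.S X.1).Ov ∧ f⁻¹ ∈ (N.S X.1).Ov)
    (hcount : ∑ P ∈ polesOf (N.S c₀).hF f, (- P.ord f) ≤
      ∑ X ∈ T, (- X.2.ord ((N.S X.1).red f)))
    (P : Place K F) (hP : P.ord f < 0) : N.IsOrd P := by
  obtain ⟨X, _, hr⟩ := isOrd_of_pole_count N c₀ hf T hT hcount P hP
  exact ⟨X, hr⟩

end Fermat.Agent.BadRedG
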