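import Mathlib
import Fermat.Agent.Lib.BadRed.Graph.OrdCrit
import Fermat.Agent.Lib.RedTr.FundIdK
import Fermat.Agent.Lib.RR.Kummer.Count
import Fermat.Agent.Lib.BadRed.Mod.SeedNodeMain
import Fermat.Agent.Lib.BadRed.Nodal.Gluing.Values

set_option autoImplicit false
set_option linter.unusedSectionVars false
set_option linter.style.haveILetI false

/-!
# Cluster G (S36), abstract graph package: LEVEL SETS of a parameter are ordinary  (helper20)

From the `GraphSetup` interface (`push`) and helper3's (ORD-CRIT) (`Graph/OrdCrit.lean`) only.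

`OLParam N V v` : `v` is a PARAMETER on the family `V` of components: integral with transcendental
reduction on every `c ∈ V`, `V` is the set of ALL the extensions of the Gauss valuation of `K(v)`
(`[F : K(v)] ≤ ∑_{c ∈ V} [Fk c : k(red_c v)]`, the shape of `MNData.deg₁`), and the points of the
components of `V` at which `red_c v` is a unit are smooth points of the special fibre.

* `OLParam.level` **(LEVEL)**: for a unit `a` of `A` every zero `P` of `v - a` is ORDINARY and
  reduces to a zero of `red_c v - ā` on a component `c ∈ V`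
  ((ORD-CRIT) for `f = (v - a)⁻¹`: `deg (f)_∞ = [F : K(v)] ≤ ∑_V [Fk c : k(red v)]
  = ∑_V deg ((red v - ā)⁻¹)_∞`, and the zeros of `red v - ā` are smooth);
* `ol_ord_eq_zero_of_push` : push, pointwise: if no pole of the unit `g` reduces to the smooth
  point `Q` and `red g` is a unit at `Q`, then `g` is a unit at every place reducing to `Q`;
* `OLParam.eval` **(EVAL)**: if `P` reduces to a point `Q` of `c ∈ V` at which `red_c v` is a
  unit, then `v (P)` is a unit of `A`: `0 < ord_P (v - a)` for some unit `a` of `A`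
  (push for `(v - a')⁻¹` and `λ (v - a) (v - a')⁻¹`, `a'` a generic unit of `A`).

Use: the modular saturation `HorSat2` (`S36/G/SatMod.lean`).
-/

noncomputable section

open AlgebraicCurve IntermediateField Fermat.Agent.RR Fermat.Agent.Deuring

namespace Fermat.Agent.BadRedG

open Fermat.Agent.BadRed Fermat.Agent.BadRed.Gluing Fermat.Agent.BadRed.SeedNode

section Field

variable {K F : Type*} [Field K] [Field F] [Algebra K F]

/-- `K((x - c)⁻¹) = K(x)`. -/
theorem ol_adjoin_inv_sub (x : F) (c : K) : K⟮(x - algebraMap K F c)⁻¹⟯ = K⟮x⟯ := by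
  apply le_antisymm
  · rw [IntermediateField.adjoin_simple_le_iff]
    exact inv_mem (sub_mem (IntermediateField.mem_adjoin_simple_self K x)
      (IntermediateField.algebraMap_mem _ c))
  · rw [IntermediateField.adjoin_simple_le_iff]
    have h1 : ((x - algebraMap K F c)⁻¹)⁻¹ + algebraMap K F c ∈ K⟮(x - algebraMap K F c)⁻¹⟯ :=
      add_mem (inv_mem (IntermediateField.mem_adjoin_simple_self K _))
        (IntermediateField.algebraMap_mem _ c)
    rwa [inv_inv, sub_add_cancel] at h1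

/-- `[F : K((x - c)⁻¹)] = [F : K(x)]`. -/
theorem ol_finrank_inv_sub (x : F) (c : K) :
    Module.finrank K⟮(x - algebraMap K F c)⁻¹⟯ F = Module.finrank K⟮x⟯ F := by
  rw [ol_adjoin_inv_sub x c]

/-- `(x - c)⁻¹` is transcendental if `x` is. -/
theorem ol_transcendental_inv_sub {x : F} (hx : Transcendental K x) (c : K) :
    Transcendental K (x - algebraMap K F c)⁻¹ := by
  intro halg
  apply hx
  have h1 : IsAlgebraic K ((x - algebraMap K F c)⁻¹)⁻¹ := halg.inv
  have h2 : IsAlgebraic K (((x - algebraMap K F c)⁻¹)⁻¹ + algebraMap K F c) :=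
    h1.add (isAlgebraic_algebraMap c)
  rwa [inv_inv, sub_add_cancel] at h2

/-- the total order of the poles of `f` is the degree of the polar divisor. -/
theorem ol_sum_polesOf (h : IsRRField K F) (f : F) :
    ∑ P ∈ polesOf h f, (- P.ord f) = Divisor.degree (poleDiv h f) := by
  classical
  rw [Fermat.Agent.RRKum.degree_poleDiv_eq_sum h f, polesOf, Finset.sum_filter]
  refine Finset.sum_congr rfl fun P _ => ?_
  split_ifs with hP
  · rw [max_eq_left (by omega)]
  · rw [max_eq_right (by omega)]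

/-- the total order of the poles of `(x - c)⁻¹` is `[F : K(x)]`. -/
theorem ol_sum_polesOf_inv_sub (h : IsRRField K F) {x : F} (hx : Transcendental K x) (c : K) :
    ∑ P ∈ polesOf h (x - algebraMap K F c)⁻¹, (- P.ord (x - algebraMap K F c)⁻¹) =
      (Module.finrank K⟮x⟯ F : ℤ) := by
  have ht := ol_transcendental_inv_sub hx c
  haveI : FiniteDimensional K⟮(x - algebraMap K F c)⁻¹⟯ F :=
    Fermat.Agent.RedTr.fundIdK_finiteDimensional h ht
  rw [ol_sum_polesOf, Fermat.Agent.RRHur.degree_poleDiv_eq_finrank h ht, ol_finrank_inv_sub]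

end Field

variable {K F k : Type*} [Field K] [Field F] [Algebra K F] [Field k]
  {κ : Type*} {Fk : κ → Type*} [∀ c, Field (Fk c)] [∀ c, Algebra k (Fk c)] {ι : Type*}

/-- `v` is a parameter on the family `V` of components of the graph. -/
structure OLParam (N : GraphSetup K F k κ Fk ι) (V : Finset κ) (v : F) : Prop where
  ne : V.Nonempty
  mem : ∀ c ∈ V, v ∈ (N.S c).Ov
  tr : ∀ c ∈ V, Transcendental k ((N.S c).red v)
  /-- `V` is the set of ALL the extensions of the Gauss valuation of `K(v)` -/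
  deg : Module.finrank K⟮v⟯ F ≤ ∑ c ∈ V, Module.finrank k⟮(N.S c).red v⟯ (Fk c)
  /-- the points of the components of `V` where the reduction of `v` is a unit are smooth -/
  sm : ∀ c ∈ V, ∀ Q : Place k (Fk c), Q.ord ((N.S c).red v) = 0 → N.IsSmooth ⟨c, Q⟩

variable {N : GraphSetup K F k κ Fk ι} {V : Finset κ} {v : F}

theorem OLParam.transcendental (H : OLParam N V v) : Transcendental K v := by
  obtain ⟨c, hc⟩ := H.ne
  exact sn_transcendental_of_red (N.S c) (H.mem c hc) (H.tr c hc)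

/-- the constants of `A` are integral for all the valuations, with the same residue. -/
theorem ol_const (N : GraphSetup K F k κ Fk ι) (c₀ c : κ) {a : K} (ha : a ∈ (N.S c₀).A) :
    algebraMap K F a ∈ (N.S c).Ov ∧
      (N.S c).red (algebraMap K F a) = algebraMap k (Fk c) ((N.S c₀).res ⟨a, ha⟩) := by
  have ha' : a ∈ (N.S c).A := N.A_eq c₀ c ▸ ha
  refine ⟨(N.S c).algebraMap_mem ha', ?_⟩
  rw [(N.S c).red_algebraMap ha', N.res_eq c c₀ a ha' ha]

/-- the reduction of `v - a` on a component of `V`. -/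
theorem OLParam.red_sub (H : OLParam N V v) (c₀ : κ) {c : κ} (hc : c ∈ V) {a : K}
    (ha : a ∈ (N.S c₀).A) :
    (N.S c).red (v - algebraMap K F a) =
      (N.S c).red v - algebraMap k (Fk c) ((N.S c₀).res ⟨a, ha⟩) := by
  rw [(N.S c).red_sub (H.mem c hc) (ol_const N c₀ c ha).1, (ol_const N c₀ c ha).2]

theorem OLParam.red_sub_ne_zero (H : OLParam N V v) {c : κ} (hc : c ∈ V) (b : k) :
    (N.S c).red v - algebraMap k (Fk c) b ≠ 0 := by
  intro h
  apply H.tr c hc
  rw [sub_eq_zero.mp h]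
  exact isAlgebraic_algebraMap b

/-- `(v - a)⁻¹` is a unit of the valuation ring of every component of `V`. -/
theorem OLParam.inv_sub_unit (H : OLParam N V v) (c₀ : κ) {c : κ} (hc : c ∈ V) {a : K}
    (ha : a ∈ (N.S c₀).A) :
    (v - algebraMap K F a)⁻¹ ∈ (N.S c).Ov ∧ ((v - algebraMap K F a)⁻¹)⁻¹ ∈ (N.S c).Ov ∧
      (N.S c).red (v - algebraMap K F a)⁻¹ =
        ((N.S c).red v - algebraMap k (Fk c) ((N.S c₀).res ⟨a, ha⟩))⁻¹ := by
  have hmem : v - algebraMap K F a ∈ (N.S c).Ov := sub_mem (H.mem c hc) (ol_const N c₀ c ha).1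
  have hred : (N.S c).red (v - algebraMap K F a) ≠ 0 := by
    rw [H.red_sub c₀ hc ha]
    exact H.red_sub_ne_zero hc _
  have hinv := (N.S c).inv_mem_of_red_ne_zero hred
  have h0 := (N.S c).ne_zero_of_red_ne_zero hred
  refine ⟨hinv, by rwa [inv_inv], ?_⟩
  rw [(N.S c).red_inv hmem hinv h0, H.red_sub c₀ hc ha]

/-- **(LEVEL)**: the zeros of `v - a`, `a` a unit of `A`, are ordinary and reduce to the zeros of
`red_c v - ā`, `c ∈ V`. -/
theorem OLParam.level (H : OLParam N V v) (c₀ : κ) {a : K} (ha : a ∈ (N.S c₀).A)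
    (hres : (N.S c₀).res ⟨a, ha⟩ ≠ 0) (P : Place K F)
    (hP : 0 < P.ord (v - algebraMap K F a)) :
    ∃ c ∈ V, ∃ Q : Place k (Fk c), N.r P = some ⟨c, Q⟩ ∧
      0 < Q.ord ((N.S c).red v - algebraMap k (Fk c) ((N.S c₀).res ⟨a, ha⟩)) := by
  classical
  set f : F := (v - algebraMap K F a)⁻¹ with hf
  have hva : v - algebraMap K F a ≠ 0 := by
    intro h
    rw [h, Place.ord_zero] at hP
    exact lt_irrefl _ hP
  have hf0 : f ≠ 0 := inv_ne_zero hva
  -- the set of the zeros of the `red_c v - b`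
  set T : Finset (Σ c, Place k (Fk c)) :=
    V.sigma (fun c => polesOf (N.S c).hFk ((N.S c).red f)) with hT
  have hmemT : ∀ X : Σ c, Place k (Fk c), X ∈ T →
      X.1 ∈ V ∧ 0 < X.2.ord ((N.S X.1).red v -
        algebraMap k (Fk X.1) ((N.S c₀).res ⟨a, ha⟩)) := by
    intro X hX
    rw [hT, Finset.mem_sigma, mem_polesOf] at hX
    refine ⟨hX.1, ?_⟩
    have h1 := hX.2
    rw [hf, (H.inv_sub_unit c₀ hX.1 ha).2.2, Place.ord_inv] at h1
    omega
  have hTs : ∀ X ∈ T, N.IsSmooth X ∧ f ∈ (N.S X.1).Ov ∧ f⁻¹ ∈ (N.S X.1).Ov := by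
    intro X hX
    obtain ⟨hXV, hXz⟩ := hmemT X hX
    refine ⟨?_, (H.inv_sub_unit c₀ hXV ha).1, (H.inv_sub_unit c₀ hXV ha).2.1⟩
    have h1 : X.2.ord ((N.S X.1).red v) = 0 :=
      ord_eq_zero_of_valAt (Or.inr hXz) hres
    exact H.sm X.1 hXV X.2 h1
  have hcount : ∑ P ∈ polesOf (N.S c₀).hF f, (- P.ord f) ≤
      ∑ X ∈ T, (- X.2.ord ((N.S X.1).red f)) := by
    rw [hf, ol_sum_polesOf_inv_sub (N.S c₀).hF H.transcendental a, hT, Finset.sum_sigma]
    have h1 : ∀ c ∈ V, ∑ Q ∈ polesOf (N.S c).hFk ((N.S c).red f), (- Q.ord ((N.S c).red f)) =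
        (Module.finrank k⟮(N.S c).red v⟯ (Fk c) : ℤ) := by
      intro c hc
      rw [hf, (H.inv_sub_unit c₀ hc ha).2.2]
      exact ol_sum_polesOf_inv_sub (N.S c).hFk (H.tr c hc) _
    rw [Finset.sum_congr rfl h1, ← Nat.cast_sum]
    exact_mod_cast H.deg
  have hPf : P.ord f < 0 := by
    rw [hf, Place.ord_inv]
    omega
  obtain ⟨X, hX, hr⟩ := isOrd_of_pole_count N c₀ hf0 T hTs hcount P hPf
  obtain ⟨hXV, hXz⟩ := hmemT X hX
  exact ⟨X.1, hXV, X.2, hr, hXz⟩

open Classical in
/-- **push, pointwise**: if no pole of the unit `g` reduces to the smooth point `Q` and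
`red_c g` is a unit at `Q`, then `g` is a unit at every place which reduces to `Q`. -/
theorem ol_ord_eq_zero_of_push (N : GraphSetup K F k κ Fk ι) (c : κ) (Q : Place k (Fk c))
    (hQ : N.IsSmooth ⟨c, Q⟩) {g : F} (hg0 : g ≠ 0) (hg : g ∈ (N.S c).Ov)
    (hginv : g⁻¹ ∈ (N.S c).Ov) (hord : Q.ord ((N.S c).red g) = 0)
    (hpole : ∀ P' : Place K F, P'.ord g < 0 → N.r P' ≠ some ⟨c, Q⟩)
    {P : Place K F} (hr : N.r P = some ⟨c, Q⟩) : P.ord g = 0 := by
  have hpush := N.push c g hg hginv hg0 Q hQ.1 hQ.2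
  rw [oc_mapDomain_apply_eq_sum, hord] at hpush
  have hnn : ∀ P' ∈ (divOf (N.S c).hF g).support,
      (0 : ℤ) ≤ @ite ℤ (N.r P' = some ⟨c, Q⟩) (Classical.propDecidable _)
        ((divOf (N.S c).hF g) P') 0 := by
    intro P' _
    split_ifs with h
    · rw [divOf_apply]
      by_contra hneg
      exact hpole P' (not_le.mp hneg) h
    · exact le_rfl
  have hz := (Finset.sum_eq_zero_iff_of_nonneg hnn).mp hpush
  by_cases hP : P ∈ (divOf (N.S c).hF g).support
  · have := hz P hP
    rwa [if_pos hr, divOf_apply] at this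
  · rw [Finsupp.mem_support_iff, not_not, divOf_apply] at hP
    exact hP

/-- no zero of `v - a'` reduces to a point at which `red v` takes another value. -/
theorem OLParam.level_ne (H : OLParam N V v) (c₀ : κ) {a' : K} (ha' : a' ∈ (N.S c₀).A)
    (hres' : (N.S c₀).res ⟨a', ha'⟩ ≠ 0) {c : κ} {Q : Place k (Fk c)} {β : k}
    (hβ : 0 < Q.ord ((N.S c).red v - algebraMap k (Fk c) β))
    (hne : β ≠ (N.S c₀).res ⟨a', ha'⟩)
    (P' : Place K F) (hP' : 0 < P'.ord (v - algebraMap K F a')) : N.r P' ≠ some ⟨c, Q⟩ := by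
  intro hr
  obtain ⟨c', hc', Q', hr', hQ'⟩ := H.level c₀ ha' hres' P' hP'
  rw [hr] at hr'
  obtain ⟨rfl, hQQ⟩ := Sigma.mk.inj_iff.mp (Option.some_injective _ hr')
  rw [← eq_of_heq hQQ] at hQ'
  have := Fermat.Agent.RRHur.ord_sub_const_eq_zero Q hne hβ
  omega

/-- a constant with nonzero residue is a unit of `A`. -/
theorem ol_inv_mem_of_res_ne_zero {Fk₀ : Type*} [Field Fk₀] [Algebra k Fk₀]
    (S : ValSetup K F k Fk₀) {a : K} (ha : a ∈ S.A) (hres : S.res ⟨a, ha⟩ ≠ 0) : a⁻¹ ∈ S.A := by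
  have h1 : S.red (algebraMap K F a) ≠ 0 := by
    rw [S.red_algebraMap ha]
    exact (map_ne_zero (algebraMap k Fk₀)).mpr hres
  have h2 := S.inv_mem_of_red_ne_zero h1
  rw [← map_inv₀] at h2
  exact (S.mem_Ov_iff _).mp h2

/-- **(EVAL)**: the value of `v` at a place which reduces to a point where `red_c v` is a unit is
a unit of `A`. -/
theorem OLParam.eval [Infinite k] (H : OLParam N V v) (c₀ : κ) {P : Place K F} {c : κ}
    (hc : c ∈ V) {Q : Place k (Fk c)} (hr : N.r P = some ⟨c, Q⟩)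
    (hQ : Q.ord ((N.S c).red v) = 0) :
    ∃ (a : K) (ha : a ∈ (N.S c₀).A), (N.S c₀).res ⟨a, ha⟩ ≠ 0 ∧
      0 < P.ord (v - algebraMap K F a) := by
  classical
  have hsm : N.IsSmooth ⟨c, Q⟩ :=
    ⟨fun i h => N.r_ne_node₁ P i (h ▸ hr), fun i h => N.r_ne_node₂ P i (h ▸ hr)⟩
  have hvne : ∀ a : K, v - algebraMap K F a ≠ 0 := by
    intro a h
    apply H.transcendental
    rw [sub_eq_zero.mp h]
    exact isAlgebraic_algebraMap a
  -- the value `β` of `red v` at `Q`
  obtain ⟨β, hβ⟩ := exists_valAt (N.S c).hFk Q hQ.ge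
  have hβ' : 0 < Q.ord ((N.S c).red v - algebraMap k (Fk c) β) := by
    rcases hβ with h | h
    · exact absurd (sub_eq_zero.mpr h) (H.red_sub_ne_zero hc β)
    · exact h
  have hβ0 : β ≠ 0 := by
    rintro rfl
    rw [map_zero, sub_zero] at hβ'
    omega
  -- a generic constant `a'`
  obtain ⟨b', hb'⟩ := Infinite.exists_notMem_finset ({0, β} : Finset k)
  rw [Finset.mem_insert, Finset.mem_singleton, not_or] at hb'
  obtain ⟨⟨a', ha'⟩, hres'⟩ := (N.S c₀).res_surj b'
  have hres'0 : (N.S c₀).res ⟨a', ha'⟩ ≠ 0 := by rw [hres']; exact hb'.1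
  have hres'β : β ≠ (N.S c₀).res ⟨a', ha'⟩ := by rw [hres']; exact fun h => hb'.2 h.symm
  have hu₁ := H.inv_sub_unit c₀ hc ha'
  have hQ₁ : Q.ord ((N.S c).red v - algebraMap k (Fk c) ((N.S c₀).res ⟨a', ha'⟩)) = 0 :=
    Fermat.Agent.RRHur.ord_sub_const_eq_zero Q hres'β hβ'
  have hQ₁' : Q.ord ((N.S c).red (v - algebraMap K F a')⁻¹) = 0 := by
    rw [hu₁.2.2, Place.ord_inv, hQ₁, neg_zero]
  have hzero : ∀ P' : Place K F, 0 < P'.ord (v - algebraMap K F a') → N.r P' ≠ some ⟨c, Q⟩ :=
    H.level_ne c₀ ha' hres'0 hβ' hres'β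
  -- `v - a'` is a unit at `P`
  have hP₁ : P.ord (v - algebraMap K F a') = 0 := by
    have h1 := ol_ord_eq_zero_of_push N c Q hsm (inv_ne_zero (hvne a')) hu₁.1 hu₁.2.1 hQ₁'
      (fun P' hP' => hzero P' (by rw [Place.ord_inv] at hP'; omega)) hr
    rw [Place.ord_inv] at h1
    omega
  have hPv : 0 ≤ P.ord v := by
    by_contra hneg
    have := Fermat.Agent.RRHur.ord_sub_const_of_pole P a' (not_le.mp hneg)
    omega
  obtain ⟨a, hva⟩ := exists_valAt (N.S c₀).hF P hPv
  have hPa : 0 < P.ord (v - algebraMap K F a) := by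
    rcases hva with h | h
    · exact absurd (sub_eq_zero.mpr h) (hvne a)
    · exact h
  -- the key: no multiple `h` of `v - a` is a unit at `Q`
  have key : ∀ h : F, h ∈ (N.S c).Ov → (N.S c).red h ≠ 0 → Q.ord ((N.S c).red h) = 0 →
      (∀ P' : Place K F, P'.ord h = P'.ord (v - algebraMap K F a)) → False := by
    intro h hmem hred hQh hord
    have hh0 := (N.S c).ne_zero_of_red_ne_zero hred
    have hhinv := (N.S c).inv_mem_of_red_ne_zero hred
    have hg0 : h * (v - algebraMap K F a')⁻¹ ≠ 0 := mul_ne_zero hh0 (inv_ne_zero (hvne a'))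
    have hgmem : h * (v - algebraMap K F a')⁻¹ ∈ (N.S c).Ov := mul_mem hmem hu₁.1
    have hginv : (h * (v - algebraMap K F a')⁻¹)⁻¹ ∈ (N.S c).Ov := by
      rw [mul_inv]
      exact mul_mem hhinv hu₁.2.1
    have hgred : Q.ord ((N.S c).red (h * (v - algebraMap K F a')⁻¹)) = 0 := by
      rw [(N.S c).red_mul hmem hu₁.1, Place.ord_mul Q hred
        ((N.S c).red_ne_zero hu₁.1 hu₁.2.1 (inv_ne_zero (hvne a'))), hQh, hQ₁', add_zero]
    have hgord : ∀ P' : Place K F, P'.ord (h * (v - algebraMap K F a')⁻¹) =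
        P'.ord (v - algebraMap K F a) - P'.ord (v - algebraMap K F a') := by
      intro P'
      rw [Place.ord_mul P' hh0 (inv_ne_zero (hvne a')), Place.ord_inv, hord P']
      ring
    have h1 := ol_ord_eq_zero_of_push N c Q hsm hg0 hgmem hginv hgred (fun P' hP' => by
      rw [hgord P'] at hP'
      by_cases hv : P'.ord v < 0
      · have e1 := Fermat.Agent.RRHur.ord_sub_const_of_pole P' a hv
        have e2 := Fermat.Agent.RRHur.ord_sub_const_of_pole P' a' hv
        omega
      · have e1 : 0 ≤ P'.ord (v - algebraMap K F a) :=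
          Fermat.Agent.S18Key.ord_nonneg_sub P' (not_lt.mp hv)
            (Fermat.Agent.S24Res.ord_algebraMap P' a).ge
        exact hzero P' (by omega)) hr
    rw [hgord P] at h1
    omega
  by_cases ha : a ∈ (N.S c₀).A
  · refine ⟨a, ha, ?_, hPa⟩
    by_cases hres : (N.S c₀).res ⟨a, ha⟩ = β
    · rw [hres]
      exact hβ0
    · exfalso
      refine key (v - algebraMap K F a) (sub_mem (H.mem c hc) (ol_const N c₀ c ha).1) ?_ ?_
        (fun _ => rfl)
      · rw [H.red_sub c₀ hc ha]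
        exact H.red_sub_ne_zero hc _
      · rw [H.red_sub c₀ hc ha]
        exact Fermat.Agent.RRHur.ord_sub_const_eq_zero Q (fun h => hres h.symm) hβ'
  · exfalso
    have ha0 : a ≠ 0 := by
      rintro rfl
      exact ha (zero_mem _)
    have hainv : a⁻¹ ∈ (N.S c₀).A := ((N.S c₀).A.mem_or_inv_mem a).resolve_left ha
    have hres0 : (N.S c₀).res ⟨a⁻¹, hainv⟩ = 0 := by
      by_contra hne
      have := ol_inv_mem_of_res_ne_zero (N.S c₀) hainv hne
      rw [inv_inv] at this
      exact ha this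
    have hc1 := ol_const N c₀ c hainv
    have hmul : algebraMap K F a⁻¹ * v ∈ (N.S c).Ov := mul_mem hc1.1 (H.mem c hc)
    have hredmul : (N.S c).red (algebraMap K F a⁻¹ * v) = 0 := by
      rw [(N.S c).red_mul hc1.1 (H.mem c hc), hc1.2, hres0, map_zero, zero_mul]
    have hredh : (N.S c).red (1 - algebraMap K F a⁻¹ * v) = 1 := by
      rw [(N.S c).red_sub (one_mem _) hmul, hredmul, (N.S c).red_one, sub_zero]
    refine key (1 - algebraMap K F a⁻¹ * v) (sub_mem (one_mem _) hmul) ?_ ?_ ?_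
    · rw [hredh]
      exact one_ne_zero
    · rw [hredh, Place.ord_one]
    · intro P'
      have e : 1 - algebraMap K F a⁻¹ * v =
          algebraMap K F (-a⁻¹) * (v - algebraMap K F a) := by
        have haF : algebraMap K F a ≠ 0 := (map_ne_zero _).mpr ha0
        rw [map_neg, map_inv₀]
        field_simp
        ring
      rw [e, Place.ord_mul P' ((map_ne_zero _).mpr (neg_ne_zero.mpr (inv_ne_zero ha0)))
        (hvne a), Fermat.Agent.S24Res.ord_algebraMap, zero_add]

end Fermat.Agent.BadRedG
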