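import Mathlib
import Fermat.Agent.Lib.BadRed.Nodal.RRNodal
import Fermat.Agent.Lib.BadRed.Nodal.Gluing.Values

set_option autoImplicit false
set_option linter.unusedSectionVars false

/-!
# Cluster G, abstract graph package, SEED: seat SEED-CLEAR (helper95)

From the (labelled) node condition on the ring `𝒜` of ADMISSIBLE functions (integral, poles at
the zeros / poles of the parameter `u` only) to the node condition for `L(m D₀)`, where `D₀` has
NON-cuspidal points: a CLEARING function `G ∈ 𝒜` whose reductions are units at the branches, with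
`f * G ^ m ∈ 𝒜` for all integral `f ∈ L(m D₀)`.

* `seedClear_valAt_cancel` : `x * y` has the value `b` at `Q`, `y` the value `a ≠ 0`
  `⟹ x` has the value `b / a`;
* `seedClear_val_ne_zero` : the value of a unit at `Q` is `≠ 0`;
* `seedClear_node` : ONE node with the branches `Q₁` (on `c₁`), `Q₂` (on `c₂`): if the reductions
  of `G` and of `f * G ^ m` take equal values on the two branches and those of `G` are units
  there, then the reductions of `f` take equal values on the two branches;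
* `seedClear` : the family version for labelled nodes `j : J` and a set `𝒜` with the node
  condition;
* `seedClear_rr` : the same for all integral `f ∈ L(m D₀)`, `m : ℕ` (the shape of
  `GraphSeed.seed`), with clearing functions depending on the node.

Nothing here mentions modular curves.
-/

noncomputable section

open AlgebraicCurve Fermat.Agent.RR Fermat.Agent.Deuring

namespace Fermat.Agent.BadRedG

open Fermat.Agent.BadRed Fermat.Agent.BadRed.Gluing

section Values

variable {k E : Type*} [Field k] [Field E] [Algebra k E]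

/-- the value of a unit at `Q` is not zero. -/
theorem seedClear_val_ne_zero {Q : Place k E} {y : E} {a : k} (hy : ValAt Q y a) (hy0 : y ≠ 0)
    (hord : Q.ord y = 0) : a ≠ 0 := by
  rintro rfl
  rcases (valAt_zero_right_iff Q y).mp hy with h | h
  · exact hy0 h
  · rw [hord] at h
    exact lt_irrefl _ h

/-- cancellation of a unit: if `x * y` has the value `b` and `y` the value `a ≠ 0` at `Q`, then
`x` has the value `b / a`. -/
theorem seedClear_valAt_cancel {Q : Place k E} {x y : E} {a b : k} (hxy : ValAt Q (x * y) b)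
    (hy : ValAt Q y a) (ha : a ≠ 0) : ValAt Q x (b / a) := by
  have hyord : Q.ord y = 0 := ord_eq_zero_of_valAt hy ha
  have hy0 : y ≠ 0 := by
    rintro rfl
    exact ha (hy.unique (valAt_zero Q))
  rcases eq_or_ne x 0 with rfl | hx0
  · rw [zero_mul] at hxy
    have hb : b = 0 := hxy.unique (valAt_zero Q)
    rw [hb, zero_div]
    exact valAt_zero Q
  have hxord : 0 ≤ Q.ord x := by
    have h := valAt_ord_nonneg hxy
    rw [Q.ord_mul hx0 hy0, hyord, add_zero] at h
    exact h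
  rw [valAt_iff_vanAt] at hxy hy ⊢
  -- `a x - b = (x y - b) - (y - a) x`
  have h1 : VanAt Q ((x * y - algebraMap k E b) + -((y - algebraMap k E a) * x)) :=
    hxy.add (vanAt_mul_of_nonneg hy hxord).neg
  have h2 := h1.smul a⁻¹
  have e : a⁻¹ • ((x * y - algebraMap k E b) + -((y - algebraMap k E a) * x)) =
      x - algebraMap k E (b / a) := by
    rw [Algebra.smul_def, div_eq_mul_inv, map_mul, map_inv₀]
    have ha' : algebraMap k E a ≠ 0 := (map_ne_zero _).mpr ha
    field_simp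
    ring
  rwa [e] at h2

end Values

variable {K F k : Type*} [Field K] [Field F] [Algebra K F] [Field k]
  {κ : Type*} {Fk : κ → Type*} [∀ c, Field (Fk c)] [∀ c, Algebra k (Fk c)]

/-- **(SEED-CLEAR), one node**: `Q₁` on the component `c₁`, `Q₂` on the component `c₂`.  If the
reductions of the clearing function `G` take equal values on the two branches and are units
there, and the reductions of `f * G ^ m` take equal values on the two branches, then so do the
reductions of `f`. -/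
theorem seedClear_node (S : ∀ c : κ, ValSetup K F k (Fk c)) {c₁ c₂ : κ}
    (Q₁ : Place k (Fk c₁)) (Q₂ : Place k (Fk c₂)) {G f : F} (m : ℕ)
    (hG₁ : G ∈ (S c₁).Ov) (hG₂ : G ∈ (S c₂).Ov) (hf₁ : f ∈ (S c₁).Ov) (hf₂ : f ∈ (S c₂).Ov)
    (hGu₁ : (S c₁).red G ≠ 0) (hGo₁ : Q₁.ord ((S c₁).red G) = 0)
    (hGu₂ : (S c₂).red G ≠ 0) (hGo₂ : Q₂.ord ((S c₂).red G) = 0)
    (hGval : ∃ a : k, ValAt Q₁ ((S c₁).red G) a ∧ ValAt Q₂ ((S c₂).red G) a)
    (hfG : ∃ b : k, ValAt Q₁ ((S c₁).red (f * G ^ m)) b ∧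
      ValAt Q₂ ((S c₂).red (f * G ^ m)) b) :
    ∃ a : k, ValAt Q₁ ((S c₁).red f) a ∧ ValAt Q₂ ((S c₂).red f) a := by
  obtain ⟨a, ha₁, ha₂⟩ := hGval
  obtain ⟨b, hb₁, hb₂⟩ := hfG
  have ha0 : a ≠ 0 := seedClear_val_ne_zero ha₁ hGu₁ hGo₁
  have ham : a ^ m ≠ 0 := pow_ne_zero m ha0
  rw [(S c₁).red_mul hf₁ (pow_mem hG₁ m), (S c₁).red_pow hG₁] at hb₁
  rw [(S c₂).red_mul hf₂ (pow_mem hG₂ m), (S c₂).red_pow hG₂] at hb₂
  exact ⟨b / a ^ m, seedClear_valAt_cancel hb₁ (valAt_pow ha₁ m) ham,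
    seedClear_valAt_cancel hb₂ (valAt_pow ha₂ m) ham⟩

/-- **(SEED-CLEAR), labelled nodes**: `𝒜` a set of admissible functions with the node condition
at the labelled nodes `(Q₁ j, Q₂ j)`, `G ∈ 𝒜` a clearing function whose reductions are units at
the branches; if `f` is integral and `f * G ^ m ∈ 𝒜`, then the reductions of `f` take equal
values on the two branches of every node. -/
theorem seedClear (S : ∀ c : κ, ValSetup K F k (Fk c)) {J : Type*} (𝒜 : Set F)
    (c₁ c₂ : J → κ) (Q₁ : ∀ j, Place k (Fk (c₁ j))) (Q₂ : ∀ j, Place k (Fk (c₂ j)))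
    (hnode : ∀ h ∈ 𝒜, ∀ j, ∃ a : k, ValAt (Q₁ j) ((S (c₁ j)).red h) a ∧
      ValAt (Q₂ j) ((S (c₂ j)).red h) a)
    {G : F} (hG : G ∈ 𝒜) (hGint : ∀ j, G ∈ (S (c₁ j)).Ov ∧ G ∈ (S (c₂ j)).Ov)
    (hGunit : ∀ j, ((S (c₁ j)).red G ≠ 0 ∧ (Q₁ j).ord ((S (c₁ j)).red G) = 0) ∧
      ((S (c₂ j)).red G ≠ 0 ∧ (Q₂ j).ord ((S (c₂ j)).red G) = 0))
    {f : F} (m : ℕ) (hfint : ∀ j, f ∈ (S (c₁ j)).Ov ∧ f ∈ (S (c₂ j)).Ov)
    (hfG : f * G ^ m ∈ 𝒜) (j : J) :
    ∃ a : k, ValAt (Q₁ j) ((S (c₁ j)).red f) a ∧ ValAt (Q₂ j) ((S (c₂ j)).red f) a :=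
  seedClear_node S (Q₁ j) (Q₂ j) m (hGint j).1 (hGint j).2 (hfint j).1 (hfint j).2
    (hGunit j).1.1 (hGunit j).1.2 (hGunit j).2.1 (hGunit j).2.2 (hnode G hG j)
    (hnode _ hfG j)

/-- **(SEED-CLEAR), the shape of `GraphSeed.seed`**: labelled nodes `j : J`, for every node a set
`𝒜 j` of admissible functions with the node condition at `j` and a clearing function
`G j ∈ 𝒜 j` (a unit at the two branches of `j`) with `f * G j ^ m ∈ 𝒜 j` for all integral
`f ∈ L(m D₀)`.  Then the reductions of every integral `f ∈ L(m D₀)` take equal values on the two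
branches of every node.  (Modular graph: two families of nodes, `𝒜` and `G` depend on the
family only.) -/
theorem seedClear_rr (S : ∀ c : κ, ValSetup K F k (Fk c)) {J : Type*} (𝒜 : J → Set F)
    (c₁ c₂ : J → κ) (Q₁ : ∀ j, Place k (Fk (c₁ j))) (Q₂ : ∀ j, Place k (Fk (c₂ j)))
    (hnode : ∀ j, ∀ h ∈ 𝒜 j, ∃ a : k, ValAt (Q₁ j) ((S (c₁ j)).red h) a ∧
      ValAt (Q₂ j) ((S (c₂ j)).red h) a)
    (G : J → F) (hG : ∀ j, G j ∈ 𝒜 j)
    (hGint : ∀ j, G j ∈ (S (c₁ j)).Ov ∧ G j ∈ (S (c₂ j)).Ov)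
    (hGunit : ∀ j, ((S (c₁ j)).red (G j) ≠ 0 ∧ (Q₁ j).ord ((S (c₁ j)).red (G j)) = 0) ∧
      ((S (c₂ j)).red (G j) ≠ 0 ∧ (Q₂ j).ord ((S (c₂ j)).red (G j)) = 0))
    (D₀ : Divisor K F)
    (hclear : ∀ (j : J) (m : ℕ) (f : F), f ∈ riemannRochSpace (m • D₀) →
      (∀ c, f ∈ (S c).Ov) → f * G j ^ m ∈ 𝒜 j)
    (m : ℕ) (f : F) (hf : f ∈ riemannRochSpace (m • D₀)) (hfint : ∀ c, f ∈ (S c).Ov) (j : J) :
    ∃ a : k, ValAt (Q₁ j) ((S (c₁ j)).red f) a ∧ ValAt (Q₂ j) ((S (c₂ j)).red f) a :=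
  seedClear_node S (Q₁ j) (Q₂ j) m (hGint j).1 (hGint j).2 (hfint _) (hfint _)
    (hGunit j).1.1 (hGunit j).1.2 (hGunit j).2.1 (hGunit j).2.2 (hnode j (G j) (hG j))
    (hnode j _ (hclear j m f hf hfint))

end Fermat.Agent.BadRedG
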